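import Mathlib.NumberTheory.ModularForms.QExpansion
import Mathlib.Analysis.Meromorphic.Order
import Mathlib.Analysis.Meromorphic.TrailingCoefficient

/-!
# S24 package A3 (part 1): the order at the cusp `i∞` of a periodic holomorphic function

For `g : ℍ → ℂ` holomorphic, `N`-periodic and of moderate growth at `i∞` (`MeroCusp N g`)
the cusp function `cuspFunction N g` is meromorphic at `0`; `cuspOrd N g` is its order there
(an integer; `0` if `g = 0`).  It is a valuation on such functions.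
-/

set_option autoImplicit false

open scoped Real Topology Manifold
open UpperHalfPlane hiding I
open Complex Filter Function

namespace Fermat.Agent.S24

local notation "𝕢" => Function.Periodic.qParam

/-- holomorphic, `N`-periodic and of moderate growth at `i∞`. -/
structure MeroCusp (N : ℕ) (g : ℍ → ℂ) : Prop where
  per : ∀ τ : ℍ, g ((N : ℝ) +ᵥ τ) = g τ
  hol : MDiff g
  bdd : ∃ m : ℕ, IsBoundedAtImInfty (fun τ : ℍ ↦ 𝕢 (N : ℝ) τ ^ m * g τ)

theorem periodic_comp_ofComplex_of_vadd {g : ℍ → ℂ} {h : ℝ} (hg : ∀ τ : ℍ, g (h +ᵥ τ) = g τ) :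
    Periodic (g ∘ ofComplex) h := by
  intro w
  by_cases hw : 0 < im w
  · have hw' : 0 < im (w + h) := by simp [hw]
    simp only [comp_apply, ofComplex_apply_of_im_pos hw', ofComplex_apply_of_im_pos hw]
    rw [← hg ⟨w, hw⟩]
    congr 1
    ext
    simp [add_comm]
  · have hw0 : im w ≤ 0 := not_lt.mp hw
    have hw' : im (w + h) ≤ 0 := by simpa using hw0
    simp [ofComplex_apply_of_im_nonpos hw', ofComplex_apply_of_im_nonpos hw0]

/-- the order at `i∞` in the local parameter `exp (2πiτ/N)` -/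
noncomputable def cuspOrd (N : ℕ) (g : ℍ → ℂ) : ℤ :=
  (meromorphicOrderAt (cuspFunction (N : ℝ) g) 0).untop₀

theorem cuspFunction_apply_of_ne (h : ℝ) (g : ℍ → ℂ) {q : ℂ} (hq : q ≠ 0) :
    cuspFunction h g q = g (ofComplex (Function.Periodic.invQParam h q)) := by
  rw [cuspFunction, Function.Periodic.cuspFunction_eq_of_nonzero _ _ hq]
  rfl

theorem cuspFunction_mul_eventuallyEq (h : ℝ) (g₁ g₂ : ℍ → ℂ) :
    cuspFunction h (g₁ * g₂) =ᶠ[𝓝[≠] 0] cuspFunction h g₁ * cuspFunction h g₂ := by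
  filter_upwards [self_mem_nhdsWithin] with q hq
  rw [Pi.mul_apply, cuspFunction_apply_of_ne h _ hq, cuspFunction_apply_of_ne h _ hq,
    cuspFunction_apply_of_ne h _ hq, Pi.mul_apply]

theorem cuspFunction_add_eventuallyEq (h : ℝ) (g₁ g₂ : ℍ → ℂ) :
    cuspFunction h (g₁ + g₂) =ᶠ[𝓝[≠] 0] cuspFunction h g₁ + cuspFunction h g₂ := by
  filter_upwards [self_mem_nhdsWithin] with q hq
  rw [Pi.add_apply, cuspFunction_apply_of_ne h _ hq, cuspFunction_apply_of_ne h _ hq,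
    cuspFunction_apply_of_ne h _ hq, Pi.add_apply]

theorem cuspFunction_const_eventuallyEq (h : ℝ) (c : ℂ) :
    cuspFunction h (fun _ : ℍ ↦ c) =ᶠ[𝓝[≠] 0] fun _ ↦ c := by
  filter_upwards [self_mem_nhdsWithin] with q hq
  rw [cuspFunction_apply_of_ne h _ hq]


theorem qParam_ofComplex_invQParam {h : ℝ} (hh : 0 < h) {q : ℂ} (hq : q ≠ 0) (hq1 : ‖q‖ < 1) :
    𝕢 h (ofComplex (Function.Periodic.invQParam h q) : ℂ) = q := by
  have h1 := Function.Periodic.im_invQParam_pos_of_norm_lt_one hh hq1 hq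
  rw [ofComplex_apply_of_im_pos h1]
  exact Function.Periodic.qParam_right_inv hh.ne' hq

theorem eventually_nhdsNE_norm_lt_one : ∀ᶠ q : ℂ in 𝓝[≠] 0, q ≠ 0 ∧ ‖q‖ < 1 := by
  have h1 : ∀ᶠ q : ℂ in 𝓝[≠] 0, q ≠ 0 := self_mem_nhdsWithin
  have h2 : ∀ᶠ q : ℂ in 𝓝[≠] 0, ‖q‖ < 1 := by
    apply nhdsWithin_le_nhds
    simpa [ball_zero_eq] using Metric.ball_mem_nhds (0 : ℂ) zero_lt_one
  filter_upwards [h1, h2] with q a b using ⟨a, b⟩

/-- the function `𝕢^m * g` -/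
noncomputable def twist (N : ℕ) (m : ℕ) (g : ℍ → ℂ) : ℍ → ℂ := fun τ ↦ 𝕢 (N : ℝ) τ ^ m * g τ

theorem twist_per {N : ℕ} [NeZero N] {g : ℍ → ℂ} (m : ℕ) (hg : ∀ τ : ℍ, g ((N : ℝ) +ᵥ τ) = g τ)
    (τ : ℍ) : twist N m g ((N : ℝ) +ᵥ τ) = twist N m g τ := by
  unfold twist
  rw [hg]
  congr 2
  have hN : (N : ℝ) ≠ 0 := by exact_mod_cast NeZero.ne N
  have : (((N : ℝ) +ᵥ τ : ℍ) : ℂ) = (τ : ℂ) + (N : ℝ) := by
    simp [add_comm]
  rw [this]
  unfold Function.Periodic.qParam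
  rw [mul_add, add_div, Complex.exp_add]
  have h2 : 2 * (π : ℂ) * I * ((N : ℝ) : ℂ) / ((N : ℝ) : ℂ) = 2 * π * I := by
    have : ((N : ℝ) : ℂ) ≠ 0 := by exact_mod_cast hN
    field_simp
  rw [h2, Complex.exp_two_pi_mul_I, mul_one]

theorem mdiff_qParam (h : ℝ) : MDiff (fun τ : ℍ ↦ 𝕢 h τ) := by
  intro τ
  have : DifferentiableAt ℂ (𝕢 h) (τ : ℂ) := Function.Periodic.differentiable_qParam (h := h) _
  exact (this.mdifferentiableAt).comp τ (mdifferentiable_coe τ)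

theorem twist_mdiff {N : ℕ} {g : ℍ → ℂ} (m : ℕ) (hg : MDiff g) : MDiff (twist N m g) := by
  unfold twist
  exact ((mdiff_qParam _).pow m).mul hg

theorem cuspFunction_twist_eventuallyEq (N : ℕ) [NeZero N] (m : ℕ) (g : ℍ → ℂ) :
    cuspFunction (N : ℝ) (twist N m g) =ᶠ[𝓝[≠] 0] fun q ↦ q ^ m * cuspFunction (N : ℝ) g q := by
  have hN : (0 : ℝ) < N := by exact_mod_cast Nat.pos_of_ne_zero (NeZero.ne N)
  filter_upwards [eventually_nhdsNE_norm_lt_one] with q hq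
  rw [cuspFunction_apply_of_ne _ _ hq.1, cuspFunction_apply_of_ne _ _ hq.1, twist,
    qParam_ofComplex_invQParam hN hq.1 hq.2]

theorem MeroCusp.analyticAt_twist {N : ℕ} [NeZero N] {g : ℍ → ℂ} {m : ℕ}
    (hper : ∀ τ : ℍ, g ((N : ℝ) +ᵥ τ) = g τ) (hol : MDiff g)
    (hb : IsBoundedAtImInfty (twist N m g)) :
    AnalyticAt ℂ (cuspFunction (N : ℝ) (twist N m g)) 0 := by
  have hN : (0 : ℝ) < N := by exact_mod_cast Nat.pos_of_ne_zero (NeZero.ne N)
  exact analyticAt_cuspFunction_zero hN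
    (periodic_comp_ofComplex_of_vadd (twist_per m hper)) (twist_mdiff m hol) hb

theorem MeroCusp.meromorphicAt {N : ℕ} [NeZero N] {g : ℍ → ℂ} (hg : MeroCusp N g) :
    MeromorphicAt (cuspFunction (N : ℝ) g) 0 := by
  obtain ⟨m, hm⟩ := hg.bdd
  have hA := (MeroCusp.analyticAt_twist hg.per hg.hol hm).meromorphicAt
  have hq : MeromorphicAt (fun q : ℂ ↦ (q ^ m)⁻¹) 0 :=
    ((analyticAt_id.pow m).meromorphicAt).inv
  refine (hq.mul hA).congr ?_
  filter_upwards [cuspFunction_twist_eventuallyEq N m g, eventually_nhdsNE_norm_lt_one]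
    with q h1 h2
  rw [Pi.mul_apply, h1]
  have : q ^ m ≠ 0 := pow_ne_zero _ h2.1
  field_simp

/-- identity theorem: a holomorphic function on `ℍ` vanishing near `i∞` is zero. -/
theorem eq_zero_of_eventually_atImInfty {g : ℍ → ℂ} (hol : MDiff g)
    (h0 : ∀ᶠ τ in atImInfty, g τ = 0) : g = 0 := by
  have hU : IsOpen {z : ℂ | 0 < z.im} := isOpen_lt continuous_const Complex.continuous_im
  have hD : DifferentiableOn ℂ (g ∘ ofComplex) {z : ℂ | 0 < z.im} := mdifferentiable_iff.mp hol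
  have hA : AnalyticOnNhd ℂ (g ∘ ofComplex) {z : ℂ | 0 < z.im} := hD.analyticOnNhd hU
  obtain ⟨A, hA0⟩ := (atImInfty_mem _).mp h0
  set B : ℝ := max A 0 + 1 with hB
  have hBpos : 0 < B := by positivity
  have hz₀ : (B : ℂ) * I ∈ {z : ℂ | 0 < z.im} := by simp [hBpos]
  have hev : (g ∘ ofComplex) =ᶠ[𝓝 ((B : ℂ) * I)] 0 := by
    have : {z : ℂ | max A 0 < z.im} ∈ 𝓝 ((B : ℂ) * I) :=
      (isOpen_lt continuous_const Complex.continuous_im).mem_nhds (by
        show max A 0 < ((B : ℂ) * I).im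
        simp [hB])
    filter_upwards [this] with z hz
    have hz' : 0 < z.im := lt_of_le_of_lt (le_max_right _ _) hz
    simp only [comp_apply, ofComplex_apply_of_im_pos hz', Pi.zero_apply]
    exact hA0 ⟨z, hz'⟩ (le_of_lt (lt_of_le_of_lt (le_max_left _ _) hz))
  have hconn : IsPreconnected {z : ℂ | 0 < z.im} := (convex_halfSpace_im_gt 0).isPreconnected
  have key := hA.eqOn_zero_of_preconnected_of_eventuallyEq_zero hconn hz₀ hev
  funext τ
  have h := key τ.im_pos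
  simpa using h

section valuation

variable {N : ℕ} [NeZero N] {g g₁ g₂ : ℍ → ℂ}

theorem natCast_pos' : (0 : ℝ) < (N : ℝ) := by
  exact_mod_cast Nat.pos_of_ne_zero (NeZero.ne N)

theorem MeroCusp.eq_cuspFunction (hg : MeroCusp N g) (τ : ℍ) :
    cuspFunction (N : ℝ) g (𝕢 (N : ℝ) τ) = g τ :=
  UpperHalfPlane.eq_cuspFunction τ natCast_pos'.ne' (periodic_comp_ofComplex_of_vadd hg.per)

theorem MeroCusp.order_ne_top (hg : MeroCusp N g) (h0 : g ≠ 0) :
    meromorphicOrderAt (cuspFunction (N : ℝ) g) 0 ≠ ⊤ := by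
  intro htop
  rw [meromorphicOrderAt_eq_top_iff] at htop
  apply h0
  apply eq_zero_of_eventually_atImInfty hg.hol
  have ht : Tendsto (fun τ : ℍ ↦ 𝕢 (N : ℝ) τ) atImInfty (𝓝[≠] 0) :=
    (Function.Periodic.qParam_tendsto natCast_pos').comp tendsto_coe_atImInfty
  filter_upwards [ht.eventually htop] with τ hτ
  rw [← hg.eq_cuspFunction τ]
  exact hτ

theorem MeroCusp.coe_cuspOrd (hg : MeroCusp N g) (h0 : g ≠ 0) :
    ((cuspOrd N g : ℤ) : WithTop ℤ) = meromorphicOrderAt (cuspFunction (N : ℝ) g) 0 :=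
  WithTop.coe_untop₀_of_ne_top (hg.order_ne_top h0)

omit [NeZero N] in
theorem cuspOrd_zero : cuspOrd N (0 : ℍ → ℂ) = 0 := by
  unfold cuspOrd
  have : meromorphicOrderAt (cuspFunction (N : ℝ) (0 : ℍ → ℂ)) 0 = ⊤ := by
    rw [meromorphicOrderAt_eq_top_iff]
    filter_upwards [self_mem_nhdsWithin] with q hq
    rw [cuspFunction_apply_of_ne _ _ hq]
    rfl
  rw [this]
  rfl

theorem isBoundedAtImInfty_qParam_pow (m : ℕ) :
    IsBoundedAtImInfty (fun τ : ℍ ↦ 𝕢 (N : ℝ) τ ^ m) := by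
  rw [isBoundedAtImInfty_iff]
  refine ⟨1, 0, fun τ _ ↦ ?_⟩
  rw [norm_pow]
  exact pow_le_one₀ (norm_nonneg _)
    (Function.Periodic.norm_qParam_lt_one natCast_pos' τ.im_pos).le

omit [NeZero N] in
theorem twist_add_mul (m₁ m₂ : ℕ) (g₁ g₂ : ℍ → ℂ) :
    twist N (m₁ + m₂) (g₁ * g₂) = twist N m₁ g₁ * twist N m₂ g₂ := by
  funext τ
  simp only [twist, Pi.mul_apply, pow_add]
  ring

omit [NeZero N] in
theorem MeroCusp.mul (hg₁ : MeroCusp N g₁) (hg₂ : MeroCusp N g₂) : MeroCusp N (g₁ * g₂) where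
  per τ := by simp only [Pi.mul_apply, hg₁.per, hg₂.per]
  hol := hg₁.hol.mul hg₂.hol
  bdd := by
    obtain ⟨m₁, h₁⟩ := hg₁.bdd
    obtain ⟨m₂, h₂⟩ := hg₂.bdd
    refine ⟨m₁ + m₂, ?_⟩
    have := h₁.mul h₂
    have e := twist_add_mul (N := N) m₁ m₂ g₁ g₂
    unfold twist at e
    rw [e]
    exact this

theorem MeroCusp.add (hg₁ : MeroCusp N g₁) (hg₂ : MeroCusp N g₂) : MeroCusp N (g₁ + g₂) where
  per τ := by simp only [Pi.add_apply, hg₁.per, hg₂.per]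
  hol := hg₁.hol.add hg₂.hol
  bdd := by
    obtain ⟨m₁, h₁⟩ := hg₁.bdd
    obtain ⟨m₂, h₂⟩ := hg₂.bdd
    refine ⟨m₁ + m₂, ?_⟩
    have a₁ := (isBoundedAtImInfty_qParam_pow (N := N) m₂).mul h₁
    have a₂ := (isBoundedAtImInfty_qParam_pow (N := N) m₁).mul h₂
    have key := a₁.add a₂
    have e : (fun τ : ℍ ↦ 𝕢 (N : ℝ) τ ^ (m₁ + m₂) * (g₁ + g₂) τ) =
        ((fun τ : ℍ ↦ 𝕢 (N : ℝ) τ ^ m₂) * fun τ : ℍ ↦ 𝕢 (N : ℝ) τ ^ m₁ * g₁ τ) +
          (fun τ : ℍ ↦ 𝕢 (N : ℝ) τ ^ m₁) * fun τ : ℍ ↦ 𝕢 (N : ℝ) τ ^ m₂ * g₂ τ := by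
      funext τ
      simp only [Pi.add_apply, Pi.mul_apply, pow_add]
      ring
    rw [e]
    exact key

omit [NeZero N] in
theorem MeroCusp.const (c : ℂ) : MeroCusp N (fun _ : ℍ ↦ c) where
  per _ := rfl
  hol := mdifferentiable_const
  bdd := ⟨0, by
    simp only [pow_zero, one_mul]
    exact Filter.const_boundedAtFilter _ c⟩

omit [NeZero N] in
theorem MeroCusp.neg (hg : MeroCusp N g) : MeroCusp N (-g) := by
  have h := (MeroCusp.const (N := N) (-1)).mul hg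
  have e : ((fun _ : ℍ ↦ (-1 : ℂ)) * g) = -g := by
    funext τ; simp
  rwa [e] at h

theorem MeroCusp.sub (hg₁ : MeroCusp N g₁) (hg₂ : MeroCusp N g₂) : MeroCusp N (g₁ - g₂) := by
  rw [sub_eq_add_neg]
  exact hg₁.add hg₂.neg

omit [NeZero N] in
theorem MeroCusp.one : MeroCusp N (1 : ℍ → ℂ) := MeroCusp.const 1

omit [NeZero N] in
theorem MeroCusp.pow (hg : MeroCusp N g) (n : ℕ) : MeroCusp N (g ^ n) := by
  induction n with
  | zero => simpa using MeroCusp.one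
  | succ n ih => rw [pow_succ]; exact ih.mul hg

theorem cuspOrd_mul (hg₁ : MeroCusp N g₁) (hg₂ : MeroCusp N g₂) (h₁ : g₁ ≠ 0) (h₂ : g₂ ≠ 0) :
    cuspOrd N (g₁ * g₂) = cuspOrd N g₁ + cuspOrd N g₂ := by
  unfold cuspOrd
  rw [meromorphicOrderAt_congr (cuspFunction_mul_eventuallyEq _ g₁ g₂),
    meromorphicOrderAt_mul hg₁.meromorphicAt hg₂.meromorphicAt,
    WithTop.untop₀_add (hg₁.order_ne_top h₁) (hg₂.order_ne_top h₂)]

theorem cuspOrd_add_ge (hg₁ : MeroCusp N g₁) (hg₂ : MeroCusp N g₂) (h₁ : g₁ ≠ 0) (h₂ : g₂ ≠ 0)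
    (h : g₁ + g₂ ≠ 0) :
    min (cuspOrd N g₁) (cuspOrd N g₂) ≤ cuspOrd N (g₁ + g₂) := by
  have key := meromorphicOrderAt_add hg₁.meromorphicAt hg₂.meromorphicAt
  rw [← meromorphicOrderAt_congr (cuspFunction_add_eventuallyEq _ g₁ g₂),
    ← hg₁.coe_cuspOrd h₁, ← hg₂.coe_cuspOrd h₂, ← (hg₁.add hg₂).coe_cuspOrd h] at key
  exact_mod_cast key

omit [NeZero N] in
theorem cuspOrd_const {c : ℂ} (hc : c ≠ 0) : cuspOrd N (fun _ : ℍ ↦ c) = 0 := by
  unfold cuspOrd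
  rw [meromorphicOrderAt_congr (cuspFunction_const_eventuallyEq _ c)]
  classical
  rw [meromorphicOrderAt_const]
  simp [hc]

/-- the leading coefficient at `i∞` -/
noncomputable def cuspLC (N : ℕ) (g : ℍ → ℂ) : ℂ :=
  meromorphicTrailingCoeffAt (cuspFunction (N : ℝ) g) 0

theorem cuspLC_ne_zero (hg : MeroCusp N g) (h0 : g ≠ 0) : cuspLC N g ≠ 0 :=
  hg.meromorphicAt.meromorphicTrailingCoeffAt_ne_zero (hg.order_ne_top h0)

theorem cuspLC_mul (hg₁ : MeroCusp N g₁) (hg₂ : MeroCusp N g₂) :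
    cuspLC N (g₁ * g₂) = cuspLC N g₁ * cuspLC N g₂ := by
  unfold cuspLC
  rw [meromorphicTrailingCoeffAt_congr_nhdsNE (cuspFunction_mul_eventuallyEq _ g₁ g₂),
    hg₁.meromorphicAt.meromorphicTrailingCoeffAt_mul hg₂.meromorphicAt]

omit [NeZero N] in
theorem cuspLC_const (c : ℂ) : cuspLC N (fun _ : ℍ ↦ c) = c := by
  unfold cuspLC
  rw [meromorphicTrailingCoeffAt_congr_nhdsNE (cuspFunction_const_eventuallyEq _ c),
    meromorphicTrailingCoeffAt_const]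

/-! ### translation `τ ↦ τ + k` -/

/-- the root of unity `exp (2πik/N)` -/
noncomputable def zetaPow (N : ℕ) (k : ℤ) : ℂ := 𝕢 (N : ℝ) (k : ℂ)

omit [NeZero N] in
theorem zetaPow_ne_zero (k : ℤ) : zetaPow N k ≠ 0 := Function.Periodic.qParam_ne_zero _

omit [NeZero N] in
theorem qParam_vadd (k : ℤ) (τ : ℍ) :
    𝕢 (N : ℝ) (((k : ℝ) +ᵥ τ : ℍ) : ℂ) = zetaPow N k * 𝕢 (N : ℝ) τ := by
  unfold zetaPow Function.Periodic.qParam
  rw [← Complex.exp_add]
  congr 1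
  rw [coe_vadd]
  push_cast
  ring

/-- the translate `τ ↦ g (τ + k)` -/
def translate (k : ℤ) (g : ℍ → ℂ) : ℍ → ℂ := fun τ ↦ g ((k : ℝ) +ᵥ τ)

theorem mdiff_translate {g : ℍ → ℂ} (hg : MDiff g) (k : ℤ) : MDiff (translate k g) := by
  rw [mdifferentiable_iff] at hg ⊢
  have h1 : DifferentiableOn ℂ ((g ∘ ofComplex) ∘ (fun z : ℂ ↦ ((k : ℝ) : ℂ) + z))
      {z | 0 < z.im} := by
    apply hg.comp (by fun_prop)
    intro z hz
    simpa using hz
  refine h1.congr ?_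
  intro z hz
  have hz0 : 0 < z.im := hz
  have hz' : 0 < (((k : ℝ) : ℂ) + z).im := by simpa using hz0
  simp only [comp_apply, translate]
  rw [ofComplex_apply_of_im_pos hz0, ofComplex_apply_of_im_pos hz']
  congr 1

theorem translate_vadd_comm (k : ℤ) (t : ℝ) (g : ℍ → ℂ) (τ : ℍ) :
    translate k g (t +ᵥ τ) = g (t +ᵥ ((k : ℝ) +ᵥ τ)) := by
  unfold translate
  congr 1
  ext
  simp only [coe_vadd]
  ring

omit [NeZero N] in
theorem norm_zetaPow (k : ℤ) : ‖zetaPow N k‖ = 1 := by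
  unfold zetaPow
  rw [Function.Periodic.norm_qParam]
  simp

omit [NeZero N] in
theorem MeroCusp.translate (hg : MeroCusp N g) (k : ℤ) : MeroCusp N (translate k g) where
  per τ := by rw [translate_vadd_comm, hg.per]; rfl
  hol := mdiff_translate hg.hol k
  bdd := by
    obtain ⟨m, hm⟩ := hg.bdd
    refine ⟨m, ?_⟩
    rw [isBoundedAtImInfty_iff] at hm ⊢
    obtain ⟨M, A, h⟩ := hm
    refine ⟨M, A, fun τ hτ ↦ ?_⟩
    have := h ((k : ℝ) +ᵥ τ) (by simpa using hτ)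
    rw [qParam_vadd, mul_pow, norm_mul, norm_mul, norm_pow, norm_zetaPow, one_pow, one_mul]
      at this
    rw [norm_mul]
    exact this

theorem cuspFunction_translate_eventuallyEq (hg : MeroCusp N g) (k : ℤ) :
    cuspFunction (N : ℝ) (translate k g) =ᶠ[𝓝[≠] 0]
      (cuspFunction (N : ℝ) g) ∘ (fun q ↦ zetaPow N k * q) := by
  filter_upwards [eventually_nhdsNE_norm_lt_one] with q hq
  rw [cuspFunction_apply_of_ne _ _ hq.1, comp_apply]
  set τ : ℍ := ofComplex (Function.Periodic.invQParam (N : ℝ) q) with hτ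
  have h1 : 𝕢 (N : ℝ) τ = q := qParam_ofComplex_invQParam natCast_pos' hq.1 hq.2
  rw [← h1, ← qParam_vadd, hg.eq_cuspFunction]
  rfl

theorem cuspOrd_translate (hg : MeroCusp N g) (k : ℤ) :
    cuspOrd N (translate k g) = cuspOrd N g := by
  unfold cuspOrd
  rw [meromorphicOrderAt_congr (cuspFunction_translate_eventuallyEq hg k)]
  have hA : AnalyticAt ℂ (fun q : ℂ ↦ zetaPow N k * q) 0 := by fun_prop
  have hd : deriv (fun q : ℂ ↦ zetaPow N k * q) 0 ≠ 0 := by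
    rw [deriv_const_mul_field]
    simpa using zetaPow_ne_zero (N := N) k
  rw [meromorphicOrderAt_comp_of_deriv_ne_zero hA hd, mul_zero]

theorem cuspLC_translate (hg : MeroCusp N g) (h0 : g ≠ 0) (k : ℤ) :
    cuspLC N (translate k g) = zetaPow N k ^ (cuspOrd N g) * cuspLC N g := by
  obtain ⟨H, hHa, hH0, hHe⟩ := (meromorphicOrderAt_ne_top_iff hg.meromorphicAt).1
    (hg.order_ne_top h0)
  have e1 : cuspLC N g = H 0 :=
    hHa.meromorphicTrailingCoeffAt_of_ne_zero_of_eq_nhdsNE hH0 hHe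
  set n := (meromorphicOrderAt (cuspFunction (N : ℝ) g) 0).untop₀ with hn
  have hn' : cuspOrd N g = n := rfl
  -- the rotated germ
  have hrot : Tendsto (fun q : ℂ ↦ zetaPow N k * q) (𝓝[≠] 0) (𝓝[≠] 0) := by
    refine tendsto_nhdsWithin_of_tendsto_nhds_of_eventually_within _ ?_ ?_
    · have : Tendsto (fun q : ℂ ↦ zetaPow N k * q) (𝓝 0) (𝓝 (zetaPow N k * 0)) :=
        (continuous_const.mul continuous_id).tendsto 0
      rw [mul_zero] at this
      exact this.mono_left nhdsWithin_le_nhds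
    · filter_upwards [self_mem_nhdsWithin] with q hq
      exact mul_ne_zero (zetaPow_ne_zero k) hq
  have e2 : cuspFunction (N : ℝ) (translate k g) =ᶠ[𝓝[≠] 0]
      fun q ↦ (q - 0) ^ n • (zetaPow N k ^ n * H (zetaPow N k * q)) := by
    filter_upwards [cuspFunction_translate_eventuallyEq hg k, hrot.eventually hHe] with q h1 h2
    rw [h1, comp_apply, h2]
    simp only [sub_zero, smul_eq_mul, mul_zpow]
    ring
  have hA : AnalyticAt ℂ (fun q ↦ zetaPow N k ^ n * H (zetaPow N k * q)) 0 := by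
    have h1 : AnalyticAt ℂ (fun q : ℂ ↦ zetaPow N k * q) 0 := by fun_prop
    have h2 : AnalyticAt ℂ H ((fun q : ℂ ↦ zetaPow N k * q) 0) := by simpa using hHa
    exact analyticAt_const.mul (h2.comp h1)
  have hne : (fun q ↦ zetaPow N k ^ n * H (zetaPow N k * q)) 0 ≠ 0 := by
    simp only [mul_zero]
    exact mul_ne_zero (zpow_ne_zero _ (zetaPow_ne_zero k)) hH0
  unfold cuspLC at e1 ⊢
  rw [hA.meromorphicTrailingCoeffAt_of_ne_zero_of_eq_nhdsNE hne e2, e1, hn']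
  simp

/-! ### functions given by a convergent expansion -/

theorem meroCusp_of_hasSum (hol : MDiff g) {c : ℕ → ℂ}
    (hc : ∀ τ : ℍ, HasSum (fun m ↦ c m • 𝕢 (N : ℝ) τ ^ m) (g τ)) : MeroCusp N g where
  per τ := by
    have h1 := hc ((N : ℝ) +ᵥ τ)
    have h2 := hc τ
    have e : 𝕢 (N : ℝ) (((N : ℝ) +ᵥ τ : ℍ) : ℂ) = 𝕢 (N : ℝ) τ := by
      have := qParam_vadd (N := N) (N : ℤ) τ
      have hz : zetaPow N (N : ℤ) = 1 := by
        unfold zetaPow Function.Periodic.qParam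
        have hN : ((N : ℝ) : ℂ) ≠ 0 := by exact_mod_cast (natCast_pos' (N := N)).ne'
        have : 2 * (π : ℂ) * I * ((N : ℤ) : ℂ) / ((N : ℝ) : ℂ) = 2 * π * I := by
          push_cast
          field_simp
          exact div_self hN
        rw [this, Complex.exp_two_pi_mul_I]
      rw [hz, one_mul] at this
      simpa using this
    rw [e] at h1
    exact h1.unique h2
  hol := hol
  bdd := ⟨0, by
    simp only [pow_zero, one_mul]
    exact isBoundedAtImInfty_of_hasSum_qExpansion natCast_pos' hc⟩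

theorem analyticAt_cuspFunction_of_hasSum (hol : MDiff g) {c : ℕ → ℂ}
    (hc : ∀ τ : ℍ, HasSum (fun m ↦ c m • 𝕢 (N : ℝ) τ ^ m) (g τ)) :
    AnalyticAt ℂ (cuspFunction (N : ℝ) g) 0 :=
  analyticAt_cuspFunction_zero natCast_pos'
    (periodic_comp_ofComplex_of_vadd (meroCusp_of_hasSum hol hc).per) hol
    (isBoundedAtImInfty_of_hasSum_qExpansion natCast_pos' hc)

theorem iteratedDeriv_cuspFunction_of_hasSum (hol : MDiff g) {c : ℕ → ℂ}
    (hc : ∀ τ : ℍ, HasSum (fun m ↦ c m • 𝕢 (N : ℝ) τ ^ m) (g τ)) (m : ℕ) :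
    iteratedDeriv m (cuspFunction (N : ℝ) g) 0 = (m.factorial : ℂ) * c m := by
  have hA := analyticAt_cuspFunction_of_hasSum hol hc
  have h1 := (hasFPowerSeriesOnBall_cuspFunction natCast_pos' hA hc).hasFPowerSeriesAt
  have h2 := hA.hasFPowerSeriesAt
  have h := congr_arg (FormalMultilinearSeries.coeff · m) (h1.eq_formalMultilinearSeries h2)
  simp only [FormalMultilinearSeries.coeff_ofScalars] at h
  rw [h]
  have hf : (m.factorial : ℂ) ≠ 0 := by exact_mod_cast Nat.factorial_ne_zero m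
  field_simp

theorem cuspFunction_eventuallyEq_of_hasSum (hol : MDiff g) {c : ℕ → ℂ}
    (hc : ∀ τ : ℍ, HasSum (fun m ↦ c m • 𝕢 (N : ℝ) τ ^ m) (g τ)) {n₀ : ℕ}
    (h0 : ∀ k < n₀, c k = 0) :
    ∃ H : ℂ → ℂ, AnalyticAt ℂ H 0 ∧ H 0 = c n₀ ∧
      cuspFunction (N : ℝ) g =ᶠ[𝓝[≠] 0] fun z ↦ (z - 0) ^ (n₀ : ℤ) • H z := by
  obtain ⟨F, hFa, hFe⟩ :=
    (analyticAt_cuspFunction_of_hasSum hol hc).exists_eventuallyEq_sum_add_pow_mul (n₀ + 1)
  refine ⟨fun z ↦ c n₀ + z * F z, ?_, by simp, ?_⟩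
  · exact analyticAt_const.add (analyticAt_id.mul hFa)
  · filter_upwards [hFe.filter_mono nhdsWithin_le_nhds] with z hz
    rw [hz, Finset.sum_range_succ, Finset.sum_eq_zero]
    · rw [iteratedDeriv_cuspFunction_of_hasSum hol hc]
      simp only [smul_eq_mul, sub_zero, zpow_natCast, zero_add]
      have : (n₀.factorial : ℂ) ≠ 0 := by exact_mod_cast Nat.factorial_ne_zero n₀
      field_simp
      ring
    · intro i hi
      rw [iteratedDeriv_cuspFunction_of_hasSum hol hc, h0 i (Finset.mem_range.mp hi)]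
      simp

theorem cuspOrd_of_hasSum (hol : MDiff g) {c : ℕ → ℂ}
    (hc : ∀ τ : ℍ, HasSum (fun m ↦ c m • 𝕢 (N : ℝ) τ ^ m) (g τ)) {n₀ : ℕ}
    (h0 : ∀ k < n₀, c k = 0) (h1 : c n₀ ≠ 0) : cuspOrd N g = n₀ := by
  obtain ⟨H, hHa, hH0, hHe⟩ := cuspFunction_eventuallyEq_of_hasSum hol hc h0
  have hm := (meroCusp_of_hasSum hol hc).meromorphicAt
  have : meromorphicOrderAt (cuspFunction (N : ℝ) g) 0 = ((n₀ : ℤ) : WithTop ℤ) :=
    (meromorphicOrderAt_eq_int_iff hm).2 ⟨H, hHa, by rwa [hH0], hHe⟩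
  unfold cuspOrd
  rw [this]
  rfl

theorem cuspLC_of_hasSum (hol : MDiff g) {c : ℕ → ℂ}
    (hc : ∀ τ : ℍ, HasSum (fun m ↦ c m • 𝕢 (N : ℝ) τ ^ m) (g τ)) {n₀ : ℕ}
    (h0 : ∀ k < n₀, c k = 0) (h1 : c n₀ ≠ 0) : cuspLC N g = c n₀ := by
  obtain ⟨H, hHa, hH0, hHe⟩ := cuspFunction_eventuallyEq_of_hasSum hol hc h0
  unfold cuspLC
  rw [hHa.meromorphicTrailingCoeffAt_of_ne_zero_of_eq_nhdsNE (by rwa [hH0]) hHe, hH0]

theorem ne_zero_of_hasSum {c : ℕ → ℂ}
    (hc : ∀ τ : ℍ, HasSum (fun m ↦ c m • 𝕢 (N : ℝ) τ ^ m) (g τ)) (hol : MDiff g) {n₀ : ℕ}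
    (h1 : c n₀ ≠ 0) : g ≠ 0 := by
  intro hg
  apply h1
  have := iteratedDeriv_cuspFunction_of_hasSum hol hc n₀
  have h2 : iteratedDeriv n₀ (cuspFunction (N : ℝ) g) 0 = 0 := by
    have hz : cuspFunction (N : ℝ) g =ᶠ[𝓝 0] fun _ ↦ (0 : ℂ) := by
      have hA := analyticAt_cuspFunction_of_hasSum hol hc
      have h3 : ∀ᶠ z in 𝓝[≠] (0 : ℂ), cuspFunction (N : ℝ) g z = 0 := by
        filter_upwards [self_mem_nhdsWithin] with q hq
        rw [cuspFunction_apply_of_ne _ _ hq, hg]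
        rfl
      exact (hA.continuousAt.eventuallyEq_nhds_iff_eventuallyEq_nhdsNE
        (g := fun _ ↦ (0 : ℂ)) continuousAt_const).mp h3
    rw [hz.iteratedDeriv_eq]
    simp
  rw [h2] at this
  have hf : (n₀.factorial : ℂ) ≠ 0 := by exact_mod_cast Nat.factorial_ne_zero n₀
  exact (mul_eq_zero.mp this.symm).resolve_left hf

end valuation

end Fermat.Agent.S24
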