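import Fermat.Agent.S24.EvDefs
import Fermat.Agent.S24.CuspOrd

/-!
# S24 package A3 (part 2): order and leading coefficient at `i∞` for elements of `Mer`

`CuspFrac N φ n c`: the meromorphic function `φ ∈ Mer` is a quotient `a / b` of holomorphic
functions which are `N`-periodic and of moderate growth at `i∞`, with order `n` and leading
coefficient `c` in the local parameter `exp (2πiτ/N)`.
-/

set_option autoImplicit false

open scoped Real Topology Manifold MatrixGroups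
open UpperHalfPlane hiding I
open Complex Filter Function

namespace Fermat.Agent.S24

/-- `φ = a / b` with `a, b` holomorphic, `N`-periodic, of moderate growth; `n` is the order and
`c` the leading coefficient of `φ` at `i∞`. -/
def CuspFrac (N : ℕ) (φ : Mer) (n : ℤ) (c : ℂ) : Prop :=
  ∃ a b : Hol, MeroCusp N (a : ℍ → ℂ) ∧ MeroCusp N (b : ℍ → ℂ) ∧ a ≠ 0 ∧ b ≠ 0 ∧
    φ * algebraMap Hol Mer b = algebraMap Hol Mer a ∧
    n = cuspOrd N (a : ℍ → ℂ) - cuspOrd N (b : ℍ → ℂ) ∧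
    c = cuspLC N (a : ℍ → ℂ) / cuspLC N (b : ℍ → ℂ)

theorem hol_coe_ne_zero {a : Hol} (ha : a ≠ 0) : (a : ℍ → ℂ) ≠ 0 := by
  intro h
  apply ha
  exact Subtype.ext h

theorem algebraMap_hol_ne_zero {a : Hol} (ha : a ≠ 0) : algebraMap Hol Mer a ≠ 0 := by
  intro h
  apply ha
  exact (IsFractionRing.injective Hol Mer) (by rw [h, map_zero])

section

variable {N : ℕ} [NeZero N] {φ ψ : Mer} {n m : ℤ} {c d : ℂ}

omit [NeZero N] in
theorem CuspFrac.ne_zero (h : CuspFrac N φ n c) : φ ≠ 0 := by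
  obtain ⟨a, b, -, -, ha, hb, e, -, -⟩ := h
  intro h0
  rw [h0, zero_mul] at e
  exact algebraMap_hol_ne_zero ha e.symm

theorem CuspFrac.lc_ne_zero (h : CuspFrac N φ n c) : c ≠ 0 := by
  obtain ⟨a, b, hma, hmb, ha, hb, -, -, rfl⟩ := h
  exact div_ne_zero (cuspLC_ne_zero hma (hol_coe_ne_zero ha))
    (cuspLC_ne_zero hmb (hol_coe_ne_zero hb))

theorem CuspFrac.unique (h : CuspFrac N φ n c) (h' : CuspFrac N φ m d) : n = m ∧ c = d := by
  obtain ⟨a, b, hma, hmb, ha, hb, e, rfl, rfl⟩ := h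
  obtain ⟨a', b', hma', hmb', ha', hb', e', rfl, rfl⟩ := h'
  -- a * b' = a' * b
  have key : a * b' = a' * b := by
    apply IsFractionRing.injective Hol Mer
    rw [map_mul, map_mul, ← e, ← e']
    ring
  have keyf : (a : ℍ → ℂ) * (b' : ℍ → ℂ) = (a' : ℍ → ℂ) * (b : ℍ → ℂ) := by
    have := congrArg (fun x : Hol ↦ (x : ℍ → ℂ)) key
    simpa using this
  have h1 := cuspOrd_mul hma hmb' (hol_coe_ne_zero ha) (hol_coe_ne_zero hb')
  have h2 := cuspOrd_mul hma' hmb (hol_coe_ne_zero ha') (hol_coe_ne_zero hb)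
  have h3 := cuspLC_mul hma hmb'
  have h4 := cuspLC_mul hma' hmb
  rw [keyf] at h1 h3
  rw [h1] at h2
  rw [h3] at h4
  have hb0 := cuspLC_ne_zero hmb (hol_coe_ne_zero hb)
  have hb0' := cuspLC_ne_zero hmb' (hol_coe_ne_zero hb')
  constructor
  · omega
  · field_simp
    rw [h4]
    ring

theorem CuspFrac.mul (h : CuspFrac N φ n c) (h' : CuspFrac N ψ m d) :
    CuspFrac N (φ * ψ) (n + m) (c * d) := by
  obtain ⟨a, b, hma, hmb, ha, hb, e, rfl, rfl⟩ := h
  obtain ⟨a', b', hma', hmb', ha', hb', e', rfl, rfl⟩ := h'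
  refine ⟨a * a', b * b', hma.mul hma', hmb.mul hmb', mul_ne_zero ha ha', mul_ne_zero hb hb',
    ?_, ?_, ?_⟩
  · rw [map_mul, map_mul, ← e, ← e']
    ring
  · have h1 := cuspOrd_mul hma hma' (hol_coe_ne_zero ha) (hol_coe_ne_zero ha')
    have h2 := cuspOrd_mul hmb hmb' (hol_coe_ne_zero hb) (hol_coe_ne_zero hb')
    simp only [MulMemClass.coe_mul] at *
    rw [h1, h2]
    ring
  · have h1 := cuspLC_mul hma hma'
    have h2 := cuspLC_mul hmb hmb'
    simp only [MulMemClass.coe_mul] at *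
    rw [h1, h2]
    have hb0 := cuspLC_ne_zero hmb (hol_coe_ne_zero hb)
    have hb0' := cuspLC_ne_zero hmb' (hol_coe_ne_zero hb')
    field_simp

omit [NeZero N] in
theorem CuspFrac.inv (h : CuspFrac N φ n c) : CuspFrac N φ⁻¹ (-n) c⁻¹ := by
  have hφ := h.ne_zero
  obtain ⟨a, b, hma, hmb, ha, hb, e, rfl, rfl⟩ := h
  refine ⟨b, a, hmb, hma, hb, ha, ?_, by ring, by rw [inv_div]⟩
  rw [← e]
  field_simp

omit [NeZero N] in
theorem CuspFrac.of_hol {a : Hol} (hma : MeroCusp N (a : ℍ → ℂ)) (ha : a ≠ 0) :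
    CuspFrac N (algebraMap Hol Mer a) (cuspOrd N (a : ℍ → ℂ)) (cuspLC N (a : ℍ → ℂ)) := by
  refine ⟨a, 1, hma, ?_, ha, one_ne_zero, by simp, ?_, ?_⟩
  · exact MeroCusp.one
  · have : cuspOrd N (((1 : Hol) : ℍ → ℂ)) = 0 := cuspOrd_const (N := N) one_ne_zero
    rw [this, sub_zero]
  · have : cuspLC N (((1 : Hol) : ℍ → ℂ)) = 1 := cuspLC_const (N := N) 1
    rw [this, div_one]

omit [NeZero N] in
theorem CuspFrac.const {z : ℂ} (hz : z ≠ 0) : CuspFrac N (algebraMap ℂ Mer z) 0 z := by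
  have h1 : algebraMap ℂ Mer z = algebraMap Hol Mer (algebraMap ℂ Hol z) :=
    IsScalarTower.algebraMap_apply ℂ Hol Mer z
  have hne : algebraMap ℂ Hol z ≠ 0 := by
    intro h
    have := congrArg (fun f : Hol ↦ (f : ℍ → ℂ) UpperHalfPlane.I) h
    simp at this
    exact hz this
  have hm : MeroCusp N ((algebraMap ℂ Hol z : Hol) : ℍ → ℂ) := MeroCusp.const z
  have := CuspFrac.of_hol (N := N) hm hne
  have e1 : cuspOrd N ((algebraMap ℂ Hol z : Hol) : ℍ → ℂ) = 0 := cuspOrd_const (N := N) hz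
  have e2 : cuspLC N ((algebraMap ℂ Hol z : Hol) : ℍ → ℂ) = z := cuspLC_const (N := N) z
  rw [e1, e2, ← h1] at this
  exact this

theorem CuspFrac.neg (h : CuspFrac N φ n c) : CuspFrac N (-φ) n (-c) := by
  have := (CuspFrac.const (N := N) (z := -1) (by norm_num)).mul h
  simpa using this

theorem CuspFrac.add (h : CuspFrac N φ n c) (h' : CuspFrac N ψ m d) (hs : φ + ψ ≠ 0) :
    ∃ k e, CuspFrac N (φ + ψ) k e ∧ min n m ≤ k := by
  obtain ⟨a, b, hma, hmb, ha, hb, e, rfl, rfl⟩ := h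
  obtain ⟨a', b', hma', hmb', ha', hb', e', rfl, rfl⟩ := h'
  have hsum : (φ + ψ) * algebraMap Hol Mer (b * b') = algebraMap Hol Mer (a * b' + a' * b) := by
    rw [map_mul, map_add, map_mul, map_mul, ← e, ← e']
    ring
  have hnum : a * b' + a' * b ≠ 0 := by
    intro h0
    rw [h0, map_zero] at hsum
    rcases mul_eq_zero.mp hsum with h1 | h1
    · exact hs h1
    · exact algebraMap_hol_ne_zero (mul_ne_zero hb hb') h1
  have hnumf : ((a : ℍ → ℂ) * (b' : ℍ → ℂ) + (a' : ℍ → ℂ) * (b : ℍ → ℂ)) ≠ 0 := by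
    have := hol_coe_ne_zero hnum
    simpa using this
  refine ⟨_, _, ⟨a * b' + a' * b, b * b', (hma.mul hmb').add (hma'.mul hmb), hmb.mul hmb',
    hnum, mul_ne_zero hb hb', hsum, rfl, rfl⟩, ?_⟩
  have k1 := cuspOrd_add_ge (hma.mul hmb') (hma'.mul hmb)
    (by simpa using hol_coe_ne_zero (mul_ne_zero ha hb'))
    (by simpa using hol_coe_ne_zero (mul_ne_zero ha' hb)) hnumf
  rw [cuspOrd_mul hma hmb' (hol_coe_ne_zero ha) (hol_coe_ne_zero hb'),
    cuspOrd_mul hma' hmb (hol_coe_ne_zero ha') (hol_coe_ne_zero hb)] at k1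
  have k2 := cuspOrd_mul hmb hmb' (hol_coe_ne_zero hb) (hol_coe_ne_zero hb')
  simp only [MulMemClass.coe_mul, AddMemClass.coe_add] at *
  rw [k2]
  rcases min_le_iff.mp k1 with h1 | h1
  · exact min_le_iff.mpr (Or.inl (by omega))
  · exact min_le_iff.mpr (Or.inr (by omega))

/-! ### translation by `T ^ k` -/

theorem holComp_T_zpow (k : ℤ) (f : Hol) :
    ((holComp (ModularGroup.T ^ k) f : Hol) : ℍ → ℂ) = translate k (f : ℍ → ℂ) := by
  funext τ
  simp only [holComp_apply, translate]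
  have e : ModularGroup.T ^ k • τ = (k : ℝ) +ᵥ τ := by
    apply UpperHalfPlane.ext
    rw [ModularGroup.coe_T_zpow_smul_eq, coe_vadd]
    push_cast
    ring
  rw [e]

theorem holComp_ne_zero (γ : SL(2, ℤ)) {f : Hol} (hf : f ≠ 0) : holComp γ f ≠ 0 := by
  intro h
  apply hf
  exact holComp_injective γ (by rw [h, map_zero])

theorem CuspFrac.translate (h : CuspFrac N φ n c) (k : ℤ) :
    CuspFrac N (merComp (ModularGroup.T ^ k) φ) n (zetaPow N k ^ n * c) := by
  obtain ⟨a, b, hma, hmb, ha, hb, e, rfl, rfl⟩ := h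
  refine ⟨holComp (ModularGroup.T ^ k) a, holComp (ModularGroup.T ^ k) b, ?_, ?_,
    holComp_ne_zero _ ha, holComp_ne_zero _ hb, ?_, ?_, ?_⟩
  · rw [holComp_T_zpow]; exact hma.translate k
  · rw [holComp_T_zpow]; exact hmb.translate k
  · rw [← merComp_algebraMap, ← merComp_algebraMap, ← map_mul, e]
  · rw [holComp_T_zpow, holComp_T_zpow, cuspOrd_translate hma, cuspOrd_translate hmb]
  · rw [holComp_T_zpow, holComp_T_zpow, cuspLC_translate hma (hol_coe_ne_zero ha),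
      cuspLC_translate hmb (hol_coe_ne_zero hb), zpow_sub₀ (zetaPow_ne_zero k)]
    have hb0 := cuspLC_ne_zero hmb (hol_coe_ne_zero hb)
    have hz : zetaPow N k ^ cuspOrd N (b : ℍ → ℂ) ≠ 0 := zpow_ne_zero _ (zetaPow_ne_zero k)
    field_simp

omit [NeZero N] in
theorem zetaPow_zpow_eq_one_iff (hN : 0 < N) (k n : ℤ) :
    zetaPow N k ^ n = 1 ↔ (N : ℤ) ∣ k * n := by
  unfold zetaPow Function.Periodic.qParam
  rw [← Complex.exp_int_mul, Complex.exp_eq_one_iff]
  have hN' : ((N : ℝ) : ℂ) ≠ 0 := by exact_mod_cast hN.ne'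
  constructor
  · rintro ⟨m, hm⟩
    refine ⟨m, ?_⟩
    have h2 : (2 * (π : ℂ) * I) ≠ 0 := two_pi_I_ne_zero
    have h3 : ((n : ℂ)) * (k : ℂ) = (m : ℂ) * (N : ℂ) := by
      have : (n : ℂ) * (2 * π * I * k / ((N : ℝ) : ℂ)) * ((N : ℝ) : ℂ) =
          m * (2 * π * I) * ((N : ℝ) : ℂ) := by rw [hm]
      have e1 : (n : ℂ) * (2 * π * I * k / ((N : ℝ) : ℂ)) * ((N : ℝ) : ℂ) =
          (2 * π * I) * (n * k) := by
        field_simp
      rw [e1] at this
      have e2 : (m : ℂ) * (2 * π * I) * ((N : ℝ) : ℂ) = (2 * π * I) * (m * N) := by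
        push_cast; ring
      rw [e2] at this
      exact mul_left_cancel₀ h2 this
    have h4 : n * k = m * N := by exact_mod_cast h3
    linarith
  · rintro ⟨m, hm⟩
    refine ⟨m, ?_⟩
    have h3 : ((k : ℂ)) * (n : ℂ) = (N : ℂ) * (m : ℂ) := by exact_mod_cast hm
    have hN'' : (N : ℂ) ≠ 0 := by exact_mod_cast hN.ne'
    have e1 : (n : ℂ) * (2 * π * I * k / ((N : ℝ) : ℂ)) = (2 * π * I) * ((k * n) / (N : ℂ)) := by
      push_cast
      field_simp
    rw [e1, h3]
    field_simp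

/-- **(w4)**: invariance under `T ^ k` forces `N ∣ k * ord`. -/
theorem CuspFrac.dvd_of_invariant (h : CuspFrac N φ n c) (k : ℤ)
    (hinv : merComp (ModularGroup.T ^ k) φ = φ) : (N : ℤ) ∣ k * n := by
  have h1 := h.translate k
  rw [hinv] at h1
  have h2 := (h1.unique h).2
  have hc := h.lc_ne_zero
  have h3 : zetaPow N k ^ n = 1 := by
    have : zetaPow N k ^ n * c = 1 * c := by rw [h2, one_mul]
    exact mul_right_cancel₀ hc this
  exact (zetaPow_zpow_eq_one_iff (Nat.pos_of_ne_zero (NeZero.ne N)) k n).mp h3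

end

end Fermat.Agent.S24
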