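import Fermat.Agent.S20.Phi

/-!
# S24 package A2b: facts about the `j`-function on `ℍ`

* `S24_jfun τ = E₄ τ ^ 3 / Δ τ`, invariance, values at `i`, `ρ`;
* `S24_jfun_surjective`;
* `S24_jfun_inj`: equal `j` ⇒ `SL(2,ℤ)`-equivalent;
* orders: `S24_order_generic` (= 1), `S24_order_of_E6_eq_zero` (= 2), `S24_order_of_E4_eq_zero` (= 3);
* stabilisers: `S24_stab_generic`, `S24_stab_I`, `S24_stab_rho`.
-/

set_option autoImplicit false
set_option linter.unusedSectionVars false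

namespace Fermat.Agent.S24

open UpperHalfPlane ModularForm Matrix.SpecialLinearGroup Filter Topology ModularGroup
open scoped MatrixGroups ModularForm Manifold
open Fermat.Agent.S20

/-- The `j`-function `E₄³ / Δ` on the upper half plane. -/
noncomputable def S24_jfun (τ : ℍ) : ℂ := E₄ τ ^ 3 / discriminant τ

theorem S24_jfun_eq_iff (τ : ℍ) (c : ℂ) : S24_jfun τ = c ↔ E₄ τ ^ 3 = c * discriminant τ := by
  unfold S24_jfun
  rw [div_eq_iff (discriminant_ne_zero τ)]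

theorem S24_jfun_sub (τ : ℍ) (c : ℂ) :
    S24_jfun τ - c = (E₄ τ ^ 3 - c * discriminant τ) / discriminant τ := by
  unfold S24_jfun
  field_simp [discriminant_ne_zero τ]

theorem S24_jfun_sub_1728 (τ : ℍ) : S24_jfun τ - 1728 = E₆ τ ^ 2 / discriminant τ := by
  rw [S24_jfun_sub]
  congr 1
  rw [discriminant_eq_E₄_cube_sub_E₆_sq]
  ring

theorem S24_jfun_smul (γ : SL(2, ℤ)) (τ : ℍ) : S24_jfun (γ • τ) = S24_jfun τ := by
  unfold S24_jfun
  rw [isMF1_E4.apply_smul γ τ, isMF1_Delta.apply_smul γ τ]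
  have hd : denom γ τ ≠ 0 := denom_ne_zero γ τ
  have h12 : denom γ τ ^ (12 : ℤ) = (denom γ τ ^ (4 : ℤ)) ^ 3 := by
    rw [← zpow_natCast, ← zpow_mul]; norm_num
  rw [h12, mul_pow]
  rw [mul_div_mul_left _ _ (pow_ne_zero 3 (zpow_ne_zero 4 hd))]

theorem S24_jfun_eq_zero_iff (τ : ℍ) : S24_jfun τ = 0 ↔ E₄ τ = 0 := by
  rw [S24_jfun_eq_iff, zero_mul]
  exact pow_eq_zero_iff (by norm_num)

theorem S24_jfun_eq_1728_iff (τ : ℍ) : S24_jfun τ = 1728 ↔ E₆ τ = 0 := by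
  rw [← sub_eq_zero, S24_jfun_sub_1728, div_eq_zero_iff]
  constructor
  · rintro (h | h)
    · exact pow_eq_zero_iff (n := 2) (by norm_num) |>.mp h
    · exact absurd h (discriminant_ne_zero τ)
  · intro h
    left
    rw [h]
    ring

theorem S24_jfun_I : S24_jfun UpperHalfPlane.I = 1728 :=
  (S24_jfun_eq_1728_iff _).mpr E6_I

theorem S24_jfun_rho : S24_jfun rho = 0 :=
  (S24_jfun_eq_zero_iff _).mpr E4_rho

/-- `j` separates the `SL(2,ℤ)`-orbits. -/
theorem S24_jfun_inj {τ₁ τ₂ : ℍ} (h : S24_jfun τ₁ = S24_jfun τ₂) :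
    ∃ γ : SL(2, ℤ), γ • τ₂ = τ₁ := by
  apply j_inj
  have h1 := (S24_jfun_eq_iff τ₁ (S24_jfun τ₂)).mp h
  rw [h1]
  unfold S24_jfun
  field_simp [discriminant_ne_zero τ₂]

theorem S24_jfun_eq_iff_exists {τ₁ τ₂ : ℍ} :
    S24_jfun τ₁ = S24_jfun τ₂ ↔ ∃ γ : SL(2, ℤ), γ • τ₂ = τ₁ :=
  ⟨S24_jfun_inj, fun ⟨γ, h⟩ => by rw [← h, S24_jfun_smul]⟩

/-- **`j` is surjective.** -/
theorem S24_jfun_surjective : Function.Surjective S24_jfun := by
  intro c
  by_contra hcon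
  push Not at hcon
  have hne : ∀ τ : ℍ, E₄ τ ^ 3 - c * discriminant τ ≠ 0 := by
    intro τ h0
    apply hcon τ
    rw [S24_jfun_eq_iff]
    linear_combination h0
  -- `Φ = E₄³ - cΔ` is a level one form of weight 12 without zeros, tending to `1`
  set Φ : ℍ → ℂ := fun z : ℍ => E₄ z ^ 3 - c * discriminant z with hΦ
  have hfun : Φ = (E₄ : ℍ → ℂ) ^ 3 - c • (discriminant : ℍ → ℂ) := by
    funext z
    simp [hΦ]
  have hΦmf : IsMF1 12 Φ := by
    rw [hfun]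
    have h1 : IsMF1 12 ((E₄ : ℍ → ℂ) ^ 3) := by
      have := isMF1_E4.pow 3
      simpa using this
    exact h1.sub (isMF1_Delta.smul c)
  have hΦlim : Tendsto Φ atImInfty (𝓝 1) := by
    have h1 : Tendsto (fun z : ℍ => E₄ z ^ 3) atImInfty (𝓝 (1 ^ 3)) := tendsto_E4.pow 3
    have h2 : Tendsto (fun z : ℍ => c * discriminant z) atImInfty (𝓝 (c * 0)) :=
      (discriminant_isZeroAtImInfty : Tendsto discriminant atImInfty (𝓝 0)).const_mul c
    have := h1.sub h2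
    simpa using this
  -- `g = Δ / Φ` is a level one form of weight `0` tending to `0`
  set g : ℍ → ℂ := fun z => discriminant z / Φ z with hg
  have hgmf : IsMF1 0 g := by
    refine isMF1_iff.mpr ⟨?_, ?_, ?_⟩
    · exact fun τ => (isMF1_Delta.mdiff τ).div (hΦmf.mdiff τ) (hne τ)
    · intro γ
      funext τ
      rw [SL_slash_apply]
      simp only [hg, neg_zero, zpow_zero, mul_one]
      rw [isMF1_Delta.apply_smul γ τ, hΦmf.apply_smul γ τ]
      rw [mul_div_mul_left _ _ (zpow_ne_zero 12 (denom_ne_zero γ τ))]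
    · have h0 : Tendsto g atImInfty (𝓝 (0 / 1)) :=
        (discriminant_isZeroAtImInfty : Tendsto discriminant atImInfty (𝓝 0)).div hΦlim
          one_ne_zero
      exact h0.isBigO_one ℝ
  have hglim : Tendsto g atImInfty (𝓝 0) := by
    have h0 : Tendsto g atImInfty (𝓝 (0 / 1)) :=
      (discriminant_isZeroAtImInfty : Tendsto discriminant atImInfty (𝓝 0)).div hΦlim
        one_ne_zero
    simpa using h0
  have hg0 := S20_eq_zero_of_tendsto_zero (Or.inl (by norm_num)) hgmf hglim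
  have := congrFun hg0 UpperHalfPlane.I
  simp only [hg, Pi.zero_apply, div_eq_zero_iff] at this
  rcases this with h | h
  · exact discriminant_ne_zero _ h
  · exact hne _ h

/-! ## Orders of `j - c` -/

/-- A holomorphic function on `ℍ`, extended by `ofComplex`, is analytic at the points of `ℍ`. -/
theorem S24_JF_analyticAt_of_mdiff {f : ℍ → ℂ} (hf : MDiff f) (τ : ℍ) :
    AnalyticAt ℂ (f ∘ ofComplex) (τ : ℂ) :=
  (UpperHalfPlane.mdifferentiable_iff.mp hf).analyticAt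
    (isOpen_upperHalfPlaneSet.mem_nhds τ.im_pos)

theorem S24_mdiff_jfun : MDiff S24_jfun := fun τ =>
  ((isMF1_E4.pow 3).mdiff τ).div (isMF1_Delta.mdiff τ) (discriminant_ne_zero τ)

theorem S24_analyticAt_jfun (τ : ℍ) : AnalyticAt ℂ (S24_jfun ∘ ofComplex) (τ : ℂ) :=
  S24_JF_analyticAt_of_mdiff S24_mdiff_jfun τ

theorem S24_analyticAt_jfun_sub (c : ℂ) (τ : ℍ) :
    AnalyticAt ℂ ((fun z : ℍ => S24_jfun z - c) ∘ ofComplex) (τ : ℂ) := by
  have h : (fun z : ℍ => S24_jfun z - c) ∘ ofComplex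
      = fun z : ℂ => (S24_jfun ∘ ofComplex) z - c := rfl
  rw [h]
  exact (S24_analyticAt_jfun τ).sub analyticAt_const

/-- The order of `G / Δ` at `τ₀` is the order of `G`. -/
theorem S24_order_div_discriminant {G : ℍ → ℂ} (τ₀ : ℍ) :
    meromorphicOrderAt ((fun z : ℍ => G z / discriminant z) ∘ ofComplex) (τ₀ : ℂ)
      = meromorphicOrderAt (G ∘ ofComplex) (τ₀ : ℂ) := by
  have hΔ : AnalyticAt ℂ ((discriminant : ℍ → ℂ) ∘ ofComplex) (τ₀ : ℂ) :=
    S24_JF_analyticAt_of_mdiff isMF1_Delta.mdiff τ₀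
  have hΔ0 : ((discriminant : ℍ → ℂ) ∘ ofComplex) (τ₀ : ℂ) ≠ 0 := by
    simp only [Function.comp_apply, ofComplex_apply]
    exact discriminant_ne_zero τ₀
  have h : (fun z : ℍ => G z / discriminant z) ∘ ofComplex
      = ((discriminant : ℍ → ℂ) ∘ ofComplex)⁻¹ * (G ∘ ofComplex) := by
    funext z
    simp only [Function.comp_apply, Pi.mul_apply, Pi.inv_apply]
    rw [div_eq_inv_mul]
  rw [h]
  exact meromorphicOrderAt_mul_of_ne_zero (hΔ.inv hΔ0) (inv_ne_zero hΔ0)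

/-- The order of a holomorphic function at a simple zero is `1`. -/
theorem S24_order_eq_one_of_simple {G : ℍ → ℂ} (hG : MDiff G) (τ₀ : ℍ) (h0 : G τ₀ = 0)
    (h1 : deriv (G ∘ ofComplex) τ₀ ≠ 0) :
    meromorphicOrderAt (G ∘ ofComplex) (τ₀ : ℂ) = 1 := by
  have ha := S24_JF_analyticAt_of_mdiff hG τ₀
  rw [ha.meromorphicOrderAt_eq, ha.analyticOrderAt_eq_one_of_zero_deriv_ne_zero
    (by simpa using h0) h1]
  rfl

/-- The order of the `n`-th power of a holomorphic function at a simple zero is `n`. -/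
theorem S24_order_pow_of_simple {G : ℍ → ℂ} (hG : MDiff G) (τ₀ : ℍ) (h0 : G τ₀ = 0)
    (h1 : deriv (G ∘ ofComplex) τ₀ ≠ 0) (n : ℕ) :
    meromorphicOrderAt ((fun z : ℍ => G z ^ n) ∘ ofComplex) (τ₀ : ℂ) = n := by
  have ha := S24_JF_analyticAt_of_mdiff hG τ₀
  have h : (fun z : ℍ => G z ^ n) ∘ ofComplex = (G ∘ ofComplex) ^ n := rfl
  rw [h, meromorphicOrderAt_pow ha.meromorphicAt, S24_order_eq_one_of_simple hG τ₀ h0 h1]
  simp

/-- **Generic points**: if `E₄ τ₀ ≠ 0` and `E₆ τ₀ ≠ 0` then `j - j(τ₀)` has a simple zero at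
`τ₀`. -/
theorem S24_order_generic (τ₀ : ℍ) (h4 : E₄ τ₀ ≠ 0) (h6 : E₆ τ₀ ≠ 0) :
    meromorphicOrderAt ((fun z : ℍ => S24_jfun z - S24_jfun τ₀) ∘ ofComplex) (τ₀ : ℂ) = 1 := by
  set c := S24_jfun τ₀ with hc
  have hcΔ : E₄ τ₀ ^ 3 = c * discriminant τ₀ := (S24_jfun_eq_iff τ₀ c).mp rfl
  have hfun : (fun z : ℍ => S24_jfun z - c)
      = fun z : ℍ => (fun w : ℍ => E₄ w ^ 3 - c * discriminant w) z / discriminant z := by
    funext z
    exact S24_jfun_sub z c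
  rw [hfun, S24_order_div_discriminant]
  have hmd : MDiff (fun w : ℍ => E₄ w ^ 3 - c * discriminant w) := by
    have h1 : (fun w : ℍ => E₄ w ^ 3 - c * discriminant w)
        = (E₄ : ℍ → ℂ) ^ 3 - c • (discriminant : ℍ → ℂ) := by
      funext z
      simp
    rw [h1]
    have h12 : IsMF1 12 ((E₄ : ℍ → ℂ) ^ 3) := by
      have := isMF1_E4.pow 3
      simpa using this
    exact (h12.sub (isMF1_Delta.smul c)).mdiff
  refine S24_order_eq_one_of_simple hmd τ₀ ?_ ?_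
  · show E₄ τ₀ ^ 3 - c * discriminant τ₀ = 0
    rw [hcΔ, sub_self]
  · exact S20_E4_cube_sub_simple c τ₀ h4 h6 hcΔ

/-- **Points equivalent to `i`**: if `E₆ τ₀ = 0` then `j - 1728` has a double zero at `τ₀`. -/
theorem S24_order_of_E6_eq_zero (τ₀ : ℍ) (h6 : E₆ τ₀ = 0) :
    meromorphicOrderAt ((fun z : ℍ => S24_jfun z - 1728) ∘ ofComplex) (τ₀ : ℂ) = 2 := by
  have hfun : (fun z : ℍ => S24_jfun z - 1728)
      = fun z : ℍ => (fun w : ℍ => E₆ w ^ 2) z / discriminant z := by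
    funext z
    exact S24_jfun_sub_1728 z
  rw [hfun, S24_order_div_discriminant]
  exact S24_order_pow_of_simple isMF1_E6.mdiff τ₀ h6 (S20_E6_simple τ₀ h6) 2

/-- **Points equivalent to `ρ`**: if `E₄ τ₀ = 0` then `j` has a triple zero at `τ₀`. -/
theorem S24_order_of_E4_eq_zero (τ₀ : ℍ) (h4 : E₄ τ₀ = 0) :
    meromorphicOrderAt (S24_jfun ∘ ofComplex) (τ₀ : ℂ) = 3 := by
  have hfun : S24_jfun = fun z : ℍ => (fun w : ℍ => E₄ w ^ 3) z / discriminant z := rfl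
  rw [hfun, S24_order_div_discriminant]
  exact S24_order_pow_of_simple isMF1_E4.mdiff τ₀ h4 (S20_E4_simple τ₀ h4) 3

theorem S24_order_I :
    meromorphicOrderAt ((fun z : ℍ => S24_jfun z - 1728) ∘ ofComplex)
      (UpperHalfPlane.I : ℂ) = 2 :=
  S24_order_of_E6_eq_zero _ E6_I

theorem S24_order_rho : meromorphicOrderAt (S24_jfun ∘ ofComplex) (rho : ℂ) = 3 :=
  S24_order_of_E4_eq_zero _ E4_rho

/-- For `c ≠ 0, 1728`, every point over `c` is generic. -/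
theorem S24_generic_of_ne {τ₀ : ℍ} (h0 : S24_jfun τ₀ ≠ 0) (h1 : S24_jfun τ₀ ≠ 1728) :
    E₄ τ₀ ≠ 0 ∧ E₆ τ₀ ≠ 0 :=
  ⟨fun h => h0 ((S24_jfun_eq_zero_iff τ₀).mpr h), fun h => h1 ((S24_jfun_eq_1728_iff τ₀).mpr h)⟩

/-- Summary: every `c : ℂ` has a base point `τ₀` over it which is `i` (`c = 1728`), `ρ` (`c = 0`)
or generic, and `j - c` vanishes there to order `2`, `3`, `1` respectively. -/
theorem S24_exists_basepoint (c : ℂ) :
    ∃ τ₀ : ℍ, S24_jfun τ₀ = c ∧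
      ((c = 1728 ∧ τ₀ = UpperHalfPlane.I ∧
          meromorphicOrderAt ((fun z : ℍ => S24_jfun z - c) ∘ ofComplex) (τ₀ : ℂ) = 2) ∨
       (c = 0 ∧ τ₀ = rho ∧
          meromorphicOrderAt ((fun z : ℍ => S24_jfun z - c) ∘ ofComplex) (τ₀ : ℂ) = 3) ∨
       (c ≠ 0 ∧ c ≠ 1728 ∧ E₄ τ₀ ≠ 0 ∧ E₆ τ₀ ≠ 0 ∧
          meromorphicOrderAt ((fun z : ℍ => S24_jfun z - c) ∘ ofComplex) (τ₀ : ℂ) = 1)) := by
  by_cases h1 : c = 1728
  · subst h1
    exact ⟨UpperHalfPlane.I, S24_jfun_I, Or.inl ⟨rfl, rfl, S24_order_I⟩⟩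
  by_cases h0 : c = 0
  · subst h0
    refine ⟨rho, S24_jfun_rho, Or.inr (Or.inl ⟨rfl, rfl, ?_⟩)⟩
    have : (fun z : ℍ => S24_jfun z - 0) = S24_jfun := by
      funext z
      simp
    rw [this]
    exact S24_order_rho
  obtain ⟨τ₀, rfl⟩ := S24_jfun_surjective c
  obtain ⟨h4, h6⟩ := S24_generic_of_ne h0 h1
  exact ⟨τ₀, rfl, Or.inr (Or.inr ⟨h0, h1, h4, h6, S24_order_generic τ₀ h4 h6⟩)⟩

/-! ## Stabilisers -/

/-- The fixed point equation as a quadratic equation. -/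
theorem S24_smul_eq_self_iff (γ : SL(2, ℤ)) (τ : ℍ) :
    γ • τ = τ ↔ ((γ 1 0 : ℤ) : ℂ) * (τ : ℂ) ^ 2 + (((γ 1 1 : ℤ) : ℂ) - ((γ 0 0 : ℤ) : ℂ)) * τ
      - ((γ 0 1 : ℤ) : ℂ) = 0 := by
  have hd : ((γ 1 0 : ℤ) : ℂ) * (τ : ℂ) + ((γ 1 1 : ℤ) : ℂ) ≠ 0 := by
    have := denom_ne_zero γ τ
    rw [denom_apply] at this
    simpa using this
  rw [UpperHalfPlane.ext_iff, coe_specialLinearGroup_apply]
  simp only [algebraMap_int_eq, eq_intCast, Complex.ofReal_intCast]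
  rw [div_eq_iff hd]
  constructor
  · intro h
    linear_combination -h
  · intro h
    linear_combination -h

/-- Real and imaginary parts of an integral linear relation on `τ`. -/
theorem S24_int_lin_eq_zero (τ : ℍ) (m n : ℤ) (h : (m : ℂ) * τ + n = 0) : m = 0 ∧ n = 0 :=
  S20_int_indep τ m n h

/-- **Generic stabiliser**: if `E₄ τ₀ ≠ 0` and `E₆ τ₀ ≠ 0`, the stabiliser of `τ₀` is `{±1}`. -/
theorem S24_stab_generic (τ₀ : ℍ) (h4 : E₄ τ₀ ≠ 0) (h6 : E₆ τ₀ ≠ 0) (γ : SL(2, ℤ))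
    (hfix : γ • τ₀ = τ₀) : γ = 1 ∨ γ = -1 := by
  have hd0 : denom γ τ₀ ≠ 0 := denom_ne_zero γ τ₀
  have e4 := isMF1_E4.apply_smul γ τ₀
  have e6 := isMF1_E6.apply_smul γ τ₀
  rw [hfix] at e4 e6
  have d4 : denom γ τ₀ ^ (4 : ℤ) = 1 := by
    have : (denom γ τ₀ ^ (4 : ℤ) - 1) * E₄ τ₀ = 0 := by linear_combination -e4
    rcases mul_eq_zero.mp this with h | h
    · linear_combination h
    · exact absurd h h4
  have d6 : denom γ τ₀ ^ (6 : ℤ) = 1 := by
    have : (denom γ τ₀ ^ (6 : ℤ) - 1) * E₆ τ₀ = 0 := by linear_combination -e6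
    rcases mul_eq_zero.mp this with h | h
    · linear_combination h
    · exact absurd h h6
  have d4' : denom γ τ₀ ^ 4 = 1 := by exact_mod_cast d4
  have d6' : denom γ τ₀ ^ 6 = 1 := by exact_mod_cast d6
  have d2 : denom γ τ₀ ^ 2 = 1 := by
    have : denom γ τ₀ ^ 6 = denom γ τ₀ ^ 4 * denom γ τ₀ ^ 2 := by ring
    rw [d6', d4', one_mul] at this
    exact this.symm
  -- `denom = c τ₀ + d = ± 1`
  have hden : denom γ τ₀ = ((γ 1 0 : ℤ) : ℂ) * τ₀ + ((γ 1 1 : ℤ) : ℂ) := by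
    rw [denom_apply]
  have hpm : denom γ τ₀ = 1 ∨ denom γ τ₀ = -1 := by
    have : (denom γ τ₀ - 1) * (denom γ τ₀ + 1) = 0 := by linear_combination d2
    rcases mul_eq_zero.mp this with h | h
    · left; linear_combination h
    · right; linear_combination h
  have hdet : γ 0 0 * γ 1 1 - γ 0 1 * γ 1 0 = 1 := by
    have := γ.det_coe
    rw [Matrix.det_fin_two] at this
    exact this
  have hq := (S24_smul_eq_self_iff γ τ₀).mp hfix
  rcases hpm with h | h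
  · left
    rw [hden] at h
    have h' : ((γ 1 0 : ℤ) : ℂ) * τ₀ + ((γ 1 1 - 1 : ℤ) : ℂ) = 0 := by
      push_cast
      linear_combination h
    obtain ⟨hc, hd⟩ := S24_int_lin_eq_zero τ₀ _ _ h'
    have hd1 : γ 1 1 = 1 := by omega
    have ha1 : γ 0 0 = 1 := by
      rw [hc, hd1] at hdet
      linarith
    rw [hc, hd1, ha1] at hq
    have hb : ((γ 0 1 : ℤ) : ℂ) = 0 := by
      simp only [Int.cast_zero, Int.cast_one, zero_mul, sub_self, zero_add, zero_sub,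
        neg_eq_zero] at hq
      exact hq
    have hb0 : γ 0 1 = 0 := by exact_mod_cast hb
    ext i j
    fin_cases i <;> fin_cases j <;> simp [ha1, hb0, hc, hd1]
  · right
    rw [hden] at h
    have h' : ((γ 1 0 : ℤ) : ℂ) * τ₀ + ((γ 1 1 + 1 : ℤ) : ℂ) = 0 := by
      push_cast
      linear_combination h
    obtain ⟨hc, hd⟩ := S24_int_lin_eq_zero τ₀ _ _ h'
    have hd1 : γ 1 1 = -1 := by omega
    have ha1 : γ 0 0 = -1 := by
      rw [hc, hd1] at hdet
      linarith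
    rw [hc, hd1, ha1] at hq
    have hb : ((γ 0 1 : ℤ) : ℂ) = 0 := by
      simp only [Int.cast_zero, Int.cast_neg, Int.cast_one, zero_mul, sub_self, zero_add,
        zero_sub, neg_eq_zero] at hq
      exact hq
    have hb0 : γ 0 1 = 0 := by exact_mod_cast hb
    ext i j
    fin_cases i <;> fin_cases j <;> simp [ha1, hb0, hc, hd1]

theorem S24_sq_add_sq_eq_one (a c : ℤ) (h : a ^ 2 + c ^ 2 = 1) :
    (a = 1 ∧ c = 0) ∨ (a = -1 ∧ c = 0) ∨ (a = 0 ∧ c = 1) ∨ (a = 0 ∧ c = -1) := by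
  have ha1 : -1 ≤ a := by nlinarith [sq_nonneg a, sq_nonneg c]
  have ha2 : a ≤ 1 := by nlinarith [sq_nonneg a, sq_nonneg c]
  have hc1 : -1 ≤ c := by nlinarith [sq_nonneg a, sq_nonneg c]
  have hc2 : c ≤ 1 := by nlinarith [sq_nonneg a, sq_nonneg c]
  interval_cases a <;> interval_cases c <;> simp_all

/-- **Stabiliser of `i`**: `{±1, ±S}`. -/
theorem S24_stab_I (γ : SL(2, ℤ)) :
    γ • UpperHalfPlane.I = UpperHalfPlane.I ↔ γ = 1 ∨ γ = -1 ∨ γ = S ∨ γ = -S := by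
  constructor
  · intro hfix
    have hq := (S24_smul_eq_self_iff γ _).mp hfix
    have hI : ((UpperHalfPlane.I : ℍ) : ℂ) = Complex.I := rfl
    rw [hI, Complex.I_sq] at hq
    have h' : (((γ 1 1 - γ 0 0 : ℤ) : ℂ)) * ((UpperHalfPlane.I : ℍ) : ℂ)
        + ((-(γ 1 0) - γ 0 1 : ℤ) : ℂ) = 0 := by
      rw [hI]
      push_cast
      linear_combination hq
    obtain ⟨h1, h2⟩ := S24_int_lin_eq_zero _ _ _ h'
    have hdet : γ 0 0 * γ 1 1 - γ 0 1 * γ 1 0 = 1 := by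
      have := γ.det_coe
      rw [Matrix.det_fin_two] at this
      exact this
    have hd : γ 1 1 = γ 0 0 := by omega
    have hb : γ 0 1 = -(γ 1 0) := by omega
    rw [hd, hb] at hdet
    have hsq : γ 0 0 ^ 2 + γ 1 0 ^ 2 = 1 := by linear_combination hdet
    rcases S24_sq_add_sq_eq_one _ _ hsq with ⟨ha, hc⟩ | ⟨ha, hc⟩ | ⟨ha, hc⟩ | ⟨ha, hc⟩
    · left
      ext i j
      fin_cases i <;> fin_cases j <;> simp [ha, hb, hc, hd]
    · right; left
      ext i j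
      fin_cases i <;> fin_cases j <;> simp [ha, hb, hc, hd]
    · right; right; left
      ext i j
      fin_cases i <;> fin_cases j <;> simp [ha, hb, hc, hd, ModularGroup.S]
    · right; right; right
      ext i j
      fin_cases i <;> fin_cases j <;>
        simp only [Matrix.SpecialLinearGroup.coe_neg, Matrix.neg_apply] <;>
        simp [ha, hb, hc, hd, ModularGroup.S]
  · rintro (rfl | rfl | rfl | rfl)
    · exact one_smul _ _
    · exact ModularGroup.SL_neg_smul 1 _ |>.trans (one_smul _ _)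
    · exact S_smul_I
    · exact (ModularGroup.SL_neg_smul S _).trans S_smul_I

end Fermat.Agent.S24
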