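import Fermat.Agent.S24.EvDefs
import Fermat.Agent.S24.JFacts

/-!
# S24 package A1-dist: distinct cosets give distinct conjugates

If the conjugates `f ↦ e(f) ∘ γ` and `f ↦ e(f) ∘ γ'` of the analytic realisation coincide, then
`γ' * γ⁻¹ ∈ Γ₀(N)`.  Only the generator `j(q^N)` is used: `j(N γ τ) = j(N γ' τ)` for all `τ`,
evaluated at a point `τ₀ = √2 + i` which is not a quadratic irrationality.
-/

set_option autoImplicit false

open UpperHalfPlane hiding I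
open scoped MatrixGroups Manifold ModularForm
open CongruenceSubgroup ModularCurve EisensteinSeries

noncomputable section

namespace Fermat.Agent.S24

/-- `jFun d` is `j` evaluated at `ut d 0 1 • τ`. -/
theorem jFun_eq_jfun (d : ℕ) (τ : ℍ) :
    jFun d τ = S24_jfun (Fermat.Agent.S28.ut d 0 1 • τ) := rfl

theorem jFun_one_eq : jFun 1 = S24_jfun := by
  funext τ
  rw [jFun_eq_jfun]
  congr 1
  ext
  rw [Fermat.Agent.S28.coe_ut_smul one_pos one_pos]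
  simp

/-- The point `√2 + i` of the upper half plane. -/
def S24_tau0 : ℍ := ⟨⟨Real.sqrt 2, 1⟩, by simp⟩

theorem S24_coe_tau0 : (S24_tau0 : ℂ) = ⟨Real.sqrt 2, 1⟩ := rfl

/-- `1, τ₀, τ₀²` are linearly independent over `ℤ`. -/
theorem S24_tau0_indep (A B C : ℤ)
    (h : (A : ℂ) * (S24_tau0 : ℂ) ^ 2 + (B : ℂ) * (S24_tau0 : ℂ) + (C : ℂ) = 0) :
    A = 0 ∧ B = 0 ∧ C = 0 := by
  have hs : Real.sqrt 2 * Real.sqrt 2 = 2 := Real.mul_self_sqrt (by norm_num)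
  have him := congrArg Complex.im h
  have hre := congrArg Complex.re h
  rw [S24_coe_tau0] at him hre
  simp only [pow_two, Complex.add_im, Complex.mul_im, Complex.intCast_re, Complex.intCast_im,
    Complex.mul_re, Complex.add_re, Complex.zero_im, Complex.zero_re] at him hre
  -- imaginary part: `2 √2 A + B = 0`; real part: `A + B √2 + C = 0`
  have him' : (2 * A : ℝ) * Real.sqrt 2 + B = 0 := by linarith
  have hA : A = 0 := by
    by_contra hA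
    have hirr : Irrational (Real.sqrt 2) := irrational_sqrt_two
    have h2A : ((2 * A : ℤ) : ℝ) ≠ 0 := by
      have : (2 * A : ℤ) ≠ 0 := by omega
      exact_mod_cast this
    have heq : Real.sqrt 2 = ((-B : ℤ) : ℝ) / ((2 * A : ℤ) : ℝ) := by
      rw [eq_div_iff h2A]
      push_cast
      linarith
    apply hirr
    rw [heq]
    exact ⟨((-B : ℤ) : ℚ) / ((2 * A : ℤ) : ℚ), by push_cast; rfl⟩
  subst hA
  have hB : B = 0 := by
    have : (B : ℝ) = 0 := by simpa using him'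
    exact_mod_cast this
  subst hB
  have hC : C = 0 := by
    have : (C : ℝ) = 0 := by simpa using hre
    exact_mod_cast this
  exact ⟨rfl, rfl, hC⟩

/-- If `j(N τ) = j(N δ τ)` at `τ = τ₀` then `δ ∈ Γ₀(N)`. -/
theorem S24_mem_Gamma0_of_jFun_eq (N : ℕ) [NeZero N] (δ : SL(2, ℤ))
    (h : jFun N S24_tau0 = jFun N (δ • S24_tau0)) : δ ∈ Gamma0 N := by
  have hN : 0 < N := Nat.pos_of_ne_zero (NeZero.ne N)
  rw [jFun_eq_jfun, jFun_eq_jfun] at h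
  obtain ⟨β, hβ⟩ := S24_jfun_inj h
  -- coordinates
  set τ := S24_tau0 with hτ
  have hδd : ((δ 1 0 : ℤ) : ℂ) * (τ : ℂ) + ((δ 1 1 : ℤ) : ℂ) ≠ 0 := by
    have := denom_ne_zero δ τ
    rw [ModularGroup.denom_apply] at this
    simpa using this
  have hδ : ((δ • τ : ℍ) : ℂ) = (((δ 0 0 : ℤ) : ℂ) * τ + ((δ 0 1 : ℤ) : ℂ)) /
      (((δ 1 0 : ℤ) : ℂ) * τ + ((δ 1 1 : ℤ) : ℂ)) := by
    rw [coe_specialLinearGroup_apply]
    simp
  set w : ℍ := Fermat.Agent.S28.ut N 0 1 • (δ • τ) with hw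
  have hwc : (w : ℂ) = (N : ℂ) * ((δ • τ : ℍ) : ℂ) := by
    rw [hw, Fermat.Agent.S28.coe_ut_smul hN one_pos]
    simp
  have hβd : ((β 1 0 : ℤ) : ℂ) * (w : ℂ) + ((β 1 1 : ℤ) : ℂ) ≠ 0 := by
    have := denom_ne_zero β w
    rw [ModularGroup.denom_apply] at this
    simpa using this
  have hβc : ((β • w : ℍ) : ℂ) = (((β 0 0 : ℤ) : ℂ) * w + ((β 0 1 : ℤ) : ℂ)) /
      (((β 1 0 : ℤ) : ℂ) * w + ((β 1 1 : ℤ) : ℂ)) := by
    rw [coe_specialLinearGroup_apply]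
    simp
  have hrhs : ((Fermat.Agent.S28.ut N 0 1 • τ : ℍ) : ℂ) = (N : ℂ) * (τ : ℂ) := by
    rw [Fermat.Agent.S28.coe_ut_smul hN one_pos]
    simp
  have hmain : ((β • w : ℍ) : ℂ) = ((Fermat.Agent.S28.ut N 0 1 • τ : ℍ) : ℂ) :=
    congrArg (fun z : ℍ => (z : ℂ)) hβ
  rw [hβc, hrhs, div_eq_iff hβd, hwc] at hmain
  obtain ⟨Y, hY⟩ : ∃ Y : ℂ, Y = ((δ • τ : ℍ) : ℂ) := ⟨_, rfl⟩
  rw [← hY] at hmain
  have hYD : Y * (((δ 1 0 : ℤ) : ℂ) * τ + ((δ 1 1 : ℤ) : ℂ))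
      = ((δ 0 0 : ℤ) : ℂ) * τ + ((δ 0 1 : ℤ) : ℂ) := by
    rw [hY, hδ, div_mul_cancel₀ _ hδd]
  -- clear the denominator `c τ + d`
  have key : ((β 0 0 : ℤ) : ℂ) * ((N : ℂ) * (((δ 0 0 : ℤ) : ℂ) * τ + ((δ 0 1 : ℤ) : ℂ)))
      + ((β 0 1 : ℤ) : ℂ) * (((δ 1 0 : ℤ) : ℂ) * τ + ((δ 1 1 : ℤ) : ℂ))
      = (N : ℂ) * (τ : ℂ) * (((β 1 0 : ℤ) : ℂ) * ((N : ℂ) * (((δ 0 0 : ℤ) : ℂ) * τ
          + ((δ 0 1 : ℤ) : ℂ)))
        + ((β 1 1 : ℤ) : ℂ) * (((δ 1 0 : ℤ) : ℂ) * τ + ((δ 1 1 : ℤ) : ℂ))) := by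
    linear_combination (((δ 1 0 : ℤ) : ℂ) * τ + ((δ 1 1 : ℤ) : ℂ)) * hmain
      - (((β 0 0 : ℤ) : ℂ) * (N : ℂ) - (N : ℂ) ^ 2 * (τ : ℂ) * ((β 1 0 : ℤ) : ℂ)) * hYD
  -- compare coefficients of `1, τ, τ²`
  have hindep := S24_tau0_indep
    ((N : ℤ) * (β 1 0 * N * δ 0 0 + β 1 1 * δ 1 0))
    ((N : ℤ) * (β 1 0 * N * δ 0 1 + β 1 1 * δ 1 1) - (β 0 0 * N * δ 0 0 + β 0 1 * δ 1 0))
    (-(β 0 0 * N * δ 0 1 + β 0 1 * δ 1 1))
    (by
      push_cast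
      linear_combination -key)
  obtain ⟨h1, h2, -⟩ := hindep
  have hN0 : (N : ℤ) ≠ 0 := by exact_mod_cast (NeZero.ne N)
  have h10 : β 1 0 * N * δ 0 0 + β 1 1 * δ 1 0 = 0 := by
    rcases mul_eq_zero.mp h1 with h | h
    · exact absurd h hN0
    · exact h
  have hdetβ : β 0 0 * β 1 1 - β 0 1 * β 1 0 = 1 := by
    have := β.det_coe
    rw [Matrix.det_fin_two] at this
    exact this
  -- `c = - r * M₀₀ + p * M₁₀`
  have hc : δ 1 0 = (N : ℤ) * (-(β 1 0) * (β 1 0 * N * δ 0 1 + β 1 1 * δ 1 1)) := by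
    linear_combination (-(δ 1 0)) * hdetβ + (β 1 0) * h2 + (β 0 0) * h10
  rw [Gamma0_mem]
  rw [hc]
  push_cast
  simp

/-- **A1-dist**: if the conjugates by `γ` and `γ'` agree then `γ' * γ⁻¹ ∈ Γ₀(N)`. -/
theorem conjEv_eq_imp_mem_Gamma0 (N : ℕ) [NeZero N] (e : ↥(modularFunctionFieldBar N) →+* Mer)
    (he : IsEv N e) (γ γ' : SL(2, ℤ)) (h : conjEv N e γ = conjEv N e γ') :
    γ' * γ⁻¹ ∈ Gamma0 N := by
  have h1 := congrArg (fun φ : ↥(modularFunctionFieldBar N) →+* Mer => φ (jBar N N dvd_rfl)) h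
  simp only [conjEv, RingHom.comp_apply, he.gen N dvd_rfl, merComp_algebraMap] at h1
  have h2 : holComp γ (jHol N) = holComp γ' (jHol N) :=
    IsFractionRing.injective Hol Mer h1
  have h3 : ∀ τ : ℍ, jFun N (γ • τ) = jFun N (γ' • τ) := by
    intro τ
    have := congrArg (fun f : Hol => (f : ℍ → ℂ) τ) h2
    simpa using this
  apply S24_mem_Gamma0_of_jFun_eq
  have := h3 (γ⁻¹ • S24_tau0)
  rw [smul_inv_smul, ← mul_smul] at this
  exact this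

end Fermat.Agent.S24
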