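import Fermat.Agent.S24.CuspMer
import Fermat.Agent.S24.EvDist
import Fermat.Agent.S28.Conj

/-!
# S24 package A3 (part 3): the conjugates of the generators at the cusp `i∞`

For `g ∈ SL(2,ℤ)` and `d ∣ N` the conjugate `τ ↦ j(d · gτ)` is a quotient of two holomorphic
`N`-periodic functions bounded at `i∞`, of orders `0` and `a N / d'` (Hermite normal form).
-/

set_option autoImplicit false

open scoped Real Topology Manifold MatrixGroups ModularForm
open UpperHalfPlane hiding I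
open Complex Filter Function ModularForm
open Fermat.Agent.S28

namespace Fermat.Agent.S24

local notation "𝕢" => Function.Periodic.qParam

theorem meroCusp_of_nice {N : ℕ} {f : ℍ → ℂ} (hf : Nice (N : ℝ) f) : MeroCusp N f where
  per τ := by
    have h := hf.1 (τ : ℂ)
    simp only [comp_apply] at h
    have h1 : (((N : ℝ) +ᵥ τ : ℍ) : ℂ) = (τ : ℂ) + ((N : ℝ) : ℂ) := by
      rw [coe_vadd]; ring
    rw [← h1, ofComplex_apply, ofComplex_apply] at h
    exact h
  hol := hf.2.1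
  bdd := ⟨0, by simpa using hf.2.2⟩

theorem coeff_zero_baseFn_true : (qExpansion 1 (baseFn true)).coeff 0 = 1 := by
  rw [qExpansion_baseFn, PowerSeries.coeff_map]
  have h : (PowerSeries.coeff 0) (baseSeries true) = 1 := by
    simp [baseSeries, PowerSeries.coeff_zero_eq_constantCoeff,
      ModularCurve.constantCoeff_eisenstein4]
  rw [h]; simp

theorem coeff_zero_baseFn_false : (qExpansion 1 (baseFn false)).coeff 0 = 0 := by
  rw [qExpansion_baseFn, PowerSeries.coeff_map]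
  have h : (PowerSeries.coeff 0) (baseSeries false) = 0 := by
    simp [baseSeries, PowerSeries.coeff_zero_eq_constantCoeff]
  rw [h]; simp

theorem coeff_one_baseFn_false : (qExpansion 1 (baseFn false)).coeff 1 = 1 := by
  rw [qExpansion_baseFn, PowerSeries.coeff_map]
  have h : (PowerSeries.coeff 1) (baseSeries false) = 1 := by
    show (PowerSeries.coeff (0 + 1)) (PowerSeries.X * ModularCurve.etaProd ^ 24) = 1
    rw [PowerSeries.coeff_succ_X_mul]
    simp [PowerSeries.coeff_zero_eq_constantCoeff, ModularCurve.constantCoeff_etaProd]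
  rw [h]; simp

theorem slashConst_ne_zero (k : ℤ) {a d : ℕ} (ha : 0 < a) (hd : 0 < d) : slashConst k a d ≠ 0 := by
  unfold slashConst
  have ha0 : (a : ℂ) ≠ 0 := by exact_mod_cast ha.ne'
  have hd0 : (d : ℂ) ≠ 0 := by exact_mod_cast hd.ne'
  exact mul_ne_zero (zpow_ne_zero _ (mul_ne_zero ha0 hd0)) (zpow_ne_zero _ hd0)

theorem rootU_ne_zero (b d : ℕ) : rootU b d ≠ 0 := Complex.exp_ne_zero _

section

variable {N : ℕ} [NeZero N] {a b d' : ℕ}

/-- the numerator `E₄³ ∣ ut a b d'` has order `0` at `i∞` -/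
theorem cuspOrd_num (ha : 0 < a) (hd' : 0 < d') (e : ℕ) (he : e * d' = a * N) :
    MeroCusp N (baseFn true ∣[(12 : ℤ)] ut a b d') ∧
      (baseFn true ∣[(12 : ℤ)] ut a b d') ≠ 0 ∧
      cuspOrd N (baseFn true ∣[(12 : ℤ)] ut a b d') = 0 := by
  have hN : 0 < N := Nat.pos_of_ne_zero (NeZero.ne N)
  have hnice := nice_slash_ut true (b := b) ha hd' hN e he
  have hs := fun τ ↦ hasSum_slash_ut (baseForm true) (b := b) ha hd' hN e he τ
  rw [coe_baseForm] at hs
  have hc0 : conjCoeff 12 a b d' e (fun m ↦ (qExpansion 1 (baseFn true)).coeff m) 0 ≠ 0 := by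
    simp only [conjCoeff, dvd_zero, if_true, Nat.zero_div, pow_zero, one_mul]
    rw [coeff_zero_baseFn_true, mul_one]
    exact slashConst_ne_zero 12 ha hd'
  refine ⟨meroCusp_of_nice hnice, ne_zero_of_hasSum hs hnice.2.1 hc0, ?_⟩
  have := cuspOrd_of_hasSum (N := N) hnice.2.1 hs (n₀ := 0) (fun k hk ↦ absurd hk (Nat.not_lt_zero k))
    hc0
  simpa using this

/-- the denominator `Δ ∣ ut a b d'` has order `e = a N / d'` at `i∞` -/
theorem cuspOrd_den (ha : 0 < a) (hd' : 0 < d') (e : ℕ) (he : e * d' = a * N) :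
    MeroCusp N (baseFn false ∣[(12 : ℤ)] ut a b d') ∧
      (baseFn false ∣[(12 : ℤ)] ut a b d') ≠ 0 ∧
      cuspOrd N (baseFn false ∣[(12 : ℤ)] ut a b d') = e := by
  have hN : 0 < N := Nat.pos_of_ne_zero (NeZero.ne N)
  have he0 : 0 < e := by
    rcases Nat.eq_zero_or_pos e with h | h
    · rw [h, zero_mul] at he
      exact absurd he.symm (Nat.mul_ne_zero ha.ne' hN.ne')
    · exact h
  have hnice := nice_slash_ut false (b := b) ha hd' hN e he
  have hs := fun τ ↦ hasSum_slash_ut (baseForm false) (b := b) ha hd' hN e he τ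
  rw [coe_baseForm] at hs
  have hce : conjCoeff 12 a b d' e (fun m ↦ (qExpansion 1 (baseFn false)).coeff m) e ≠ 0 := by
    simp only [conjCoeff, dvd_refl, if_true, Nat.div_self he0, pow_one]
    rw [coeff_one_baseFn_false, mul_one]
    exact mul_ne_zero (slashConst_ne_zero 12 ha hd') (rootU_ne_zero b d')
  have hlt : ∀ k < e, conjCoeff 12 a b d' e
      (fun m ↦ (qExpansion 1 (baseFn false)).coeff m) k = 0 := by
    intro k hk
    simp only [conjCoeff]
    split_ifs with hdvd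
    · have hk0 : k = 0 := Nat.eq_zero_of_dvd_of_lt hdvd hk
      subst hk0
      simp [coeff_zero_baseFn_false]
    · rfl
  exact ⟨meroCusp_of_nice hnice, ne_zero_of_hasSum hs hnice.2.1 hce,
    cuspOrd_of_hasSum (N := N) hnice.2.1 hs hlt hce⟩

end

/-- `j(dτ) · (Δ ∣ ut d 0 1) = E₄³ ∣ ut d 0 1` -/
theorem jFun_mul_slash {d : ℕ} (hd : 0 < d) (τ : ℍ) :
    jFun d τ * (baseFn false ∣[(12 : ℤ)] ut d 0 1) τ = (baseFn true ∣[(12 : ℤ)] ut d 0 1) τ := by
  rw [slash_ut_apply 12 hd one_pos, slash_ut_apply 12 hd one_pos]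
  simp only [baseFn, jFun]
  have hΔ := ModularForm.discriminant_ne_zero (ut d 0 1 • τ)
  field_simp

/-- the slash of a base form by `ut d 0 1 · g` in Hermite normal form -/
theorem slash_ut_SL (f : Bool) (g : SL(2, ℤ)) {d a b d' : ℕ} (γ' : SL(2, ℤ))
    (h : ut d 0 1 * (g : GL (Fin 2) ℝ) = (γ' : GL (Fin 2) ℝ) * ut a b d') :
    (baseFn f ∣[(12 : ℤ)] ut d 0 1) ∣[(12 : ℤ)] g = baseFn f ∣[(12 : ℤ)] ut a b d' := by
  rw [ModularForm.SL_slash, ← SlashAction.slash_mul]
  rw [h, SlashAction.slash_mul]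
  congr 1
  exact baseFn_slash_SL f γ'

/-- `j(d · gτ) · (Δ ∣ ut a b d') = E₄³ ∣ ut a b d'` -/
theorem jFun_smul_mul_slash (g : SL(2, ℤ)) {d a b d' : ℕ} (hd : 0 < d) (γ' : SL(2, ℤ))
    (h : ut d 0 1 * (g : GL (Fin 2) ℝ) = (γ' : GL (Fin 2) ℝ) * ut a b d') (τ : ℍ) :
    jFun d (g • τ) * (baseFn false ∣[(12 : ℤ)] ut a b d') τ =
      (baseFn true ∣[(12 : ℤ)] ut a b d') τ := by
  rw [← slash_ut_SL false g γ' h, ← slash_ut_SL true g γ' h]
  rw [ModularForm.SL_slash_apply, ModularForm.SL_slash_apply, ← mul_assoc, jFun_mul_slash hd]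

theorem mdiff_slash_ut (f : Bool) {a b d' : ℕ} (ha : 0 < a) (hd' : 0 < d') :
    MDiff (baseFn f ∣[(12 : ℤ)] ut a b d') :=
  (nice_slash_ut f (b := b) (N := d') ha hd' hd' a (by ring)).2.1

/-- **The conjugates of the generators at the cusp.** For `g ∈ SL(2,ℤ)` and `d ∣ N` the function
`τ ↦ j(d · gτ)` has a well defined order and leading coefficient at `i∞`; the order is
`-(a N / d')` for the Hermite normal form `ut d 0 1 · g = γ' · ut a b d'`. -/
theorem cuspFrac_merComp_jHol (N : ℕ) [NeZero N] (g : SL(2, ℤ)) {d : ℕ} (hd : 0 < d)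
    (hdN : d ∣ N) :
    ∃ (a d' : ℕ) (c : ℂ), 0 < a ∧ 0 < d' ∧ a * d' = d ∧ a = Nat.gcd d (g 1 0).natAbs ∧
      CuspFrac N (merComp g (algebraMap Hol Mer (jHol d))) (-((a * (N / d') : ℕ) : ℤ)) c := by
  obtain ⟨γ', a, b, d', ha, hd', hadd, hag, -, h⟩ := hnf_GL g d hd
  have hd'N : d' ∣ N := (Dvd.intro_left a hadd).trans hdN
  have he : a * (N / d') * d' = a * N := by
    rw [mul_assoc, Nat.div_mul_cancel hd'N]
  obtain ⟨hmA, hA0, hoA⟩ := cuspOrd_num (N := N) (b := b) ha hd' _ he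
  obtain ⟨hmB, hB0, hoB⟩ := cuspOrd_den (N := N) (b := b) ha hd' _ he
  let A : Hol := ⟨baseFn true ∣[(12 : ℤ)] ut a b d', mdiff_slash_ut true ha hd'⟩
  let B : Hol := ⟨baseFn false ∣[(12 : ℤ)] ut a b d', mdiff_slash_ut false ha hd'⟩
  have hA : A ≠ 0 := fun h0 ↦ hA0 (congrArg Subtype.val h0)
  have hB : B ≠ 0 := fun h0 ↦ hB0 (congrArg Subtype.val h0)
  refine ⟨a, d', _, ha, hd', hadd, hag, A, B, hmA, hmB, hA, hB, ?_, ?_, rfl⟩
  · rw [merComp_algebraMap, ← map_mul]
    congr 1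
    rw [hol_ext_iff]
    intro τ
    exact jFun_smul_mul_slash g hd γ' h τ
  · show _ = cuspOrd N (baseFn true ∣[(12 : ℤ)] ut a b d') -
      cuspOrd N (baseFn false ∣[(12 : ℤ)] ut a b d')
    rw [hoA, hoB]
    ring

/-- `j` itself has a pole of order `N` at `i∞` in the parameter `exp (2πiτ/N)` -/
theorem cuspFrac_jHol_one (N : ℕ) [NeZero N] :
    ∃ c : ℂ, CuspFrac N (algebraMap Hol Mer (jHol 1)) (-(N : ℤ)) c := by
  obtain ⟨a, d', c, ha, hd', hadd, -, h⟩ := cuspFrac_merComp_jHol N 1 one_pos (one_dvd N)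
  have ha1 : a = 1 := Nat.eq_one_of_mul_eq_one_right hadd
  have hd1 : d' = 1 := Nat.eq_one_of_mul_eq_one_left hadd
  subst ha1 hd1
  refine ⟨c, ?_⟩
  have h1 : merComp 1 (algebraMap Hol Mer (jHol 1)) = algebraMap Hol Mer (jHol 1) := by
    rw [merComp_algebraMap, holComp_one]
    rfl
  rw [h1] at h
  simpa using h

end Fermat.Agent.S24
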