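import Fermat.Agent.S24.EvDefs
import Fermat.Agent.S24.JFacts

/-!
# S24 package A1-inv: invariance of the analytic realisation under `Γ₀(N)`

* `ringHom_ext_gen`: ring homomorphisms out of `F = Q̄(j(q^d) : d ∣ N)` into a field are determined
  by their values on the constants and on the generators `jBar N d`.
* `holComp_jHol_of_mem_Gamma0`: `j(d · δτ) = j(dτ)` for `δ ∈ Γ₀(N)`, `d ∣ N`.
* `merComp_comp_eq_of_mem_Gamma0`: `e(f) ∘ δ = e(f)` for `δ ∈ Γ₀(N)`.
* `conjEv_mul_of_mem_Gamma0`: `conjEv N e (δ * γ) = conjEv N e γ` for `δ ∈ Γ₀(N)`.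
* `conjEv_jB`: `conjEv N e γ (jB N) = j`.
-/

set_option autoImplicit false
set_option linter.unusedSectionVars false

open UpperHalfPlane hiding I
open scoped MatrixGroups Manifold ModularForm
open CongruenceSubgroup ModularCurve EisensteinSeries

noncomputable section

namespace Fermat.Agent.S24

local notation "Kbar" => AlgebraicClosure ℚ

/-- `jFun d` is `j` evaluated at `ut d 0 1 • τ` (copy of `EvDist.jFun_eq_jfun`). -/
theorem jFun_eq_jfun' (d : ℕ) (τ : ℍ) :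
    jFun d τ = S24_jfun (Fermat.Agent.S28.ut d 0 1 • τ) := rfl

theorem jFun_one_eq' : jFun 1 = S24_jfun := by
  funext τ
  rw [jFun_eq_jfun']
  congr 1
  ext
  rw [Fermat.Agent.S28.coe_ut_smul one_pos one_pos]
  simp

section ext

variable (N : ℕ) [NeZero N] {M : Type*} [Field M]

theorem algebraMap_Kbar_eq_single (a : Kbar) :
    algebraMap Kbar (LaurentSeries Kbar) a = HahnSeries.single 0 a := by
  have h1 : algebraMap Kbar (PowerSeries Kbar) a = PowerSeries.C a := by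
    simp
  rw [HahnSeries.algebraMap_apply', h1, HahnSeries.ofPowerSeries_C]
  rfl

theorem coeffEmb_algebraMap (c : ℚ) :
    coeffEmb Kbar (algebraMap ℚ (LaurentSeries ℚ) c)
      = algebraMap Kbar (LaurentSeries Kbar) (algebraMap ℚ Kbar c) := by
  ext k
  rw [coeffEmb_coeff, algebraMap_apply_eq_single, algebraMap_Kbar_eq_single]
  by_cases hk : k = 0
  · subst hk
    simp
  · simp [HahnSeries.coeff_single_of_ne hk]

/-- Ring homomorphisms from `F` to a field which agree on the generators `j(q^d)`, on the image of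
the rational function field. -/
theorem ringHom_eq_on_full (φ ψ : ↥(modularFunctionFieldBar N) →+* M)
    (hc : ∀ a : Kbar, φ (algebraMap Kbar ↥(modularFunctionFieldBar N) a)
      = ψ (algebraMap Kbar ↥(modularFunctionFieldBar N) a))
    (hg : ∀ (d : ℕ) [NeZero d] (hd : d ∣ N), φ (jBar N d hd) = ψ (jBar N d hd))
    (y : LaurentSeries ℚ) (hy : y ∈ modularFunctionFieldFull N) :
    φ ⟨coeffEmb Kbar y, coeffEmb_mem_laurentBaseChange Kbar hy⟩
      = ψ ⟨coeffEmb Kbar y, coeffEmb_mem_laurentBaseChange Kbar hy⟩ := by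
  induction hy using IntermediateField.adjoin_induction with
  | mem x hx =>
    obtain ⟨d, hd0, hd, rfl⟩ := hx
    exact hg d hd
  | algebraMap c =>
    have h := hc (algebraMap ℚ Kbar c)
    have e1 : (⟨coeffEmb Kbar (algebraMap ℚ (LaurentSeries ℚ) c),
        coeffEmb_mem_laurentBaseChange Kbar (IntermediateField.algebraMap_mem _ c)⟩ :
          ↥(modularFunctionFieldBar N))
        = algebraMap Kbar ↥(modularFunctionFieldBar N) (algebraMap ℚ Kbar c) :=
      Subtype.ext (coeffEmb_algebraMap c)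
    rw [e1]
    exact h
  | add x y hx hy ihx ihy =>
    have e1 : (⟨coeffEmb Kbar (x + y),
        coeffEmb_mem_laurentBaseChange Kbar (add_mem hx hy)⟩ : ↥(modularFunctionFieldBar N))
        = ⟨coeffEmb Kbar x, coeffEmb_mem_laurentBaseChange Kbar hx⟩
          + ⟨coeffEmb Kbar y, coeffEmb_mem_laurentBaseChange Kbar hy⟩ :=
      Subtype.ext (map_add _ _ _)
    rw [e1, map_add, map_add, ihx, ihy]
  | inv x hx ihx =>
    have e1 : (⟨coeffEmb Kbar x⁻¹,
        coeffEmb_mem_laurentBaseChange Kbar (inv_mem hx)⟩ : ↥(modularFunctionFieldBar N))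
        = (⟨coeffEmb Kbar x, coeffEmb_mem_laurentBaseChange Kbar hx⟩ :
            ↥(modularFunctionFieldBar N))⁻¹ :=
      Subtype.ext (map_inv₀ _ _)
    rw [e1, map_inv₀, map_inv₀, ihx]
  | mul x y hx hy ihx ihy =>
    have e1 : (⟨coeffEmb Kbar (x * y),
        coeffEmb_mem_laurentBaseChange Kbar (mul_mem hx hy)⟩ : ↥(modularFunctionFieldBar N))
        = ⟨coeffEmb Kbar x, coeffEmb_mem_laurentBaseChange Kbar hx⟩
          * ⟨coeffEmb Kbar y, coeffEmb_mem_laurentBaseChange Kbar hy⟩ :=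
      Subtype.ext (map_mul _ _ _)
    rw [e1, map_mul, map_mul, ihx, ihy]

/-- Ring homomorphisms from `F` to a field are determined by the constants and the generators
`j(q^d)`, `d ∣ N`. -/
theorem ringHom_ext_gen (φ ψ : ↥(modularFunctionFieldBar N) →+* M)
    (hc : ∀ a : Kbar, φ (algebraMap Kbar ↥(modularFunctionFieldBar N) a)
      = ψ (algebraMap Kbar ↥(modularFunctionFieldBar N) a))
    (hg : ∀ (d : ℕ) [NeZero d] (hd : d ∣ N), φ (jBar N d hd) = ψ (jBar N d hd)) : φ = ψ := by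
  ext ⟨x, hx⟩
  induction hx using IntermediateField.adjoin_induction with
  | mem x hx =>
    obtain ⟨y, hy, rfl⟩ := hx
    exact ringHom_eq_on_full N φ ψ hc hg y hy
  | algebraMap a => exact hc a
  | add x y hx hy ihx ihy =>
    have e1 : (⟨x + y, add_mem hx hy⟩ : ↥(modularFunctionFieldBar N)) = ⟨x, hx⟩ + ⟨y, hy⟩ := rfl
    rw [e1, map_add, map_add, ihx, ihy]
  | inv x hx ihx =>
    have e1 : (⟨x⁻¹, inv_mem hx⟩ : ↥(modularFunctionFieldBar N))
        = (⟨x, hx⟩ : ↥(modularFunctionFieldBar N))⁻¹ := rfl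
    rw [e1, map_inv₀, map_inv₀, ihx]
  | mul x y hx hy ihx ihy =>
    have e1 : (⟨x * y, mul_mem hx hy⟩ : ↥(modularFunctionFieldBar N)) = ⟨x, hx⟩ * ⟨y, hy⟩ := rfl
    rw [e1, map_mul, map_mul, ihx, ihy]

end ext

section inv

variable (N : ℕ) [NeZero N]

/-- For `δ ∈ Γ₀(N)` and `d ∣ N`: `d · (δ τ) = δ' (d · τ)` with `δ' ∈ SL(2,ℤ)`. -/
theorem exists_SL_ut_smul {d : ℕ} (hd0 : 0 < d) (hd : d ∣ N) {δ : SL(2, ℤ)} (hδ : δ ∈ Gamma0 N)
    (τ : ℍ) : ∃ δ' : SL(2, ℤ),
      Fermat.Agent.S28.ut d 0 1 • (δ • τ) = δ' • (Fermat.Agent.S28.ut d 0 1 • τ) := by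
  rw [Gamma0_mem] at hδ
  have hNc : (N : ℤ) ∣ δ 1 0 := (ZMod.intCast_zmod_eq_zero_iff_dvd _ N).mp hδ
  have hdc : (d : ℤ) ∣ δ 1 0 := (Int.natCast_dvd_natCast.mpr hd).trans hNc
  obtain ⟨c', hc'⟩ := hdc
  have hdet : δ 0 0 * δ 1 1 - δ 0 1 * δ 1 0 = 1 := by
    have := δ.det_coe
    rw [Matrix.det_fin_two] at this
    exact this
  have hdet' : (!![δ 0 0, δ 0 1 * d; c', δ 1 1] : Matrix (Fin 2) (Fin 2) ℤ).det = 1 := by
    rw [Matrix.det_fin_two_of]
    rw [hc'] at hdet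
    linear_combination hdet
  obtain ⟨δ', e00, e01, e10, e11⟩ : ∃ δ' : SL(2, ℤ), δ' 0 0 = δ 0 0 ∧ δ' 0 1 = δ 0 1 * d ∧
      δ' 1 0 = c' ∧ δ' 1 1 = δ 1 1 :=
    ⟨⟨!![δ 0 0, δ 0 1 * d; c', δ 1 1], hdet'⟩, rfl, rfl, rfl, rfl⟩
  refine ⟨δ', ?_⟩
  have hdC : (d : ℂ) ≠ 0 := by exact_mod_cast hd0.ne'
  have hden : ((δ 1 0 : ℤ) : ℂ) * (τ : ℂ) + ((δ 1 1 : ℤ) : ℂ) ≠ 0 := by
    have := denom_ne_zero δ τ
    rw [ModularGroup.denom_apply] at this
    simpa using this
  apply UpperHalfPlane.ext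
  rw [Fermat.Agent.S28.coe_ut_smul hd0 one_pos, coe_specialLinearGroup_apply δ,
    coe_specialLinearGroup_apply δ', Fermat.Agent.S28.coe_ut_smul hd0 one_pos, e00, e01, e10, e11]
  simp only [Nat.cast_zero, add_zero, Nat.cast_one, div_one, algebraMap_int_eq, eq_intCast,
    Complex.ofReal_intCast, Int.cast_mul, Int.cast_natCast]
  have hc'' : ((δ 1 0 : ℤ) : ℂ) = (d : ℂ) * (c' : ℂ) := by
    rw [hc']
    push_cast
    ring
  have hden' : (c' : ℂ) * ((d : ℂ) * (τ : ℂ)) + ((δ 1 1 : ℤ) : ℂ) ≠ 0 := by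
    have : (c' : ℂ) * ((d : ℂ) * (τ : ℂ)) + ((δ 1 1 : ℤ) : ℂ)
        = ((δ 1 0 : ℤ) : ℂ) * (τ : ℂ) + ((δ 1 1 : ℤ) : ℂ) := by
      rw [hc'']
      ring
    rw [this]
    exact hden
  rw [mul_div_assoc', div_eq_div_iff hden hden', hc'']
  push_cast
  ring

/-- `j(d · δτ) = j(dτ)` for `δ ∈ Γ₀(N)`, `d ∣ N`. -/
theorem jFun_smul_of_mem_Gamma0 {d : ℕ} (hd0 : 0 < d) (hd : d ∣ N) {δ : SL(2, ℤ)}
    (hδ : δ ∈ Gamma0 N) (τ : ℍ) : jFun d (δ • τ) = jFun d τ := by
  obtain ⟨δ', h⟩ := exists_SL_ut_smul N hd0 hd hδ τ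
  rw [jFun_eq_jfun', jFun_eq_jfun', h, S24_jfun_smul]

theorem holComp_jHol_of_mem_Gamma0 {d : ℕ} (hd0 : 0 < d) (hd : d ∣ N) {δ : SL(2, ℤ)}
    (hδ : δ ∈ Gamma0 N) : holComp δ (jHol d) = jHol d := by
  rw [hol_ext_iff]
  intro τ
  rw [holComp_apply, jHol_apply, jHol_apply]
  exact jFun_smul_of_mem_Gamma0 N hd0 hd hδ τ

/-- The analytic realisation of `F` consists of `Γ₀(N)`-invariant functions. -/
theorem merComp_comp_eq_of_mem_Gamma0 (e : ↥(modularFunctionFieldBar N) →+* Mer)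
    (he : IsEv N e) {δ : SL(2, ℤ)} (hδ : δ ∈ Gamma0 N) : (merComp δ).comp e = e := by
  apply ringHom_ext_gen N
  · intro a
    rw [RingHom.comp_apply, he.const, merComp_const]
  · intro d hd0 hd
    rw [RingHom.comp_apply, he.gen d hd, merComp_algebraMap,
      holComp_jHol_of_mem_Gamma0 N (Nat.pos_of_ne_zero (NeZero.ne d)) hd hδ]

theorem merComp_apply_of_mem_Gamma0 (e : ↥(modularFunctionFieldBar N) →+* Mer)
    (he : IsEv N e) {δ : SL(2, ℤ)} (hδ : δ ∈ Gamma0 N) (f : ↥(modularFunctionFieldBar N)) :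
    merComp δ (e f) = e f :=
  congrArg (fun φ : ↥(modularFunctionFieldBar N) →+* Mer => φ f)
    (merComp_comp_eq_of_mem_Gamma0 N e he hδ)

theorem S24_inv_merComp_mul (γ δ : SL(2, ℤ)) : merComp (γ * δ) = (merComp δ).comp (merComp γ) := by
  apply IsLocalization.ringHom_ext (nonZeroDivisors Hol)
  ext f
  simp only [RingHom.comp_apply, merComp_algebraMap, holComp_mul]
  rfl

theorem S24_inv_merComp_one : merComp 1 = RingHom.id Mer := by
  apply IsLocalization.ringHom_ext (nonZeroDivisors Hol)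
  ext f
  simp only [RingHom.comp_apply, merComp_algebraMap, holComp_one]
  rfl

/-- The hypothesis `hinv` of `Conj.lean`. -/
theorem S24_hinv (e : ↥(modularFunctionFieldBar N) →+* Mer) (he : IsEv N e) :
    ∀ h ∈ Gamma0 N, ∀ f, merComp h (e f) = e f :=
  fun _ hh f => merComp_apply_of_mem_Gamma0 N e he hh f

/-- **A1-inv (1)**: the conjugate by `δ * γ`, `δ ∈ Γ₀(N)`, is the conjugate by `γ`. -/
theorem conjEv_mul_of_mem_Gamma0 (e : ↥(modularFunctionFieldBar N) →+* Mer) (he : IsEv N e)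
    {δ : SL(2, ℤ)} (hδ : δ ∈ Gamma0 N) (γ : SL(2, ℤ)) :
    conjEv N e (δ * γ) = conjEv N e γ := by
  unfold conjEv
  rw [S24_inv_merComp_mul, RingHom.comp_assoc, merComp_comp_eq_of_mem_Gamma0 N e he hδ]

/-- The conjugates depend only on the coset `Γ₀(N) γ`. -/
theorem conjEv_eq_of_mul_inv_mem (e : ↥(modularFunctionFieldBar N) →+* Mer) (he : IsEv N e)
    {γ γ' : SL(2, ℤ)} (h : γ' * γ⁻¹ ∈ Gamma0 N) : conjEv N e γ = conjEv N e γ' := by
  have := conjEv_mul_of_mem_Gamma0 N e he h γ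
  rw [inv_mul_cancel_right] at this
  exact this.symm

/-- `j(γ τ) = j(τ)`. -/
theorem S24_inv_holComp_jHol_one (γ : SL(2, ℤ)) : holComp γ (jHol 1) = jHol 1 := by
  rw [hol_ext_iff]
  intro τ
  rw [holComp_apply, jHol_apply, jHol_apply, jFun_one_eq', S24_jfun_smul]

/-- **A1-inv (2)**: all conjugates of `j` are `j`. -/
theorem conjEv_jB (e : ↥(modularFunctionFieldBar N) →+* Mer) (he : IsEv N e) (γ : SL(2, ℤ)) :
    conjEv N e γ (jB N) = algebraMap Hol Mer (jHol 1) := by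
  unfold conjEv jB
  rw [RingHom.comp_apply, he.gen 1 (one_dvd N), merComp_algebraMap, S24_inv_holComp_jHol_one]

/-- all conjugates agree with `e` on constants -/
theorem conjEv_const (e : ↥(modularFunctionFieldBar N) →+* Mer) (he : IsEv N e) (γ : SL(2, ℤ))
    (a : Kbar) : conjEv N e γ (algebraMap Kbar ↥(modularFunctionFieldBar N) a)
      = algebraMap ℂ Mer (kEmb a) := by
  unfold conjEv
  rw [RingHom.comp_apply, he.const, merComp_const]

end inv

end Fermat.Agent.S24
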