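import Mathlib
import Fermat.Prelude.Def_AlgebraicCurve_CanonicalDivisor

/-! # S24: shared definitions (captain helper26) -/

set_option autoImplicit false

namespace Fermat.Agent.S24

variable {K F : Type*} [Field K] [Field F] [Algebra K F]

/-- Abstract `ℤ`-valued valuation on `F`, trivial on `K` (the value at `0` is irrelevant).
This is the interface between the analytic packages (orders of functions at points of `ℍ`
and at cusps) and the algebraic place count. -/
structure IsVal (w : F → ℤ) : Prop where
  mul : ∀ f g, f ≠ 0 → g ≠ 0 → w (f * g) = w f + w g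
  add : ∀ f g, f ≠ 0 → g ≠ 0 → f + g ≠ 0 → min (w f) (w g) ≤ w (f + g)
  const : ∀ c : K, c ≠ 0 → w (algebraMap K F c) = 0

namespace IsVal

variable {w : F → ℤ} (hw : IsVal (K := K) w)
include hw

theorem one : w 1 = 0 := by
  have := hw.const 1 one_ne_zero
  simpa using this

theorem inv {f : F} (hf : f ≠ 0) : w f⁻¹ = - w f := by
  have h := hw.mul f f⁻¹ hf (inv_ne_zero hf)
  rw [mul_inv_cancel₀ hf, hw.one] at h
  omega

theorem neg_one : w (-1) = 0 := by
  have := hw.const (-1) (by norm_num)
  simpa using this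

theorem neg {f : F} (hf : f ≠ 0) : w (-f) = w f := by
  have h := hw.mul (-1) f (by norm_num) hf
  rw [hw.neg_one] at h
  simpa using h

theorem div {f g : F} (hf : f ≠ 0) (hg : g ≠ 0) : w (f / g) = w f - w g := by
  rw [div_eq_mul_inv, hw.mul f g⁻¹ hf (inv_ne_zero hg), hw.inv hg]
  ring

theorem pow {f : F} (hf : f ≠ 0) (n : ℕ) : w (f ^ n) = n * w f := by
  induction n with
  | zero => simp [hw.one]
  | succ n ih =>
    rw [pow_succ, hw.mul _ _ (pow_ne_zero n hf) hf, ih]
    push_cast; ring

theorem sub {f g : F} (hf : f ≠ 0) (hg : g ≠ 0) (hfg : f - g ≠ 0) :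
    min (w f) (w g) ≤ w (f - g) := by
  have := hw.add f (-g) hf (neg_ne_zero.mpr hg) (by simpa [sub_eq_add_neg] using hfg)
  rwa [hw.neg hg, ← sub_eq_add_neg] at this

/-- if `w f < w g` then `w (f + g) = w f`. -/
theorem add_eq_of_lt {f g : F} (hf : f ≠ 0) (hg : g ≠ 0) (h : w f < w g) :
    f + g ≠ 0 ∧ w (f + g) = w f := by
  have hfg : f + g ≠ 0 := by
    intro h0
    have : g = -f := by linear_combination h0
    rw [this, hw.neg hf] at h
    exact lt_irrefl _ h
  refine ⟨hfg, le_antisymm ?_ ?_⟩
  · -- f = (f+g) - g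
    have h1 := hw.sub hfg hg (by simpa using hf)
    simp only [add_sub_cancel_right] at h1
    rcases min_le_iff.mp h1 with h2 | h2
    · exact h2
    · omega
  · have := hw.add f g hf hg hfg
    rwa [min_eq_left h.le] at this

end IsVal

end Fermat.Agent.S24
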