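import Mathlib
import Fermat.Prelude.Def_ModularCurve_ArithmeticGalois
import Fermat.Prelude.Def_GaloisRep_ComplexConjugation
import Fermat.Agent.S28.Slash

/-!
# S24, package A1: interface for the analytic realisation of the modular function field

* `Hol` : the `ℂ`-algebra of holomorphic functions on `ℍ` (a domain), `Mer := FractionRing Hol`.
* `holComp γ`, `merComp γ` : precomposition with `γ ∈ SL(2,ℤ)`.
* `jFun d` : the function `τ ↦ j(dτ)`; `jHol d` the corresponding element of `Hol`.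
* `kEmb` : a fixed embedding `Q̄ → ℂ`.
* `jBar N d hd` : the generator `j(q^d)` of `modularFunctionFieldBar N`.
* `IsEv N e` : `e : F →+* Mer` is the analytic realisation.
-/

set_option autoImplicit false

open UpperHalfPlane hiding I
open scoped MatrixGroups Manifold ModularForm
open CongruenceSubgroup ModularCurve EisensteinSeries

noncomputable section

namespace Fermat.Agent.S24

/-- Holomorphic functions on the upper half plane. -/
def Hol : Subalgebra ℂ (ℍ → ℂ) where
  carrier := {f | MDifferentiable 𝓘(ℂ) 𝓘(ℂ) f}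
  mul_mem' := fun hf hg => hf.mul hg
  add_mem' := fun hf hg => hf.add hg
  algebraMap_mem' := fun c => by
    show MDifferentiable 𝓘(ℂ) 𝓘(ℂ) (fun _ : ℍ => c)
    exact mdifferentiable_const

theorem mem_Hol {f : ℍ → ℂ} : f ∈ Hol ↔ MDifferentiable 𝓘(ℂ) 𝓘(ℂ) f := Iff.rfl

theorem hol_analyticOnNhd (f : Hol) :
    AnalyticOnNhd ℂ ((f : ℍ → ℂ) ∘ ofComplex) {z : ℂ | 0 < z.im} :=
  (UpperHalfPlane.mdifferentiable_iff.mp f.2).analyticOnNhd isOpen_upperHalfPlaneSet

theorem isPreconnected_upperHalfPlaneSet : IsPreconnected {z : ℂ | 0 < z.im} :=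
  (convex_halfSpace_im_gt 0).isPreconnected

theorem hol_ext_iff {f g : Hol} : f = g ↔ ∀ τ : ℍ, (f : ℍ → ℂ) τ = (g : ℍ → ℂ) τ := by
  constructor
  · rintro rfl τ; rfl
  · intro h; exact Subtype.ext (funext h)

theorem hol_eq_zero_of_eqOn {f : Hol}
    (h : ∀ z : ℂ, 0 < z.im → ((f : ℍ → ℂ) ∘ ofComplex) z = 0) : f = 0 := by
  rw [hol_ext_iff]
  intro τ
  have := h τ τ.im_pos
  simpa [Function.comp, ofComplex_apply] using this

instance : NoZeroDivisors Hol where
  eq_zero_or_eq_zero_of_mul_eq_zero := by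
    intro f g hfg
    have hmul : ∀ z ∈ {z : ℂ | 0 < z.im},
        ((f : ℍ → ℂ) ∘ ofComplex) z * ((g : ℍ → ℂ) ∘ ofComplex) z = 0 := by
      intro z _
      have := congrArg (fun h : Hol => (h : ℍ → ℂ) (ofComplex z)) hfg
      simpa using this
    rcases AnalyticOnNhd.eq_zero_or_eq_zero_of_mul_eq_zero (hol_analyticOnNhd f)
      (hol_analyticOnNhd g) hmul isPreconnected_upperHalfPlaneSet with h | h
    · exact Or.inl (hol_eq_zero_of_eqOn h)
    · exact Or.inr (hol_eq_zero_of_eqOn h)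

instance : Nontrivial Hol := ⟨⟨0, 1, fun h => by
  have := congrArg (fun h : Hol => (h : ℍ → ℂ) UpperHalfPlane.I) h
  simp at this⟩⟩

instance : IsDomain Hol := NoZeroDivisors.to_isDomain _

/-- The field of meromorphic functions on `ℍ`, as the fraction field of `Hol`. -/
abbrev Mer : Type := FractionRing Hol

theorem mdifferentiable_SL_smul (γ : SL(2, ℤ)) :
    MDifferentiable 𝓘(ℂ) 𝓘(ℂ) (fun τ : ℍ => γ • τ) := by
  have h : 0 < ((Matrix.SpecialLinearGroup.mapGL ℝ γ : GL (Fin 2) ℝ).det : ℝ) := by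
    simp
  exact UpperHalfPlane.mdifferentiable_smul h

/-- Precomposition with `γ ∈ SL(2,ℤ)`: `(holComp γ f) τ = f (γ • τ)`. -/
def holComp (γ : SL(2, ℤ)) : Hol →ₐ[ℂ] Hol where
  toFun f := ⟨fun τ => (f : ℍ → ℂ) (γ • τ), f.2.comp (mdifferentiable_SL_smul γ)⟩
  map_one' := rfl
  map_mul' _ _ := rfl
  map_zero' := rfl
  map_add' _ _ := rfl
  commutes' _ := rfl

@[simp]
theorem holComp_apply (γ : SL(2, ℤ)) (f : Hol) (τ : ℍ) :
    (holComp γ f : ℍ → ℂ) τ = (f : ℍ → ℂ) (γ • τ) := rfl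

theorem holComp_injective (γ : SL(2, ℤ)) : Function.Injective (holComp γ) := by
  intro f g h
  rw [hol_ext_iff] at h ⊢
  intro τ
  have := h (γ⁻¹ • τ)
  simpa using this

theorem holComp_one : holComp 1 = AlgHom.id ℂ Hol := by
  ext f τ
  simp

theorem holComp_mul (γ δ : SL(2, ℤ)) : holComp (γ * δ) = (holComp δ).comp (holComp γ) := by
  ext f τ
  simp [mul_smul]

/-- Precomposition with `γ ∈ SL(2,ℤ)` on meromorphic functions. -/
def merComp (γ : SL(2, ℤ)) : Mer →+* Mer :=
  IsFractionRing.map (A := Hol) (B := Hol) (K := Mer) (L := Mer)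
    (j := (holComp γ).toRingHom) (holComp_injective γ)

@[simp]
theorem merComp_algebraMap (γ : SL(2, ℤ)) (f : Hol) :
    merComp γ (algebraMap Hol Mer f) = algebraMap Hol Mer (holComp γ f) := by
  rw [merComp, IsFractionRing.map, IsLocalization.map_eq]
  rfl

@[simp]
theorem merComp_const (γ : SL(2, ℤ)) (c : ℂ) :
    merComp γ (algebraMap ℂ Mer c) = algebraMap ℂ Mer c := by
  rw [IsScalarTower.algebraMap_apply ℂ Hol Mer, merComp_algebraMap, AlgHom.commutes]

/-- The function `τ ↦ j(d τ)` (for `d = 0` this is `j` itself). -/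
def jFun (d : ℕ) (τ : ℍ) : ℂ :=
  ModularForm.E₄ (Fermat.Agent.S28.ut d 0 1 • τ) ^ 3 / ModularForm.discriminant (Fermat.Agent.S28.ut d 0 1 • τ)

theorem mdifferentiable_ut_smul (d : ℕ) :
    MDifferentiable 𝓘(ℂ) 𝓘(ℂ) (fun τ : ℍ => Fermat.Agent.S28.ut d 0 1 • τ) := by
  by_cases hd : 0 < d
  · exact UpperHalfPlane.mdifferentiable_smul (Fermat.Agent.S28.det_ut_pos hd one_pos)
  · have : d = 0 := by omega
    subst this
    have : Fermat.Agent.S28.ut 0 0 1 = 1 := by simp [Fermat.Agent.S28.ut]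
    simp only [this, one_smul]
    exact mdifferentiable_id

theorem mdifferentiable_jFun (d : ℕ) : MDifferentiable 𝓘(ℂ) 𝓘(ℂ) (jFun d) := by
  have h4 : MDifferentiable 𝓘(ℂ) 𝓘(ℂ) (fun τ : ℍ => ModularForm.E₄ (Fermat.Agent.S28.ut d 0 1 • τ)) :=
    (ModularFormClass.holo ModularForm.E₄).comp (mdifferentiable_ut_smul d)
  have hΔ : MDifferentiable 𝓘(ℂ) 𝓘(ℂ)
      (fun τ : ℍ => ModularForm.discriminant (Fermat.Agent.S28.ut d 0 1 • τ)) :=
    (CuspFormClass.holo CuspForm.discriminant).comp (mdifferentiable_ut_smul d)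
  rw [UpperHalfPlane.mdifferentiable_iff] at h4 hΔ ⊢
  have : jFun d ∘ ofComplex = fun z => ((fun τ : ℍ => ModularForm.E₄ (Fermat.Agent.S28.ut d 0 1 • τ)) ∘ ofComplex) z ^ 3 /
      ((fun τ : ℍ => ModularForm.discriminant (Fermat.Agent.S28.ut d 0 1 • τ)) ∘ ofComplex) z := by
    funext z; rfl
  rw [this]
  exact (h4.pow 3).div hΔ (fun z _ => ModularForm.discriminant_ne_zero _)

/-- `τ ↦ j(d τ)` as an element of `Hol`. -/
def jHol (d : ℕ) : Hol := ⟨jFun d, mdifferentiable_jFun d⟩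

@[simp] theorem jHol_apply (d : ℕ) (τ : ℍ) : (jHol d : ℍ → ℂ) τ = jFun d τ := rfl

/-- A fixed embedding of `Q̄` into `ℂ`. -/
def kEmb : AlgebraicClosure ℚ →+* ℂ := complexEmbedding.toRingHom

theorem kEmb_injective : Function.Injective kEmb := kEmb.injective

/-- The generator `j(q^d)` of the modular function field over `Q̄`. -/
def jBar (N : ℕ) [NeZero N] (d : ℕ) [NeZero d] (hd : d ∣ N) : ↥(modularFunctionFieldBar N) :=
  ⟨coeffEmb (AlgebraicClosure ℚ) (qExpand ℚ d jq),
    coeffEmb_mem_laurentBaseChange (AlgebraicClosure ℚ) (jqd_mem_full N hd)⟩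

/-- The `j`-function as an element of the modular function field. -/
def jB (N : ℕ) [NeZero N] : ↥(modularFunctionFieldBar N) := jBar N 1 (one_dvd N)

/-- `e` is the analytic realisation of the modular function field: it is `kEmb` on constants and
sends `j(q^d)` to `τ ↦ j(dτ)`. (Such an `e` is unique, as `F` is generated by these elements.) -/
structure IsEv (N : ℕ) [NeZero N] (e : ↥(modularFunctionFieldBar N) →+* Mer) : Prop where
  const : ∀ a : AlgebraicClosure ℚ,
    e (algebraMap (AlgebraicClosure ℚ) ↥(modularFunctionFieldBar N) a) = algebraMap ℂ Mer (kEmb a)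
  gen : ∀ (d : ℕ) [NeZero d] (hd : d ∣ N), e (jBar N d hd) = algebraMap Hol Mer (jHol d)

/-- The conjugate of the realisation `e` by `γ ∈ SL(2,ℤ)`: `f ↦ e(f) ∘ γ`. -/
def conjEv (N : ℕ) [NeZero N] (e : ↥(modularFunctionFieldBar N) →+* Mer) (γ : SL(2, ℤ)) :
    ↥(modularFunctionFieldBar N) →+* Mer :=
  (merComp γ).comp e

end Fermat.Agent.S24
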