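import Fermat.Agent.S20.Phi
import Mathlib.RingTheory.RootsOfUnity.PrimitiveRoots

/-!
# S24 package A2 (part 1): orders of invariant functions at elliptic points

* `S24_zpow_order_eq_one_of_comp`: if `g` is meromorphic at `x` with order `k`, and `g ∘ m = g`
  near `x` for a local biholomorphism `m` fixing `x` with `m'(x) = lam`, then `lam ^ k = 1`.
* `S24_denom_zpow_order_eq_one`: the same for `g = G ∘ ofComplex`, `G` invariant under a
  `γ : SL(2,ℤ)` fixing `τ₀`: `(denom γ τ₀ ^ 2) ^ k = 1`.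
* `S24_two_dvd_order_of_S_inv`, `S24_three_dvd_order_of_ST_inv`.
-/

set_option autoImplicit false
set_option maxHeartbeats 400000

namespace Fermat.Agent.S24

open UpperHalfPlane ModularForm Matrix.SpecialLinearGroup Filter Topology ModularGroup
open scoped MatrixGroups ModularForm Manifold
open Fermat.Agent.S20

/-- If `g` has order `k` at `x` and is invariant under a local biholomorphism `m` fixing `x`
with derivative `lam`, then `lam ^ k = 1`. -/
theorem S24_zpow_order_eq_one_of_comp {g m : ℂ → ℂ} {x lam : ℂ} {k : ℤ}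
    (hg : MeromorphicAt g x) (hk : meromorphicOrderAt g x = k)
    (hm : HasDerivAt m lam x) (hmx : m x = x) (hlam : lam ≠ 0)
    (hinv : ∀ᶠ z in 𝓝[≠] x, g (m z) = g z) : lam ^ k = 1 := by
  obtain ⟨h, hh_an, hh_ne, hh_eq⟩ := (meromorphicOrderAt_eq_int_iff hg).mp hk
  have hmd : DifferentiableAt ℂ m x := hm.differentiableAt
  have hμc : ContinuousAt (dslope m x) x := continuousAt_dslope_same.mpr hmd
  have hμx : dslope m x x = lam := by rw [dslope_same, hm.deriv]
  have hμne : ∀ᶠ z in 𝓝 x, dslope m x z ≠ 0 :=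
    hμc.eventually_ne (by rw [hμx]; exact hlam)
  have hmz : ∀ z, m z - x = (z - x) * dslope m x z := by
    intro z
    have := sub_smul_dslope m x z
    rw [smul_eq_mul, hmx] at this
    exact this.symm
  have hmne : ∀ᶠ z in 𝓝[≠] x, m z ∈ ({x}ᶜ : Set ℂ) := by
    have h1 : ∀ᶠ z in 𝓝[≠] x, dslope m x z ≠ 0 := hμne.filter_mono nhdsWithin_le_nhds
    filter_upwards [h1, self_mem_nhdsWithin] with z hz1 hz2
    have hz2' : z - x ≠ 0 := sub_ne_zero.mpr hz2
    simp only [Set.mem_compl_iff, Set.mem_singleton_iff]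
    intro hzx
    have := hmz z
    rw [hzx, sub_self] at this
    exact (mul_ne_zero hz2' hz1) this.symm
  have hmt : Tendsto m (𝓝[≠] x) (𝓝[≠] x) := by
    apply tendsto_nhdsWithin_of_tendsto_nhds_of_eventually_within _ _ hmne
    have := hmd.continuousAt.tendsto
    rw [hmx] at this
    exact this.mono_left nhdsWithin_le_nhds
  have hcomp : ∀ᶠ z in 𝓝[≠] x, g (m z) = (m z - x) ^ k • h (m z) := hmt.eventually hh_eq
  have key : ∀ᶠ z in 𝓝[≠] x, dslope m x z ^ k * h (m z) = h z := by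
    filter_upwards [hcomp, hh_eq, hinv, self_mem_nhdsWithin] with z h1 h2 h3 hz
    have hz' : z - x ≠ 0 := sub_ne_zero.mpr hz
    rw [h1, h2, hmz z, mul_zpow, smul_eq_mul, smul_eq_mul, mul_assoc] at h3
    exact mul_left_cancel₀ (zpow_ne_zero k hz') h3
  have hcm : ContinuousAt (fun z => h (m z)) x := by
    have : ContinuousAt h (m x) := by rw [hmx]; exact hh_an.continuousAt
    exact ContinuousAt.comp (f := m) (g := h) this hmd.continuousAt
  have hL : Tendsto (fun z => dslope m x z ^ k * h (m z)) (𝓝[≠] x) (𝓝 (lam ^ k * h x)) := by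
    have h1 : ContinuousAt (fun z => dslope m x z ^ k) x :=
      hμc.zpow₀ k (Or.inl (by rw [hμx]; exact hlam))
    have h2 : Tendsto (fun z => dslope m x z ^ k * h (m z)) (𝓝 x)
        (𝓝 (dslope m x x ^ k * h (m x))) := (h1.mul hcm).tendsto
    rw [hμx, hmx] at h2
    exact h2.mono_left nhdsWithin_le_nhds
  have hR : Tendsto (fun z => dslope m x z ^ k * h (m z)) (𝓝[≠] x) (𝓝 (h x)) :=
    (hh_an.continuousAt.tendsto.mono_left nhdsWithin_le_nhds).congr' (key.mono fun z hz => hz.symm)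
  have := tendsto_nhds_unique hL hR
  have h3 : (lam ^ k - 1) * h x = 0 := by rw [sub_mul, this]; ring
  rcases mul_eq_zero.mp h3 with h4 | h4
  · exact sub_eq_zero.mp h4
  · exact absurd h4 hh_ne

/-- A function on `ℍ` invariant under `γ : SL(2,ℤ)` fixing `τ₀`: its order `k` at `τ₀`
satisfies `(1 / denom γ τ₀ ^ 2) ^ k = 1`. -/
theorem S24_denom_zpow_order_eq_one {G : ℍ → ℂ} {τ₀ : ℍ} {γ : SL(2, ℤ)} {k : ℤ}
    (hG : MeromorphicAt (G ∘ ofComplex) τ₀) (hk : meromorphicOrderAt (G ∘ ofComplex) τ₀ = k)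
    (hfix : γ • τ₀ = τ₀) (hinv : ∀ τ, G (γ • τ) = G τ) :
    (1 / denom γ τ₀ ^ 2) ^ k = 1 := by
  have hdet0 : ((γ : GL (Fin 2) ℝ)).val.det = 1 := by
    have := (Matrix.SpecialLinearGroup.map (Int.castRingHom ℝ) γ).det_coe
    simpa using this
  have hdet : (0 : ℝ) < ((γ : GL (Fin 2) ℝ)).val.det := by rw [hdet0]; exact one_pos
  have hm := (hasStrictDerivAt_smul hdet τ₀).hasDerivAt
  rw [hdet0, Complex.ofReal_one] at hm
  refine S24_zpow_order_eq_one_of_comp hG hk hm ?_ ?_ ?_
  · simp only [ofComplex_apply]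
    rw [← sl_moeb, hfix]
  · exact div_ne_zero one_ne_zero (pow_ne_zero _ (denom_ne_zero _ τ₀))
  · have hopen : ∀ᶠ z in 𝓝[≠] (τ₀ : ℂ), z ∈ upperHalfPlaneSet :=
      (isOpen_upperHalfPlaneSet.mem_nhds τ₀.im_pos |> fun h => nhdsWithin_le_nhds h)
    filter_upwards [hopen] with z hz
    simp only [Function.comp_apply, ofComplex_apply]
    rw [← sl_moeb, hinv]

/-- A function invariant under `S` has even order at `i`. -/
theorem S24_two_dvd_order_of_S_inv {G : ℍ → ℂ} {k : ℤ}
    (hG : MeromorphicAt (G ∘ ofComplex) UpperHalfPlane.I)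
    (hk : meromorphicOrderAt (G ∘ ofComplex) UpperHalfPlane.I = k)
    (hinv : ∀ τ, G (S • τ) = G τ) : (2 : ℤ) ∣ k := by
  have h := S24_denom_zpow_order_eq_one hG hk S_smul_I hinv
  rw [denom_S_I, Complex.I_sq] at h
  have h1 : ((-1 : ℂ)) ^ k = 1 := by simpa [div_neg] using h
  rcases Int.even_or_odd k with he | ho
  · exact even_iff_two_dvd.mp he
  · exfalso
    rw [ho.neg_one_zpow] at h1
    norm_num at h1

/-- A function invariant under `S * T` has order divisible by `3` at `ρ`. -/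
theorem S24_three_dvd_order_of_ST_inv {G : ℍ → ℂ} {k : ℤ}
    (hG : MeromorphicAt (G ∘ ofComplex) rho)
    (hk : meromorphicOrderAt (G ∘ ofComplex) rho = k)
    (hinv : ∀ τ, G ((S * T) • τ) = G τ) : (3 : ℤ) ∣ k := by
  have h := S24_denom_zpow_order_eq_one hG hk ST_smul_rho hinv
  rw [denom_ST_rho, rho_add_one_sq] at h
  have hρ0 : (rho : ℂ) ≠ 0 := by
    intro h0
    have := rho_cube
    rw [h0] at this
    norm_num at this
  have h1 : (rho : ℂ) ^ k = 1 := by
    rw [one_div, inv_zpow, inv_eq_one] at h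
    exact h
  have hprim : IsPrimitiveRoot (rho : ℂ) 3 := by
    rw [← orderOf_eq_prime (p := 3) rho_cube rho_ne_one]
    exact IsPrimitiveRoot.orderOf _
  exact (hprim.zpow_eq_one_iff_dvd k).mp h1

end Fermat.Agent.S24
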