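import Mathlib
import Fermat.Agent.S24.Elliptic

/-!
# S24, package A2a: the order of a function on `ℍ` at a point

For `g : ℍ → ℂ` and `τ : ℍ`, `S24_ordAt g τ : WithTop ℤ` is the meromorphic order of
`z ↦ g (ofComplex z)` at `τ` (Mathlib's `meromorphicOrderAt`).

* valuation axioms: `S24_ordAt_mul`, `S24_ordAt_inv`, `S24_ordAt_div`, `S24_ordAt_add`,
  `S24_ordAt_const`, `S24_ordAt_pow`, `S24_ordAt_zpow`;
* holomorphic functions: `S24_merAt_of_mdiff`, `S24_ordAt_nonneg`, `S24_ordAt_eq_zero_iff`,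
  `S24_ordAt_pos_iff`, `S24_ordAt_ne_top`, `S24_ordAt_eq_one`;
* Möbius invariance: `S24_ordAt_comp_smul` (`ord_τ (g ∘ γ) = ord_{γ τ} g`, `γ ∈ SL(2,ℤ)`);
* the multiplier lemma (`2 ∣ ord` at `i`, `3 ∣ ord` at `ρ`) is in `Elliptic.lean` (helper3);
  `S24_two_dvd_ordAt_I`, `S24_three_dvd_ordAt_rho` restate it for `S24_ordAt`.
-/

set_option autoImplicit false

open Filter Topology UpperHalfPlane
open scoped MatrixGroups Manifold

namespace Fermat.Agent.S24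

/-! ### The order at a point of `ℍ` -/

/-- The (meromorphic) order at `τ ∈ ℍ` of a function on `ℍ`. -/
noncomputable def S24_ordAt (g : ℍ → ℂ) (τ : ℍ) : WithTop ℤ :=
  meromorphicOrderAt (fun z : ℂ => g (ofComplex z)) (τ : ℂ)

/-- `g` is meromorphic at `τ ∈ ℍ`. -/
def S24_MerAt (g : ℍ → ℂ) (τ : ℍ) : Prop :=
  MeromorphicAt (fun z : ℂ => g (ofComplex z)) (τ : ℂ)

theorem S24_ordAt_def (g : ℍ → ℂ) (τ : ℍ) :
    S24_ordAt g τ = meromorphicOrderAt (fun z : ℂ => g (ofComplex z)) (τ : ℂ) := rfl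

theorem S24_analyticAt_of_mdiff {g : ℍ → ℂ} (hg : MDiff g) (τ : ℍ) :
    AnalyticAt ℂ (fun z : ℂ => g (ofComplex z)) (τ : ℂ) := by
  have h := UpperHalfPlane.mdifferentiable_iff.mp hg
  exact h.analyticAt (isOpen_upperHalfPlaneSet.mem_nhds τ.im_pos)

theorem S24_merAt_of_mdiff {g : ℍ → ℂ} (hg : MDiff g) (τ : ℍ) : S24_MerAt g τ :=
  (S24_analyticAt_of_mdiff hg τ).meromorphicAt

theorem S24_MerAt.mul {g h : ℍ → ℂ} {τ : ℍ} (hg : S24_MerAt g τ) (hh : S24_MerAt h τ) :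
    S24_MerAt (g * h) τ := MeromorphicAt.mul hg hh

theorem S24_MerAt.add {g h : ℍ → ℂ} {τ : ℍ} (hg : S24_MerAt g τ) (hh : S24_MerAt h τ) :
    S24_MerAt (g + h) τ := MeromorphicAt.add hg hh

theorem S24_MerAt.sub {g h : ℍ → ℂ} {τ : ℍ} (hg : S24_MerAt g τ) (hh : S24_MerAt h τ) :
    S24_MerAt (g - h) τ := MeromorphicAt.sub hg hh

theorem S24_MerAt.neg {g : ℍ → ℂ} {τ : ℍ} (hg : S24_MerAt g τ) : S24_MerAt (-g) τ :=
  MeromorphicAt.neg hg

theorem S24_MerAt.inv {g : ℍ → ℂ} {τ : ℍ} (hg : S24_MerAt g τ) : S24_MerAt g⁻¹ τ :=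
  MeromorphicAt.inv hg

theorem S24_MerAt.div {g h : ℍ → ℂ} {τ : ℍ} (hg : S24_MerAt g τ) (hh : S24_MerAt h τ) :
    S24_MerAt (g / h) τ := MeromorphicAt.div hg hh

theorem S24_MerAt.pow {g : ℍ → ℂ} {τ : ℍ} (hg : S24_MerAt g τ) (n : ℕ) :
    S24_MerAt (g ^ n) τ := MeromorphicAt.pow hg n

theorem S24_MerAt.zpow {g : ℍ → ℂ} {τ : ℍ} (hg : S24_MerAt g τ) (n : ℤ) :
    S24_MerAt (g ^ n) τ := MeromorphicAt.zpow hg n

theorem S24_merAt_const (c : ℂ) (τ : ℍ) : S24_MerAt (fun _ => c) τ :=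
  MeromorphicAt.const c _

theorem S24_ordAt_mul {g h : ℍ → ℂ} {τ : ℍ} (hg : S24_MerAt g τ) (hh : S24_MerAt h τ) :
    S24_ordAt (g * h) τ = S24_ordAt g τ + S24_ordAt h τ :=
  meromorphicOrderAt_mul hg hh

theorem S24_ordAt_inv (g : ℍ → ℂ) (τ : ℍ) : S24_ordAt g⁻¹ τ = -S24_ordAt g τ :=
  meromorphicOrderAt_inv

theorem S24_ordAt_div {g h : ℍ → ℂ} {τ : ℍ} (hg : S24_MerAt g τ) (hh : S24_MerAt h τ) :
    S24_ordAt (g / h) τ = S24_ordAt g τ - S24_ordAt h τ :=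
  meromorphicOrderAt_div hg hh

theorem S24_ordAt_pow {g : ℍ → ℂ} {τ : ℍ} (hg : S24_MerAt g τ) (n : ℕ) :
    S24_ordAt (g ^ n) τ = n * S24_ordAt g τ :=
  meromorphicOrderAt_pow hg

theorem S24_ordAt_zpow {g : ℍ → ℂ} {τ : ℍ} (hg : S24_MerAt g τ) (n : ℤ) :
    S24_ordAt (g ^ n) τ = n * S24_ordAt g τ :=
  meromorphicOrderAt_zpow hg

theorem S24_ordAt_add {g h : ℍ → ℂ} {τ : ℍ} (hg : S24_MerAt g τ) (hh : S24_MerAt h τ) :
    min (S24_ordAt g τ) (S24_ordAt h τ) ≤ S24_ordAt (g + h) τ :=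
  meromorphicOrderAt_add hg hh

theorem S24_ordAt_neg (g : ℍ → ℂ) (τ : ℍ) : S24_ordAt (-g) τ = S24_ordAt g τ :=
  meromorphicOrderAt_neg.symm

theorem S24_ordAt_sub {g h : ℍ → ℂ} {τ : ℍ} (hg : S24_MerAt g τ) (hh : S24_MerAt h τ) :
    min (S24_ordAt g τ) (S24_ordAt h τ) ≤ S24_ordAt (g - h) τ := by
  have := S24_ordAt_add hg hh.neg
  rwa [S24_ordAt_neg, ← sub_eq_add_neg] at this

theorem S24_ordAt_const {c : ℂ} (hc : c ≠ 0) (τ : ℍ) : S24_ordAt (fun _ => c) τ = 0 := by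
  classical
  rw [S24_ordAt, meromorphicOrderAt_const]
  simp [hc]

theorem S24_ordAt_zero (τ : ℍ) : S24_ordAt (fun _ => (0 : ℂ)) τ = ⊤ := by
  classical
  rw [S24_ordAt, meromorphicOrderAt_const]
  simp

/-- The order only depends on the germ. -/
theorem S24_ordAt_congr {g h : ℍ → ℂ} {τ : ℍ} (hgh : ∀ᶠ z in 𝓝 τ, g z = h z) :
    S24_ordAt g τ = S24_ordAt h τ := by
  apply meromorphicOrderAt_congr
  have h1 : Tendsto ofComplex (𝓝 (τ : ℂ)) (𝓝 τ) := by
    have := (UpperHalfPlane.contMDiffAt_ofComplex (n := 0) τ.im_pos).continuousAt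
    simpa [ContinuousAt, ofComplex_apply] using this
  exact (h1.eventually hgh).filter_mono nhdsWithin_le_nhds

/-! ### Holomorphic functions -/

theorem S24_ordAt_nonneg {g : ℍ → ℂ} (hg : MDiff g) (τ : ℍ) : 0 ≤ S24_ordAt g τ :=
  (S24_analyticAt_of_mdiff hg τ).meromorphicOrderAt_nonneg

theorem S24_ordAt_eq_zero_iff {g : ℍ → ℂ} (hg : MDiff g) (τ : ℍ) :
    S24_ordAt g τ = 0 ↔ g τ ≠ 0 := by
  have ha := S24_analyticAt_of_mdiff hg τ
  rw [S24_ordAt, ha.meromorphicOrderAt_eq]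
  have h0 : analyticOrderAt (fun z : ℂ => g (ofComplex z)) (τ : ℂ) = 0 ↔ g τ ≠ 0 := by
    rw [ha.analyticOrderAt_eq_zero]
    simp [ofComplex_apply]
  rw [← h0]
  cases h : analyticOrderAt (fun z : ℂ => g (ofComplex z)) (τ : ℂ) with
  | top => simp
  | coe n =>
    simp only [ENat.map_natCast]
    constructor
    · intro h'
      have : (n : ℤ) = 0 := by exact_mod_cast h'
      have : n = 0 := by exact_mod_cast this
      simp [this]
    · intro h'
      have : n = 0 := by exact_mod_cast h'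
      simp [this]

theorem S24_ordAt_pos_iff {g : ℍ → ℂ} (hg : MDiff g) (τ : ℍ) :
    0 < S24_ordAt g τ ↔ g τ = 0 := by
  have h1 := S24_ordAt_nonneg hg τ
  have h2 := S24_ordAt_eq_zero_iff hg τ
  constructor
  · intro h
    by_contra h'
    rw [h2.mpr h'] at h
    exact lt_irrefl _ h
  · intro h
    rcases h1.lt_or_eq with h3 | h3
    · exact h3
    · exact absurd h (h2.mp h3.symm)

/-- A holomorphic function on `ℍ` that is not identically zero has finite order everywhere. -/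
theorem S24_ordAt_ne_top {g : ℍ → ℂ} (hg : MDiff g) (hg0 : g ≠ 0) (τ : ℍ) :
    S24_ordAt g τ ≠ ⊤ := by
  intro htop
  rw [S24_ordAt, meromorphicOrderAt_eq_top_iff] at htop
  apply hg0
  apply UpperHalfPlane.eq_zero_of_frequently hg (τ := τ)
  have h1 : Tendsto ((↑) : ℍ → ℂ) (𝓝[≠] τ) (𝓝[≠] (τ : ℂ)) := by
    refine tendsto_nhdsWithin_of_tendsto_nhds_of_eventually_within _ ?_ ?_
    · exact (UpperHalfPlane.continuous_coe.tendsto τ).mono_left nhdsWithin_le_nhds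
    · filter_upwards [self_mem_nhdsWithin] with z hz
      exact fun h => hz (UpperHalfPlane.ext h)
  have h2 := h1.eventually htop
  refine Eventually.frequently ?_
  filter_upwards [h2] with z hz
  simpa [ofComplex_apply] using hz

/-- A simple zero has order one. -/
theorem S24_ordAt_eq_one {g : ℍ → ℂ} (hg : MDiff g) {τ : ℍ} (h0 : g τ = 0)
    (h1 : deriv (g ∘ ofComplex) τ ≠ 0) : S24_ordAt g τ = 1 := by
  have ha := S24_analyticAt_of_mdiff hg τ
  rw [S24_ordAt, ha.meromorphicOrderAt_eq]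
  have : analyticOrderAt (fun z : ℂ => g (ofComplex z)) (τ : ℂ) = 1 := by
    have h2 := ha.analyticOrderAt_sub_eq_one_of_deriv_ne_zero (by simpa [Function.comp_def] using h1)
    simpa [ofComplex_apply, h0] using h2
  rw [this]
  rfl

/-! ### Möbius transformations -/

/-- The order of `g ∘ γ` at `τ` is the order of `g` at `γ τ`. -/
theorem S24_ordAt_comp_smul (g : ℍ → ℂ) (γ : SL(2, ℤ)) (τ : ℍ) :
    S24_ordAt (fun z => g (γ • z)) τ = S24_ordAt g (γ • τ) := by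
  have hdet : 0 < ((γ : GL (Fin 2) ℝ)).val.det := by
    have := (Matrix.SpecialLinearGroup.map (Int.castRingHom ℝ) γ).det_coe
    have h1 : ((γ : GL (Fin 2) ℝ)).val.det = 1 := by simpa using this
    rw [h1]; exact one_pos
  exact UpperHalfPlane.meromorphicOrderAt_comp_smul (f := g) (τ := τ) hdet

theorem S24_merAt_comp_smul {g : ℍ → ℂ} (γ : SL(2, ℤ)) {τ : ℍ} (hg : S24_MerAt g (γ • τ)) :
    S24_MerAt (fun z => g (γ • z)) τ := by
  have hdet : 0 < ((γ : GL (Fin 2) ℝ)).val.det := by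
    have := (Matrix.SpecialLinearGroup.map (Int.castRingHom ℝ) γ).det_coe
    have h1 : ((γ : GL (Fin 2) ℝ)).val.det = 1 := by simpa using this
    rw [h1]; exact one_pos
  have ha := UpperHalfPlane.analyticAt_smul hdet τ
  have hd := UpperHalfPlane.deriv_smul_ne_zero hdet τ
  have h1 : MeromorphicAt ((fun z : ℂ => g (ofComplex z)) ∘
      (fun z : ℂ => ((((γ : GL (Fin 2) ℝ)) • ofComplex z : ℍ) : ℂ))) (τ : ℂ) := by
    rw [meromorphicAt_comp_iff_of_deriv_ne_zero ha hd]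
    simp only [ofComplex_apply]
    exact hg
  have e : ((fun z : ℂ => g (ofComplex z)) ∘
      (fun z : ℂ => ((((γ : GL (Fin 2) ℝ)) • ofComplex z : ℍ) : ℂ))) =
      fun z : ℂ => g (γ • ofComplex z) := by
    funext z
    simp only [Function.comp_apply, ofComplex_apply]
    rfl
  rw [e] at h1
  exact h1

/-- At `i`: invariance under `S` forces even order. -/
theorem S24_two_dvd_ordAt_I {g : ℍ → ℂ} {m : ℤ} (hg : S24_MerAt g UpperHalfPlane.I)
    (hm : S24_ordAt g UpperHalfPlane.I = m)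
    (hinv : ∀ τ, g (ModularGroup.S • τ) = g τ) : (2 : ℤ) ∣ m :=
  S24_two_dvd_order_of_S_inv hg hm hinv

/-- At `ρ`: invariance under `S T` forces order divisible by `3`. -/
theorem S24_three_dvd_ordAt_rho {g : ℍ → ℂ} {m : ℤ} (hg : S24_MerAt g Fermat.Agent.S20.rho)
    (hm : S24_ordAt g Fermat.Agent.S20.rho = m)
    (hinv : ∀ τ, g ((ModularGroup.S * ModularGroup.T) • τ) = g τ) : (3 : ℤ) ∣ m :=
  S24_three_dvd_order_of_ST_inv hg hm hinv

end Fermat.Agent.S24
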