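import Mathlib
import Fermat.Agent.S24.Defs
import Fermat.Agent.S24.PtOrd
import Fermat.Agent.S24.EvDefs

/-!
# S24, package A2a: the field `𝔐` of meromorphic functions on `ℍ` and its order valuations

* `Hol : Subalgebra ℂ (ℍ → ℂ)` — holomorphic functions on `ℍ`; it is a domain.
* `Mer := FractionRing Hol` — the field `𝔐`.
* `S24_valM τ : Valuation Mer ℤᵐ⁰`, `S24_ordM τ : Mer → ℤ` — order at `τ ∈ ℍ`;
  `S24_ordM_mul`, `S24_ordM_add`, `S24_ordM_algebraMap_complex`, `S24_ordM_of_hol`.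
* `S24_compH γ`, `S24_compM γ` — precomposition with `γ ∈ SL(2,ℤ)` (ring homs);
  `S24_ordM_compM : ordM τ (compM γ x) = ordM (γ • τ) x`.
* `S24_isVal_ordM` — `f ↦ ordM τ (σ f)` is an `IsVal` for every `K`-compatible ring hom `σ : F → 𝔐`.
* `S24_denom_zpow_ordM`, `S24_two_dvd_ordM_I`, `S24_three_dvd_ordM_rho` — multiplier lemma in `𝔐`.
-/

set_option autoImplicit false

open Filter Topology UpperHalfPlane
open scoped MatrixGroups Manifold WithZero

namespace Fermat.Agent.S24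

/-! ### Basic facts on `Hol` (defined in `EvDefs.lean`) -/

theorem S24_Hol_mdiff (f : Hol) : MDiff (f : ℍ → ℂ) := f.2

theorem S24_Hol_coe_mul (f g : Hol) : ((f * g : Hol) : ℍ → ℂ) = f * g := rfl

theorem S24_Hol_coe_add (f g : Hol) : ((f + g : Hol) : ℍ → ℂ) = f + g := rfl

theorem S24_Hol_coe_zero : ((0 : Hol) : ℍ → ℂ) = 0 := rfl

theorem S24_Hol_coe_one : ((1 : Hol) : ℍ → ℂ) = 1 := rfl

theorem S24_Hol_coe_ne_zero {f : Hol} (hf : f ≠ 0) : (f : ℍ → ℂ) ≠ 0 := fun h =>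
  hf (Subtype.ext h)

/-- A nonzero holomorphic function is nonzero in a punctured neighbourhood of every point. -/
theorem S24_Hol_eventually_ne {f : Hol} (hf : f ≠ 0) (τ : ℍ) :
    ∀ᶠ z in 𝓝[≠] (τ : ℂ), (f : ℍ → ℂ) (ofComplex z) ≠ 0 := by
  have h1 := S24_ordAt_ne_top (S24_Hol_mdiff f) (S24_Hol_coe_ne_zero hf) τ
  rw [S24_ordAt] at h1
  exact (meromorphicOrderAt_ne_top_iff_eventually_ne_zero
    (S24_merAt_of_mdiff (S24_Hol_mdiff f) τ)).1 h1

/-! ### The order valuation -/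

/-- the order of a nonzero holomorphic function, as an integer -/
noncomputable def S24_ordH (τ : ℍ) (f : Hol) : ℤ := (S24_ordAt (f : ℍ → ℂ) τ).untop₀

theorem S24_ordH_spec {f : Hol} (hf : f ≠ 0) (τ : ℍ) :
    S24_ordAt (f : ℍ → ℂ) τ = (S24_ordH τ f : ℤ) :=
  (WithTop.coe_untop₀_of_ne_top
    (S24_ordAt_ne_top (S24_Hol_mdiff f) (S24_Hol_coe_ne_zero hf) τ)).symm

theorem S24_ordH_nonneg (τ : ℍ) (f : Hol) : 0 ≤ S24_ordH τ f := by
  by_cases hf : f = 0
  · subst hf
    have : S24_ordAt ((0 : Hol) : ℍ → ℂ) τ = ⊤ := S24_ordAt_zero τ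
    rw [S24_ordH, this]
    rfl
  · have h := S24_ordAt_nonneg (S24_Hol_mdiff f) τ
    rw [S24_ordH_spec hf] at h
    exact_mod_cast h

theorem S24_ordH_one (τ : ℍ) : S24_ordH τ 1 = 0 := by
  have h : S24_ordAt ((1 : Hol) : ℍ → ℂ) τ = 0 := S24_ordAt_const one_ne_zero τ
  rw [S24_ordH, h]
  rfl

theorem S24_ordH_mul {f g : Hol} (hf : f ≠ 0) (hg : g ≠ 0) (τ : ℍ) :
    S24_ordH τ (f * g) = S24_ordH τ f + S24_ordH τ g := by
  have h := S24_ordAt_mul (S24_merAt_of_mdiff (S24_Hol_mdiff f) τ)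
    (S24_merAt_of_mdiff (S24_Hol_mdiff g) τ)
  rw [← S24_Hol_coe_mul, S24_ordH_spec (mul_ne_zero hf hg), S24_ordH_spec hf,
    S24_ordH_spec hg] at h
  exact_mod_cast h

theorem S24_ordH_add {f g : Hol} (hf : f ≠ 0) (hg : g ≠ 0) (hfg : f + g ≠ 0) (τ : ℍ) :
    min (S24_ordH τ f) (S24_ordH τ g) ≤ S24_ordH τ (f + g) := by
  have h := S24_ordAt_add (S24_merAt_of_mdiff (S24_Hol_mdiff f) τ)
    (S24_merAt_of_mdiff (S24_Hol_mdiff g) τ)
  rw [← S24_Hol_coe_add, S24_ordH_spec hfg, S24_ordH_spec hf, S24_ordH_spec hg] at h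
  exact_mod_cast h

/-- The order valuation at `τ` on holomorphic functions. -/
noncomputable def S24_valH (τ : ℍ) : Valuation Hol ℤᵐ⁰ where
  toFun f := by
    classical
    exact if f = 0 then 0 else WithZero.exp (-S24_ordH τ f)
  map_zero' := by simp
  map_one' := by simp [S24_ordH_one]
  map_mul' f g := by
    classical
    by_cases hf : f = 0
    · simp [hf]
    by_cases hg : g = 0
    · simp [hg]
    simp only [hf, hg, mul_ne_zero hf hg, if_false, S24_ordH_mul hf hg, neg_add,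
      WithZero.exp_add]
  map_add_le_max' f g := by
    classical
    by_cases hf : f = 0
    · simp [hf]
    by_cases hg : g = 0
    · simp [hg]
    by_cases hfg : f + g = 0
    · simp [hfg]
    simp only [hf, hg, hfg, if_false]
    have h := S24_ordH_add hf hg hfg τ
    rcases min_le_iff.mp h with h1 | h1
    · exact le_max_of_le_left (WithZero.exp_le_exp.mpr (by omega))
    · exact le_max_of_le_right (WithZero.exp_le_exp.mpr (by omega))

theorem S24_valH_apply {f : Hol} (hf : f ≠ 0) (τ : ℍ) :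
    S24_valH τ f = WithZero.exp (-S24_ordH τ f) := by
  classical
  show (if f = 0 then (0 : ℤᵐ⁰) else WithZero.exp (-S24_ordH τ f)) = _
  rw [if_neg hf]

theorem S24_valH_eq_zero_iff (τ : ℍ) (f : Hol) : S24_valH τ f = 0 ↔ f = 0 := by
  classical
  constructor
  · intro h
    by_contra hf
    rw [S24_valH_apply hf] at h
    exact WithZero.exp_ne_zero h
  · rintro rfl
    simp

theorem S24_nonZeroDivisors_le (τ : ℍ) :
    nonZeroDivisors Hol ≤ (S24_valH τ).supp.primeCompl := by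
  intro f hf
  have hf0 : f ≠ 0 := nonZeroDivisors.ne_zero hf
  show f ∉ (S24_valH τ).supp
  rw [Valuation.mem_supp_iff, S24_valH_eq_zero_iff]
  exact hf0

/-- The order valuation at `τ` on `𝔐`. -/
noncomputable def S24_valM (τ : ℍ) : Valuation Mer ℤᵐ⁰ :=
  (S24_valH τ).extendToLocalization (S24_nonZeroDivisors_le τ) Mer

/-- The order at `τ` of an element of `𝔐` (`0` for the zero element). -/
noncomputable def S24_ordM (τ : ℍ) (x : Mer) : ℤ := -WithZero.log (S24_valM τ x)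

theorem S24_valM_algebraMap (τ : ℍ) (f : Hol) :
    S24_valM τ (algebraMap Hol Mer f) = S24_valH τ f :=
  Valuation.extendToLocalization_apply_map_apply _ _ _ f

theorem S24_valM_ne_zero (τ : ℍ) {x : Mer} (hx : x ≠ 0) : S24_valM τ x ≠ 0 :=
  (Valuation.ne_zero_iff _).mpr hx

/-- order of (the image of) a nonzero holomorphic function -/
theorem S24_ordM_of_hol (τ : ℍ) {f : Hol} (hf : f ≠ 0) :
    S24_ordM τ (algebraMap Hol Mer f) = S24_ordH τ f := by
  rw [S24_ordM, S24_valM_algebraMap, S24_valH_apply hf, WithZero.log_exp, neg_neg]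

theorem S24_ordM_zero (τ : ℍ) : S24_ordM τ 0 = 0 := by simp [S24_ordM]

theorem S24_ordM_one (τ : ℍ) : S24_ordM τ 1 = 0 := by simp [S24_ordM]

theorem S24_ordM_mul (τ : ℍ) {x y : Mer} (hx : x ≠ 0) (hy : y ≠ 0) :
    S24_ordM τ (x * y) = S24_ordM τ x + S24_ordM τ y := by
  simp only [S24_ordM, map_mul]
  rw [WithZero.log_mul (S24_valM_ne_zero τ hx) (S24_valM_ne_zero τ hy)]
  ring

theorem S24_ordM_inv (τ : ℍ) (x : Mer) : S24_ordM τ x⁻¹ = -S24_ordM τ x := by
  rcases eq_or_ne x 0 with rfl | hx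
  · simp [S24_ordM]
  · simp only [S24_ordM, map_inv₀, WithZero.log_inv, neg_neg]

theorem S24_ordM_div (τ : ℍ) {x y : Mer} (hx : x ≠ 0) (hy : y ≠ 0) :
    S24_ordM τ (x / y) = S24_ordM τ x - S24_ordM τ y := by
  rw [div_eq_mul_inv, S24_ordM_mul τ hx (inv_ne_zero hy), S24_ordM_inv]
  ring

theorem S24_ordM_add (τ : ℍ) {x y : Mer} (hx : x ≠ 0) (hy : y ≠ 0) (hxy : x + y ≠ 0) :
    min (S24_ordM τ x) (S24_ordM τ y) ≤ S24_ordM τ (x + y) := by
  have h := (S24_valM τ).map_add x y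
  have hx' := S24_valM_ne_zero τ hx
  have hy' := S24_valM_ne_zero τ hy
  have hxy' := S24_valM_ne_zero τ hxy
  simp only [S24_ordM]
  rcases le_max_iff.mp h with h1 | h1
  · have := (WithZero.log_le_log hxy' hx').mpr h1
    exact min_le_of_left_le (by omega)
  · have := (WithZero.log_le_log hxy' hy').mpr h1
    exact min_le_of_right_le (by omega)

/-- nonzero constants have order `0` -/
theorem S24_ordM_algebraMap_complex (τ : ℍ) {c : ℂ} (hc : c ≠ 0) :
    S24_ordM τ (algebraMap ℂ Mer c) = 0 := by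
  have h0 : algebraMap ℂ Hol c ≠ 0 := by
    intro h
    have := congrFun (congrArg Subtype.val h) UpperHalfPlane.I
    exact hc this
  rw [IsScalarTower.algebraMap_apply ℂ Hol Mer, S24_ordM_of_hol τ h0, S24_ordH]
  have : S24_ordAt ((algebraMap ℂ Hol c : Hol) : ℍ → ℂ) τ = 0 := S24_ordAt_const hc τ
  rw [this]
  rfl

/-- every element of `𝔐` is a quotient of holomorphic functions -/
theorem S24_exists_eq_div (x : Mer) : ∃ a b : Hol, b ≠ 0 ∧
    x = algebraMap Hol Mer a / algebraMap Hol Mer b := by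
  obtain ⟨a, b, hb, h⟩ := IsFractionRing.div_surjective (A := Hol) x
  exact ⟨a, b, nonZeroDivisors.ne_zero hb, h.symm⟩

theorem S24_algebraMap_ne_zero {f : Hol} (hf : f ≠ 0) :
    algebraMap Hol Mer f ≠ 0 := by
  intro h
  exact hf ((IsFractionRing.injective Hol Mer) (by rw [h, map_zero]))

theorem S24_ordM_div_hol (τ : ℍ) {a b : Hol} (ha : a ≠ 0) (hb : b ≠ 0) :
    S24_ordM τ (algebraMap Hol Mer a / algebraMap Hol Mer b) =
      S24_ordH τ a - S24_ordH τ b := by
  rw [S24_ordM_div τ (S24_algebraMap_ne_zero ha) (S24_algebraMap_ne_zero hb),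
    S24_ordM_of_hol τ ha, S24_ordM_of_hol τ hb]

/-! ### Precomposition with `γ ∈ SL(2,ℤ)` -/

theorem S24_holComp_ne_zero (γ : SL(2, ℤ)) {f : Hol} (hf : f ≠ 0) : holComp γ f ≠ 0 := by
  intro h
  exact hf (holComp_injective γ (by rw [h, map_zero]))

theorem S24_ordH_holComp (γ : SL(2, ℤ)) (f : Hol) (τ : ℍ) :
    S24_ordH τ (holComp γ f) = S24_ordH (γ • τ) f := by
  have h := S24_ordAt_comp_smul (f : ℍ → ℂ) γ τ
  unfold S24_ordH
  have e : ((holComp γ f : Hol) : ℍ → ℂ) = fun z => (f : ℍ → ℂ) (γ • z) := rfl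
  rw [e, h]

/-- The order of `x ∘ γ` at `τ` is the order of `x` at `γ τ`. -/
theorem S24_ordM_merComp (γ : SL(2, ℤ)) (x : Mer) (τ : ℍ) :
    S24_ordM τ (merComp γ x) = S24_ordM (γ • τ) x := by
  obtain ⟨a, b, hb, rfl⟩ := S24_exists_eq_div x
  by_cases ha : a = 0
  · subst ha
    simp [S24_ordM_zero]
  rw [map_div₀, merComp_algebraMap, merComp_algebraMap,
    S24_ordM_div_hol τ (S24_holComp_ne_zero γ ha) (S24_holComp_ne_zero γ hb),
    S24_ordM_div_hol _ ha hb, S24_ordH_holComp, S24_ordH_holComp]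

/-- the plain function `a / b` attached to a pair of holomorphic functions -/
theorem S24_merAt_div_hol (a b : Hol) (τ : ℍ) :
    S24_MerAt (fun z => (a : ℍ → ℂ) z / (b : ℍ → ℂ) z) τ :=
  (S24_merAt_of_mdiff (S24_Hol_mdiff a) τ).div (S24_merAt_of_mdiff (S24_Hol_mdiff b) τ)

theorem S24_ordAt_div_hol {a b : Hol} (ha : a ≠ 0) (hb : b ≠ 0) (τ : ℍ) :
    S24_ordAt (fun z => (a : ℍ → ℂ) z / (b : ℍ → ℂ) z) τ =
      ((S24_ordH τ a - S24_ordH τ b : ℤ) : WithTop ℤ) := by
  have h := S24_ordAt_div (S24_merAt_of_mdiff (S24_Hol_mdiff a) τ)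
    (S24_merAt_of_mdiff (S24_Hol_mdiff b) τ)
  rw [S24_ordH_spec ha, S24_ordH_spec hb] at h
  have e : (fun z => (a : ℍ → ℂ) z / (b : ℍ → ℂ) z) = (a : ℍ → ℂ) / (b : ℍ → ℂ) := rfl
  rw [e, h]
  rfl

/-- **Multiplier lemma in `𝔐`.** If `γ ∈ SL(2,ℤ)` fixes `τ` and `x ∘ γ = x`, `x ≠ 0`, then
`(denom γ τ ^ 2) ^ ord_τ x = 1`. -/
theorem S24_denom_zpow_ordM {γ : SL(2, ℤ)} {τ : ℍ} (hfix : γ • τ = τ) {x : Mer} (hx : x ≠ 0)
    (hinv : merComp γ x = x) : (denom γ τ ^ 2) ^ (S24_ordM τ x) = 1 := by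
  obtain ⟨a, b, hb, rfl⟩ := S24_exists_eq_div x
  have ha : a ≠ 0 := by
    rintro rfl
    simp at hx
  have hb' := S24_algebraMap_ne_zero hb
  have hγb := S24_holComp_ne_zero γ hb
  have hγb' := S24_algebraMap_ne_zero hγb
  -- cross-multiplied invariance
  have hcross : holComp γ a * b = a * holComp γ b := by
    rw [map_div₀, merComp_algebraMap, merComp_algebraMap, div_eq_div_iff hγb' hb'] at hinv
    apply IsFractionRing.injective Hol Mer
    rw [map_mul, map_mul]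
    exact hinv
  have hpt : ∀ z : ℍ, (a : ℍ → ℂ) (γ • z) * (b : ℍ → ℂ) z = (a : ℍ → ℂ) z * (b : ℍ → ℂ) (γ • z) := by
    intro z
    have := congrFun (congrArg Subtype.val hcross) z
    simpa using this
  set g : ℍ → ℂ := fun z => (a : ℍ → ℂ) z / (b : ℍ → ℂ) z with hg
  have hgm : MeromorphicAt (g ∘ ofComplex) (τ : ℂ) := S24_merAt_div_hol a b τ
  have hgo : meromorphicOrderAt (g ∘ ofComplex) (τ : ℂ) =
      ((S24_ordM τ (algebraMap Hol Mer a / algebraMap Hol Mer b) : ℤ) : WithTop ℤ) := by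
    rw [S24_ordM_div_hol τ ha hb]
    exact S24_ordAt_div_hol ha hb τ
  have hdet0 : ((γ : GL (Fin 2) ℝ)).val.det = 1 := by
    have := (Matrix.SpecialLinearGroup.map (Int.castRingHom ℝ) γ).det_coe
    simpa using this
  have hdet : (0 : ℝ) < ((γ : GL (Fin 2) ℝ)).val.det := by rw [hdet0]; exact one_pos
  have hm := (UpperHalfPlane.hasStrictDerivAt_smul hdet τ).hasDerivAt
  rw [hdet0, Complex.ofReal_one] at hm
  have key := S24_zpow_order_eq_one_of_comp hgm hgo hm ?_ ?_ ?_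
  · rw [one_div, inv_zpow, inv_eq_one] at key
    exact key
  · simp only [ofComplex_apply]
    exact congrArg _ hfix
  · exact div_ne_zero one_ne_zero (pow_ne_zero _ (denom_ne_zero _ τ))
  · filter_upwards [S24_Hol_eventually_ne hb τ, S24_Hol_eventually_ne hγb τ] with z hz1 hz2
    have hz2' : (b : ℍ → ℂ) (γ • ofComplex z) ≠ 0 := hz2
    simp only [Function.comp_apply, hg, ofComplex_apply]
    show (a : ℍ → ℂ) (γ • ofComplex z) / (b : ℍ → ℂ) (γ • ofComplex z) =
      (a : ℍ → ℂ) (ofComplex z) / (b : ℍ → ℂ) (ofComplex z)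
    rw [div_eq_div_iff hz2' hz1]
    exact hpt (ofComplex z)

/-- At `i`: an `S`-invariant element of `𝔐` has even order. -/
theorem S24_two_dvd_ordM_I {x : Mer} (hx : x ≠ 0) (hinv : merComp ModularGroup.S x = x) :
    (2 : ℤ) ∣ S24_ordM UpperHalfPlane.I x := by
  have h := S24_denom_zpow_ordM Fermat.Agent.S20.S_smul_I hx hinv
  rw [Fermat.Agent.S20.denom_S_I, Complex.I_sq] at h
  rcases Int.even_or_odd (S24_ordM UpperHalfPlane.I x) with he | ho
  · exact even_iff_two_dvd.mp he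
  · exfalso
    rw [ho.neg_one_zpow] at h
    norm_num at h

/-- At `ρ`: an `ST`-invariant element of `𝔐` has order divisible by `3`. -/
theorem S24_three_dvd_ordM_rho {x : Mer} (hx : x ≠ 0)
    (hinv : merComp (ModularGroup.S * ModularGroup.T) x = x) :
    (3 : ℤ) ∣ S24_ordM Fermat.Agent.S20.rho x := by
  have h := S24_denom_zpow_ordM Fermat.Agent.S20.ST_smul_rho hx hinv
  rw [Fermat.Agent.S20.denom_ST_rho, Fermat.Agent.S20.rho_add_one_sq] at h
  have hprim : IsPrimitiveRoot ((Fermat.Agent.S20.rho : ℍ) : ℂ) 3 := by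
    rw [← orderOf_eq_prime (p := 3) Fermat.Agent.S20.rho_cube Fermat.Agent.S20.rho_ne_one]
    exact IsPrimitiveRoot.orderOf _
  have := (hprim.zpow_eq_one_iff_dvd _).mp h
  exact_mod_cast this


/-! ### `IsVal` -/

/-- For every ring hom `σ : F → 𝔐` compatible with an embedding `ι : K → ℂ`, the function
`f ↦ ord_τ (σ f)` is a `K`-trivial valuation in the sense of `IsVal`. -/
theorem S24_isVal_ordM {K F : Type*} [Field K] [Field F] [Algebra K F] (ι : K →+* ℂ)
    (σ : F →+* Mer) (hσ : ∀ c : K, σ (algebraMap K F c) = algebraMap ℂ Mer (ι c))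
    (τ : ℍ) : IsVal (K := K) (fun f : F => S24_ordM τ (σ f)) where
  mul f g hf hg := by
    simp only [map_mul]
    exact S24_ordM_mul τ ((map_ne_zero σ).mpr hf) ((map_ne_zero σ).mpr hg)
  add f g hf hg hfg := by
    simp only [map_add]
    exact S24_ordM_add τ ((map_ne_zero σ).mpr hf) ((map_ne_zero σ).mpr hg)
      (by rw [← map_add]; exact (map_ne_zero σ).mpr hfg)
  const c hc := by
    simp only [hσ]
    exact S24_ordM_algebraMap_complex τ ((map_ne_zero ι).mpr hc)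

end Fermat.Agent.S24
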