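import Fermat.Agent.S24.PtOrd
import Fermat.Agent.S24.Defs

/-!
# S24 package A2c (part 1): the cyclic wrapper feeding `placeCount`

* `S24_adjoin_sub_const`, `S24_norm_congr`, `S24_finrank_congr`, `S24_transcendental_sub_const`:
  passing from `K⟮j⟯` to `K⟮j - c⟯`.
* `S24_card_orbit_zpowers`: orbits of `⟨R⟩` have size `1` or `e` if `R ^ e` acts trivially, `e` prime.
* `S24_cyclic_inputs`: from `w γ x = e`, `w (R • γ) = w γ` and `e ∣ w γ f` at the `R`-fixed `γ`
  we get the three hypotheses `hwx`, `horb`, `hdiv` of `placeCount` for `G = zpowers R`.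
-/

set_option autoImplicit false
set_option maxHeartbeats 400000

open IntermediateField AlgebraicCurve UpperHalfPlane
open scoped MatrixGroups

namespace Fermat.Agent.S24

variable {K F : Type*} [Field K] [Field F] [Algebra K F]

/-! ### Generalities -/

/-- `K⟮x - c⟯ = K⟮x⟯`. -/
theorem S24_adjoin_sub_const (x : F) (c : K) : K⟮x - algebraMap K F c⟯ = K⟮x⟯ := by
  apply le_antisymm
  · rw [adjoin_simple_le_iff]
    exact sub_mem (mem_adjoin_simple_self K x) (IntermediateField.algebraMap_mem _ c)
  · rw [adjoin_simple_le_iff]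
    have h1 : x - algebraMap K F c ∈ K⟮x - algebraMap K F c⟯ := mem_adjoin_simple_self K _
    have h2 : algebraMap K F c ∈ K⟮x - algebraMap K F c⟯ := IntermediateField.algebraMap_mem _ c
    have := add_mem h1 h2
    simpa using this

/-- The norm does not see how the base field is presented. -/
theorem S24_norm_congr {E₁ E₂ : IntermediateField K F} (h : E₁ = E₂) (f : F) :
    algebraMap E₁ F (Algebra.norm E₁ f) = algebraMap E₂ F (Algebra.norm E₂ f) := by
  subst h; rfl

theorem S24_finrank_congr {E₁ E₂ : IntermediateField K F} (h : E₁ = E₂) :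
    Module.finrank E₁ F = Module.finrank E₂ F := by
  subst h; rfl

theorem S24_finiteDimensional_congr {E₁ E₂ : IntermediateField K F} (h : E₁ = E₂)
    (h1 : FiniteDimensional E₁ F) : FiniteDimensional E₂ F := by
  subst h; exact h1

theorem S24_transcendental_sub_const {x : F} (hx : Transcendental K x) (c : K) :
    Transcendental K (x - algebraMap K F c) := by
  intro h
  apply hx
  have h2 : IsAlgebraic K (algebraMap K F c) := isAlgebraic_algebraMap c
  have := h.add h2
  simpa using this

/-- Orbits of a cyclic group whose `e`-th power acts trivially (`e` prime): size `1` or `e`. -/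
theorem S24_card_orbit_zpowers {G X : Type*} [Group G] [MulAction G X] (R : G) (e : ℕ)
    (he : e.Prime) (hRe : ∀ γ : X, R ^ e • γ = γ) (γ : X) (hγ : R • γ ≠ γ) :
    Nat.card (MulAction.orbit (Subgroup.zpowers R) γ) = e := by
  have h1 : Function.minimalPeriod (R • ·) γ ∣ e := by
    apply Function.IsPeriodicPt.minimalPeriod_dvd
    show (fun x => R • x)^[e] γ = γ
    rw [smul_iterate]
    exact hRe γ
  have h2 : Function.minimalPeriod (R • ·) γ ≠ 1 := by
    intro h
    rw [Function.minimalPeriod_eq_one_iff_isFixedPt] at h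
    exact hγ h
  have h3 : Function.minimalPeriod (R • ·) γ = e := by
    rcases (Nat.dvd_prime he).mp h1 with h | h
    · exact absurd h h2
    · exact h
  rw [Nat.card_congr (MulAction.orbitZPowersEquiv R γ), h3, Nat.card_zmod]

/-! ### The cyclic wrapper around `placeCount` -/

/-- **A2c, abstract form.** `R` acts on the set `X` with `R ^ e` trivial (`e = 1` or prime);
`w γ x = e`, `w` is constant along `R`, and `e ∣ w γ f` at the `R`-fixed `γ`.
Then the hypotheses `hwx`, `horb`, `hdiv` of `placeCount` hold for `G = zpowers R`. -/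
theorem S24_cyclic_inputs (x : F) {G₀ X : Type} [Group G₀] [MulAction G₀ X]
    (R : G₀) (e : ℕ) (he : e = 1 ∨ e.Prime) (hRe : ∀ γ : X, R ^ e • γ = γ)
    (w : X → F → ℤ) (hwx : ∀ γ, w γ x = e)
    (hR : ∀ γ, w (R • γ) = w γ)
    (hfix : ∀ γ, R • γ = γ → ∀ f, f ≠ 0 → (e : ℤ) ∣ w γ f) :
    (∀ γ, 0 < w γ x) ∧ (∀ (g : Subgroup.zpowers R) γ, w (g • γ) = w γ) ∧
      (∀ γ f, f ≠ 0 →
        w γ x ∣ (Nat.card (MulAction.orbit (Subgroup.zpowers R) γ) : ℤ) * w γ f) := by
  have hepos : 0 < e := by
    rcases he with h | h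
    · omega
    · exact h.pos
  refine ⟨?_, ?_, ?_⟩
  · intro γ
    rw [hwx]
    exact_mod_cast hepos
  · rintro ⟨g, hg⟩ γ
    show w (g • γ) = w γ
    obtain ⟨k, rfl⟩ := Subgroup.mem_zpowers_iff.mp hg
    have key : ∀ n : ℕ, ∀ γ, w (R ^ n • γ) = w γ := by
      intro n
      induction n with
      | zero => intro γ; simp
      | succ n ih =>
        intro γ
        rw [pow_succ, mul_smul, ih, hR]
    have keyinv : ∀ n : ℕ, ∀ γ, w ((R ^ n)⁻¹ • γ) = w γ := by
      intro n γ
      have := key n ((R ^ n)⁻¹ • γ)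
      rw [smul_inv_smul] at this
      exact this.symm
    rcases Int.eq_nat_or_neg k with ⟨n, rfl | rfl⟩
    · simpa using key n γ
    · simpa using keyinv n γ
  · intro γ f hf
    rw [hwx]
    by_cases hγ : R • γ = γ
    · exact Dvd.dvd.mul_left (hfix γ hγ f hf) _
    · rcases he with h1 | hp
      · subst h1
        simp
      · rw [S24_card_orbit_zpowers R e hp hRe γ hγ]
        exact Dvd.intro _ rfl

end Fermat.Agent.S24
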