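import Mathlib

/-!
# S24, package A1-N: norm, trace and degree via finitely many embeddings

`k ⊂ F` finite separable, `M` any field over `k` (not necessarily algebraically closed),
`σ : X → (F →ₐ[k] M)` an injective family of embeddings with `[F : k] ≤ card X`.  Then
`card X = [F : k]`, every `k`-embedding `F → M` is one of the `σ x`, and
`algebraMap k M (Algebra.norm k f) = ∏ x, σ x f`, `algebraMap k M (Algebra.trace k F f) = ∑ x, σ x f`.
-/

set_option autoImplicit false

namespace Fermat.Agent.S24

section

variable {k F M : Type*} [Field k] [Field F] [Field M] [Algebra k F] [Algebra k M]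
  [FiniteDimensional k F] [Algebra.IsSeparable k F]
  {X : Type*} [Fintype X]

/-- the embeddings into the algebraic closure of `M` obtained from `σ` -/
noncomputable def S24_toClosure (σ : X → (F →ₐ[k] M)) (x : X) :
    F →ₐ[k] AlgebraicClosure M :=
  (IsScalarTower.toAlgHom k M (AlgebraicClosure M)).comp (σ x)

omit [FiniteDimensional k F] [Algebra.IsSeparable k F] [Fintype X] in
theorem S24_toClosure_injective {σ : X → (F →ₐ[k] M)} (hσ : Function.Injective σ) :
    Function.Injective (S24_toClosure σ) := by
  intro x y h
  apply hσ
  ext f
  have := congrArg (fun τ : F →ₐ[k] AlgebraicClosure M => τ f) h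
  simp only [S24_toClosure, AlgHom.comp_apply, IsScalarTower.coe_toAlgHom'] at this
  exact (algebraMap M (AlgebraicClosure M)).injective this

theorem S24_toClosure_bijective {σ : X → (F →ₐ[k] M)} (hσ : Function.Injective σ)
    (hcard : Module.finrank k F ≤ Fintype.card X) :
    Function.Bijective (S24_toClosure σ) := by
  classical
  rw [Fintype.bijective_iff_injective_and_card]
  refine ⟨S24_toClosure_injective hσ, le_antisymm ?_ ?_⟩
  · exact Fintype.card_le_of_injective _ (S24_toClosure_injective hσ)
  · rw [AlgHom.card k F (AlgebraicClosure M)]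
    exact hcard

/-- **Degree.** An injective family of at least `[F : k]` embeddings has exactly `[F : k]`
members. -/
theorem S24_card_eq_finrank_of_injective (σ : X → (F →ₐ[k] M)) (hσ : Function.Injective σ)
    (hcard : Module.finrank k F ≤ Fintype.card X) :
    Fintype.card X = Module.finrank k F := by
  classical
  rw [Fintype.card_of_bijective (S24_toClosure_bijective hσ hcard),
    AlgHom.card k F (AlgebraicClosure M)]

/-- Any family of distinct `k`-embeddings has at most `[F : k]` members. -/
theorem S24_card_le_finrank_of_injective (σ : X → (F →ₐ[k] M)) (hσ : Function.Injective σ) :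
    Fintype.card X ≤ Module.finrank k F := by
  classical
  rw [← AlgHom.card k F (AlgebraicClosure M)]
  exact Fintype.card_le_of_injective _ (S24_toClosure_injective hσ)

/-- **Norm formula.** -/
theorem S24_norm_eq_prod_of_injective (σ : X → (F →ₐ[k] M)) (hσ : Function.Injective σ)
    (hcard : Module.finrank k F ≤ Fintype.card X) (f : F) :
    algebraMap k M (Algebra.norm k f) = ∏ x, σ x f := by
  classical
  apply (algebraMap M (AlgebraicClosure M)).injective
  rw [← IsScalarTower.algebraMap_apply, Algebra.norm_eq_prod_embeddings k (AlgebraicClosure M),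
    map_prod]
  rw [← Fintype.prod_bijective _ (S24_toClosure_bijective hσ hcard) (fun x => σ x f |>
    algebraMap M (AlgebraicClosure M)) (fun τ => τ f)]
  intro x
  rfl

/-- **Trace formula.** -/
theorem S24_trace_eq_sum_of_injective (σ : X → (F →ₐ[k] M)) (hσ : Function.Injective σ)
    (hcard : Module.finrank k F ≤ Fintype.card X) (f : F) :
    algebraMap k M (Algebra.trace k F f) = ∑ x, σ x f := by
  classical
  apply (algebraMap M (AlgebraicClosure M)).injective
  rw [← IsScalarTower.algebraMap_apply, trace_eq_sum_embeddings (AlgebraicClosure M), map_sum]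
  rw [← Fintype.sum_bijective _ (S24_toClosure_bijective hσ hcard) (fun x => σ x f |>
    algebraMap M (AlgebraicClosure M)) (fun τ => τ f)]
  intro x
  rfl

/-- Every `k`-embedding `F → M` belongs to the family. -/
theorem S24_exists_eq_of_injective (σ : X → (F →ₐ[k] M)) (hσ : Function.Injective σ)
    (hcard : Module.finrank k F ≤ Fintype.card X) (τ : F →ₐ[k] M) : ∃ x, σ x = τ := by
  classical
  obtain ⟨x, hx⟩ := (S24_toClosure_bijective hσ hcard).2
    ((IsScalarTower.toAlgHom k M (AlgebraicClosure M)).comp τ)
  refine ⟨x, ?_⟩
  ext f
  have := congrArg (fun ρ : F →ₐ[k] AlgebraicClosure M => ρ f) hx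
  simp only [S24_toClosure, AlgHom.comp_apply, IsScalarTower.coe_toAlgHom'] at this
  exact (algebraMap M (AlgebraicClosure M)).injective this

end

end Fermat.Agent.S24
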