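import Fermat.Agent.S24.EvDist
import Fermat.Agent.S24.MerField
import Fermat.Agent.S24.NormEmb
import Fermat.Agent.S24.FinitePts
import Fermat.Agent.S20.P1Basic

/-!
# S24: the conjugates of the analytic realisation, indexed by the cosets `SL(2,ℤ) ⧸ Γ₀(N)`

`S24_sig N e γ : F →+* Mer` for `γ : S20_Q N`, defined as `conjEv N e g⁻¹` for a representative `g`.
Under `Γ₀(N)`-invariance of `e` (hypothesis `hinv`):
* `S24_sig_mk`, `S24_sig_smul` (`σ (a • γ) = merComp a⁻¹ ∘ σ γ`), `S24_sig_injective`;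
* `S24_sig_const`, `S24_sig_jB`;
* `S24_sig_norm`: `σ γ₀ (Nm_{F/K(j)} f) = ∏ γ, σ γ f` in `Mer`.
-/

set_option autoImplicit false
set_option maxHeartbeats 400000

open UpperHalfPlane hiding I
open scoped MatrixGroups Manifold ModularForm
open CongruenceSubgroup ModularCurve IntermediateField
open Fermat.Agent.S20

noncomputable section

namespace Fermat.Agent.S24

theorem merComp_hom_ext {φ ψ : Mer →+* Mer}
    (h : ∀ f : Hol, φ (algebraMap Hol Mer f) = ψ (algebraMap Hol Mer f)) : φ = ψ :=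
  IsLocalization.ringHom_ext (nonZeroDivisors Hol) (RingHom.ext h)

theorem merComp_one : merComp 1 = RingHom.id Mer := by
  apply merComp_hom_ext
  intro f
  rw [merComp_algebraMap, holComp_one]
  rfl

theorem merComp_mul (γ δ : SL(2, ℤ)) : merComp (γ * δ) = (merComp δ).comp (merComp γ) := by
  apply merComp_hom_ext
  intro f
  rw [merComp_algebraMap, holComp_mul, RingHom.comp_apply, merComp_algebraMap,
    merComp_algebraMap]
  rfl

theorem merComp_mul_apply (γ δ : SL(2, ℤ)) (x : Mer) :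
    merComp (γ * δ) x = merComp δ (merComp γ x) := by
  rw [merComp_mul]; rfl

theorem merComp_inv_apply (γ : SL(2, ℤ)) (x : Mer) : merComp γ (merComp γ⁻¹ x) = x := by
  rw [← merComp_mul_apply, inv_mul_cancel, merComp_one]; rfl

theorem merComp_inv_apply' (γ : SL(2, ℤ)) (x : Mer) : merComp γ⁻¹ (merComp γ x) = x := by
  rw [← merComp_mul_apply, mul_inv_cancel, merComp_one]; rfl

variable (N : ℕ) [NeZero N] (e : ↥(modularFunctionFieldBar N) →+* Mer)

/-- The conjugate of `e` attached to the coset `γ = g Γ₀(N)`: `f ↦ e f ∘ g⁻¹`. -/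
def S24_sig (γ : S20_Q N) : ↥(modularFunctionFieldBar N) →+* Mer :=
  conjEv N e (Quotient.out γ)⁻¹

variable {N e}

theorem S24_sig_mk (hinv : ∀ h ∈ Gamma0 N, ∀ f, merComp h (e f) = e f) (g : SL(2, ℤ)) :
    S24_sig N e (QuotientGroup.mk g) = conjEv N e g⁻¹ := by
  have hout : (Quotient.out (QuotientGroup.mk g : S20_Q N))⁻¹ * g ∈ Gamma0 N :=
    QuotientGroup.leftRel_apply.mp (Quotient.mk_out (s := QuotientGroup.leftRel (Gamma0 N)) g)
  set o := Quotient.out (QuotientGroup.mk g : S20_Q N) with ho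
  ext f
  show merComp o⁻¹ (e f) = merComp g⁻¹ (e f)
  have h1 : g⁻¹ = (o⁻¹ * g)⁻¹ * o⁻¹ := by group
  rw [h1, merComp_mul_apply, hinv _ (inv_mem hout)]

theorem S24_sig_smul (hinv : ∀ h ∈ Gamma0 N, ∀ f, merComp h (e f) = e f) (a : SL(2, ℤ))
    (γ : S20_Q N) (f : ↥(modularFunctionFieldBar N)) :
    S24_sig N e (a • γ) f = merComp a⁻¹ (S24_sig N e γ f) := by
  obtain ⟨g, rfl⟩ := QuotientGroup.mk_surjective γ
  have h1 : a • (QuotientGroup.mk g : S20_Q N) = QuotientGroup.mk (a * g) := rfl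
  rw [h1, S24_sig_mk hinv, S24_sig_mk hinv]
  show merComp (a * g)⁻¹ (e f) = merComp a⁻¹ (merComp g⁻¹ (e f))
  rw [mul_inv_rev, merComp_mul_apply]

theorem S24_sig_injective (he : IsEv N e) (hinv : ∀ h ∈ Gamma0 N, ∀ f, merComp h (e f) = e f) :
    Function.Injective (S24_sig N e) := by
  intro γ γ' h
  obtain ⟨g, rfl⟩ := QuotientGroup.mk_surjective γ
  obtain ⟨g', rfl⟩ := QuotientGroup.mk_surjective γ'
  rw [S24_sig_mk hinv, S24_sig_mk hinv] at h
  have h1 := conjEv_eq_imp_mem_Gamma0 N e he _ _ h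
  rw [inv_inv] at h1
  have h2 := inv_mem h1
  rw [mul_inv_rev, inv_inv] at h2
  exact QuotientGroup.eq.mpr h2

theorem S24_sig_const (he : IsEv N e) (γ : S20_Q N) (c : AlgebraicClosure ℚ) :
    S24_sig N e γ (algebraMap (AlgebraicClosure ℚ) ↥(modularFunctionFieldBar N) c) =
      algebraMap ℂ Mer (kEmb c) := by
  show merComp _ (e _) = _
  rw [he.const, merComp_const]

theorem holComp_jHol_one (g : SL(2, ℤ)) : holComp g (jHol 1) = jHol 1 := by
  rw [hol_ext_iff]
  intro τ
  simp only [holComp_apply, jHol_apply, jFun_one_eq]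
  exact S24_jfun_smul g τ

theorem S24_sig_jB (he : IsEv N e) (γ : S20_Q N) :
    S24_sig N e γ (jB N) = algebraMap Hol Mer (jHol 1) := by
  show merComp _ (e (jBar N 1 _)) = _
  rw [he.gen 1 (one_dvd N), merComp_algebraMap, holComp_jHol_one]

/-- All conjugates agree on `K(j)`. -/
theorem S24_sig_eq_on_adjoin (he : IsEv N e) (γ γ' : S20_Q N)
    (x : ↥(modularFunctionFieldBar N)) (hx : x ∈ (AlgebraicClosure ℚ)⟮jB N⟯) :
    S24_sig N e γ x = S24_sig N e γ' x := by
  obtain ⟨r, s, rfl⟩ := (IntermediateField.mem_adjoin_simple_iff _ _).mp hx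
  have key : ∀ (γ : S20_Q N) (p : Polynomial (AlgebraicClosure ℚ)),
      S24_sig N e γ (Polynomial.aeval (jB N) p) =
        Polynomial.eval₂ ((algebraMap ℂ Mer).comp kEmb) (algebraMap Hol Mer (jHol 1)) p := by
    intro γ p
    rw [Polynomial.aeval_def, Polynomial.hom_eval₂, S24_sig_jB he]
    congr 1
    ext c
    exact S24_sig_const he γ c
  rw [map_div₀, map_div₀, key, key, key, key]

/-- **Norm formula in `Mer`.** -/
theorem S24_sig_norm (he : IsEv N e) (hinv : ∀ h ∈ Gamma0 N, ∀ f, merComp h (e f) = e f)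
    [FiniteDimensional (AlgebraicClosure ℚ)⟮jB N⟯ ↥(modularFunctionFieldBar N)]
    (hdeg : Module.finrank (AlgebraicClosure ℚ)⟮jB N⟯ ↥(modularFunctionFieldBar N) ≤
      Nat.card (S20_Q N))
    (f : ↥(modularFunctionFieldBar N)) (γ₀ : S20_Q N) :
    S24_sig N e γ₀ (algebraMap (AlgebraicClosure ℚ)⟮jB N⟯ ↥(modularFunctionFieldBar N)
        (Algebra.norm (AlgebraicClosure ℚ)⟮jB N⟯ f)) = ∏ᶠ γ, S24_sig N e γ f := by
  classical
  letI : Fintype (S20_Q N) := Fintype.ofFinite _
  letI alg : Algebra (AlgebraicClosure ℚ)⟮jB N⟯ Mer :=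
    ((S24_sig N e γ₀).comp (algebraMap (AlgebraicClosure ℚ)⟮jB N⟯
      ↥(modularFunctionFieldBar N))).toAlgebra
  let σ : S20_Q N → (↥(modularFunctionFieldBar N) →ₐ[(AlgebraicClosure ℚ)⟮jB N⟯] Mer) :=
    fun γ =>
    { S24_sig N e γ with
      commutes' := fun x => by
        show S24_sig N e γ (algebraMap _ _ x) = S24_sig N e γ₀ (algebraMap _ _ x)
        exact S24_sig_eq_on_adjoin he γ γ₀ _ x.2 }
  have hσ : Function.Injective σ := by
    intro γ γ' h
    apply S24_sig_injective he hinv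
    ext f
    exact congrArg (fun φ : ↥(modularFunctionFieldBar N) →ₐ[(AlgebraicClosure ℚ)⟮jB N⟯] Mer =>
      φ f) h
  have hcard : Module.finrank (AlgebraicClosure ℚ)⟮jB N⟯ ↥(modularFunctionFieldBar N) ≤
      Fintype.card (S20_Q N) := by
    rwa [← Nat.card_eq_fintype_card]
  have := S24_norm_eq_prod_of_injective σ hσ hcard f
  rw [finprod_eq_prod_of_fintype]
  exact this

end Fermat.Agent.S24
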