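import Mathlib

/-!
# S24: the cyclic wrapper feeding `S24_placeCount_of`, cusp version (helper13)

`R` acts on `X` with `R ^ n` trivial (`n > 0` arbitrary); `w γ x = n`, `w` is constant along `R`,
and `n ∣ k * w γ f` whenever `R ^ k` fixes `γ`.  Then the hypotheses `hwx`, `horb`, `hdiv` of
`S24_placeCount_of` hold for `G = zpowers R`.
-/

set_option autoImplicit false

namespace Fermat.Agent.S24

variable {F : Type*} [Zero F]

/-- the orbit of `γ` under `⟨R⟩` has `minimalPeriod (R • ·) γ` elements. -/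
theorem S24_card_orbit_zpowers_eq_minimalPeriod {G₀ X : Type*} [Group G₀] [MulAction G₀ X]
    (R : G₀) (γ : X) :
    Nat.card (MulAction.orbit (Subgroup.zpowers R) γ) = Function.minimalPeriod (R • ·) γ := by
  rw [Nat.card_congr (MulAction.orbitZPowersEquiv R γ), Nat.card_zmod]

/-- **cusp version of `S24_cyclic_inputs`.** -/
theorem S24_cyclic_inputs_cusp (x : F) {G₀ X : Type} [Group G₀] [MulAction G₀ X]
    (R : G₀) (n : ℕ) (hn : 0 < n)
    (w : X → F → ℤ) (hwx : ∀ γ, w γ x = n)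
    (hR : ∀ γ, w (R • γ) = w γ)
    (hfix : ∀ γ (k : ℕ), R ^ k • γ = γ → ∀ f, f ≠ 0 → (n : ℤ) ∣ (k : ℤ) * w γ f) :
    (∀ γ, 0 < w γ x) ∧ (∀ (g : Subgroup.zpowers R) γ, w (g • γ) = w γ) ∧
      (∀ γ f, f ≠ 0 →
        w γ x ∣ (Nat.card (MulAction.orbit (Subgroup.zpowers R) γ) : ℤ) * w γ f) := by
  refine ⟨?_, ?_, ?_⟩
  · intro γ
    rw [hwx]
    exact_mod_cast hn
  · rintro ⟨g, hg⟩ γ
    show w (g • γ) = w γ
    obtain ⟨k, rfl⟩ := Subgroup.mem_zpowers_iff.mp hg
    have key : ∀ m : ℕ, ∀ γ, w (R ^ m • γ) = w γ := by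
      intro m
      induction m with
      | zero => intro γ; simp
      | succ m ih =>
        intro γ
        rw [pow_succ, mul_smul, ih, hR]
    have keyinv : ∀ m : ℕ, ∀ γ, w ((R ^ m)⁻¹ • γ) = w γ := by
      intro m γ
      have := key m ((R ^ m)⁻¹ • γ)
      rw [smul_inv_smul] at this
      exact this.symm
    rcases Int.eq_nat_or_neg k with ⟨m, rfl | rfl⟩
    · simpa using key m γ
    · simpa using keyinv m γ
  · intro γ f hf
    rw [hwx, S24_card_orbit_zpowers_eq_minimalPeriod]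
    apply hfix γ _ _ f hf
    exact MulAction.pow_smul_eq_iff_minimalPeriod_dvd.mpr dvd_rfl

end Fermat.Agent.S24
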