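import Mathlib
import Fermat.Agent.S24.EvDefs

/-! # S24: induction principle for the modular function field `F = Q̄(j(q^d) : d ∣ N)` -/

set_option autoImplicit false

open ModularCurve IntermediateField

namespace Fermat.Agent.S24

/-- **Induction principle for `F = modularFunctionFieldBar N`**: `F` is generated as a field by
the constants and the `jBar N d`. -/
theorem F_induction (N : ℕ) [NeZero N] (P : ↥(modularFunctionFieldBar N) → Prop)
    (hK : ∀ c : AlgebraicClosure ℚ,
      P (algebraMap (AlgebraicClosure ℚ) ↥(modularFunctionFieldBar N) c))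
    (hgen : ∀ (d : ℕ) [NeZero d] (hd : d ∣ N), P (jBar N d hd))
    (hadd : ∀ x y, P x → P y → P (x + y))
    (hmul : ∀ x y, P x → P y → P (x * y))
    (hinv : ∀ x, P x → P x⁻¹) : ∀ f, P f := by
  -- inner induction over `modularFunctionFieldFull N`
  have inner : ∀ (y : LaurentSeries ℚ) (hy : y ∈ modularFunctionFieldFull N),
      ∀ h : coeffEmb (AlgebraicClosure ℚ) y ∈ modularFunctionFieldBar N,
      P ⟨coeffEmb (AlgebraicClosure ℚ) y, h⟩ := by
    intro y hy
    refine IntermediateField.adjoin_induction ℚ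
      (p := fun y _ => ∀ h : coeffEmb (AlgebraicClosure ℚ) y ∈ modularFunctionFieldBar N,
        P ⟨coeffEmb (AlgebraicClosure ℚ) y, h⟩) ?_ ?_ ?_ ?_ ?_ hy
    · rintro x ⟨d, hne, hd, rfl⟩ h
      exact hgen d hd
    · intro r h
      have h1 := hK (algebraMap ℚ (AlgebraicClosure ℚ) r)
      have heq : (algebraMap (AlgebraicClosure ℚ) ↥(modularFunctionFieldBar N)
          (algebraMap ℚ (AlgebraicClosure ℚ) r)) =
          ⟨coeffEmb (AlgebraicClosure ℚ) (algebraMap ℚ (LaurentSeries ℚ) r), h⟩ := by
        apply Subtype.ext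
        show algebraMap (AlgebraicClosure ℚ) (LaurentSeries (AlgebraicClosure ℚ))
          (algebraMap ℚ (AlgebraicClosure ℚ) r) =
            coeffEmb (AlgebraicClosure ℚ) (algebraMap ℚ (LaurentSeries ℚ) r)
        rw [algebraMap_laurentSeries_eq_single, algebraMap_apply_eq_single, coeffEmb,
          coeffMap_single]
      rw [← heq]
      exact h1
    · intro x y hx hy ihx ihy h
      have hx' := coeffEmb_mem_laurentBaseChange (AlgebraicClosure ℚ) hx
      have hy' := coeffEmb_mem_laurentBaseChange (AlgebraicClosure ℚ) hy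
      have := hadd _ _ (ihx hx') (ihy hy')
      have heq : (⟨coeffEmb (AlgebraicClosure ℚ) (x + y), h⟩ : ↥(modularFunctionFieldBar N)) =
          ⟨coeffEmb (AlgebraicClosure ℚ) x, hx'⟩ + ⟨coeffEmb (AlgebraicClosure ℚ) y, hy'⟩ :=
        Subtype.ext (map_add _ x y)
      rw [heq]; exact this
    · intro x hx ihx h
      have hx' := coeffEmb_mem_laurentBaseChange (AlgebraicClosure ℚ) hx
      have := hinv _ (ihx hx')
      have heq : (⟨coeffEmb (AlgebraicClosure ℚ) x⁻¹, h⟩ : ↥(modularFunctionFieldBar N)) =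
          (⟨coeffEmb (AlgebraicClosure ℚ) x, hx'⟩)⁻¹ :=
        Subtype.ext (map_inv₀ _ x)
      rw [heq]; exact this
    · intro x y hx hy ihx ihy h
      have hx' := coeffEmb_mem_laurentBaseChange (AlgebraicClosure ℚ) hx
      have hy' := coeffEmb_mem_laurentBaseChange (AlgebraicClosure ℚ) hy
      have := hmul _ _ (ihx hx') (ihy hy')
      have heq : (⟨coeffEmb (AlgebraicClosure ℚ) (x * y), h⟩ : ↥(modularFunctionFieldBar N)) =
          ⟨coeffEmb (AlgebraicClosure ℚ) x, hx'⟩ * ⟨coeffEmb (AlgebraicClosure ℚ) y, hy'⟩ :=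
        Subtype.ext (map_mul _ x y)
      rw [heq]; exact this
  rintro ⟨f, hf⟩
  refine IntermediateField.adjoin_induction (AlgebraicClosure ℚ)
    (p := fun x hx => P ⟨x, hx⟩) ?_ ?_ ?_ ?_ ?_ hf
  · rintro x ⟨y, hy, rfl⟩
    exact inner y hy _
  · intro c
    have h1 := hK c
    have heq : (algebraMap (AlgebraicClosure ℚ) ↥(modularFunctionFieldBar N) c) =
        ⟨algebraMap (AlgebraicClosure ℚ) (LaurentSeries (AlgebraicClosure ℚ)) c,
          (modularFunctionFieldBar N).algebraMap_mem c⟩ := Subtype.ext rfl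
    rw [heq] at h1
    exact h1
  · intro x y hx hy ihx ihy
    have := hadd _ _ ihx ihy
    exact this
  · intro x hx ihx
    have := hinv _ ihx
    exact this
  · intro x y hx hy ihx ihy
    have := hmul _ _ ihx ihy
    exact this

end Fermat.Agent.S24
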