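import Fermat.Agent.S24.CuspGen
import Fermat.Agent.S24.Conj
import Fermat.Agent.S24.FInd
import Fermat.Agent.S24.CyclicCusp
import Fermat.Agent.S24.Defs

/-!
# S24 package A3 (part 4): the valuations at the cusps

For a coset `γ ∈ SL(2,ℤ) ⧸ Γ₀(N)` the function `cuspW N e γ : F → ℤ` is the order at `i∞` (in the
parameter `exp (2πiτ/N)`) of the conjugate `S24_sig N e γ f`.  We prove the hypotheses `hw`, `hwx`,
`horb`, `hdiv`, `hnorm` of `S24_placeCount_inv` for `G = ⟨T⟩`.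
-/

set_option autoImplicit false

open scoped Real Topology Manifold MatrixGroups
open UpperHalfPlane hiding I
open Complex Filter Function CongruenceSubgroup ModularCurve IntermediateField
open Fermat.Agent.S20

namespace Fermat.Agent.S24

variable {N : ℕ} [NeZero N] {e : ↥(modularFunctionFieldBar N) →+* Mer}

/-- every conjugate of a nonzero element of the modular function field has a well defined order
and leading coefficient at `i∞` -/
theorem cuspFrac_sig (he : IsEv N e) (γ : S20_Q N) :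
    ∀ f : ↥(modularFunctionFieldBar N), f = 0 ∨ ∃ n c, CuspFrac N (S24_sig N e γ f) n c := by
  apply F_induction N
  · intro c
    by_cases hc : c = 0
    · left; rw [hc, map_zero]
    · right
      rw [S24_sig_const he]
      exact ⟨0, kEmb c, CuspFrac.const (fun h ↦ hc (kEmb_injective (by rw [h, map_zero])))⟩
  · intro d _ hd
    right
    have hd0 : 0 < d := Nat.pos_of_ne_zero (NeZero.ne d)
    obtain ⟨a, d', c, -, -, -, -, h⟩ := cuspFrac_merComp_jHol N (Quotient.out γ)⁻¹ hd0 hd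
    have : S24_sig N e γ (jBar N d hd) =
        merComp (Quotient.out γ)⁻¹ (algebraMap Hol Mer (jHol d)) := by
      show merComp _ (e (jBar N d hd)) = _
      rw [he.gen d hd]
    rw [this]
    exact ⟨_, c, h⟩
  · intro x y hx hy
    by_cases hxy : x + y = 0
    · left; exact hxy
    right
    rcases hx with rfl | ⟨n, c, hx⟩
    · rw [zero_add] at hxy ⊢
      rcases hy with rfl | hy
      · exact absurd rfl hxy
      · exact hy
    rcases hy with rfl | ⟨m, d, hy⟩
    · rw [add_zero]; exact ⟨n, c, hx⟩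
    have hs : S24_sig N e γ x + S24_sig N e γ y ≠ 0 := by
      rw [← (S24_sig N e γ).map_add x y]
      exact fun h ↦ hxy ((map_eq_zero (S24_sig N e γ)).mp h)
    obtain ⟨k, c', h, -⟩ := hx.add hy hs
    rw [(S24_sig N e γ).map_add x y]
    exact ⟨k, c', h⟩
  · intro x y hx hy
    rcases hx with rfl | ⟨n, c, hx⟩
    · left; rw [zero_mul]
    rcases hy with rfl | ⟨m, d, hy⟩
    · left; rw [mul_zero]
    right
    rw [(S24_sig N e γ).map_mul x y]
    exact ⟨_, _, hx.mul hy⟩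
  · intro x hx
    rcases hx with rfl | ⟨n, c, hx⟩
    · left; rw [inv_zero]
    right
    rw [map_inv₀ (S24_sig N e γ) x]
    exact ⟨_, _, hx.inv⟩

variable (N e) in
/-- the valuation at the cusp attached to the coset `γ` -/
noncomputable def cuspW (γ : S20_Q N) (f : ↥(modularFunctionFieldBar N)) : ℤ :=
  open Classical in
  if h : ∃ n c, CuspFrac N (S24_sig N e γ f) n c then h.choose else 0

theorem cuspW_eq {γ : S20_Q N} {f : ↥(modularFunctionFieldBar N)} {n : ℤ} {c : ℂ}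
    (h : CuspFrac N (S24_sig N e γ f) n c) : cuspW N e γ f = n := by
  have hex : ∃ n c, CuspFrac N (S24_sig N e γ f) n c := ⟨n, c, h⟩
  unfold cuspW
  rw [dif_pos hex]
  obtain ⟨c', hc'⟩ := hex.choose_spec
  exact (hc'.unique h).1

theorem cuspW_zero (γ : S20_Q N) : cuspW N e γ 0 = 0 := by
  unfold cuspW
  rw [dif_neg]
  rintro ⟨n, c, h⟩
  exact h.ne_zero ((S24_sig N e γ).map_zero)

theorem cuspW_spec (he : IsEv N e) (γ : S20_Q N) {f : ↥(modularFunctionFieldBar N)} (hf : f ≠ 0) :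
    ∃ c, CuspFrac N (S24_sig N e γ f) (cuspW N e γ f) c := by
  rcases cuspFrac_sig he γ f with h | ⟨n, c, h⟩
  · exact absurd h hf
  · exact ⟨c, by rw [cuspW_eq h]; exact h⟩

/-- **hw**: `cuspW γ` is a valuation trivial on the constants -/
theorem cuspW_isVal (he : IsEv N e) (γ : S20_Q N) :
    IsVal (K := AlgebraicClosure ℚ) (cuspW N e γ) where
  mul f g hf hg := by
    obtain ⟨c, h⟩ := cuspW_spec he γ hf
    obtain ⟨d, h'⟩ := cuspW_spec he γ hg
    have := h.mul h'
    rw [← (S24_sig N e γ).map_mul f g] at this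
    exact cuspW_eq this
  add f g hf hg hfg := by
    obtain ⟨c, h⟩ := cuspW_spec he γ hf
    obtain ⟨d, h'⟩ := cuspW_spec he γ hg
    have hs : S24_sig N e γ f + S24_sig N e γ g ≠ 0 := by
      rw [← (S24_sig N e γ).map_add f g]
      exact fun h ↦ hfg ((map_eq_zero (S24_sig N e γ)).mp h)
    obtain ⟨k, c', hk, hle⟩ := h.add h' hs
    rw [← (S24_sig N e γ).map_add f g] at hk
    rw [cuspW_eq hk]
    exact hle
  const c hc := by
    have h : CuspFrac N (S24_sig N e γ (algebraMap (AlgebraicClosure ℚ) _ c)) 0 (kEmb c) := by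
      rw [S24_sig_const he]
      exact CuspFrac.const (fun h ↦ hc (kEmb_injective (by rw [h, map_zero])))
    exact cuspW_eq h

/-- **hwx**: `j⁻¹` has order `N` at every cusp (in the parameter `exp (2πiτ/N)`) -/
theorem cuspW_jB_inv (he : IsEv N e) (γ : S20_Q N) : cuspW N e γ (jB N)⁻¹ = N := by
  obtain ⟨c, h⟩ := cuspFrac_jHol_one N
  have h1 := h.inv
  rw [← S24_sig_jB he γ, ← map_inv₀ (S24_sig N e γ) (jB N), neg_neg] at h1
  exact cuspW_eq h1

/-- **hR**: `cuspW` is constant along `T` -/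
theorem cuspW_T_smul (he : IsEv N e) (hinv : ∀ h ∈ Gamma0 N, ∀ f, merComp h (e f) = e f)
    (γ : S20_Q N) : cuspW N e ((ModularGroup.T : SL(2, ℤ)) • γ) = cuspW N e γ := by
  funext f
  by_cases hf : f = 0
  · rw [hf, cuspW_zero, cuspW_zero]
  obtain ⟨c, h⟩ := cuspW_spec he γ hf
  have h1 := h.translate (-1)
  have e1 : (ModularGroup.T : SL(2, ℤ)) ^ (-1 : ℤ) = (ModularGroup.T)⁻¹ := by
    rw [zpow_neg, zpow_one]
  rw [e1, ← S24_sig_smul hinv] at h1
  exact cuspW_eq h1

/-- **hfix**: if `T ^ k` fixes the coset `γ` then `N ∣ k · ord` -/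
theorem cuspW_dvd_of_fix (he : IsEv N e) (hinv : ∀ h ∈ Gamma0 N, ∀ f, merComp h (e f) = e f)
    (γ : S20_Q N) (k : ℕ) (hk : (ModularGroup.T : SL(2, ℤ)) ^ k • γ = γ)
    (f : ↥(modularFunctionFieldBar N)) (hf : f ≠ 0) :
    (N : ℤ) ∣ (k : ℤ) * cuspW N e γ f := by
  obtain ⟨c, h⟩ := cuspW_spec he γ hf
  have h1 : merComp ((ModularGroup.T : SL(2, ℤ)) ^ (-(k : ℤ))) (S24_sig N e γ f) =
      S24_sig N e γ f := by
    have := S24_sig_smul hinv ((ModularGroup.T : SL(2, ℤ)) ^ k) γ f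
    rw [hk] at this
    rw [zpow_neg, zpow_natCast]
    exact this.symm
  have h2 := h.dvd_of_invariant _ h1
  rwa [neg_mul, dvd_neg] at h2

/-- the order of a finite product of conjugates -/
theorem cuspFrac_prod (he : IsEv N e) {f : ↥(modularFunctionFieldBar N)} (hf : f ≠ 0)
    (s : Finset (S20_Q N)) :
    ∃ c, CuspFrac N (∏ γ ∈ s, S24_sig N e γ f) (∑ γ ∈ s, cuspW N e γ f) c := by
  classical
  induction s using Finset.induction_on with
  | empty =>
    refine ⟨1, ?_⟩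
    have := CuspFrac.const (N := N) (z := 1) one_ne_zero
    simpa using this
  | insert a s ha ih =>
    obtain ⟨c, hc⟩ := ih
    obtain ⟨d, hd⟩ := cuspW_spec he a hf
    rw [Finset.prod_insert ha, Finset.sum_insert ha]
    exact ⟨_, hd.mul hc⟩

/-- **hnorm**: the sum of the orders of the conjugates is the order of the norm -/
theorem cuspW_norm (he : IsEv N e) (hinv : ∀ h ∈ Gamma0 N, ∀ f, merComp h (e f) = e f)
    [FiniteDimensional (AlgebraicClosure ℚ)⟮jB N⟯ ↥(modularFunctionFieldBar N)]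
    (hdeg : Module.finrank (AlgebraicClosure ℚ)⟮jB N⟯ ↥(modularFunctionFieldBar N) ≤
      Nat.card (S20_Q N))
    (f : ↥(modularFunctionFieldBar N)) (hf : f ≠ 0) (γ₀ : S20_Q N) :
    ∑ᶠ γ, cuspW N e γ f =
      cuspW N e γ₀ (algebraMap (AlgebraicClosure ℚ)⟮jB N⟯ ↥(modularFunctionFieldBar N)
        (Algebra.norm (AlgebraicClosure ℚ)⟮jB N⟯ f)) := by
  classical
  have : Finite (S20_Q N) := inferInstance
  have : Fintype (S20_Q N) := Fintype.ofFinite _
  have h := S24_sig_norm he hinv hdeg f γ₀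
  rw [finprod_eq_prod_of_fintype] at h
  rw [finsum_eq_sum_of_fintype]
  obtain ⟨c, hc⟩ := cuspFrac_prod he hf (Finset.univ : Finset (S20_Q N))
  rw [← h] at hc
  exact (cuspW_eq hc).symm

/-- **Package A3**: the inputs `hw`, `hwx`, `horb`, `hdiv`, `hnorm` of `S24_placeCount_inv` at the
cusps, for `G = ⟨T⟩` acting on `X = SL(2,ℤ) ⧸ Γ₀(N)` -/
theorem S24_cusp_inputs (he : IsEv N e) (hinv : ∀ h ∈ Gamma0 N, ∀ f, merComp h (e f) = e f)
    [FiniteDimensional (AlgebraicClosure ℚ)⟮jB N⟯ ↥(modularFunctionFieldBar N)]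
    (hdeg : Module.finrank (AlgebraicClosure ℚ)⟮jB N⟯ ↥(modularFunctionFieldBar N) ≤
      Nat.card (S20_Q N)) :
    (∀ γ, IsVal (K := AlgebraicClosure ℚ) (cuspW N e γ)) ∧
    (∀ γ, 0 < cuspW N e γ (jB N)⁻¹) ∧
    (∀ (g : Subgroup.zpowers (ModularGroup.T : SL(2, ℤ))) (γ : S20_Q N),
      cuspW N e (g • γ) = cuspW N e γ) ∧
    (∀ (γ : S20_Q N) f, f ≠ 0 → cuspW N e γ (jB N)⁻¹ ∣
      (Nat.card (MulAction.orbit (Subgroup.zpowers (ModularGroup.T : SL(2, ℤ))) γ) : ℤ) *
        cuspW N e γ f) ∧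
    (∀ f : ↥(modularFunctionFieldBar N), f ≠ 0 → ∀ γ₀, ∑ᶠ γ, cuspW N e γ f =
      cuspW N e γ₀ (algebraMap (AlgebraicClosure ℚ)⟮jB N⟯ ↥(modularFunctionFieldBar N)
        (Algebra.norm (AlgebraicClosure ℚ)⟮jB N⟯ f))) := by
  obtain ⟨h1, h2, h3⟩ := S24_cyclic_inputs_cusp (F := ↥(modularFunctionFieldBar N))
    (X := S20_Q N) (jB N)⁻¹ (ModularGroup.T : SL(2, ℤ)) N
    (Nat.pos_of_ne_zero (NeZero.ne N)) (cuspW N e) (cuspW_jB_inv he)
    (cuspW_T_smul he hinv) (cuspW_dvd_of_fix he hinv)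
  exact ⟨cuspW_isVal he, h1, h2, h3, fun f hf γ₀ ↦ cuspW_norm he hinv hdeg f hf γ₀⟩

end Fermat.Agent.S24
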