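import Fermat.Agent.S24.EvFormal

/-!
# S24, package A1: existence of the analytic realisation `e : F →+* Mer`

Main results:
* `exists_isEv N : ∃ e, IsEv N e`;
* `exists_isEv_qExp N`: moreover every `e f` is (the image in `Mer` of) an element `b` of the
  fraction field `BFrac` of the ring of holomorphic `1`-periodic functions bounded at `i∞`, whose
  `q`-expansion `thetaHom b` is the Laurent series `f` (with coefficients mapped to `ℂ`).
-/

set_option autoImplicit false

open UpperHalfPlane hiding I
open scoped MatrixGroups Manifold ModularForm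
open CongruenceSubgroup ModularCurve EisensteinSeries Function

noncomputable section

namespace Fermat.Agent.S24

instance : IsDomain BddSub := Function.Injective.isDomain qExpHom qExpHom_injective

/-- The fraction field of `BddSub`. -/
abbrev BFrac : Type := FractionRing BddSub

theorem ofPowerSeries_comp_qExpHom_injective :
    Function.Injective ((HahnSeries.ofPowerSeries ℤ ℂ).comp qExpHom) :=
  (HahnSeries.ofPowerSeries_injective).comp qExpHom_injective

/-- The `q`-expansion (as a Laurent series) of an element of `BFrac`. -/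
def thetaHom : BFrac →+* LaurentSeries ℂ :=
  IsFractionRing.lift (A := BddSub) (K := BFrac) (L := LaurentSeries ℂ)
    (g := (HahnSeries.ofPowerSeries ℤ ℂ).comp qExpHom) ofPowerSeries_comp_qExpHom_injective

theorem thetaHom_algebraMap (b : BddSub) :
    thetaHom (algebraMap BddSub BFrac b) = HahnSeries.ofPowerSeries ℤ ℂ (qExpHom b) := by
  rw [thetaHom, IsFractionRing.lift_algebraMap]
  rfl

theorem thetaHom_injective : Function.Injective thetaHom := thetaHom.injective

/-- The inclusion `BddSub → Hol`. -/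
def bddToHol : BddSub →+* Hol := (Subalgebra.inclusion BddSub_le_Hol).toRingHom

theorem bddToHol_injective : Function.Injective bddToHol :=
  Subalgebra.inclusion_injective BddSub_le_Hol

@[simp] theorem bddToHol_apply (b : BddSub) (τ : ℍ) :
    (bddToHol b : ℍ → ℂ) τ = (b : ℍ → ℂ) τ := rfl

/-- The inclusion of `BFrac` into `Mer`. -/
def bToMer : BFrac →+* Mer :=
  IsFractionRing.map (A := BddSub) (B := Hol) (K := BFrac) (L := Mer)
    (j := bddToHol) bddToHol_injective

theorem bToMer_algebraMap (b : BddSub) :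
    bToMer (algebraMap BddSub BFrac b) = algebraMap Hol Mer (bddToHol b) := by
  rw [bToMer, IsFractionRing.map, IsLocalization.map_eq]

/-- `E₄(dτ)³` as an element of `BddSub`. -/
def Egen (d : ℕ) [NeZero d] : BddSub :=
  ⟨scaleFun d e4cube, scaleFun_mem_BddSub (Nat.pos_of_ne_zero (NeZero.ne d)) e4cube_mem_BddSub⟩

/-- `Δ(dτ)` as an element of `BddSub`. -/
def Dgen (d : ℕ) [NeZero d] : BddSub :=
  ⟨scaleFun d discFun, scaleFun_mem_BddSub (Nat.pos_of_ne_zero (NeZero.ne d)) discFun_mem_BddSub⟩

theorem Dgen_ne_zero (d : ℕ) [NeZero d] : Dgen d ≠ 0 := by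
  intro h
  have := congrArg (fun b : BddSub => (b : ℍ → ℂ) UpperHalfPlane.I) h
  simp only [Dgen, scaleFun, discFun] at this
  exact ModularForm.discriminant_ne_zero _ this

/-- `j(dτ)` as an element of `BFrac`. -/
def Jgen (d : ℕ) [NeZero d] : BFrac :=
  algebraMap BddSub BFrac (Egen d) / algebraMap BddSub BFrac (Dgen d)

theorem algebraMap_Dgen_ne_zero (d : ℕ) [NeZero d] : algebraMap BddSub BFrac (Dgen d) ≠ 0 := by
  intro h
  exact Dgen_ne_zero d ((IsFractionRing.injective BddSub BFrac) (by rw [h, map_zero]))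

theorem thetaHom_Jgen (d : ℕ) [NeZero d] : thetaHom (Jgen d) = qExpand ℂ d jC := by
  have h := qExpand_jC_mul d
  have hD : thetaHom (algebraMap BddSub BFrac (Dgen d)) ≠ 0 := by
    intro h0
    exact algebraMap_Dgen_ne_zero d (thetaHom_injective (by rw [h0, map_zero]))
  rw [Jgen, map_div₀, div_eq_iff hD, thetaHom_algebraMap, thetaHom_algebraMap]
  exact h.symm

theorem bToMer_Jgen (d : ℕ) [NeZero d] : bToMer (Jgen d) = algebraMap Hol Mer (jHol d) := by
  have hD : bToMer (algebraMap BddSub BFrac (Dgen d)) ≠ 0 := by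
    intro h0
    exact algebraMap_Dgen_ne_zero d (bToMer.injective (by rw [h0, map_zero]))
  rw [Jgen, map_div₀, div_eq_iff hD, bToMer_algebraMap, bToMer_algebraMap, ← map_mul]
  congr 1
  rw [hol_ext_iff]
  intro τ
  show scaleFun d e4cube τ = jFun d τ * scaleFun d discFun τ
  simp only [scaleFun, e4cube, jFun, discFun]
  rw [div_mul_cancel₀ _ (ModularForm.discriminant_ne_zero _)]

theorem thetaHom_const (c : ℂ) :
    thetaHom (algebraMap ℂ BFrac c) = HahnSeries.C c := by
  rw [IsScalarTower.algebraMap_apply ℂ BddSub BFrac, thetaHom_algebraMap, qExpHom_algebraMap,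
    HahnSeries.ofPowerSeries_C]

theorem bToMer_const (c : ℂ) : bToMer (algebraMap ℂ BFrac c) = algebraMap ℂ Mer c := by
  rw [IsScalarTower.algebraMap_apply ℂ BddSub BFrac, bToMer_algebraMap,
    IsScalarTower.algebraMap_apply ℂ Hol Mer]
  rfl

/-- The subfield of Laurent series over `Q̄` whose image over `ℂ` is a `q`-expansion. -/
def expSubfield : Subfield (LaurentSeries (AlgebraicClosure ℚ)) :=
  (thetaHom.fieldRange).comap (coeffMap kEmb)

theorem mem_expSubfield {x : LaurentSeries (AlgebraicClosure ℚ)} :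
    x ∈ expSubfield ↔ ∃ b : BFrac, thetaHom b = coeffMap kEmb x := by
  rw [expSubfield, Subfield.mem_comap, RingHom.mem_fieldRange]

theorem gen_mem_expSubfield (d : ℕ) [NeZero d] :
    coeffEmb (AlgebraicClosure ℚ) (qExpand ℚ d jq) ∈ expSubfield := by
  rw [mem_expSubfield]
  exact ⟨Jgen d, by rw [thetaHom_Jgen, coeffMap_kEmb_gen]⟩

theorem const_mem_expSubfield (a : AlgebraicClosure ℚ) :
    algebraMap (AlgebraicClosure ℚ) (LaurentSeries (AlgebraicClosure ℚ)) a ∈ expSubfield := by
  rw [mem_expSubfield]
  refine ⟨algebraMap ℂ BFrac (kEmb a), ?_⟩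
  rw [thetaHom_const, algebraMap_laurentSeries_eq_single, coeffMap_single]
  rfl

theorem coeffEmb_mem_expSubfield (N : ℕ) [NeZero N] {y : LaurentSeries ℚ}
    (hy : y ∈ modularFunctionFieldFull N) :
    coeffEmb (AlgebraicClosure ℚ) y ∈ expSubfield := by
  have hle : (modularFunctionFieldFull N).toSubfield ≤
      expSubfield.comap (coeffEmb (AlgebraicClosure ℚ)) := by
    rw [modularFunctionFieldFull, IntermediateField.adjoin_toSubfield, Subfield.closure_le]
    rintro x (⟨c, rfl⟩ | ⟨d, hd, _, rfl⟩)
    · show coeffEmb (AlgebraicClosure ℚ) (algebraMap ℚ (LaurentSeries ℚ) c) ∈ expSubfield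
      have : coeffEmb (AlgebraicClosure ℚ) (algebraMap ℚ (LaurentSeries ℚ) c) =
          algebraMap (AlgebraicClosure ℚ) (LaurentSeries (AlgebraicClosure ℚ))
            (algebraMap ℚ (AlgebraicClosure ℚ) c) := by
        rw [algebraMap_laurentSeries_eq_single, algebraMap_laurentSeries_eq_single, coeffEmb,
          coeffMap_single]
      rw [this]
      exact const_mem_expSubfield _
    · haveI := hd
      exact gen_mem_expSubfield d
  exact hle hy

theorem mem_expSubfield_of_mem (N : ℕ) [NeZero N] {x : LaurentSeries (AlgebraicClosure ℚ)}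
    (hx : x ∈ modularFunctionFieldBar N) : x ∈ expSubfield := by
  have hle : (modularFunctionFieldBar N).toSubfield ≤ expSubfield := by
    show (laurentBaseChange (AlgebraicClosure ℚ) (modularFunctionFieldFull N)).toSubfield ≤ _
    rw [laurentBaseChange, IntermediateField.adjoin_toSubfield, Subfield.closure_le]
    rintro x (⟨c, rfl⟩ | ⟨y, hy, rfl⟩)
    · exact const_mem_expSubfield c
    · exact coeffEmb_mem_expSubfield N hy
  exact hle hx

/-- The `q`-expansion isomorphism of `BFrac` onto its range. -/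
def thetaEquiv : BFrac ≃+* thetaHom.range :=
  RingEquiv.ofBijective thetaHom.rangeRestrict
    ⟨fun a b h => thetaHom_injective (congrArg Subtype.val h), thetaHom.rangeRestrict_surjective⟩

theorem thetaHom_thetaEquiv_symm (y : thetaHom.range) :
    thetaHom (thetaEquiv.symm y) = (y : LaurentSeries ℂ) := by
  have := thetaEquiv.apply_symm_apply y
  exact congrArg Subtype.val this

/-- `F → range thetaHom`, `f ↦ coeffMap kEmb f`. -/
def toRange (N : ℕ) [NeZero N] : ↥(modularFunctionFieldBar N) →+* thetaHom.range :=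
  RingHom.codRestrict ((coeffMap kEmb).comp (modularFunctionFieldBar N).val.toRingHom)
    thetaHom.range (fun f => by
      obtain ⟨b, hb⟩ := mem_expSubfield.mp (mem_expSubfield_of_mem N f.2)
      exact ⟨b, hb⟩)

/-- The element of `BFrac` with `q`-expansion `f`. -/
def evB (N : ℕ) [NeZero N] : ↥(modularFunctionFieldBar N) →+* BFrac :=
  (thetaEquiv.symm : thetaHom.range →+* BFrac).comp (toRange N)

theorem thetaHom_evB (N : ℕ) [NeZero N] (f : ↥(modularFunctionFieldBar N)) :
    thetaHom (evB N f) = coeffMap kEmb (f : LaurentSeries (AlgebraicClosure ℚ)) := by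
  show thetaHom (thetaEquiv.symm (toRange N f)) = _
  rw [thetaHom_thetaEquiv_symm]
  rfl

/-- The analytic realisation of the modular function field. -/
def ev (N : ℕ) [NeZero N] : ↥(modularFunctionFieldBar N) →+* Mer := bToMer.comp (evB N)

theorem ev_eq (N : ℕ) [NeZero N] (f : ↥(modularFunctionFieldBar N)) :
    ev N f = bToMer (evB N f) := rfl

theorem evB_eq_of_thetaHom_eq (N : ℕ) [NeZero N] (f : ↥(modularFunctionFieldBar N)) (b : BFrac)
    (h : thetaHom b = coeffMap kEmb (f : LaurentSeries (AlgebraicClosure ℚ))) : evB N f = b :=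
  thetaHom_injective (by rw [thetaHom_evB, h])

theorem isEv_ev (N : ℕ) [NeZero N] : IsEv N (ev N) where
  const a := by
    rw [ev_eq, evB_eq_of_thetaHom_eq N _ (algebraMap ℂ BFrac (kEmb a)), bToMer_const]
    rw [thetaHom_const]
    show _ = coeffMap kEmb (algebraMap (AlgebraicClosure ℚ) (LaurentSeries (AlgebraicClosure ℚ)) a)
    rw [algebraMap_laurentSeries_eq_single, coeffMap_single]
    rfl
  gen d _ hd := by
    rw [ev_eq, evB_eq_of_thetaHom_eq N _ (Jgen d), bToMer_Jgen]
    rw [thetaHom_Jgen]
    show _ = coeffMap kEmb (coeffEmb (AlgebraicClosure ℚ) (qExpand ℚ d jq))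
    rw [coeffMap_kEmb_gen]

theorem exists_isEv (N : ℕ) [NeZero N] : ∃ e : ↥(modularFunctionFieldBar N) →+* Mer, IsEv N e :=
  ⟨ev N, isEv_ev N⟩

/-- Every `e f` comes from an element of `BFrac` whose `q`-expansion is `f`. -/
theorem ev_qExp (N : ℕ) [NeZero N] (f : ↥(modularFunctionFieldBar N)) :
    ∃ b : BFrac, bToMer b = ev N f ∧
      thetaHom b = coeffMap kEmb (f : LaurentSeries (AlgebraicClosure ℚ)) :=
  ⟨evB N f, rfl, thetaHom_evB N f⟩

end Fermat.Agent.S24
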