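import Fermat.Agent.S24.EvDeg
import Fermat.Agent.S24.Conj
import Fermat.Agent.S24.EvInv
import Fermat.Agent.S24.EvExists

/-!
# S24: `[F : Q̄(j)] = ψ(N)` and the norm formula without side hypotheses

* `finrank_eq_card_cos`, `finrank_eq_psi` : `[F : K(j)] = #(SL₂(ℤ)/Γ₀(N)) = ψ(N)`.
* `S24_sig_norm_ev` : `σ_{γ₀} (Nm_{F/K(j)} f) = ∏ γ, σ_γ f` for every analytic realisation `e`.
-/

set_option autoImplicit false
set_option maxHeartbeats 400000

open UpperHalfPlane hiding I
open scoped MatrixGroups Manifold ModularForm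
open CongruenceSubgroup ModularCurve IntermediateField
open Fermat.Agent.S20

noncomputable section

namespace Fermat.Agent.S24

variable (N : ℕ) [NeZero N]

/-- `F / K(j)` is integral (instance search for this is slow: use it by `have := ...`). -/
theorem S24_isIntegral_jB : Algebra.IsIntegral ↥((AlgebraicClosure ℚ)⟮jB N⟯)
    ↥(modularFunctionFieldBar N) := by
  have hfd := finiteDimensional_jB N
  exact Algebra.IsIntegral.of_finite _ _

/-- `F / K(j)` is separable (instance search for this is slow: use it by `have := ...`). -/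
theorem S24_isSeparable_jB : Algebra.IsSeparable ↥((AlgebraicClosure ℚ)⟮jB N⟯)
    ↥(modularFunctionFieldBar N) := by
  have hint := S24_isIntegral_jB N
  exact Algebra.IsSeparable.of_integral _ _

/-- `#(SL₂(ℤ)/Γ₀(N)) ≤ [F : K(j)]`: the conjugates are distinct embeddings. -/
theorem S24_card_cos_le_finrank (e : ↥(modularFunctionFieldBar N) →+* Mer) (he : IsEv N e) :
    Nat.card (S20_Q N) ≤
      Module.finrank (AlgebraicClosure ℚ)⟮jB N⟯ ↥(modularFunctionFieldBar N) := by
  classical
  have hfd := finiteDimensional_jB N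
  have hsep := S24_isSeparable_jB N
  have hinv := S24_hinv N e he
  let _ : Fintype (S20_Q N) := Fintype.ofFinite _
  obtain ⟨γ₀⟩ : Nonempty (S20_Q N) := ⟨QuotientGroup.mk 1⟩
  let alg : Algebra (AlgebraicClosure ℚ)⟮jB N⟯ Mer :=
    ((S24_sig N e γ₀).comp (algebraMap (AlgebraicClosure ℚ)⟮jB N⟯
      ↥(modularFunctionFieldBar N))).toAlgebra
  let σ : S20_Q N → (↥(modularFunctionFieldBar N) →ₐ[(AlgebraicClosure ℚ)⟮jB N⟯] Mer) :=
    fun γ =>
    { S24_sig N e γ with
      commutes' := fun x => by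
        show S24_sig N e γ (algebraMap _ _ x) = S24_sig N e γ₀ (algebraMap _ _ x)
        exact S24_sig_eq_on_adjoin he γ γ₀ _ x.2 }
  have hσ : Function.Injective σ := by
    intro γ γ' h
    apply S24_sig_injective he hinv
    ext f
    exact congrArg (fun φ : ↥(modularFunctionFieldBar N) →ₐ[(AlgebraicClosure ℚ)⟮jB N⟯] Mer =>
      φ f) h
  rw [Nat.card_eq_fintype_card]
  exact S24_card_le_finrank_of_injective σ hσ

/-- `[F : K(j)] = #(SL₂(ℤ)/Γ₀(N))`. -/
theorem finrank_eq_card_cos :
    Module.finrank (AlgebraicClosure ℚ)⟮jB N⟯ ↥(modularFunctionFieldBar N) =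
      Nat.card (S20_Q N) :=
  le_antisymm (finrank_le_card_cos N) (S24_card_cos_le_finrank N (ev N) (isEv_ev N))

/-- **hn**: `[F : K(j)] = ψ(N)`. -/
theorem finrank_eq_psi :
    Module.finrank (AlgebraicClosure ℚ)⟮jB N⟯ ↥(modularFunctionFieldBar N) =
      dedekindPsi N := by
  rw [finrank_eq_card_cos, S20_card_Q N]

/-- **Norm formula in `Mer`**, all side hypotheses discharged. -/
theorem S24_sig_norm_ev (e : ↥(modularFunctionFieldBar N) →+* Mer) (he : IsEv N e)
    (f : ↥(modularFunctionFieldBar N)) (γ₀ : S20_Q N) :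
    S24_sig N e γ₀ (algebraMap (AlgebraicClosure ℚ)⟮jB N⟯ ↥(modularFunctionFieldBar N)
        (Algebra.norm (AlgebraicClosure ℚ)⟮jB N⟯ f)) = ∏ᶠ γ, S24_sig N e γ f := by
  have := finiteDimensional_jB N
  exact S24_sig_norm he (S24_hinv N e he) (finrank_le_card_cos N) f γ₀

end Fermat.Agent.S24
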