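import Mathlib
import Fermat.Prelude.Def_AlgebraicCurve_CanonicalDivisor

/-!
# S24, package BL (local theory at a place), part 1: function field basics

`K` a field, `F / K` a field extension.
* `BL_ord_algebraMap`: constants have order `0` at every place.
* `BL_transcendental_of_ord_ne_zero`: elements of nonzero order are transcendental (`K` alg. closed).
* `BL_finite_of_transcendental`: if `F / K(x)` is finite then `F / K(t)` is finite for every
  transcendental `t`.
* `BL_span_D`, `BL_D_ne_zero`, `BL_exists_functional`: if `F / K(t)` is finite, `t` transcendental,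
  char. 0, then `Ω[F/K]` is one-dimensional with basis `dt`.
-/

set_option autoImplicit false

open AlgebraicCurve IntermediateField KaehlerDifferential
open scoped IntermediateField.algebraAdjoinAdjoin TensorProduct

universe u v

namespace Fermat.Agent.S24

variable {K : Type u} {F : Type v} [Field K] [Field F] [Algebra K F]

/-- nonzero constants have order zero at every place. -/
lemma BL_ord_algebraMap (v : Place K F) (a : K) : v.ord (algebraMap K F a) = 0 := by
  rcases eq_or_ne a 0 with rfl | ha
  · simp
  · have hu : IsUnit (algebraMap K v.toValuationSubring a) :=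
      (IsUnit.mk0 a ha).map (algebraMap K v.toValuationSubring)
    have := v.ord_coe_unit hu.unit
    simpa using this

lemma BL_mem_range_of_isIntegral [IsAlgClosed K] {R : Type*} [CommRing R] [IsDomain R]
    [Algebra K R] {x : R} (hx : IsIntegral K x) : x ∈ (algebraMap K R).range :=
  minpoly.mem_range_of_degree_eq_one K x
    (IsAlgClosed.degree_eq_one_of_irreducible K (minpoly.irreducible hx))

/-- an element of nonzero order is transcendental over the algebraically closed constant field. -/
lemma BL_transcendental_of_ord_ne_zero [IsAlgClosed K] (v : Place K F) {t : F}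
    (ht : v.ord t ≠ 0) : Transcendental K t := by
  intro halg
  obtain ⟨a, rfl⟩ := BL_mem_range_of_isIntegral halg.isIntegral
  exact ht (BL_ord_algebraMap v a)

/-- In a function field of one variable, `F` is finite over `K(t)` for every transcendental `t`. -/
theorem BL_finite_of_transcendental {x : F} (hfin : FiniteDimensional K⟮x⟯ F) {t : F}
    (ht : Transcendental K t) : FiniteDimensional K⟮t⟯ F := by
  -- `F` is algebraic over `K[x]`
  have halg : Algebra.IsAlgebraic (Algebra.adjoin K ({x} : Set F)) F := by
    have : Algebra.IsAlgebraic K⟮x⟯ F := Algebra.IsAlgebraic.of_finite _ _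
    exact (IsFractionRing.comap_isAlgebraic_iff (A := Algebra.adjoin K ({x} : Set F))
      (K := K⟮x⟯) (C := F)).2 this
  have htr : Algebra.trdeg K F ≤ 1 := by
    have := Algebra.IsAlgebraic.trdeg_le_cardinalMk K ({x} : Set F)
    simpa using this
  have hti : AlgebraicIndependent K (fun _ : PUnit.{v+1} => t) :=
    algebraicIndependent_unique_type_iff.2 ht
  have hbasis : IsTranscendenceBasis K (fun _ : PUnit.{v+1} => t) :=
    hti.isTranscendenceBasis_of_trdeg_le_of_finite (by simpa using htr)
  have halg' : Algebra.IsAlgebraic K⟮t⟯ F := by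
    have := hbasis.isAlgebraic_field
    have hr : Set.range (fun _ : PUnit.{v+1} => t) = {t} := Set.range_const
    rwa [hr] at this
  -- essential finiteness
  have h1 : Algebra.EssFiniteType K K⟮x⟯ := by
    rw [IntermediateField.essFiniteType_iff]
    exact IntermediateField.fg_adjoin_of_finite (Set.finite_singleton x)
  have h2 : Algebra.EssFiniteType K F := Algebra.EssFiniteType.comp K K⟮x⟯ F
  have h3 : Algebra.EssFiniteType K⟮t⟯ F := Algebra.EssFiniteType.of_comp K K⟮t⟯ F
  exact Algebra.finite_of_essFiniteType_of_isAlgebraic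

/-- `F` is formally étale over `K[t]` when `F / K(t)` is finite (char. 0). -/
lemma BL_formallyEtale [CharZero K] (t : F) [FiniteDimensional K⟮t⟯ F] :
    Algebra.FormallyEtale (Algebra.adjoin K ({t} : Set F)) F := by
  have : CharZero K⟮t⟯ := charZero_of_injective_algebraMap (algebraMap K K⟮t⟯).injective
  have h1 : Algebra.FormallyEtale (Algebra.adjoin K ({t} : Set F)) K⟮t⟯ :=
    Algebra.FormallyEtale.of_isLocalization (nonZeroDivisors (Algebra.adjoin K ({t} : Set F)))
  have h2 : Algebra.FormallyEtale K⟮t⟯ F := Algebra.FormallyEtale.of_isSeparable K⟮t⟯ F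
  exact Algebra.FormallyEtale.comp (Algebra.adjoin K ({t} : Set F)) K⟮t⟯ F

/-- the generator of `K[t]`. -/
def BL_gen (t : F) : Algebra.adjoin K ({t} : Set F) := ⟨t, Algebra.self_mem_adjoin_singleton K t⟩

lemma BL_exists_aeval (t : F) (a : Algebra.adjoin K ({t} : Set F)) :
    ∃ p : Polynomial K, a = Polynomial.aeval (BL_gen (K := K) t) p := by
  obtain ⟨p, hp⟩ : (a : F) ∈ (Polynomial.aeval t : Polynomial K →ₐ[K] F).range := by
    rw [← Algebra.adjoin_singleton_eq_range_aeval]; exact a.2
  refine ⟨p, Subtype.ext ?_⟩
  rw [← hp]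
  have : ((Polynomial.aeval (BL_gen (K := K) t) p : Algebra.adjoin K ({t} : Set F)) : F) =
      Polynomial.aeval ((BL_gen (K := K) t : Algebra.adjoin K ({t} : Set F)) : F) p :=
    (Polynomial.aeval_algHom_apply (Algebra.adjoin K ({t} : Set F)).val _ p).symm
  rw [this]; rfl

/-- `Ω[K[t]/K]` is spanned by `dt`. -/
lemma BL_span_gen (t : F) :
    Submodule.span (Algebra.adjoin K ({t} : Set F))
      {D K (Algebra.adjoin K ({t} : Set F)) (BL_gen t)} = ⊤ := by
  rw [eq_top_iff, ← KaehlerDifferential.span_range_derivation, Submodule.span_le]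
  rintro _ ⟨a, rfl⟩
  obtain ⟨p, rfl⟩ := BL_exists_aeval t a
  rw [Derivation.map_aeval]
  exact Submodule.smul_mem _ _ (Submodule.subset_span rfl)

/-- `Ω[F/K]` is spanned by `dt`. -/
theorem BL_span_D [CharZero K] (t : F) [FiniteDimensional K⟮t⟯ F] :
    Submodule.span F {D K F t} = ⊤ := by
  have := BL_formallyEtale (K := K) t
  rw [eq_top_iff]
  rintro ω -
  obtain ⟨z, rfl⟩ := (tensorKaehlerEquivOfFormallyEtale K
    (Algebra.adjoin K ({t} : Set F)) F).surjective ω
  induction z using TensorProduct.induction_on with
  | zero => simp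
  | add x y hx hy => rw [map_add]; exact Submodule.add_mem _ hx hy
  | tmul x ω =>
    have hω : ω ∈ Submodule.span (Algebra.adjoin K ({t} : Set F))
        {D K (Algebra.adjoin K ({t} : Set F)) (BL_gen t)} := by
      rw [BL_span_gen]; trivial
    obtain ⟨a, rfl⟩ := Submodule.mem_span_singleton.1 hω
    rw [tensorKaehlerEquivOfFormallyEtale_apply, mapBaseChange_tmul, map_smul, map_D]
    refine Submodule.smul_mem _ _ ?_
    rw [← algebraMap_smul F a]
    exact Submodule.smul_mem _ _ (Submodule.subset_span rfl)


lemma BL_aeval_gen_coe (t : F) (p : Polynomial K) :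
    ((Polynomial.aeval (BL_gen (K := K) t) p : Algebra.adjoin K ({t} : Set F)) : F) =
      Polynomial.aeval t p :=
  (Polynomial.aeval_algHom_apply (Algebra.adjoin K ({t} : Set F)).val _ p).symm

lemma BL_aeval_gen_bijective {t : F} (ht : Transcendental K t) :
    Function.Bijective (Polynomial.aeval (BL_gen (K := K) t) :
      Polynomial K →ₐ[K] Algebra.adjoin K ({t} : Set F)) := by
  refine ⟨?_, fun a => ?_⟩
  · rw [injective_iff_map_eq_zero]
    intro p hp
    have := congrArg (Subtype.val) hp
    rw [BL_aeval_gen_coe] at this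
    exact (transcendental_iff_injective.1 ht) (by simpa using this)
  · obtain ⟨p, rfl⟩ := BL_exists_aeval t a
    exact ⟨p, rfl⟩

/-- the `K`-algebra isomorphism `K[X] ≃ K[t]`. -/
noncomputable def BL_equiv {t : F} (ht : Transcendental K t) :
    Polynomial K ≃ₐ[K] Algebra.adjoin K ({t} : Set F) :=
  AlgEquiv.ofBijective _ (BL_aeval_gen_bijective ht)

lemma BL_equiv_coe {t : F} (ht : Transcendental K t) (p : Polynomial K) :
    ((BL_equiv ht p : Algebra.adjoin K ({t} : Set F)) : F) = Polynomial.aeval t p :=
  BL_aeval_gen_coe t p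

/-- the derivation `d/dt : K[t] → F`. -/
noncomputable def BL_derivA {t : F} (ht : Transcendental K t) :
    Derivation K (Algebra.adjoin K ({t} : Set F)) F where
  toLinearMap := (Polynomial.aeval t : Polynomial K →ₐ[K] F).toLinearMap ∘ₗ
    Polynomial.derivative ∘ₗ (BL_equiv ht).symm.toLinearMap
  map_one_eq_zero' := by simp
  leibniz' a b := by
    obtain ⟨p, rfl⟩ := (BL_equiv ht).surjective a
    obtain ⟨q, rfl⟩ := (BL_equiv ht).surjective b
    simp only [LinearMap.coe_comp, Function.comp_apply, AlgEquiv.toLinearMap_apply,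
      AlgHom.toLinearMap_apply, ← map_mul, AlgEquiv.symm_apply_apply,
      Polynomial.derivative_mul, map_add]
    rw [Algebra.smul_def, Algebra.smul_def]
    show _ = (BL_equiv ht p : F) * _ + (BL_equiv ht q : F) * _
    rw [BL_equiv_coe, BL_equiv_coe, map_mul, map_mul]
    ring

lemma BL_derivA_gen {t : F} (ht : Transcendental K t) : BL_derivA ht (BL_gen t) = 1 := by
  have : (BL_equiv ht).symm (BL_gen t) = Polynomial.X := by
    rw [AlgEquiv.symm_apply_eq]
    apply Subtype.ext
    rw [BL_equiv_coe]; simp [BL_gen]
  show (Polynomial.aeval t) (Polynomial.derivative ((BL_equiv ht).symm (BL_gen t))) = 1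
  rw [this]; simp

/-- the `F`-linear functional on `Ω[F/K]` sending `dt` to `1`. -/
theorem BL_exists_functional [CharZero K] {t : F} (ht : Transcendental K t)
    [FiniteDimensional K⟮t⟯ F] : ∃ L : Ω[F⁄K] →ₗ[F] F, L (D K F t) = 1 := by
  have := BL_formallyEtale (K := K) t
  refine ⟨(LinearMap.liftBaseChange F (BL_derivA ht).liftKaehlerDifferential) ∘ₗ
    (tensorKaehlerEquivOfFormallyEtale K (Algebra.adjoin K ({t} : Set F)) F).symm.toLinearMap, ?_⟩
  have h1 : D K F t = D K F (algebraMap (Algebra.adjoin K ({t} : Set F)) F (BL_gen t)) := rfl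
  rw [LinearMap.comp_apply, LinearEquiv.coe_coe, h1,
    tensorKaehlerEquivOfFormallyEtale_symm_D_algebraMap, LinearMap.liftBaseChange_tmul,
    Derivation.liftKaehlerDifferential_comp_D, BL_derivA_gen, one_smul]

theorem BL_D_ne_zero [CharZero K] {t : F} (ht : Transcendental K t)
    [FiniteDimensional K⟮t⟯ F] : D K F t ≠ 0 := by
  obtain ⟨L, hL⟩ := BL_exists_functional ht
  intro h
  rw [h, map_zero] at hL
  exact zero_ne_one hL

end Fermat.Agent.S24
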