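import Mathlib
import Fermat.Prelude.Def_AlgebraicCurve_DivisorClassGroup

/-!
# S24, package BG, part A: places of `F` and height one primes of a Dedekind domain `B ⊆ F`
(helper13)

`B` a Dedekind domain with fraction field `F`, `K → B`.
* `BG_ord_ofHeightOneSpectrum`: `ord` at the place of a height one prime `w` is `-log (w.valuation)`.
* `BG_exists_unique_heightOneSpectrum`: a place whose valuation ring contains `B` comes from a
  unique height one prime of `B`.
-/

set_option autoImplicit false

open AlgebraicCurve IsDedekindDomain WithZero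

namespace Fermat.Agent.S24

variable {K F : Type*} [Field K] [Field F] [Algebra K F]

/-- membership in the valuation ring of a place in terms of `ord`. -/
theorem BG_mem_iff_ord_nonneg (v : Place K F) {f : F} (hf : f ≠ 0) :
    f ∈ v.toValuationSubring ↔ 0 ≤ v.ord f := by
  obtain ⟨π, hπ⟩ := IsDiscreteValuationRing.exists_irreducible v.toValuationSubring
  obtain ⟨u, hu⟩ := v.exists_unit_mul_zpow hf hπ
  have hπF : (π : F) ≠ 0 := by
    simpa [ne_eq, ZeroMemClass.coe_eq_zero] using hπ.ne_zero
  constructor
  · intro hmem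
    by_contra hneg
    rw [not_le] at hneg
    -- `π ^ (-ord f) * f = u`, so `π ^ (-ord f)` would be a unit times ..., contradiction
    have hk : 0 < -v.ord f := by omega
    obtain ⟨k, hk'⟩ : ∃ k : ℕ, -v.ord f = (k : ℤ) + 1 := ⟨(-v.ord f - 1).toNat, by omega⟩
    have h1 : (π : F) ^ (k + 1) * f = ((u : v.toValuationSubring) : F) := by
      have : v.ord f = -((k : ℤ) + 1) := by omega
      rw [hu, this]
      rw [zpow_neg, ← zpow_natCast]
      push_cast
      field_simp
    have h2 : (π ^ (k + 1) * ⟨f, hmem⟩ : v.toValuationSubring) = u := Subtype.ext (by simpa using h1)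
    have h3 : IsUnit (π ^ (k + 1) * ⟨f, hmem⟩ : v.toValuationSubring) := h2 ▸ u.isUnit
    have h4 : IsUnit (π ^ (k + 1)) := isUnit_of_mul_isUnit_left h3
    have h5 : IsUnit π := (isUnit_pow_iff (by omega)).mp h4
    exact hπ.not_isUnit h5
  · intro hord
    obtain ⟨k, hk⟩ : ∃ k : ℕ, v.ord f = (k : ℤ) := ⟨(v.ord f).toNat, by omega⟩
    rw [hu, hk, zpow_natCast]
    exact v.toValuationSubring.mul_mem _ _ (SetLike.coe_mem _) (pow_mem (SetLike.coe_mem _) k)

/-- positivity of `ord` means membership in the maximal ideal. -/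
theorem BG_mem_nonunits_iff_ord_pos (v : Place K F) {f : F} (hf : f ≠ 0) :
    f ∈ v.toValuationSubring.nonunits ↔ 0 < v.ord f := by
  rw [ValuationSubring.mem_nonunits_iff_or]
  have hinv : f⁻¹ ≠ 0 := inv_ne_zero hf
  rw [BG_mem_iff_ord_nonneg v hinv, v.ord_inv]
  constructor
  · rintro (h | h)
    · exact absurd h hf
    · omega
  · intro h
    right
    omega

section Abstract

variable {B : Type*} [CommRing B] [IsDedekindDomain B] [Algebra B F] [IsFractionRing B F]
  [Algebra K B] [IsScalarTower K B F]

theorem BG_mem_ofHeightOneSpectrum (w : HeightOneSpectrum B) (f : F) :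
    f ∈ (Place.ofHeightOneSpectrum (K := K) (F := F) w).toValuationSubring ↔ w.valuation F f ≤ 1 := by
  rw [Place.ofHeightOneSpectrum_toValuationSubring, Valuation.mem_valuationSubring_iff]

/-- `ord` at the place attached to a height one prime is `-log` of the adic valuation. -/
theorem BG_ord_ofHeightOneSpectrum (w : HeightOneSpectrum B) (f : F) :
    (Place.ofHeightOneSpectrum (K := K) (F := F) w).ord f = -WithZero.log (w.valuation F f) := by
  set v := Place.ofHeightOneSpectrum (K := K) (F := F) w with hv
  rcases eq_or_ne f 0 with rfl | hf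
  · simp
  -- key: `log (w.valuation g) = - v.ord g` for `g ≠ 0`; first `≤ 0 ↔ 0 ≤ ord`
  have hmem : ∀ g : F, g ≠ 0 → (0 ≤ v.ord g ↔ WithZero.log (w.valuation F g) ≤ 0) := by
    intro g hg
    rw [← BG_mem_iff_ord_nonneg v hg, hv, BG_mem_ofHeightOneSpectrum,
      ← WithZero.log_le_log ((Valuation.ne_zero_iff _).mpr hg) one_ne_zero, WithZero.log_one]
  obtain ⟨π, hπ⟩ := IsDiscreteValuationRing.exists_irreducible v.toValuationSubring
  have hπF : (π : F) ≠ 0 := by
    simpa [ne_eq, ZeroMemClass.coe_eq_zero] using hπ.ne_zero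
  have hordπ : v.ord (π : F) = 1 := v.ord_coe_irreducible hπ
  -- additivity of `L := log ∘ w.valuation`
  set L : F → ℤ := fun g => WithZero.log (w.valuation F g) with hL
  have hLmul : ∀ a b : F, a ≠ 0 → b ≠ 0 → L (a * b) = L a + L b := by
    intro a b ha hb
    simp only [hL, map_mul]
    exact WithZero.log_mul ((Valuation.ne_zero_iff _).mpr ha) ((Valuation.ne_zero_iff _).mpr hb)
  have hLzpow : ∀ (a : F) (n : ℤ), L (a ^ n) = n * L a := by
    intro a n
    simp only [hL, map_zpow₀, WithZero.log_zpow, smul_eq_mul]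
  -- units of `O_v` have `L = 0`
  have hLunit : ∀ u : v.toValuationSubringˣ, L ((u : v.toValuationSubring) : F) = 0 := by
    intro u
    have hu0 : ((u : v.toValuationSubring) : F) ≠ 0 := by
      simp [ne_eq, ZeroMemClass.coe_eq_zero]
    have h1 := (hmem _ hu0).mp (by rw [v.ord_coe_unit u])
    have hinv : (((u : v.toValuationSubring) : F))⁻¹ = ((u⁻¹ : v.toValuationSubringˣ) :
        v.toValuationSubring) := by
      apply inv_eq_of_mul_eq_one_right
      rw [← Subring.coe_mul, ← Units.val_mul]
      simp
    have h2 := (hmem _ (inv_ne_zero hu0)).mp (by rw [hinv, v.ord_coe_unit u⁻¹])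
    have h3 : L (((u : v.toValuationSubring) : F))⁻¹ = -L ((u : v.toValuationSubring) : F) := by
      have := hLzpow ((u : v.toValuationSubring) : F) (-1)
      simpa using this
    simp only [hL] at h1 h2 h3 ⊢
    omega
  -- general formula `L g = ord g * L π`
  have hLgen : ∀ g : F, g ≠ 0 → L g = v.ord g * L (π : F) := by
    intro g hg
    obtain ⟨u, hu⟩ := v.exists_unit_mul_zpow hg hπ
    have hu0 : ((u : v.toValuationSubring) : F) ≠ 0 := by
      simp [ne_eq, ZeroMemClass.coe_eq_zero]
    conv_lhs => rw [hu]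
    rw [hLmul _ _ hu0 (zpow_ne_zero _ hπF), hLunit, hLzpow, zero_add]
  -- `L π < 0`
  have hLπ : L (π : F) < 0 := by
    by_contra hcon
    rw [not_lt] at hcon
    have h1 : 0 ≤ v.ord ((π : F))⁻¹ := by
      rw [hmem _ (inv_ne_zero hπF)]
      have := hLzpow (π : F) (-1)
      simp only [zpow_neg, zpow_one] at this
      show L ((π : F))⁻¹ ≤ 0
      rw [this]; omega
    rw [v.ord_inv, hordπ] at h1
    omega
  -- a uniformizer for `w`
  obtain ⟨ϖ, hϖ⟩ := w.valuation_exists_uniformizer F
  have hϖ0 : ϖ ≠ 0 := by
    intro h0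
    rw [h0, map_zero] at hϖ
    exact WithZero.coe_ne_zero hϖ.symm
  have hLϖ : L ϖ = -1 := by
    simp only [hL, hϖ, WithZero.log_exp]
  have h1 := hLgen ϖ hϖ0
  rw [hLϖ] at h1
  -- `-1 = ord ϖ * L π`, `L π < 0` ⇒ `L π = -1`
  have hLπ1 : L (π : F) = -1 := by
    have hdvd : L (π : F) ∣ 1 := ⟨-v.ord ϖ, by linarith⟩
    have := Int.natAbs_dvd_natAbs.mpr hdvd
    have h2 : (L (π : F)).natAbs = 1 := by
      simpa using Nat.eq_one_of_dvd_one this
    omega
  have := hLgen f hf
  rw [hLπ1] at this
  show v.ord f = -L f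
  omega

/-- the place attached to a height one prime determines the prime. -/
theorem BG_ofHeightOneSpectrum_injective :
    Function.Injective (Place.ofHeightOneSpectrum (K := K) (F := F) (R := B)) := by
  intro w w' h
  apply HeightOneSpectrum.eq_of_valuation_isEquiv_valuation (K := F)
  rw [Valuation.isEquiv_iff_valuationSubring]
  have := congrArg Place.toValuationSubring h
  simpa using this

/-- elements of `w` are exactly the elements of `B` of positive order at the place of `w`. -/
theorem BG_mem_asIdeal_iff (w : HeightOneSpectrum B) (b : B) :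
    b ∈ w.asIdeal ↔
      algebraMap B F b ∈ (Place.ofHeightOneSpectrum (K := K) (F := F) w).toValuationSubring.nonunits := by
  rw [Place.ofHeightOneSpectrum_toValuationSubring, ValuationSubring.mem_nonunits_iff,
    ← w.valuation_lt_one_iff_mem (K := F)]
  rw [Valuation.isEquiv_iff_val_lt_one.mp (Valuation.isEquiv_valuation_valuationSubring _)]

/-- **G1, abstract form**: a place whose valuation ring contains the Dedekind domain `B`
(with fraction field `F`) is the place of a (unique) height one prime of `B`. -/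
theorem BG_exists_heightOneSpectrum (v : Place K F)
    (hB : ∀ b : B, algebraMap B F b ∈ v.toValuationSubring) :
    ∃ w : HeightOneSpectrum B, Place.ofHeightOneSpectrum (K := K) (F := F) w = v := by
  let φ : B →+* v.toValuationSubring :=
    (algebraMap B F).codRestrict v.toValuationSubring.toSubring hB
  have hφ : ∀ b : B, ((φ b : v.toValuationSubring) : F) = algebraMap B F b := fun b => rfl
  set q : Ideal B := (IsLocalRing.maximalIdeal v.toValuationSubring).comap φ with hq
  have hqprime : q.IsPrime := Ideal.comap_isPrime φ _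
  -- elements outside `q` are units of `O_v`
  have hunit : ∀ b : B, b ∉ q → (algebraMap B F b)⁻¹ ∈ v.toValuationSubring := by
    intro b hb
    have hu : IsUnit (φ b) := by
      rw [hq, Ideal.mem_comap, IsLocalRing.mem_maximalIdeal, mem_nonunits_iff, not_not] at hb
      exact hb
    obtain ⟨u, hu⟩ := hu
    have : (algebraMap B F b)⁻¹ = ((u⁻¹ : v.toValuationSubringˣ) : v.toValuationSubring) := by
      apply inv_eq_of_mul_eq_one_right
      rw [← hφ, ← hu, ← Subring.coe_mul, ← Units.val_mul]
      simp
    rw [this]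
    exact SetLike.coe_mem _
  have hqbot : q ≠ ⊥ := by
    intro hbot
    apply v.ne_top'
    rw [eq_top_iff]
    intro f _
    obtain ⟨a, b, hb, rfl⟩ := IsFractionRing.div_surjective (A := B) f
    have hb0 : b ≠ 0 := nonZeroDivisors.ne_zero hb
    have hbq : b ∉ q := by rw [hbot]; simpa using hb0
    rw [div_eq_mul_inv]
    exact v.toValuationSubring.mul_mem _ _ (hB a) (hunit b hbq)
  let w : HeightOneSpectrum B := ⟨q, hqprime, hqbot⟩
  refine ⟨w, ?_⟩
  apply Place.ext
  have hle : (Place.ofHeightOneSpectrum (K := K) (F := F) w).toValuationSubring ≤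
      v.toValuationSubring := by
    intro f hf
    rw [BG_mem_ofHeightOneSpectrum] at hf
    obtain ⟨n, d, hnd⟩ := w.exists_primeCompl_mul_eq_of_integer f hf
    have hd : (d : B) ∉ q := d.2
    have hd0 : algebraMap B F (d : B) ≠ 0 := by
      intro h0
      have : (d : B) = 0 := (IsFractionRing.injective B F) (by simpa using h0)
      exact hd (this ▸ q.zero_mem)
    have : f = algebraMap B F n * (algebraMap B F (d : B))⁻¹ := by
      rw [← hnd]; field_simp
    rw [this]
    exact v.toValuationSubring.mul_mem _ _ (hB n) (hunit _ hd)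
  exact ValuationSubring.eq_of_le_of_ne_top _ hle v.ne_top'

/-- the ramification index of a height one prime `w` over `(a)` is the order of `a` at the
place of `w`. -/
theorem BG_ramificationIdx_eq_ord {A : Type*} [CommRing A] [Algebra A B]
    (a : A) (ha : algebraMap A B a ≠ 0) (w : HeightOneSpectrum B)
    [w.asIdeal.LiesOver (Ideal.span {a})] :
    ((w.asIdeal.ramificationIdx A : ℕ) : ℤ) =
      (Place.ofHeightOneSpectrum (K := K) (F := F) w).ord (algebraMap B F (algebraMap A B a)) := by
  have hmap : (Ideal.span {a}).map (algebraMap A B) = Ideal.span {algebraMap A B a} := by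
    rw [Ideal.map_span, Set.image_singleton]
  have hne : (Ideal.span {a}).map (algebraMap A B) ≠ ⊥ := by
    rw [hmap, Ne, Ideal.span_singleton_eq_bot]; exact ha
  have hprime : w.asIdeal.IsPrime := w.isPrime
  rw [Ideal.IsDedekindDomain.ramificationIdx_eq_multiplicity (Ideal.span {a}) w.asIdeal hne, hmap,
    BG_ord_ofHeightOneSpectrum, HeightOneSpectrum.valuation_of_algebraMap,
    HeightOneSpectrum.intValuation_eq_exp_neg_multiplicity w ha, WithZero.log_exp, neg_neg]

/-- if `K → B ⧸ q` is surjective, the inertia degree of `q` is one. -/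
theorem BG_inertiaDeg_eq_one {A : Type*} [CommRing A] [Algebra A B] [Algebra K A]
    [IsScalarTower K A B] (p : Ideal A) [p.IsMaximal] (q : Ideal B) [q.IsMaximal] [q.LiesOver p]
    (hsurj : Function.Surjective (algebraMap K (B ⧸ q))) : q.inertiaDeg A = 1 := by
  rw [Ideal.inertiaDeg_eq_of_isMaximal p q]
  let : Field (A ⧸ p) := Ideal.Quotient.field p
  let : Field (B ⧸ q) := Ideal.Quotient.field q
  have hs : Function.Surjective (algebraMap (A ⧸ p) (B ⧸ q)) := by
    intro z
    obtain ⟨c, rfl⟩ := hsurj z
    refine ⟨algebraMap K (A ⧸ p) c, ?_⟩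
    rw [← IsScalarTower.algebraMap_apply K (A ⧸ p) (B ⧸ q)]
  have hbij : Function.Bijective (algebraMap (A ⧸ p) (B ⧸ q)) :=
    ⟨(algebraMap (A ⧸ p) (B ⧸ q)).injective, hs⟩
  have e : (A ⧸ p) ≃ₗ[A ⧸ p] (B ⧸ q) :=
    LinearEquiv.ofBijective (Algebra.linearMap (A ⧸ p) (B ⧸ q)) hbij
  rw [← e.finrank_eq, Module.finrank_self]

end Abstract

end Fermat.Agent.S24
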