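import Fermat.Agent.S24.FFBasic

/-!
# S24, package BL, part 2: the local ring of a place

`v` a place of `F / K`, `t ∈ F` with `0 < ord_v t`, `F / K(t)` finite, char. 0, `K` alg. closed.
* `BL_mem_iff_ord_nonneg`, `BL_ord_eq_zero_iff_isUnit`, `BL_mem_maximalIdeal_iff`: dictionary
  between `Place.ord` and the valuation ring.
* `BL_mem_of_isIntegral`: elements integral over `K[t]` lie in `O_v`.
* `BL_exists_frac`: `O_v` is the localization of the integral closure `B` of `K[t]` in `F`:
  every `u ∈ O_v` is `a / s` with `a, s ∈ B`, `ord_v s = 0`.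
* `BL_essFiniteType`: `O_v` is essentially of finite type over `K`.
-/

set_option autoImplicit false

open AlgebraicCurve IntermediateField KaehlerDifferential IsDedekindDomain
open scoped IntermediateField.algebraAdjoinAdjoin TensorProduct

universe u v

namespace Fermat.Agent.S24

variable {K : Type u} {F : Type v} [Field K] [Field F] [Algebra K F]

/-- the valuation ring of a place, as a `K`-subalgebra of `F`. -/
def BL_subalgebra (v : Place K F) : Subalgebra K F :=
  { v.toValuationSubring.toSubring with
    algebraMap_mem' := v.algebraMap_mem' }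

lemma BL_mem_subalgebra (v : Place K F) (x : F) :
    x ∈ BL_subalgebra v ↔ x ∈ v.toValuationSubring := Iff.rfl

lemma BL_adjoin_le (v : Place K F) {t : F} (ht : t ∈ v.toValuationSubring) :
    Algebra.adjoin K ({t} : Set F) ≤ BL_subalgebra v :=
  Algebra.adjoin_le (Set.singleton_subset_iff.2 ht)

/-- the inclusion `K[t] → O_v`. -/
def BL_incl (v : Place K F) {t : F} (ht : t ∈ v.toValuationSubring) :
    Algebra.adjoin K ({t} : Set F) →+* v.toValuationSubring where
  toFun a := ⟨a, BL_adjoin_le v ht a.2⟩
  map_one' := rfl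
  map_mul' _ _ := rfl
  map_zero' := rfl
  map_add' _ _ := rfl

/-- elements integral over `K[t]` lie in the valuation ring of any place with `t ∈ O_v`. -/
lemma BL_mem_of_isIntegral (v : Place K F) {t : F} (ht : t ∈ v.toValuationSubring) {b : F}
    (hb : IsIntegral (Algebra.adjoin K ({t} : Set F)) b) : b ∈ v.toValuationSubring := by
  obtain ⟨p, hp, hpb⟩ := hb
  have hint : IsIntegral v.toValuationSubring b := by
    refine ⟨p.map (BL_incl v ht), hp.map _, ?_⟩
    rw [Polynomial.eval₂_map]
    exact hpb
  obtain ⟨y, hy⟩ := IsIntegrallyClosed.algebraMap_eq_of_integral hint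
  rw [← hy]
  exact y.2

lemma BL_adicValuation_le_one_iff (v : Place K F) (x : F) :
    v.adicValuation x ≤ 1 ↔ x ∈ v.toValuationSubring := by
  constructor
  · intro h
    by_contra hx
    have hx0 : x ≠ 0 := fun h0 => hx (h0 ▸ v.toValuationSubring.zero_mem)
    have hxi : x⁻¹ ∈ v.toValuationSubring :=
      (v.toValuationSubring.mem_or_inv_mem x).resolve_left hx
    -- `x⁻¹` is not a unit
    have hnu : ¬ IsUnit (⟨x⁻¹, hxi⟩ : v.toValuationSubring) := by
      intro hu
      obtain ⟨w, hw⟩ := hu.exists_left_inv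
      have : (w : F) * x⁻¹ = 1 := congrArg Subtype.val hw
      have hwx : (w : F) = x := by
        field_simp at this
        exact this
      exact hx (hwx ▸ w.2)
    have h1 : v.adicValuation ((⟨x⁻¹, hxi⟩ : v.toValuationSubring) : F) < 1 := by
      rw [v.adicValuation_coe]
      rw [HeightOneSpectrum.intValuation_lt_one_iff_mem, Place.heightOneSpectrum_asIdeal,
        IsLocalRing.mem_maximalIdeal, mem_nonunits_iff]
      exact hnu
    simp only [map_inv₀] at h1
    have h2 : v.adicValuation x ≠ 0 := v.adicValuation_ne_zero hx0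
    have h3 : (v.adicValuation x)⁻¹ < 1 := h1
    rw [inv_lt_one₀ (zero_lt_iff.2 h2)] at h3
    exact absurd h (not_le.2 h3)
  · intro h
    have := v.adicValuation_coe ⟨x, h⟩
    simp only at this
    rw [this]
    exact HeightOneSpectrum.intValuation_le_one _ _

lemma BL_mem_iff_ord_nonneg (v : Place K F) {x : F} (hx : x ≠ 0) :
    x ∈ v.toValuationSubring ↔ 0 ≤ v.ord x := by
  rw [← BL_adicValuation_le_one_iff, Place.ord, neg_nonneg,
    ← WithZero.log_le_log (v.adicValuation_ne_zero hx) one_ne_zero, WithZero.log_one]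


lemma BL_ord_nonneg (v : Place K F) (a : v.toValuationSubring) : 0 ≤ v.ord (a : F) := by
  rcases eq_or_ne (a : F) 0 with h | h
  · rw [h]; simp
  · exact (BL_mem_iff_ord_nonneg v h).1 a.2

lemma BL_ord_eq_zero_iff_isUnit (v : Place K F) {a : v.toValuationSubring} (ha : a ≠ 0) :
    v.ord (a : F) = 0 ↔ IsUnit a := by
  have ha' : (a : F) ≠ 0 := fun h => ha (Subtype.ext h)
  rw [← v.adicValuation_coe_eq_one_iff, Place.ord, neg_eq_zero]
  constructor
  · intro h
    have := WithZero.exp_log (v.adicValuation_ne_zero ha')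
    rw [h] at this
    rw [← this]; rfl
  · intro h
    rw [h]; simp

lemma BL_mem_maximalIdeal_iff (v : Place K F) {a : v.toValuationSubring} (ha : a ≠ 0) :
    a ∈ IsLocalRing.maximalIdeal v.toValuationSubring ↔ 0 < v.ord (a : F) := by
  rw [IsLocalRing.mem_maximalIdeal, mem_nonunits_iff, ← BL_ord_eq_zero_iff_isUnit v ha]
  have := BL_ord_nonneg v a
  omega

lemma BL_isPID {t : F} (htr : Transcendental K t) :
    IsPrincipalIdealRing (Algebra.adjoin K ({t} : Set F)) :=
  IsPrincipalIdealRing.of_surjective (BL_equiv htr).toRingEquiv.toRingHom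
    (BL_equiv htr).surjective

lemma BL_isDedekind [CharZero K] {t : F} (htr : Transcendental K t)
    [FiniteDimensional K⟮t⟯ F] :
    IsDedekindDomain (integralClosure (Algebra.adjoin K ({t} : Set F)) F) := by
  have := BL_isPID htr
  have : CharZero K⟮t⟯ := charZero_of_injective_algebraMap (algebraMap K K⟮t⟯).injective
  exact integralClosure.isDedekindDomain (Algebra.adjoin K ({t} : Set F)) K⟮t⟯ F

lemma BL_isFractionRing {t : F} [FiniteDimensional K⟮t⟯ F] :
    IsFractionRing (integralClosure (Algebra.adjoin K ({t} : Set F)) F) F :=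
  integralClosure.isFractionRing_of_finite_extension K⟮t⟯ F

/-- the inclusion of the integral closure of `K[t]` into `O_v`. -/
def BL_inclB (v : Place K F) {t : F} (ht : t ∈ v.toValuationSubring) :
    integralClosure (Algebra.adjoin K ({t} : Set F)) F →+* v.toValuationSubring where
  toFun b := ⟨b, BL_mem_of_isIntegral v ht b.2⟩
  map_one' := rfl
  map_mul' _ _ := rfl
  map_zero' := rfl
  map_add' _ _ := rfl

/-- **Localization**: every element of `O_v` is a fraction `a / s` of elements integral over
`K[t]` with `s` a unit at `v` (here `t` is any element of positive order at `v`). -/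
theorem BL_exists_frac [IsAlgClosed K] [CharZero K] (v : Place K F) {t : F} (ht : 0 < v.ord t)
    [FiniteDimensional K⟮t⟯ F] {u : F} (hu : u ∈ v.toValuationSubring) :
    ∃ a s : F, IsIntegral (Algebra.adjoin K ({t} : Set F)) a ∧
      IsIntegral (Algebra.adjoin K ({t} : Set F)) s ∧ s ≠ 0 ∧ v.ord s = 0 ∧ u * s = a := by
  have htr : Transcendental K t := BL_transcendental_of_ord_ne_zero v ht.ne'
  have ht0 : t ≠ 0 := by rintro rfl; simp at ht
  have htO : t ∈ v.toValuationSubring := (BL_mem_iff_ord_nonneg v ht0).2 ht.le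
  have := BL_isDedekind (K := K) htr
  have := BL_isFractionRing (K := K) (F := F) (t := t)
  -- the prime of `B` below the maximal ideal of `O_v`
  have hprime : ((IsLocalRing.maximalIdeal v.toValuationSubring).comap (BL_inclB v htO)).IsPrime :=
    Ideal.comap_isPrime _ _
  have hne : (IsLocalRing.maximalIdeal v.toValuationSubring).comap (BL_inclB v htO) ≠ ⊥ := by
    intro h
    have htB : IsIntegral (Algebra.adjoin K ({t} : Set F)) t :=
      (isIntegral_algebraMap (x := BL_gen (K := K) t))
    have hmem : (⟨t, htB⟩ : integralClosure (Algebra.adjoin K ({t} : Set F)) F) ∈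
        (IsLocalRing.maximalIdeal v.toValuationSubring).comap (BL_inclB v htO) := by
      rw [Ideal.mem_comap]
      have hne0 : (BL_inclB v htO ⟨t, htB⟩) ≠ 0 := fun h0 => ht0 (congrArg Subtype.val h0)
      exact (BL_mem_maximalIdeal_iff v hne0).2 ht
    rw [h, Ideal.mem_bot] at hmem
    exact ht0 (congrArg Subtype.val hmem)
  have hkey : ∀ b : integralClosure (Algebra.adjoin K ({t} : Set F)) F,
      b ∈ ((IsLocalRing.maximalIdeal v.toValuationSubring).comap (BL_inclB v htO)).primeCompl →
      (b : F) ≠ 0 ∧ v.ord (b : F) = 0 := by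
    intro b hb
    have hb' : ¬ (BL_inclB v htO b) ∈ IsLocalRing.maximalIdeal v.toValuationSubring := hb
    rw [IsLocalRing.mem_maximalIdeal, mem_nonunits_iff, not_not] at hb'
    have hb0 : BL_inclB v htO b ≠ 0 := hb'.ne_zero
    exact ⟨fun h => hb0 (Subtype.ext h), (BL_ord_eq_zero_iff_isUnit v hb0).2 hb'⟩
  obtain ⟨n, d, h | h⟩ := HeightOneSpectrum.exists_primeCompl_mul_eq_or_mul_eq
    (K := F) ⟨_, hprime, hne⟩ u
  · have hd := hkey d.1 d.2
    exact ⟨n, d, n.2, d.1.2, hd.1, hd.2, h⟩
  · have hd := hkey d.1 d.2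
    have hd' : v.ord (algebraMap (integralClosure (Algebra.adjoin K ({t} : Set F)) F) F d.1) = 0 :=
      hd.2
    have hu0 : u ≠ 0 := by
      rintro rfl
      rw [zero_mul] at h
      exact hd.1 h.symm
    have hn0 : (n : F) ≠ 0 := by
      intro hn
      have hn' : algebraMap (integralClosure (Algebra.adjoin K ({t} : Set F)) F) F n = 0 := hn
      rw [hn', mul_zero] at h
      exact hd.1 h.symm
    have hn0' : algebraMap (integralClosure (Algebra.adjoin K ({t} : Set F)) F) F n ≠ 0 := hn0
    rw [← h, v.ord_mul hu0 hn0'] at hd'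
    have h1 : 0 ≤ v.ord u := (BL_mem_iff_ord_nonneg v hu0).1 hu
    have h2 : 0 ≤ v.ord (algebraMap (integralClosure (Algebra.adjoin K ({t} : Set F)) F) F n) :=
      (BL_mem_iff_ord_nonneg v hn0').1 (BL_mem_of_isIntegral v htO n.2)
    have hcoe : algebraMap (integralClosure (Algebra.adjoin K ({t} : Set F)) F) F n = (n : F) := rfl
    rw [hcoe] at h2 hd'
    exact ⟨d, n, d.1.2, n.2, hn0, by omega, h⟩


lemma BL_incl_aeval (v : Place K F) {t : F} (ht : t ∈ v.toValuationSubring) (p : Polynomial K) :
    BL_incl v ht (Polynomial.aeval (BL_gen (K := K) t) p) =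
      Polynomial.aeval (⟨t, ht⟩ : v.toValuationSubring) p := by
  apply Subtype.ext
  show ((Polynomial.aeval (BL_gen (K := K) t) p : Algebra.adjoin K ({t} : Set F)) : F) = _
  rw [BL_aeval_gen_coe]
  have : ((Polynomial.aeval (⟨t, ht⟩ : v.toValuationSubring) p : v.toValuationSubring) : F) =
      Polynomial.aeval t p := by
    have h := Polynomial.aeval_algHom_apply
      (IsScalarTower.toAlgHom K v.toValuationSubring F) (⟨t, ht⟩ : v.toValuationSubring) p
    exact h.symm
  rw [this]

/-- `O_v` is essentially of finite type over `K`. -/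
theorem BL_essFiniteType [IsAlgClosed K] [CharZero K] (v : Place K F) {t : F}
    (ht : 0 < v.ord t) [FiniteDimensional K⟮t⟯ F] :
    Algebra.EssFiniteType K v.toValuationSubring := by
  have htr : Transcendental K t := BL_transcendental_of_ord_ne_zero v ht.ne'
  have ht0 : t ≠ 0 := by rintro rfl; simp at ht
  have htO : t ∈ v.toValuationSubring := (BL_mem_iff_ord_nonneg v ht0).2 ht.le
  have := BL_isPID (K := K) htr
  have : CharZero K⟮t⟯ := charZero_of_injective_algebraMap (algebraMap K K⟮t⟯).injective
  have hfinB : Module.Finite (Algebra.adjoin K ({t} : Set F))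
      (integralClosure (Algebra.adjoin K ({t} : Set F)) F) :=
    IsIntegralClosure.finite (Algebra.adjoin K ({t} : Set F)) K⟮t⟯ F _
  obtain ⟨S, hS⟩ := hfinB.fg_top
  classical
  rw [Algebra.essFiniteType_iff]
  refine ⟨insert (⟨t, htO⟩ : v.toValuationSubring) (S.image (BL_inclB v htO)), fun u => ?_⟩
  -- elements of `K[t]` lie in the adjoin
  have hA : ∀ a : Algebra.adjoin K ({t} : Set F), BL_incl v htO a ∈ Algebra.adjoin K
      ((insert (⟨t, htO⟩ : v.toValuationSubring) (S.image (BL_inclB v htO)) :
        Finset v.toValuationSubring) : Set v.toValuationSubring) := by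
    intro a
    obtain ⟨p, rfl⟩ := BL_exists_aeval t a
    rw [BL_incl_aeval]
    exact Algebra.adjoin_mono (by simp) (Polynomial.aeval_mem_adjoin_singleton K _)
  -- elements of `B` lie in the adjoin
  have hB : ∀ b : integralClosure (Algebra.adjoin K ({t} : Set F)) F,
      BL_inclB v htO b ∈ Algebra.adjoin K
      ((insert (⟨t, htO⟩ : v.toValuationSubring) (S.image (BL_inclB v htO)) :
        Finset v.toValuationSubring) : Set v.toValuationSubring) := by
    intro b
    have hb : b ∈ Submodule.span (Algebra.adjoin K ({t} : Set F))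
        (S : Set (integralClosure (Algebra.adjoin K ({t} : Set F)) F)) := by
      rw [hS]; trivial
    induction hb using Submodule.span_induction with
    | mem x hx =>
      refine Algebra.subset_adjoin ?_
      simp only [Finset.coe_insert, Finset.coe_image, Set.mem_insert_iff, Set.mem_image,
        Finset.mem_coe]
      exact Or.inr ⟨x, hx, rfl⟩
    | zero => rw [map_zero]; exact Subalgebra.zero_mem _
    | add x y _ _ hx hy => rw [map_add]; exact Subalgebra.add_mem _ hx hy
    | smul a x _ hx =>
      have : BL_inclB v htO (a • x) = BL_incl v htO a * BL_inclB v htO x := rfl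
      rw [this]
      exact Subalgebra.mul_mem _ (hA a) hx
  obtain ⟨a, s, ha, hs, hs0, hsord, hus⟩ := BL_exists_frac v ht u.2
  refine ⟨BL_inclB v htO ⟨s, hs⟩, hB _, ?_, ?_⟩
  · have hne : BL_inclB v htO ⟨s, hs⟩ ≠ 0 := fun h => hs0 (congrArg Subtype.val h)
    exact (BL_ord_eq_zero_iff_isUnit v hne).1 hsord
  · have : u * BL_inclB v htO ⟨s, hs⟩ = BL_inclB v htO ⟨a, ha⟩ := Subtype.ext hus
    rw [this]
    exact hB _

end Fermat.Agent.S24
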