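import Mathlib
import Fermat.Prelude.Def_AlgebraicCurve_DivisorClassGroup

/-!
# S24, package B1: the residue field of a place of a function field of one variable over an
algebraically closed field `K` is `K` (helper13)
-/

set_option autoImplicit false

namespace Fermat.Agent.S24

open AlgebraicCurve IntermediateField Polynomial

variable {K F : Type*} [Field K] [Field F] [Algebra K F]

theorem S24_mul_mem_nonunits (A : ValuationSubring F) {x y : F} (hx : x ∈ A.nonunits)
    (hy : y ∈ A) : x * y ∈ A.nonunits := by
  rw [ValuationSubring.mem_nonunits_iff] at hx ⊢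
  have hy' := (A.valuation_le_one_iff y).mpr hy
  rw [map_mul]
  calc A.valuation x * A.valuation y ≤ A.valuation x * 1 := by gcongr
    _ = A.valuation x := mul_one _
    _ < 1 := hx

/-- An element of a valuation subring `A` which is algebraic over a subfield `E ⊆ A` and lies in
the maximal ideal of `A` is zero. -/
theorem S24_eq_zero_of_isAlgebraic_of_mem_nonunits (A : ValuationSubring F)
    (E : Subfield F) (hE : ∀ x ∈ E, x ∈ A) (t : F) (ht : IsAlgebraic E t)
    (htA : t ∈ A.nonunits) : t = 0 := by
  by_contra ht0
  have hint : IsIntegral E t := ht.isIntegral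
  have hc0 : (minpoly E t).coeff 0 ≠ 0 := minpoly.coeff_zero_ne_zero hint ht0
  -- `minpoly = divX * X + C c₀`
  have hdec := Polynomial.divX_mul_X_add (minpoly E t)
  have hev : Polynomial.aeval t (minpoly E t) = 0 := minpoly.aeval E t
  rw [← hdec] at hev
  simp only [map_add, map_mul, aeval_X, aeval_C] at hev
  -- `c₀ = - (divX).eval t * t`
  set c₀ : E := (minpoly E t).coeff 0 with hc₀
  have htA' : t ∈ A := A.nonunits_le htA
  have hq : Polynomial.aeval t (minpoly E t).divX ∈ A := by
    rw [Polynomial.aeval_eq_sum_range]
    refine sum_mem fun i _ => ?_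
    rw [Algebra.smul_def]
    exact A.mul_mem _ _ (hE _ (SetLike.coe_mem _)) (pow_mem htA' i)
  have hc₀A : (c₀ : F) ∈ A.nonunits := by
    have : (c₀ : F) = -(Polynomial.aeval t (minpoly E t).divX * t) := by
      have h := hev
      have h2 : (algebraMap E F) c₀ = (c₀ : F) := rfl
      rw [h2] at h
      linear_combination h
    rw [this]
    have hmul : Polynomial.aeval t (minpoly E t).divX * t ∈ A.nonunits := by
      rw [mul_comm]
      exact S24_mul_mem_nonunits A htA hq
    rw [ValuationSubring.mem_nonunits_iff] at hmul ⊢
    simpa using hmul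
  -- but `c₀⁻¹ ∈ E ⊆ A`
  have hinv : ((c₀ : F))⁻¹ ∈ A := hE _ (by exact_mod_cast (c₀⁻¹).2)
  have hc₀F : (c₀ : F) ≠ 0 := by exact_mod_cast hc0
  have h1 : (1 : F) ∈ A.nonunits := by
    have := S24_mul_mem_nonunits A hc₀A hinv
    rwa [mul_inv_cancel₀ hc₀F] at this
  rw [ValuationSubring.mem_nonunits_iff] at h1
  simp at h1

/-- `F` is a function field of one variable over `K`, in the weak form used here:
`F` is algebraic over `K(y)` for every `y` transcendental over `K`. -/
def S24_IsFunctionField1 (K F : Type*) [Field K] [Field F] [Algebra K F] : Prop :=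
  ∀ y : F, Transcendental K y → Algebra.IsAlgebraic K⟮y⟯ F

open scoped IntermediateField.algebraAdjoinAdjoin in
/-- If `F` is algebraic over `K(x)` for one `x`, it is a function field of one variable. -/
theorem S24_isFunctionField1_of_isAlgebraic (x : F) (hx : Algebra.IsAlgebraic K⟮x⟯ F) :
    S24_IsFunctionField1 K F := by
  intro y hy
  have halg : Algebra.IsAlgebraic (Algebra.adjoin K {x}) F :=
    ⟨fun z => (IsFractionRing.isAlgebraic_iff (Algebra.adjoin K {x}) K⟮x⟯ F).mpr
      (hx.isAlgebraic z)⟩
  have htr : Algebra.trdeg K F ≤ 1 := by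
    have := Algebra.IsAlgebraic.trdeg_le_cardinalMk K ({x} : Set F)
    simpa using this
  have hind : AlgebraicIndependent K (fun _ : Unit => y) :=
    algebraicIndependent_unique_type_iff.mpr hy
  have hB : IsTranscendenceBasis K (fun _ : Unit => y) :=
    hind.isTranscendenceBasis_of_lift_trdeg_le_of_finite (by simpa using htr)
  have := hB.isAlgebraic_field
  have hr : Set.range (fun _ : Unit => y) = {y} := Set.range_const
  rwa [hr] at this

/-- In an algebra over an algebraically closed field which is a domain, algebraic elements are
in the image of the base field. -/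
theorem S24_mem_range_of_isAlgebraic [IsAlgClosed K] {L : Type*} [Field L] [Algebra K L] {z : L}
    (hz : IsAlgebraic K z) : z ∈ (algebraMap K L).range := by
  have hint : IsIntegral K z := hz.isIntegral
  have hdeg : (minpoly K z).degree = 1 :=
    IsAlgClosed.degree_eq_one_of_irreducible K (minpoly.irreducible hint)
  exact minpoly.mem_range_of_degree_eq_one K z hdeg

/-- **B1**: the residue field of a place of a function field of one variable over an
algebraically closed field `K` is `K`. -/
theorem S24_residue_surjective [IsAlgClosed K] (hF : S24_IsFunctionField1 K F) (v : Place K F) :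
    Function.Surjective (algebraMap K v.ResidueField) := by
  intro z
  obtain ⟨y, rfl⟩ := IsLocalRing.residue_surjective z
  by_contra hcon
  -- the residue of `y` is transcendental over `K`
  have htrz : Transcendental K (IsLocalRing.residue v.toValuationSubring y) := by
    intro halg
    obtain ⟨a, ha⟩ := S24_mem_range_of_isAlgebraic halg
    exact hcon ⟨a, ha⟩
  let res : v.toValuationSubring →ₐ[K] v.ResidueField := IsScalarTower.toAlgHom K v.toValuationSubring v.ResidueField
  have hres : ∀ x : v.toValuationSubring, res x = IsLocalRing.residue v.toValuationSubring x := fun x => rfl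
  let incl : v.toValuationSubring →ₐ[K] F := IsScalarTower.toAlgHom K v.toValuationSubring F
  have hincl : ∀ x : v.toValuationSubring, incl x = (x : F) := fun x => rfl
  have hunit : ∀ s : K[X], s ≠ 0 → IsUnit (Polynomial.aeval y s) := by
    intro s hs
    rw [← IsLocalRing.residue_ne_zero_iff_isUnit, ← hres, ← Polynomial.aeval_algHom_apply, hres]
    intro h0
    exact htrz ⟨s, hs, h0⟩
  -- `y` is transcendental over `K`
  have htry : Transcendental K (y : F) := by
    rintro ⟨s, hs, h0⟩
    have h1 : incl (Polynomial.aeval y s) = 0 := by
      rw [← Polynomial.aeval_algHom_apply, hincl]; exact h0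
    have h2 : Polynomial.aeval y s = 0 := by
      apply Subtype.ext
      rw [← hincl, h1]; rfl
    have := hunit s hs
    rw [h2] at this
    exact not_isUnit_zero this
  -- `K(y) ⊆ O`
  have hsub : ∀ x ∈ K⟮(y : F)⟯.toSubfield, x ∈ v.toValuationSubring := by
    intro x hx
    obtain ⟨r, s, rfl⟩ := (IntermediateField.mem_adjoin_simple_iff K x).mp hx
    by_cases hs : s = 0
    · simp [hs, v.toValuationSubring.zero_mem]
    · obtain ⟨u, hu⟩ := hunit s hs
      have hr : Polynomial.aeval (y : F) r = ((Polynomial.aeval y r : v.toValuationSubring) : F) := by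
        rw [← hincl, Polynomial.aeval_algHom_apply, hincl]
      have hs' : Polynomial.aeval (y : F) s = ((u : v.toValuationSubring) : F) := by
        rw [hu, ← hincl, Polynomial.aeval_algHom_apply, hincl]
      rw [hr, hs', div_eq_mul_inv]
      have hinv : (((u : v.toValuationSubring) : F))⁻¹ =
          ((u⁻¹ : v.toValuationSubringˣ) : v.toValuationSubring) := by
        apply inv_eq_of_mul_eq_one_right
        rw [← Subring.coe_mul, ← Units.val_mul]
        simp
      rw [hinv]
      exact v.toValuationSubring.mul_mem _ _ (SetLike.coe_mem _) (SetLike.coe_mem _)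
  -- a uniformizer is algebraic over `K(y)` and lies in the maximal ideal
  obtain ⟨π, hπ⟩ := IsDiscreteValuationRing.exists_irreducible v.toValuationSubring
  have halg : IsAlgebraic K⟮(y : F)⟯.toSubfield (π : F) :=
    (hF _ htry).isAlgebraic (π : F)
  have hπm : (π : F) ∈ v.toValuationSubring.nonunits := by
    rw [ValuationSubring.coe_mem_nonunits_iff, IsLocalRing.mem_maximalIdeal, mem_nonunits_iff]
    exact hπ.not_isUnit
  have := S24_eq_zero_of_isAlgebraic_of_mem_nonunits v.toValuationSubring _ hsub (π : F) halg hπm
  exact hπ.ne_zero (Subtype.ext this)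

/-- **B1'**: places of a function field of one variable over an algebraically closed field
have degree one. -/
theorem S24_deg_eq_one [IsAlgClosed K] (hF : S24_IsFunctionField1 K F) (v : Place K F) : v.deg = 1 := by
  have hbij : Function.Bijective (algebraMap K v.ResidueField) :=
    ⟨(algebraMap K v.ResidueField).injective, S24_residue_surjective hF v⟩
  have e : K ≃ₗ[K] v.ResidueField :=
    LinearEquiv.ofBijective (Algebra.linearMap K v.ResidueField) hbij
  rw [Place.deg, ← e.finrank_eq, Module.finrank_self]

end Fermat.Agent.S24
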