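import Mathlib
import Fermat.Agent.S24.FFBasic
import Fermat.Agent.S24.ResidueField
import Fermat.Agent.S24.GlobalA
import Fermat.Agent.S24.LocalRing

/-!
# S24, package BG: zeros of a transcendental element `x` of a function field (helper13)

`K` algebraically closed of characteristic `0`, `x : F` transcendental over `K`, `F / K(x)` finite.
`A = K[x]`, `B` = integral closure of `A` in `F`.

* `BG_finite_zeros`  (G1): `{v | 0 < v.ord x}` is finite.
* `BG_sum_ord_zeros` (G2): `∑_{v, 0 < ord_v x} ord_v x = [F : K(x)]`.
-/

set_option autoImplicit false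

open AlgebraicCurve IntermediateField IsDedekindDomain
open scoped IntermediateField.algebraAdjoinAdjoin

universe u v

namespace Fermat.Agent.S24

variable {K : Type u} {F : Type v} [Field K] [Field F] [Algebra K F]

/-- `K[x]` is a principal ideal domain. -/
theorem BG_isPrincipalIdealRing {x : F} (hx : Transcendental K x) :
    IsPrincipalIdealRing (Algebra.adjoin K ({x} : Set F)) :=
  IsPrincipalIdealRing.of_surjective (BL_equiv hx).toRingEquiv.toRingHom (BL_equiv hx).surjective

section

variable [CharZero K] {x : F} (hx : Transcendental K x) [FiniteDimensional K⟮x⟯ F]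

include hx in
/-- the integral closure of `K[x]` in `F` is a Dedekind domain. -/
theorem BG_isDedekindDomain :
    IsDedekindDomain (integralClosure (Algebra.adjoin K ({x} : Set F)) F) := by
  have := BG_isPrincipalIdealRing hx
  have : CharZero K⟮x⟯ := charZero_of_injective_algebraMap (algebraMap K K⟮x⟯).injective
  exact integralClosure.isDedekindDomain (Algebra.adjoin K ({x} : Set F)) K⟮x⟯ F

omit [CharZero K] in
/-- the integral closure of `K[x]` in `F` has fraction field `F`. -/
theorem BG_isFractionRing :
    IsFractionRing (integralClosure (Algebra.adjoin K ({x} : Set F)) F) F :=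
  IsIntegralClosure.isFractionRing_of_finite_extension (Algebra.adjoin K ({x} : Set F)) K⟮x⟯ F _

include hx in
theorem BG_finite : Module.Finite (Algebra.adjoin K ({x} : Set F))
    (integralClosure (Algebra.adjoin K ({x} : Set F)) F) := by
  have := BG_isPrincipalIdealRing hx
  have : CharZero K⟮x⟯ := charZero_of_injective_algebraMap (algebraMap K K⟮x⟯).injective
  exact IsIntegralClosure.finite (Algebra.adjoin K ({x} : Set F)) K⟮x⟯ F _

include hx in
theorem BG_free : Module.Free (Algebra.adjoin K ({x} : Set F))
    (integralClosure (Algebra.adjoin K ({x} : Set F)) F) := by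
  have := BG_isPrincipalIdealRing hx
  have : CharZero K⟮x⟯ := charZero_of_injective_algebraMap (algebraMap K K⟮x⟯).injective
  exact IsIntegralClosure.module_free (Algebra.adjoin K ({x} : Set F)) K⟮x⟯ F _

include hx in
theorem BG_finrank : Module.finrank (Algebra.adjoin K ({x} : Set F))
    (integralClosure (Algebra.adjoin K ({x} : Set F)) F) = Module.finrank K⟮x⟯ F := by
  have := BG_isPrincipalIdealRing hx
  have : CharZero K⟮x⟯ := charZero_of_injective_algebraMap (algebraMap K K⟮x⟯).injective
  exact IsIntegralClosure.rank (Algebra.adjoin K ({x} : Set F)) K⟮x⟯ F _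

end

section Places

variable [CharZero K] {x : F} (hx : Transcendental K x) [FiniteDimensional K⟮x⟯ F]

/-- the prime `(x)` of `K[x]`. -/
def BG_p (K : Type u) {F : Type v} [Field K] [Field F] [Algebra K F] (x : F) :
    Ideal (Algebra.adjoin K ({x} : Set F)) :=
  Ideal.span {BL_gen (K := K) x}

omit [CharZero K] [FiniteDimensional K⟮x⟯ F] in
include hx in
theorem BG_p_isMaximal : (BG_p K x).IsMaximal := by
  have := BG_isPrincipalIdealRing hx
  apply PrincipalIdealRing.isMaximal_of_irreducible
  have h : BL_gen (K := K) x = BL_equiv hx Polynomial.X := by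
    apply Subtype.ext
    rw [BL_equiv_coe]
    simp [BL_gen]
  rw [h]
  exact (MulEquiv.irreducible_iff (BL_equiv hx).toMulEquiv).mpr Polynomial.irreducible_X

omit [CharZero K] [FiniteDimensional K⟮x⟯ F] in
include hx in
theorem BG_p_ne_bot : BG_p K x ≠ ⊥ := by
  rw [BG_p, Ne, Ideal.span_singleton_eq_bot]
  intro h
  have : x = 0 := congrArg Subtype.val h
  exact hx (this ▸ isAlgebraic_zero)

include hx in
/-- **G1a**: every place with `0 < ord x` is the place of a height one prime of `B` containing
`x`. -/
theorem BG_exists_prime (v : Place K F) (hv : 0 < v.ord x) :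
    letI := BG_isDedekindDomain hx
    letI := BG_isFractionRing (K := K) (x := x)
    ∃ w : HeightOneSpectrum (integralClosure (Algebra.adjoin K ({x} : Set F)) F),
      Place.ofHeightOneSpectrum (K := K) (F := F) w = v := by
  let := BG_isDedekindDomain hx
  let := BG_isFractionRing (K := K) (x := x)
  have hx0 : x ≠ 0 := by rintro rfl; simp at hv
  have hxv : x ∈ v.toValuationSubring := (BG_mem_iff_ord_nonneg v hx0).mpr hv.le
  exact BG_exists_heightOneSpectrum v (fun b => BL_mem_of_isIntegral v hxv b.2)

omit [CharZero K] [FiniteDimensional K⟮x⟯ F] in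
/-- if the residue field of the place of `w` is `K`, then `K → B ⧸ w` is surjective. -/
theorem BG_quotient_surjective {B : Type*} [CommRing B] [IsDedekindDomain B] [Algebra B F]
    [IsFractionRing B F] [Algebra K B] [IsScalarTower K B F] (w : HeightOneSpectrum B)
    (hres : Function.Surjective (algebraMap K
      (Place.ofHeightOneSpectrum (K := K) (F := F) w).ResidueField)) :
    Function.Surjective (algebraMap K (B ⧸ w.asIdeal)) := by
  intro z
  obtain ⟨b, rfl⟩ := Ideal.Quotient.mk_surjective z
  set v := Place.ofHeightOneSpectrum (K := K) (F := F) w with hv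
  have hb : algebraMap B F b ∈ v.toValuationSubring := by
    rw [hv, BG_mem_ofHeightOneSpectrum]; exact w.valuation_le_one b
  obtain ⟨a, ha⟩ := hres (IsLocalRing.residue v.toValuationSubring ⟨algebraMap B F b, hb⟩)
  refine ⟨a, ?_⟩
  rw [IsScalarTower.algebraMap_apply K B (B ⧸ w.asIdeal), Ideal.Quotient.algebraMap_eq,
    Ideal.Quotient.eq, BG_mem_asIdeal_iff (K := K) (F := F) w, ← hv]
  have h1 : IsLocalRing.residue v.toValuationSubring
      (algebraMap K v.toValuationSubring a - ⟨algebraMap B F b, hb⟩) = 0 := by
    rw [map_sub, ← ha]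
    exact sub_self _
  rw [IsLocalRing.residue_eq_zero_iff, ← ValuationSubring.coe_mem_nonunits_iff] at h1
  have h2 : ((algebraMap K v.toValuationSubring a - ⟨algebraMap B F b, hb⟩ :
      v.toValuationSubring) : F) = algebraMap B F (algebraMap K B a - b) := by
    rw [map_sub, ← IsScalarTower.algebraMap_apply K B F]
    rfl
  rwa [h2] at h1

include hx in
/-- **G1 + G2**: the places with `0 < ord x` form a finite set, and the orders of `x` at these
places add up to `[F : K(x)]`. -/
theorem BG_zeros_main [IsAlgClosed K] :
    ∃ s : Finset (Place K F), (∀ v, v ∈ s ↔ 0 < v.ord x) ∧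
      ∑ v ∈ s, v.ord x = (Module.finrank K⟮x⟯ F : ℤ) := by
  classical
  have := BG_isPrincipalIdealRing hx
  have := BG_isDedekindDomain hx
  have := BG_isFractionRing (K := K) (x := x)
  have := BG_finite hx
  have := BG_free hx
  have := BG_p_isMaximal hx
  have hx0 : x ≠ 0 := fun h => hx (h ▸ isAlgebraic_zero)
  have hF : S24_IsFunctionField1 K F :=
    S24_isFunctionField1_of_isAlgebraic x (Algebra.IsAlgebraic.of_finite _ _)
  -- `x` as an element of `B`
  set xB : integralClosure (Algebra.adjoin K ({x} : Set F)) F :=
    algebraMap (Algebra.adjoin K ({x} : Set F)) _ (BL_gen (K := K) x) with hxB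
  have hxBF : algebraMap (integralClosure (Algebra.adjoin K ({x} : Set F)) F) F xB = x := rfl
  have hxB0 : xB ≠ 0 := by
    intro h
    apply hx0
    rw [← hxBF, h, map_zero]
  have hxmem : ∀ q : (BG_p K x).primesOver (integralClosure (Algebra.adjoin K ({x} : Set F)) F),
      xB ∈ q.1 := by
    intro q
    have hlo : q.1.LiesOver (BG_p K x) := q.2.2
    have : BL_gen (K := K) x ∈ BG_p K x := Ideal.subset_span rfl
    rw [hlo.over, Ideal.mem_comap] at this
    exact this
  have hne : ∀ q : (BG_p K x).primesOver (integralClosure (Algebra.adjoin K ({x} : Set F)) F),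
      q.1 ≠ ⊥ := by
    intro q h
    have := hxmem q
    rw [h, Ideal.mem_bot] at this
    exact hxB0 this
  let W : (BG_p K x).primesOver (integralClosure (Algebra.adjoin K ({x} : Set F)) F) →
      HeightOneSpectrum (integralClosure (Algebra.adjoin K ({x} : Set F)) F) :=
    fun q => ⟨q.1, q.2.1, hne q⟩
  let g : (BG_p K x).primesOver (integralClosure (Algebra.adjoin K ({x} : Set F)) F) →
      Place K F := fun q => Place.ofHeightOneSpectrum (K := K) (F := F) (W q)
  have hg : Function.Injective g := by
    intro q q' h
    have := BG_ofHeightOneSpectrum_injective (K := K) (F := F) h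
    exact Subtype.ext (congrArg HeightOneSpectrum.asIdeal this)
  have hpos : ∀ q, 0 < (g q).ord x := by
    intro q
    rw [← BG_mem_nonunits_iff_ord_pos _ hx0, ← hxBF]
    exact (BG_mem_asIdeal_iff (K := K) (F := F) (W q) xB).mp (hxmem q)
  refine ⟨Finset.univ.map ⟨g, hg⟩, ?_, ?_⟩
  · intro v
    simp only [Finset.mem_map, Finset.mem_univ, true_and, Function.Embedding.coeFn_mk]
    constructor
    · rintro ⟨q, rfl⟩
      exact hpos q
    · intro hv
      obtain ⟨w, hw⟩ := BG_exists_prime hx v hv
      have hxw : xB ∈ w.asIdeal := by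
        rw [BG_mem_asIdeal_iff (K := K) (F := F) w, hw, hxBF, BG_mem_nonunits_iff_ord_pos _ hx0]
        exact hv
      have hle : BG_p K x ≤ w.asIdeal.under (Algebra.adjoin K ({x} : Set F)) := by
        rw [BG_p, Ideal.span_le, Set.singleton_subset_iff]
        exact hxw
      have hprime : w.asIdeal.IsPrime := w.isPrime
      have hunder : (w.asIdeal.under (Algebra.adjoin K ({x} : Set F))).IsPrime :=
        Ideal.IsPrime.under _ _
      have heq : BG_p K x = w.asIdeal.under (Algebra.adjoin K ({x} : Set F)) :=
        Ideal.IsMaximal.eq_of_le inferInstance hunder.ne_top hle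
      refine ⟨⟨w.asIdeal, hprime, ⟨heq⟩⟩, ?_⟩
      exact hw
  · rw [Finset.sum_map]
    simp only [Function.Embedding.coeFn_mk]
    have hsum := Ideal.sum_ramification_inertia_eq_finrank (BG_p K x)
      (integralClosure (Algebra.adjoin K ({x} : Set F)) F)
    rw [BG_finrank hx] at hsum
    rw [← hsum]
    push_cast
    apply Finset.sum_congr rfl
    intro q _
    have hlo : (W q).asIdeal.LiesOver (Ideal.span {BL_gen (K := K) x}) := q.2.2
    have he := BG_ramificationIdx_eq_ord (K := K) (F := F) (BL_gen (K := K) x) hxB0 (W q)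
    have hmax : q.1.IsMaximal := Ideal.IsPrime.isMaximal q.2.1 (hne q)
    have hlo' : q.1.LiesOver (BG_p K x) := q.2.2
    have hf := BG_inertiaDeg_eq_one (K := K) (BG_p K x) q.1
      (BG_quotient_surjective (K := K) (F := F) (W q) (S24_residue_surjective hF _))
    rw [hf]
    show (g q).ord x = _
    rw [Nat.cast_one, mul_one]
    exact he.symm

include hx in
/-- **G1**: finitely many places with `0 < ord x`. -/
theorem BG_finite_zeros [IsAlgClosed K] : {v : Place K F | 0 < v.ord x}.Finite := by
  obtain ⟨s, hs, -⟩ := BG_zeros_main hx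
  exact s.finite_toSet.subset fun v hv => (hs v).mpr hv

include hx in
/-- **G2**: `∑_{v, 0 < ord_v x} ord_v x = [F : K(x)]`. -/
theorem BG_sum_ord_zeros [IsAlgClosed K] :
    ∑ v ∈ (BG_finite_zeros hx).toFinset, v.ord x = (Module.finrank K⟮x⟯ F : ℤ) := by
  obtain ⟨s, hs, hsum⟩ := BG_zeros_main hx
  rw [← hsum]
  apply Finset.sum_congr _ (fun _ _ => rfl)
  ext v
  simp [hs v]

end Places

end Fermat.Agent.S24
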