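import Mathlib
import Fermat.Agent.S24.Global

/-!
# S24, package BG, G3: principal divisors have degree zero (helper13)

`K` algebraically closed of characteristic `0`, `F / K(x)` finite, `x` transcendental.

* `BG_sum_ord_poles`: `∑_{v, ord_v f < 0} ord_v f = -[F : K(f)]` for transcendental `f`.
* `BG_exists_principal_divisor` (G3, Prelude shape): for `f ≠ 0` there is a divisor `D` with
  `D v = v.ord f` for all `v` and `degree D = 0`.
* `BG_hasPrincipalDivisors`: the Prelude class `HasPrincipalDivisors K F`.
-/

set_option autoImplicit false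

open AlgebraicCurve IntermediateField IsDedekindDomain

universe u v

namespace Fermat.Agent.S24

variable {K : Type u} {F : Type v} [Field K] [Field F] [Algebra K F]

/-- `K(f⁻¹) = K(f)`. -/
theorem BG_adjoin_inv (f : F) : K⟮f⁻¹⟯ = K⟮f⟯ := by
  apply le_antisymm
  · rw [IntermediateField.adjoin_simple_le_iff]
    exact inv_mem (IntermediateField.mem_adjoin_simple_self K f)
  · rw [IntermediateField.adjoin_simple_le_iff]
    have := inv_mem (IntermediateField.mem_adjoin_simple_self K f⁻¹)
    rwa [inv_inv] at this

theorem BG_transcendental_inv {f : F} (hf : Transcendental K f) : Transcendental K f⁻¹ := by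
  intro h
  apply hf
  have := h.inv
  rwa [inv_inv] at this

section

variable [IsAlgClosed K] [CharZero K]

/-- zeros of a transcendental `f`, as a finset. -/
noncomputable def BG_zeros {f : F} (hf : Transcendental K f) [FiniteDimensional K⟮f⟯ F] :
    Finset (Place K F) := (BG_finite_zeros hf).toFinset

theorem BG_mem_zeros {f : F} (hf : Transcendental K f) [FiniteDimensional K⟮f⟯ F]
    (v : Place K F) : v ∈ BG_zeros hf ↔ 0 < v.ord f := by
  simp [BG_zeros]

theorem BG_sum_zeros {f : F} (hf : Transcendental K f) [FiniteDimensional K⟮f⟯ F] :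
    ∑ v ∈ BG_zeros hf, v.ord f = (Module.finrank K⟮f⟯ F : ℤ) :=
  BG_sum_ord_zeros hf

/-- **G3, Prelude shape**: for `f ≠ 0` there is a divisor `D` with `D v = ord_v f` for all `v`,
and it has degree zero. -/
theorem BG_exists_principal_divisor {x : F} (_hx : Transcendental K x)
    [hfin : FiniteDimensional K⟮x⟯ F] (f : F) (hf : f ≠ 0) :
    ∃ D : Divisor K F, (∀ v : Place K F, D v = v.ord f) ∧ Divisor.degree D = 0 := by
  classical
  by_cases halg : IsAlgebraic K f
  · -- constants
    obtain ⟨a, rfl⟩ := BL_mem_range_of_isIntegral halg.isIntegral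
    refine ⟨0, fun v => ?_, map_zero _⟩
    rw [BL_ord_algebraMap]; rfl
  · have htr : Transcendental K f := halg
    have htr' : Transcendental K f⁻¹ := BG_transcendental_inv htr
    have h1 : FiniteDimensional K⟮f⟯ F := BL_finite_of_transcendental hfin htr
    have h2 : FiniteDimensional K⟮f⁻¹⟯ F := BL_finite_of_transcendental hfin htr'
    have hF : S24_IsFunctionField1 K F :=
      S24_isFunctionField1_of_isAlgebraic x (Algebra.IsAlgebraic.of_finite _ _)
    set Z := BG_zeros htr with hZ
    set P := BG_zeros htr' with hP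
    have hZmem : ∀ v, v ∈ Z ↔ 0 < v.ord f := BG_mem_zeros htr
    have hPmem : ∀ v, v ∈ P ↔ v.ord f < 0 := by
      intro v
      rw [hP, BG_mem_zeros htr', v.ord_inv]
      omega
    have hdisj : Disjoint Z P := by
      rw [Finset.disjoint_left]
      intro v hvZ hvP
      rw [hZmem] at hvZ
      rw [hPmem] at hvP
      omega
    have hsZ : ∑ v ∈ Z, v.ord f = (Module.finrank K⟮f⟯ F : ℤ) := BG_sum_zeros htr
    have hsP : ∑ v ∈ P, v.ord f = -(Module.finrank K⟮f⟯ F : ℤ) := by
      have h := BG_sum_zeros htr'
      have hfr : Module.finrank K⟮f⁻¹⟯ F = Module.finrank K⟮f⟯ F :=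
        congrArg (fun E : IntermediateField K F => Module.finrank E F) (BG_adjoin_inv f)
      rw [hfr] at h
      rw [← h, ← Finset.sum_neg_distrib]
      apply Finset.sum_congr rfl
      intro v _
      rw [v.ord_inv, neg_neg]
    refine ⟨∑ v ∈ Z ∪ P, Finsupp.single v (v.ord f), fun w => ?_, ?_⟩
    · rw [Finsupp.finsetSum_apply]
      simp only [Finsupp.single_apply]
      rw [Finset.sum_ite_eq']
      split_ifs with h
      · rfl
      · rw [Finset.mem_union, hZmem, hPmem] at h
        omega
    · rw [map_sum]
      simp only [Divisor.degree_single, S24_deg_eq_one hF, Nat.cast_one, mul_one]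
      rw [Finset.sum_union hdisj, hsZ, hsP]
      ring

/-- the Prelude class `HasPrincipalDivisors`. -/
theorem BG_hasPrincipalDivisors {x : F} (hx : Transcendental K x)
    [FiniteDimensional K⟮x⟯ F] : HasPrincipalDivisors K F :=
  ⟨fun f hf => BG_exists_principal_divisor hx f hf⟩

end

end Fermat.Agent.S24
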