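import Mathlib
import Fermat.Prelude.Def_ModularCurve_GenusNumerics
import Fermat.Agent.S20.PermInv

/-!
# S24: orbit counts on `SL(2,ℤ) ⧸ Γ₀(N)` and the final arithmetic
-/

set_option autoImplicit false

namespace Fermat.Agent.S24

open Matrix MatrixGroups ModularGroup CongruenceSubgroup Matrix.SpecialLinearGroup
open Fermat.Agent.S20

variable (N : ℕ) [NeZero N]

/-- number of `⟨S⟩`-orbits on the cosets -/
theorem S24_two_mul_card_orbits_S :
    2 * Nat.card (MulAction.orbitRel.Quotient (Subgroup.zpowers (S : SL(2, ℤ))) (S20_Q N)) =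
      ModularCurve.dedekindPsi N + ModularCurve.nuTwo N := by
  rw [← two_mul_finrank_eigenspace_permOp_S N,
    S20_finrank_eigenspace_one (X := Q N) (S : SL(2, ℤ)) (permOp N S) (fun v x => rfl)]
  rfl

/-- number of `⟨ST⟩`-orbits on the cosets -/
theorem S24_three_mul_card_orbits_ST :
    3 * Nat.card (MulAction.orbitRel.Quotient (Subgroup.zpowers ((S : SL(2, ℤ)) * T)) (S20_Q N)) =
      ModularCurve.dedekindPsi N + 2 * ModularCurve.nuThree N := by
  rw [← three_mul_finrank_eigenspace_permOp_ST N,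
    S20_finrank_eigenspace_one (X := Q N) ((S : SL(2, ℤ)) * T) (permOp N (S * T)) (fun v x => rfl)]
  rfl

/-- number of `⟨T⟩`-orbits on the cosets -/
theorem S24_card_orbits_T :
    Nat.card (MulAction.orbitRel.Quotient (Subgroup.zpowers (T : SL(2, ℤ))) (S20_Q N)) =
      ModularCurve.cuspCount N := S20_card_T_orbits N

omit [NeZero N] in
/-- **Final arithmetic.** -/
theorem S24_final_arith (g : ℕ) (hg : (g : ℚ) = ModularCurve.genusFormula N) (deg : ℤ)
    (p0 p1728 pinf : ℕ)
    (h2 : 2 * p1728 = ModularCurve.dedekindPsi N + ModularCurve.nuTwo N)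
    (h3 : 3 * p0 = ModularCurve.dedekindPsi N + 2 * ModularCurve.nuThree N)
    (hinf : pinf = ModularCurve.cuspCount N)
    (hdeg : deg = (ModularCurve.dedekindPsi N : ℤ) - p0 - p1728 - pinf) :
    (((deg + 2).toNat / 2 : ℕ) : ℚ) = ModularCurve.genusFormula N := by
  have hq : ((deg + 2 : ℤ) : ℚ) = 2 * (g : ℚ) := by
    rw [hg, hdeg]
    unfold ModularCurve.genusFormula
    have h2' : (2 : ℚ) * p1728 = ModularCurve.dedekindPsi N + ModularCurve.nuTwo N := by
      exact_mod_cast h2
    have h3' : (3 : ℚ) * p0 = ModularCurve.dedekindPsi N + 2 * ModularCurve.nuThree N := by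
      exact_mod_cast h3
    have hinf' : (pinf : ℚ) = ModularCurve.cuspCount N := by
      exact_mod_cast hinf
    push_cast
    linear_combination (-1 : ℚ) / 2 * h2' - (1 : ℚ) / 3 * h3' - hinf'
  have hz : deg + 2 = 2 * (g : ℤ) := by
    exact_mod_cast hq
  rw [hz, ← hg]
  congr 1
  have : ((2 * (g : ℤ)).toNat) = 2 * g := by
    omega
  rw [this]
  omega

end Fermat.Agent.S24
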