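import Mathlib

/-!
# S24: the abstract counting lemma

If `φ : X → P` is surjective, constant on the orbits of `G`, `e (φ x) ≤ |orbit x|` and
`|X| ≤ ∑ v, e v`, then `φ` induces a bijection between orbits and `P`, and `e (φ x) = |orbit x|`.
-/

set_option autoImplicit false

namespace Fermat.Agent.S24

open MulAction

section Abstract

variable {Ω P : Type*} [Fintype Ω] [Fintype P] [DecidableEq P]

/-- Abstract form: `ψ : Ω → P` surjective, `e v ≤ s ω` whenever `ψ ω = v`, `s ω ≥ 1`,
`∑ s ≤ ∑ e`.  Then `ψ` is injective and `e (ψ ω) = s ω`. -/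
theorem S24_counting_core (e : P → ℕ) (s : Ω → ℕ) (ψ : Ω → P) (hψ : Function.Surjective ψ)
    (hpos : ∀ ω, 0 < s ω) (hle : ∀ ω, e (ψ ω) ≤ s ω) (hsum : ∑ ω, s ω ≤ ∑ v, e v) :
    Function.Injective ψ ∧ ∀ ω, e (ψ ω) = s ω := by
  classical
  -- fibrewise sum
  have hfib : ∑ v : P, ∑ ω ∈ Finset.univ.filter (fun ω => ψ ω = v), s ω = ∑ ω, s ω :=
    Finset.sum_fiberwise Finset.univ ψ s
  -- each fibre sum is ≥ e v
  have hge : ∀ v : P, e v ≤ ∑ ω ∈ Finset.univ.filter (fun ω => ψ ω = v), s ω := by
    intro v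
    obtain ⟨ω, hω⟩ := hψ v
    have hmem : ω ∈ Finset.univ.filter (fun ω => ψ ω = v) := by simp [hω]
    calc e v = e (ψ ω) := by rw [hω]
      _ ≤ s ω := hle ω
      _ ≤ ∑ ω ∈ Finset.univ.filter (fun ω => ψ ω = v), s ω :=
        Finset.single_le_sum (f := s) (fun _ _ => Nat.zero_le _) hmem
  -- hence equality for every v
  have heq : ∀ v : P, e v = ∑ ω ∈ Finset.univ.filter (fun ω => ψ ω = v), s ω := by
    have htot : ∑ v : P, ∑ ω ∈ Finset.univ.filter (fun ω => ψ ω = v), s ω ≤ ∑ v, e v := by
      rw [hfib]; exact hsum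
    have := (Finset.sum_eq_sum_iff_of_le (fun v _ => hge v)).1
      (le_antisymm (Finset.sum_le_sum fun v _ => hge v) htot)
    intro v
    exact this v (Finset.mem_univ v)
  have hkey : ∀ ω ω' : Ω, ψ ω = ψ ω' → ω = ω' ∧ e (ψ ω) = s ω := by
    intro ω ω' h
    have h1 : ω ∈ Finset.univ.filter (fun x => ψ x = ψ ω) := by simp
    have h2 : ω' ∈ Finset.univ.filter (fun x => ψ x = ψ ω) := by simp [h]
    have hE := heq (ψ ω)
    by_contra hne
    rw [not_and_or] at hne
    rcases hne with hne | hne
    · -- two distinct elements in the fibre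
      have hsub : ({ω, ω'} : Finset Ω) ⊆ Finset.univ.filter (fun x => ψ x = ψ ω) := by
        intro x hx
        rw [Finset.mem_insert, Finset.mem_singleton] at hx
        rcases hx with rfl | rfl
        · exact h1
        · exact h2
      have hs2 : s ω + s ω' ≤ ∑ x ∈ Finset.univ.filter (fun x => ψ x = ψ ω), s x := by
        rw [← Finset.sum_pair hne]
        exact Finset.sum_le_sum_of_subset hsub
      have := hle ω
      have := hpos ω'
      omega
    · have hs1 : s ω ≤ ∑ x ∈ Finset.univ.filter (fun x => ψ x = ψ ω), s x :=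
        Finset.single_le_sum (f := s) (fun _ _ => Nat.zero_le _) h1
      have := hle ω
      omega
  exact ⟨fun ω ω' h => (hkey ω ω' h).1, fun ω => (hkey ω ω rfl).2⟩

end Abstract

section Action

variable {G X P : Type*} [Group G] [MulAction G X] [Finite X] [Finite P]

/-- **Counting lemma.**  -/
theorem S24_counting (e : P → ℕ) (φ : X → P) (hφ : Function.Surjective φ)
    (hinv : ∀ (g : G) (x : X), φ (g • x) = φ x)
    (hle : ∀ x : X, e (φ x) ≤ Nat.card (orbit G x))
    (hsum : Nat.card X ≤ ∑ᶠ v, e v) :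
    Nat.card P = Nat.card (orbitRel.Quotient G X) ∧
      ∀ x, e (φ x) = Nat.card (orbit G x) := by
  classical
  have : Fintype X := Fintype.ofFinite X
  have : Fintype P := Fintype.ofFinite P
  have : Fintype (orbitRel.Quotient G X) := Fintype.ofFinite _
  -- the induced map on orbits
  let ψ : orbitRel.Quotient G X → P := fun ω => Quotient.liftOn' ω φ (by
    intro a b hab
    obtain ⟨g, hg⟩ := hab
    rw [← hg]
    exact hinv g b)
  have hψmk : ∀ x : X, ψ (Quotient.mk'' x) = φ x := fun x => rfl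
  have hψ : Function.Surjective ψ := by
    intro v
    obtain ⟨x, hx⟩ := hφ v
    exact ⟨Quotient.mk'' x, hx⟩
  let s : orbitRel.Quotient G X → ℕ := fun ω => Nat.card ω.orbit
  have hsmk : ∀ x : X, s (Quotient.mk'' x) = Nat.card (orbit G x) := by
    intro x
    simp only [s]
    rw [orbitRel.Quotient.orbit_mk]
  have hpos : ∀ ω, 0 < s ω := by
    intro ω
    induction ω using Quotient.inductionOn' with
    | h x =>
      rw [hsmk]
      have : Nonempty (orbit G x) := ⟨⟨x, mem_orbit_self x⟩⟩
      exact Nat.card_pos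
  have hle' : ∀ ω, e (ψ ω) ≤ s ω := by
    intro ω
    induction ω using Quotient.inductionOn' with
    | h x =>
      rw [hsmk, hψmk]
      exact hle x
  have hsumX : ∑ ω, s ω = Nat.card X := by
    have e1 : X ≃ Σ ω : orbitRel.Quotient G X, ω.orbit := selfEquivSigmaOrbits' G X
    rw [Nat.card_congr e1, Nat.card_sigma]
  have hsum' : ∑ ω, s ω ≤ ∑ v, e v := by
    rw [hsumX]
    rwa [finsum_eq_sum_of_fintype] at hsum
  obtain ⟨hinj, heq⟩ := S24_counting_core e s ψ hψ hpos hle' hsum'
  refine ⟨?_, ?_⟩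
  · exact (Nat.card_congr (Equiv.ofBijective ψ ⟨hinj, hψ⟩)).symm
  · intro x
    rw [← hsmk, ← heq, hψmk]

/-- Corollary: `∑ (e v - 1) = |X| - #orbits`, in additive form. -/
theorem S24_counting_sum (e : P → ℕ) (φ : X → P) (hφ : Function.Surjective φ)
    (hinv : ∀ (g : G) (x : X), φ (g • x) = φ x)
    (hle : ∀ x : X, e (φ x) ≤ Nat.card (orbit G x))
    (hsum : Nat.card X ≤ ∑ᶠ v, e v) :
    ∑ᶠ v, e v = Nat.card X := by
  classical
  have : Fintype X := Fintype.ofFinite X
  have : Fintype P := Fintype.ofFinite P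
  have : Fintype (orbitRel.Quotient G X) := Fintype.ofFinite _
  obtain ⟨hcard, heq⟩ := S24_counting e φ hφ hinv hle hsum
  apply le_antisymm _ hsum
  -- ∑ e v = ∑ over orbits of |orbit| = |X|
  rw [finsum_eq_sum_of_fintype]
  have e1 : X ≃ Σ ω : orbitRel.Quotient G X, ω.orbit := selfEquivSigmaOrbits' G X
  rw [Nat.card_congr e1, Nat.card_sigma]
  -- choose for each v a preimage
  choose r hr using hφ
  have hinjr : Function.Injective (fun v => (Quotient.mk'' (r v) : orbitRel.Quotient G X)) := by
    intro v w h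
    have h' : orbitRel G X (r v) (r w) := Quotient.exact' h
    obtain ⟨g, hg⟩ := h'
    have hg' : g • r w = r v := hg
    have := hinv g (r w)
    rw [hg', hr, hr] at this
    exact this
  calc ∑ v, e v = ∑ v, Nat.card (orbitRel.Quotient.orbit (Quotient.mk'' (r v) : orbitRel.Quotient G X)) := by
        apply Finset.sum_congr rfl
        intro v _
        rw [orbitRel.Quotient.orbit_mk, ← heq, hr]
    _ ≤ ∑ ω : orbitRel.Quotient G X, Nat.card ω.orbit := by
        rw [← Finset.sum_image (f := fun ω : orbitRel.Quotient G X => Nat.card ω.orbit)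
          (g := fun v => (Quotient.mk'' (r v) : orbitRel.Quotient G X))
          (s := Finset.univ) (fun a _ b _ h => hinjr h)]
        exact Finset.sum_le_sum_of_subset (Finset.subset_univ _)

end Action

end Fermat.Agent.S24
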