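import Mathlib
import Fermat.Prelude.Def_AlgebraicCurve_CanonicalDivisor
import Fermat.Agent.S24.Defs

/-! # S24, package P, step 1: the place attached to an abstract `ℤ`-valued valuation -/

set_option autoImplicit false

open AlgebraicCurve

namespace Fermat.Agent.S24

variable {K F : Type*} [Field K] [Field F] [Algebra K F]

namespace IsVal

variable {w : F → ℤ} (hw : IsVal (K := K) w)

/-- the valuation subring `{f | f = 0 ∨ 0 ≤ w f}` -/
def valuationSubring : ValuationSubring F where
  carrier := {f | f = 0 ∨ 0 ≤ w f}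
  mul_mem' := by
    rintro a b (rfl | ha) (rfl | hb)
    · left; simp
    · left; simp
    · left; simp
    · by_cases ha0 : a = 0
      · left; simp [ha0]
      by_cases hb0 : b = 0
      · left; simp [hb0]
      right
      rw [hw.mul a b ha0 hb0]
      omega
  one_mem' := Or.inr (by rw [hw.one])
  add_mem' := by
    rintro a b (rfl | ha) (rfl | hb)
    · left; simp
    · by_cases hb0 : b = 0
      · left; simp [hb0]
      · right; simpa using hb
    · by_cases ha0 : a = 0
      · left; simp [ha0]
      · right; simpa using ha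
    · by_cases ha0 : a = 0
      · subst ha0; simp only [zero_add]; exact Or.inr hb
      by_cases hb0 : b = 0
      · subst hb0; simp only [add_zero]; exact Or.inr ha
      by_cases hab : a + b = 0
      · left; exact hab
      right
      have := hw.add a b ha0 hb0 hab
      have h2 : 0 ≤ min (w a) (w b) := le_min ha hb
      omega
  zero_mem' := Or.inl rfl
  neg_mem' := by
    rintro a (rfl | ha)
    · left; simp
    · by_cases ha0 : a = 0
      · left; simp [ha0]
      · right; rw [hw.neg ha0]; exact ha
  mem_or_inv_mem' := by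
    intro a
    by_cases ha0 : a = 0
    · left; left; exact ha0
    rcases le_total 0 (w a) with h | h
    · left; right; exact h
    · right; right; rw [hw.inv ha0]; omega

theorem mem_valuationSubring_iff {f : F} :
    f ∈ hw.valuationSubring ↔ f = 0 ∨ 0 ≤ w f := Iff.rfl

theorem mem_valuationSubring_of_ne {f : F} (hf : f ≠ 0) :
    f ∈ hw.valuationSubring ↔ 0 ≤ w f := by
  rw [mem_valuationSubring_iff]
  exact ⟨fun h => h.resolve_left hf, Or.inr⟩

theorem isPrincipalIdealRing : IsPrincipalIdealRing hw.valuationSubring := by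
  classical
  refine ⟨fun I => ?_⟩
  by_cases hI : I = ⊥
  · subst hI; exact bot_isPrincipal
  -- pick an element of minimal valuation
  have hex : ∃ n : ℕ, ∃ a : hw.valuationSubring, a ∈ I ∧ a ≠ 0 ∧ w (a : F) = n := by
    obtain ⟨a, haI, ha0⟩ := Submodule.exists_mem_ne_zero_of_ne_bot hI
    have ha0' : (a : F) ≠ 0 := fun h => ha0 (Subtype.ext h)
    have hwa : 0 ≤ w (a : F) := (hw.mem_valuationSubring_of_ne ha0').mp a.2
    exact ⟨(w (a : F)).toNat, a, haI, ha0, by omega⟩
  obtain ⟨a, haI, ha0, hwa⟩ := Nat.find_spec hex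
  have hmin := fun m (hm : m < Nat.find hex) => Nat.find_min hex hm
  have ha0' : (a : F) ≠ 0 := fun h => ha0 (Subtype.ext h)
  refine ⟨a, le_antisymm ?_ ?_⟩
  · intro b hbI
    rw [Submodule.mem_span_singleton]
    by_cases hb0 : b = 0
    · exact ⟨0, by simp [hb0]⟩
    have hb0' : (b : F) ≠ 0 := fun h => hb0 (Subtype.ext h)
    have hwb : 0 ≤ w (b : F) := (hw.mem_valuationSubring_of_ne hb0').mp b.2
    have hle : w (a : F) ≤ w (b : F) := by
      by_contra hlt
      push Not at hlt
      have : (w (b : F)).toNat < Nat.find hex := by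
        have : ((w (b : F)).toNat : ℤ) = w (b : F) := Int.toNat_of_nonneg hwb
        omega
      exact hmin _ this ⟨b, hbI, hb0, (Int.toNat_of_nonneg hwb).symm⟩
    have hq : (b : F) / (a : F) ∈ hw.valuationSubring := by
      right
      rw [hw.div hb0' ha0']
      omega
    refine ⟨⟨_, hq⟩, ?_⟩
    apply Subtype.ext
    simp only [smul_eq_mul, MulMemClass.coe_mul]
    field_simp
  · rw [Submodule.span_singleton_le_iff_mem]
    exact haI

/-- the place attached to a nontrivial abstract valuation -/
def place (x : F) (hx0 : x ≠ 0) (hx : 0 < w x) : Place K F where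
  toValuationSubring := hw.valuationSubring
  algebraMap_mem' := fun a => by
    by_cases ha : a = 0
    · left; simp [ha]
    · right; rw [hw.const a ha]
  ne_top' := by
    intro h
    have hmem : x⁻¹ ∈ hw.valuationSubring := by rw [h]; exact ValuationSubring.mem_top _
    rw [hw.mem_valuationSubring_of_ne (inv_ne_zero hx0), hw.inv hx0] at hmem
    omega
  isPrincipalIdealRing' := hw.isPrincipalIdealRing

@[simp]
theorem place_toValuationSubring (x : F) (hx0 : x ≠ 0) (hx : 0 < w x) :
    (hw.place x hx0 hx).toValuationSubring = hw.valuationSubring := rfl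

include hw in
theorem zpow {f : F} (hf : f ≠ 0) (n : ℤ) : w (f ^ n) = n * w f := by
  obtain ⟨k, rfl | rfl⟩ := n.eq_nat_or_neg
  · rw [zpow_natCast, hw.pow hf]
  · rw [zpow_neg, zpow_natCast, hw.inv (pow_ne_zero k hf), hw.pow hf]
    ring

/-- `w = m * ord` for the attached place -/
theorem exists_mul_ord (x : F) (hx0 : x ≠ 0) (hx : 0 < w x) :
    ∃ m : ℤ, 0 < m ∧ (∃ π : F, π ≠ 0 ∧ w π = m) ∧
      ∀ f : F, f ≠ 0 → w f = m * (hw.place x hx0 hx).ord f := by
  set v := hw.place x hx0 hx with hv
  obtain ⟨π, hπ⟩ := IsDiscreteValuationRing.exists_irreducible v.toValuationSubring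
  have hπ0 : (π : F) ≠ 0 := by
    intro h
    exact hπ.ne_zero (Subtype.ext h)
  have hπpos : 0 < w (π : F) := by
    by_contra hle
    push Not at hle
    -- then π⁻¹ ∈ A, so π is a unit
    have hinv : (π : F)⁻¹ ∈ hw.valuationSubring := by
      right; rw [hw.inv hπ0]; omega
    apply hπ.not_isUnit
    refine IsUnit.of_mul_eq_one (⟨_, hinv⟩ : hw.valuationSubring) ?_
    apply Subtype.ext
    simp only [OneMemClass.coe_one]
    exact mul_inv_cancel₀ hπ0
  refine ⟨w (π : F), hπpos, ⟨π, hπ0, rfl⟩, fun f hf => ?_⟩
  obtain ⟨u, hu⟩ := v.exists_unit_mul_zpow hf hπ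
  have hu0 : ((u : v.toValuationSubring) : F) ≠ 0 := by
    intro h
    exact u.ne_zero (Subtype.ext h)
  have hwu : w ((u : v.toValuationSubring) : F) = 0 := by
    have h1 : 0 ≤ w ((u : v.toValuationSubring) : F) :=
      (hw.mem_valuationSubring_of_ne hu0).mp (u : v.toValuationSubring).2
    have hinv : (((u⁻¹ : v.toValuationSubringˣ) : v.toValuationSubring) : F)
        = (((u : v.toValuationSubring) : F))⁻¹ := by
      have := congrArg (fun z : v.toValuationSubring => (z : F)) u.mul_inv
      simp only [OneMemClass.coe_one] at this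
      exact (eq_inv_of_mul_eq_one_right this)
    have h2 : 0 ≤ w (((u : v.toValuationSubring) : F))⁻¹ := by
      rw [← hinv]
      refine (hw.mem_valuationSubring_of_ne ?_).mp
        ((u⁻¹ : v.toValuationSubringˣ) : v.toValuationSubring).2
      rw [hinv]; exact inv_ne_zero hu0
    rw [hw.inv hu0] at h2
    omega
  conv_lhs => rw [hu]
  rw [hw.mul _ _ hu0 (zpow_ne_zero _ hπ0), hwu, hw.zpow hπ0]
  ring

end IsVal

end Fermat.Agent.S24
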