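import Mathlib
import Fermat.Prelude.Def_AlgebraicCurve_CanonicalDivisor
import Fermat.Agent.S24.Defs
import Fermat.Agent.S24.PlaceOfVal
import Fermat.Agent.S24.Counting

/-! # S24, package P: the abstract place count

From a finite `G`-set `X` and valuations `w γ` (`γ : X`) on `F` satisfying the norm formula,
the places of `F` over `x = 0` are in bijection with the `G`-orbits on `X`.
The three inputs from the global theory (package BG) are taken as hypotheses here. -/

set_option autoImplicit false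

open IntermediateField AlgebraicCurve

namespace Fermat.Agent.S24

variable {K F : Type*} [Field K] [Field F] [Algebra K F]

/-- polynomials in `x` lie in any valuation subring containing `K` and `x` -/
theorem S24_aeval_mem_valuationSubring (A : ValuationSubring F)
    (hK : ∀ c : K, algebraMap K F c ∈ A) {x : F} (hx : x ∈ A) (p : Polynomial K) :
    Polynomial.aeval x p ∈ A := by
  induction p using Polynomial.induction_on with
  | C a => simpa using hK a
  | add p q hp hq => rw [map_add]; exact A.add_mem _ _ hp hq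
  | monomial n a ih =>
    rw [pow_succ, ← mul_assoc, map_mul, Polynomial.aeval_X]
    exact A.mul_mem _ _ ih hx

theorem S24_place_congr {w w' : F → ℤ} (hw : IsVal (K := K) w) (hw' : IsVal (K := K) w')
    (h : w = w') (x : F) (hx0 : x ≠ 0) (hx : 0 < w x) (hx' : 0 < w' x) :
    hw.place x hx0 hx = hw'.place x hx0 hx' := by
  subst h; rfl

/-- **Package P.**  The abstract place count, with the inputs from the global theory as
hypotheses. -/
theorem S24_placeCount_of (x : F) (hx0 : x ≠ 0) [FiniteDimensional K⟮x⟯ F]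
    (happrox : ∀ (v₀ : Place K F) (s : Finset (Place K F)), 0 < v₀.ord x →
      (∀ v ∈ s, 0 < v.ord x) → v₀ ∉ s →
      ∃ b : F, b ≠ 0 ∧ IsIntegral (Algebra.adjoin K {x}) b ∧ 0 < v₀.ord b ∧ ∀ v ∈ s, v.ord b = 0)
    (hnormpos : ∀ (v : Place K F), 0 < v.ord x → ∀ b : F,
      IsIntegral (Algebra.adjoin K {x}) b → 0 < v.ord b →
      ∃ p : Polynomial K, algebraMap K⟮x⟯ F (Algebra.norm K⟮x⟯ b) = x * Polynomial.aeval x p)
    (hsum : ∃ s : Finset (Place K F), (∀ v, v ∈ s ↔ 0 < v.ord x) ∧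
      ∑ v ∈ s, v.ord x = Module.finrank K⟮x⟯ F)
    {G X : Type} [Group G] [MulAction G X] [Finite X]
    (w : X → F → ℤ) (hw : ∀ γ, IsVal (K := K) (w γ)) (hwx : ∀ γ, 0 < w γ x)
    (horb : ∀ (g : G) γ, w (g • γ) = w γ)
    (hdiv : ∀ γ f, f ≠ 0 → w γ x ∣ (Nat.card (MulAction.orbit G γ) : ℤ) * w γ f)
    (hcard : Nat.card X = Module.finrank K⟮x⟯ F)
    (hnorm : ∀ f : F, f ≠ 0 → ∀ γ₀,
      ∑ᶠ γ, w γ f = w γ₀ (algebraMap K⟮x⟯ F (Algebra.norm K⟮x⟯ f))) :
    Nat.card {v : Place K F // 0 < v.ord x} = Nat.card (MulAction.orbitRel.Quotient G X) := by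
  classical
  have : Fintype X := Fintype.ofFinite X
  -- the places attached to the valuations
  set pl : X → Place K F := fun γ => (hw γ).place x hx0 (hwx γ) with hpl
  have hm : ∀ γ, ∃ m : ℤ, 0 < m ∧ (∃ π : F, π ≠ 0 ∧ w γ π = m) ∧
      ∀ f : F, f ≠ 0 → w γ f = m * (pl γ).ord f := fun γ =>
    (hw γ).exists_mul_ord x hx0 (hwx γ)
  have hplx : ∀ γ, 0 < (pl γ).ord x := by
    intro γ
    obtain ⟨m, hm0, -, hmf⟩ := hm γ
    have h := hwx γ
    rw [hmf x hx0] at h
    exact (mul_pos_iff_of_pos_left hm0).mp h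
  obtain ⟨s, hs, hssum⟩ := hsum
  -- nonemptiness of X
  have hXpos : 0 < Nat.card X := by
    rw [hcard]; exact Module.finrank_pos
  have hXne : Nonempty X := (Nat.card_pos_iff.mp hXpos).1
  -- Step 2: every place over `x = 0` is attached to some `γ`
  have hsurj : ∀ v : Place K F, 0 < v.ord x → ∃ γ, pl γ = v := by
    intro v hv
    by_contra hcon
    push Not at hcon
    have hnotin : v ∉ Finset.univ.image pl := by
      intro h
      obtain ⟨γ, -, hγ⟩ := Finset.mem_image.mp h
      exact hcon γ hγ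
    obtain ⟨b, hb0, hbint, hbv, hbs⟩ := happrox v (Finset.univ.image pl) hv
      (fun u hu => by
        obtain ⟨γ, -, rfl⟩ := Finset.mem_image.mp hu
        exact hplx γ) hnotin
    have hwb : ∀ γ, w γ b = 0 := by
      intro γ
      obtain ⟨m, -, -, hmf⟩ := hm γ
      rw [hmf b hb0, hbs (pl γ) (Finset.mem_image_of_mem pl (Finset.mem_univ γ)), mul_zero]
    obtain ⟨p, hp⟩ := hnormpos v hv b hbint hbv
    obtain ⟨γ₀⟩ := hXne
    have hN := hnorm b hb0 γ₀
    rw [finsum_eq_zero_of_forall_eq_zero hwb, hp] at hN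
    have hnm0 : algebraMap K⟮x⟯ F (Algebra.norm K⟮x⟯ b) ≠ 0 := by
      rw [Ne, map_eq_zero_iff _ (algebraMap K⟮x⟯ F).injective, Algebra.norm_eq_zero_iff]
      exact hb0
    rw [hp] at hnm0
    have hp0 : Polynomial.aeval x p ≠ 0 := right_ne_zero_of_mul hnm0
    rw [(hw γ₀).mul x _ hx0 hp0] at hN
    have hpmem : Polynomial.aeval x p ∈ (hw γ₀).valuationSubring :=
      S24_aeval_mem_valuationSubring _ (pl γ₀).algebraMap_mem'
        (((hw γ₀).mem_valuationSubring_of_ne hx0).mpr (hwx γ₀).le) p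
    have hpnn : 0 ≤ w γ₀ (Polynomial.aeval x p) :=
      ((hw γ₀).mem_valuationSubring_of_ne hp0).mp hpmem
    have := hwx γ₀
    omega
  -- Step 3: counting
  let P := {v : Place K F // 0 < v.ord x}
  have hPfin : Finite P := by
    have : Finite {v : Place K F // v ∈ s} := Finite.of_fintype _
    exact Finite.of_equiv {v : Place K F // v ∈ s}
      (Equiv.subtypeEquivRight (fun v => hs v))
  let φ : X → P := fun γ => ⟨pl γ, hplx γ⟩
  let e : P → ℕ := fun v => (v.1.ord x).toNat
  have hφ : Function.Surjective φ := by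
    rintro ⟨v, hv⟩
    obtain ⟨γ, hγ⟩ := hsurj v hv
    exact ⟨γ, Subtype.ext hγ⟩
  have hinv : ∀ (g : G) (γ : X), φ (g • γ) = φ γ := by
    intro g γ
    apply Subtype.ext
    exact S24_place_congr (hw (g • γ)) (hw γ) (horb g γ) x hx0 (hwx _) (hwx _)
  have hle : ∀ γ : X, e (φ γ) ≤ Nat.card (MulAction.orbit G γ) := by
    intro γ
    obtain ⟨m, hm0, ⟨π, hπ0, hπ⟩, hmf⟩ := hm γ
    have h1 := hdiv γ π hπ0
    rw [hmf x hx0, hπ, mul_comm _ m] at h1
    have h2 : (pl γ).ord x ∣ (Nat.card (MulAction.orbit G γ) : ℤ) :=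
      Int.dvd_of_mul_dvd_mul_left hm0.ne' h1
    have hOpos : 0 < Nat.card (MulAction.orbit G γ) := by
      have : Nonempty (MulAction.orbit G γ) := ⟨⟨γ, MulAction.mem_orbit_self γ⟩⟩
      exact Nat.card_pos
    have h3 : (pl γ).ord x ≤ (Nat.card (MulAction.orbit G γ) : ℤ) :=
      Int.le_of_dvd (by exact_mod_cast hOpos) h2
    show ((pl γ).ord x).toNat ≤ _
    omega
  have hsumle : Nat.card X ≤ ∑ᶠ v, e v := by
    have h1 : ∑ᶠ v : P, e v = ∑ v ∈ s, (v.ord x).toNat := by
      have hset : {v : Place K F | 0 < v.ord x} = ↑s := by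
        ext v; simp [hs v]
      calc ∑ᶠ v : P, e v
          = ∑ᶠ v : ({v : Place K F | 0 < v.ord x} : Set (Place K F)), (v.1.ord x).toNat := rfl
        _ = ∑ᶠ v ∈ ({v : Place K F | 0 < v.ord x} : Set (Place K F)), (v.ord x).toNat :=
            finsum_set_coe_eq_finsum_mem (f := fun v : Place K F => (v.ord x).toNat)
              {v : Place K F | 0 < v.ord x}
        _ = ∑ v ∈ s, (v.ord x).toNat := by rw [hset, finsum_mem_coe_finset]
    rw [h1]
    have h2 : ((∑ v ∈ s, (v.ord x).toNat : ℕ) : ℤ) = ∑ v ∈ s, v.ord x := by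
      push_cast
      refine Finset.sum_congr rfl (fun v hv => ?_)
      have := (hs v).mp hv
      omega
    have h3 : ((∑ v ∈ s, (v.ord x).toNat : ℕ) : ℤ) = (Nat.card X : ℤ) := by
      rw [h2, hssum, hcard]
    have h4 : (∑ v ∈ s, (v.ord x).toNat) = Nat.card X := by exact_mod_cast h3
    omega
  exact (S24_counting (G := G) e φ hφ hinv hle hsumle).1

end Fermat.Agent.S24
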