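import Fermat.Agent.S24.Conj
import Fermat.Agent.S24.PlaceCount
import Fermat.Agent.S24.Arith

/-!
# S24 package A2c (part 2): the number of places over `j = c`

* `S24_ordM_finprod`: `ordM τ (∏ᶠ γ, x γ) = ∑ᶠ γ, ordM τ (x γ)`.
* `S24_count_over`: for `τ₀ ∈ ℍ`, `R ∈ SL(2,ℤ)` fixing `τ₀`, `x = jB N - c`, the places over `x = 0`
  are counted by the `⟨R⟩`-orbits on `SL(2,ℤ) ⧸ Γ₀(N)`.
* `S24_count_generic`, `S24_count_1728`, `S24_count_zero`: the three counts needed by the
  assembly (`hcount`, `h1728`, `h0` of `S24_of_inputs`).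

Inputs that are taken as hypotheses: the analytic realisation `e` (`IsEv N e`), its
`Γ₀(N)`-invariance `hinv`, the degree `hdeg`, and the three global facts of `S24_placeCount_of`.
-/

set_option autoImplicit false
set_option maxHeartbeats 400000

open UpperHalfPlane hiding I
open scoped MatrixGroups Manifold ModularForm
open CongruenceSubgroup ModularCurve IntermediateField AlgebraicCurve
open Fermat.Agent.S20

noncomputable section

namespace Fermat.Agent.S24

theorem S24_ordM_finset_prod {ι : Type*} (s : Finset ι) (x : ι → Mer) (hx : ∀ i ∈ s, x i ≠ 0)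
    (τ : ℍ) : S24_ordM τ (∏ i ∈ s, x i) = ∑ i ∈ s, S24_ordM τ (x i) := by
  classical
  induction s using Finset.induction_on with
  | empty => simp [S24_ordM_one]
  | insert a s ha ih =>
    rw [Finset.prod_insert ha, Finset.sum_insert ha,
      S24_ordM_mul τ (hx a (Finset.mem_insert_self a s))
        (Finset.prod_ne_zero_iff.mpr fun i hi => hx i (Finset.mem_insert_of_mem hi)),
      ih fun i hi => hx i (Finset.mem_insert_of_mem hi)]

theorem S24_ordM_finprod {ι : Type*} [Finite ι] (x : ι → Mer) (hx : ∀ i, x i ≠ 0) (τ : ℍ) :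
    S24_ordM τ (∏ᶠ i, x i) = ∑ᶠ i, S24_ordM τ (x i) := by
  classical
  have : Fintype ι := Fintype.ofFinite ι
  rw [finprod_eq_prod_of_fintype, finsum_eq_sum_of_fintype]
  exact S24_ordM_finset_prod _ x (fun i _ => hx i) τ


/-- The conclusion of the abstract place count (package P) at `x`, as a property of `x`. -/
def S24_PlaceCountAt {K F : Type} [Field K] [Field F] [Algebra K F] (x : F) : Prop :=
  ∀ [FiniteDimensional K⟮x⟯ F] {G X : Type} [Group G] [MulAction G X] [Finite X]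
    (w : X → F → ℤ), (∀ γ, IsVal (K := K) (w γ)) → (∀ γ, 0 < w γ x) →
    (∀ (g : G) γ, w (g • γ) = w γ) →
    (∀ γ f, f ≠ 0 → w γ x ∣ (Nat.card (MulAction.orbit G γ) : ℤ) * w γ f) →
    Nat.card X = Module.finrank K⟮x⟯ F →
    (∀ f : F, f ≠ 0 → ∀ γ₀,
      ∑ᶠ γ, w γ f = w γ₀ (algebraMap K⟮x⟯ F (Algebra.norm K⟮x⟯ f))) →
    Nat.card {v : Place K F // 0 < v.ord x} = Nat.card (MulAction.orbitRel.Quotient G X)

/-- `S24_PlaceCountAt x` from the three global inputs of `S24_placeCount_of`. -/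
theorem S24_placeCountAt_of {K F : Type} [Field K] [Field F] [Algebra K F] (x : F) (hx0 : x ≠ 0)
    (happrox : ∀ (v₀ : Place K F) (s : Finset (Place K F)), 0 < v₀.ord x →
      (∀ v ∈ s, 0 < v.ord x) → v₀ ∉ s →
      ∃ b : F, b ≠ 0 ∧ IsIntegral (Algebra.adjoin K {x}) b ∧ 0 < v₀.ord b ∧ ∀ v ∈ s, v.ord b = 0)
    (hnormpos : ∀ [FiniteDimensional K⟮x⟯ F] (v : Place K F), 0 < v.ord x → ∀ b : F,
      IsIntegral (Algebra.adjoin K {x}) b → 0 < v.ord b →
      ∃ p : Polynomial K, algebraMap K⟮x⟯ F (Algebra.norm K⟮x⟯ b) = x * Polynomial.aeval x p)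
    (hsum : ∃ s : Finset (Place K F), (∀ v, v ∈ s ↔ 0 < v.ord x) ∧
      ∑ v ∈ s, v.ord x = Module.finrank K⟮x⟯ F) :
    S24_PlaceCountAt (K := K) x := by
  intro _ G X _ _ _ w hw hwx horb hdiv hcard hnorm
  exact S24_placeCount_of x hx0 happrox hnormpos hsum w hw hwx horb hdiv hcard hnorm

variable {N : ℕ} [NeZero N] {e : ↥(modularFunctionFieldBar N) →+* Mer}

/-- **A2c.** The places of `F` over `j = c` are counted by the orbits of `⟨R⟩` on the cosets,
where `R` fixes the base point `τ₀` over `c`. -/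
theorem S24_count_over (he : IsEv N e)
    (hinv : ∀ h ∈ Gamma0 N, ∀ f, merComp h (e f) = e f)
    (hfd : FiniteDimensional (AlgebraicClosure ℚ)⟮jB N⟯ ↥(modularFunctionFieldBar N))
    (hdeg : Module.finrank (AlgebraicClosure ℚ)⟮jB N⟯ ↥(modularFunctionFieldBar N) =
      Nat.card (S20_Q N))
    (c : AlgebraicClosure ℚ)
    (hP : S24_PlaceCountAt (K := AlgebraicClosure ℚ)
      (jB N - algebraMap (AlgebraicClosure ℚ) ↥(modularFunctionFieldBar N) c))
    (τ₀ : ℍ) (R : SL(2, ℤ)) (e₀ : ℕ) (he₀ : e₀ = 1 ∨ e₀.Prime)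
    (hRe : ∀ γ : S20_Q N, R ^ e₀ • γ = γ) (hfix : R • τ₀ = τ₀)
    (hord : S24_ordM τ₀ (algebraMap Hol Mer (jHol 1) - algebraMap ℂ Mer (kEmb c)) = e₀)
    (hdvd : ∀ x : Mer, x ≠ 0 → merComp R x = x → (e₀ : ℤ) ∣ S24_ordM τ₀ x) :
    Nat.card {v : Place (AlgebraicClosure ℚ) ↥(modularFunctionFieldBar N) //
        0 < v.ord (jB N - algebraMap (AlgebraicClosure ℚ) ↥(modularFunctionFieldBar N) c)} =
      Nat.card (MulAction.orbitRel.Quotient (Subgroup.zpowers R) (S20_Q N)) := by
  classical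
  have hadj := S24_adjoin_sub_const (K := AlgebraicClosure ℚ) (jB N) c
  haveI : FiniteDimensional (AlgebraicClosure ℚ)⟮jB N - algebraMap (AlgebraicClosure ℚ)
      ↥(modularFunctionFieldBar N) c⟯ ↥(modularFunctionFieldBar N) :=
    S24_finiteDimensional_congr hadj.symm hfd
  haveI := hfd
  -- the valuations
  set w : S20_Q N → ↥(modularFunctionFieldBar N) → ℤ :=
    fun γ f => S24_ordM τ₀ (S24_sig N e γ f) with hw
  have hne : ∀ γ (f : ↥(modularFunctionFieldBar N)), f ≠ 0 → S24_sig N e γ f ≠ 0 :=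
    fun γ f hf => (map_ne_zero (S24_sig N e γ)).mpr hf
  have hval : ∀ γ, IsVal (K := AlgebraicClosure ℚ) (w γ) :=
    fun γ => S24_isVal_ordM kEmb (S24_sig N e γ) (S24_sig_const he γ) τ₀
  have hRinv : R⁻¹ • τ₀ = τ₀ := by
    conv_lhs => rw [← hfix]
    rw [inv_smul_smul]
  have hwx : ∀ γ, w γ (jB N - algebraMap (AlgebraicClosure ℚ) ↥(modularFunctionFieldBar N) c)
      = e₀ := by
    intro γ
    show S24_ordM τ₀ (S24_sig N e γ _) = _
    rw [map_sub, S24_sig_jB he, S24_sig_const he, hord]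
  have hR : ∀ γ, w (R • γ) = w γ := by
    intro γ
    funext f
    show S24_ordM τ₀ (S24_sig N e (R • γ) f) = S24_ordM τ₀ (S24_sig N e γ f)
    rw [S24_sig_smul hinv, S24_ordM_merComp, hRinv]
  have hfx : ∀ γ, R • γ = γ → ∀ f, f ≠ 0 → (e₀ : ℤ) ∣ w γ f := by
    intro γ hγ f hf
    apply hdvd _ (hne γ f hf)
    have h1 : merComp R⁻¹ (S24_sig N e γ f) = S24_sig N e γ f := by
      rw [← S24_sig_smul hinv, hγ]
    calc merComp R (S24_sig N e γ f) = merComp R (merComp R⁻¹ (S24_sig N e γ f)) := by rw [h1]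
      _ = S24_sig N e γ f := merComp_inv_apply R _
  obtain ⟨h1, h2, h3⟩ := S24_cyclic_inputs
    (jB N - algebraMap (AlgebraicClosure ℚ) ↥(modularFunctionFieldBar N) c) R e₀ he₀ hRe w hwx hR hfx
  refine hP (G := Subgroup.zpowers R) w hval h1 h2 h3 ?_ ?_
  · rw [S24_finrank_congr hadj, hdeg]
  · intro f hf γ₀
    rw [S24_norm_congr hadj f]
    show ∑ᶠ γ, S24_ordM τ₀ (S24_sig N e γ f) = S24_ordM τ₀ (S24_sig N e γ₀ _)
    rw [S24_sig_norm he hinv hdeg.le f γ₀, S24_ordM_finprod _ (fun γ => hne γ f hf)]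

/-! ### The order of `j - c` as an element of `Mer` -/

theorem S24_ordM_j_sub (c : ℂ) (τ₀ : ℍ) (k : ℤ)
    (h : meromorphicOrderAt ((fun z : ℍ => S24_jfun z - c) ∘ ofComplex) (τ₀ : ℂ) = k) :
    S24_ordM τ₀ (algebraMap Hol Mer (jHol 1) - algebraMap ℂ Mer c) = k := by
  have e1 : algebraMap Hol Mer (jHol 1) - algebraMap ℂ Mer c =
      algebraMap Hol Mer (jHol 1 - algebraMap ℂ Hol c) := by
    rw [map_sub, ← IsScalarTower.algebraMap_apply ℂ Hol Mer]
  have hfun : ((jHol 1 - algebraMap ℂ Hol c : Hol) : ℍ → ℂ) = fun z : ℍ => S24_jfun z - c := by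
    funext z
    show jFun 1 z - c = S24_jfun z - c
    rw [jFun_one_eq]
  have hord : S24_ordAt ((jHol 1 - algebraMap ℂ Hol c : Hol) : ℍ → ℂ) τ₀ = (k : WithTop ℤ) := by
    rw [hfun]
    exact h
  have hne : (jHol 1 - algebraMap ℂ Hol c : Hol) ≠ 0 := by
    intro h0
    rw [h0] at hord
    have h1 : S24_ordAt ((0 : Hol) : ℍ → ℂ) τ₀ = ⊤ := S24_ordAt_zero τ₀
    rw [h1] at hord
    exact WithTop.top_ne_coe hord
  rw [e1, S24_ordM_of_hol τ₀ hne]
  unfold S24_ordH
  rw [hord]
  rfl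

/-! ### `-1` acts trivially on the cosets -/

theorem S24_neg_one_smul (γ : S20_Q N) : (-1 : SL(2, ℤ)) • γ = γ := by
  obtain ⟨g, rfl⟩ := QuotientGroup.mk_surjective γ
  show (QuotientGroup.mk ((-1 : SL(2, ℤ)) * g) : S20_Q N) = QuotientGroup.mk g
  rw [QuotientGroup.eq]
  have h : ((-1 : SL(2, ℤ)) * g)⁻¹ * g = -1 := by
    rw [mul_inv_rev]
    simp
  rw [h, Gamma0_mem]
  simp

theorem S24_S_sq : (ModularGroup.S : SL(2, ℤ)) ^ 2 = -1 := by
  ext i j
  fin_cases i <;> fin_cases j <;> simp [pow_two, ModularGroup.S, Matrix.mul_apply, Fin.sum_univ_two]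

theorem S24_ST_cube : ((ModularGroup.S : SL(2, ℤ)) * ModularGroup.T) ^ 3 = -1 := by
  ext i j
  fin_cases i <;> fin_cases j <;>
    simp [pow_succ, ModularGroup.S, ModularGroup.T, Matrix.mul_apply, Fin.sum_univ_two]

/-- the orbits of the trivial group -/
theorem S24_card_orbits_one {G X : Type*} [Group G] [MulAction G X] :
    Nat.card (MulAction.orbitRel.Quotient (Subgroup.zpowers (1 : G)) X) = Nat.card X := by
  apply Nat.card_congr
  refine (Equiv.ofBijective (fun x : X => (Quotient.mk'' x :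
    MulAction.orbitRel.Quotient (Subgroup.zpowers (1 : G)) X)) ⟨?_, ?_⟩).symm
  · intro x y h
    have h1 : x ∈ MulAction.orbit (Subgroup.zpowers (1 : G)) y :=
      MulAction.orbitRel_apply.mp (Quotient.exact' h)
    obtain ⟨⟨g, hg⟩, hgy⟩ := h1
    have hg1 : g = 1 := by
      rw [Subgroup.zpowers_one_eq_bot] at hg
      exact Subgroup.mem_bot.mp hg
    subst hg1
    have : (1 : G) • y = x := hgy
    rw [one_smul] at this
    exact this.symm
  · intro q
    induction q using Quotient.inductionOn' with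
    | h x => exact ⟨x, rfl⟩

/-! ### The three counts of the assembly -/

theorem S24_kEmb_ofNat (n : ℕ) [n.AtLeastTwo] :
    kEmb (OfNat.ofNat n : AlgebraicClosure ℚ) = (OfNat.ofNat n : ℂ) := map_ofNat kEmb n

/-- **`hcount`**: over `c ≠ 0, 1728` there are exactly `ψ(N)` places. -/
theorem S24_count_generic (he : IsEv N e)
    (hinv : ∀ h ∈ Gamma0 N, ∀ f, merComp h (e f) = e f)
    (hfd : FiniteDimensional (AlgebraicClosure ℚ)⟮jB N⟯ ↥(modularFunctionFieldBar N))
    (hdeg : Module.finrank (AlgebraicClosure ℚ)⟮jB N⟯ ↥(modularFunctionFieldBar N) =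
      ModularCurve.dedekindPsi N)
    (c : AlgebraicClosure ℚ) (hc0 : c ≠ 0) (hc1 : c ≠ 1728)
    (hP : S24_PlaceCountAt (K := AlgebraicClosure ℚ)
      (jB N - algebraMap (AlgebraicClosure ℚ) ↥(modularFunctionFieldBar N) c)) :
    Nat.card {v : Place (AlgebraicClosure ℚ) ↥(modularFunctionFieldBar N) //
        0 < v.ord (jB N - algebraMap (AlgebraicClosure ℚ) ↥(modularFunctionFieldBar N) c)} =
      ModularCurve.dedekindPsi N := by
  have hk0 : kEmb c ≠ 0 := fun h => hc0 (kEmb_injective (by rw [h, map_zero]))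
  have hk1 : kEmb c ≠ 1728 := fun h => hc1 (kEmb_injective (by rw [h, S24_kEmb_ofNat]))
  obtain ⟨τ₀, -, h | h | h⟩ := S24_exists_basepoint (kEmb c)
  · exact absurd h.1 hk1
  · exact absurd h.1 hk0
  · obtain ⟨-, -, -, -, hord⟩ := h
    rw [S24_count_over he hinv hfd (hdeg.trans (S20_card_Q N).symm) c hP τ₀ 1 1 (Or.inl rfl)
      (fun γ => by rw [pow_one, one_smul]) (one_smul _ _)
      (by
        have := S24_ordM_j_sub (kEmb c) τ₀ 1 (by rw [hord]; rfl)
        rw [this]; rfl)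
      (fun x _ _ => by
        rw [Nat.cast_one]
        exact one_dvd _)]
    exact (S24_card_orbits_one (G := SL(2, ℤ)) (X := S20_Q N)).trans (S20_card_Q N)

/-- **`h1728`**: twice the number of places over `1728` is `ψ(N) + ν₂(N)`. -/
theorem S24_count_1728 (he : IsEv N e)
    (hinv : ∀ h ∈ Gamma0 N, ∀ f, merComp h (e f) = e f)
    (hfd : FiniteDimensional (AlgebraicClosure ℚ)⟮jB N⟯ ↥(modularFunctionFieldBar N))
    (hdeg : Module.finrank (AlgebraicClosure ℚ)⟮jB N⟯ ↥(modularFunctionFieldBar N) =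
      ModularCurve.dedekindPsi N)
    (hP : S24_PlaceCountAt (K := AlgebraicClosure ℚ)
      (jB N - algebraMap (AlgebraicClosure ℚ) ↥(modularFunctionFieldBar N) 1728)) :
    2 * Nat.card {v : Place (AlgebraicClosure ℚ) ↥(modularFunctionFieldBar N) //
        0 < v.ord (jB N - algebraMap (AlgebraicClosure ℚ) ↥(modularFunctionFieldBar N) 1728)} =
      ModularCurve.dedekindPsi N + ModularCurve.nuTwo N := by
  rw [S24_count_over he hinv hfd (hdeg.trans (S20_card_Q N).symm) 1728 hP UpperHalfPlane.I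
      ModularGroup.S 2 (Or.inr Nat.prime_two)
      (fun γ => by rw [S24_S_sq, S24_neg_one_smul]) Fermat.Agent.S20.S_smul_I
      (by
        have := S24_ordM_j_sub (kEmb 1728) UpperHalfPlane.I 2
          (by rw [S24_kEmb_ofNat, S24_order_I]; rfl)
        rw [this]; rfl)
      (fun x hx hxi => by
        have := S24_two_dvd_ordM_I hx hxi
        exact_mod_cast this)]
  exact S24_two_mul_card_orbits_S N

/-- **`h0`**: three times the number of places over `0` is `ψ(N) + 2 ν₃(N)`. -/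
theorem S24_count_zero (he : IsEv N e)
    (hinv : ∀ h ∈ Gamma0 N, ∀ f, merComp h (e f) = e f)
    (hfd : FiniteDimensional (AlgebraicClosure ℚ)⟮jB N⟯ ↥(modularFunctionFieldBar N))
    (hdeg : Module.finrank (AlgebraicClosure ℚ)⟮jB N⟯ ↥(modularFunctionFieldBar N) =
      ModularCurve.dedekindPsi N)
    (hP : S24_PlaceCountAt (K := AlgebraicClosure ℚ)
      (jB N - algebraMap (AlgebraicClosure ℚ) ↥(modularFunctionFieldBar N) 0)) :
    3 * Nat.card {v : Place (AlgebraicClosure ℚ) ↥(modularFunctionFieldBar N) //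
        0 < v.ord (jB N - algebraMap (AlgebraicClosure ℚ) ↥(modularFunctionFieldBar N) 0)} =
      ModularCurve.dedekindPsi N + 2 * ModularCurve.nuThree N := by
  rw [S24_count_over he hinv hfd (hdeg.trans (S20_card_Q N).symm) 0 hP Fermat.Agent.S20.rho
      (ModularGroup.S * ModularGroup.T) 3 (Or.inr Nat.prime_three)
      (fun γ => by rw [S24_ST_cube, S24_neg_one_smul]) Fermat.Agent.S20.ST_smul_rho
      (by
        have h3 : meromorphicOrderAt ((fun z : ℍ => S24_jfun z - kEmb 0) ∘ ofComplex)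
            ((Fermat.Agent.S20.rho : ℍ) : ℂ) = ((3 : ℤ) : WithTop ℤ) := by
          have hf : (fun z : ℍ => S24_jfun z - kEmb 0) = S24_jfun := by
            funext z
            rw [map_zero, sub_zero]
          rw [hf, S24_order_rho]
          rfl
        have := S24_ordM_j_sub (kEmb 0) Fermat.Agent.S20.rho 3 h3
        rw [this]; rfl)
      (fun x hx hxi => by
        have := S24_three_dvd_ordM_rho hx hxi
        exact_mod_cast this)]
  exact S24_three_mul_card_orbits_ST N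

end Fermat.Agent.S24
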