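import Mathlib
import Fermat.Agent.S24.EvDefs
import Fermat.Agent.S28.KCore.Hdep
import Fermat.Agent.S28.Rank
import Fermat.Agent.S20.P1Index
import Fermat.Prelude.Def_ModularCurve_X0ModL

/-!
# S24, package A1-deg: `[F : Q̄(j)] ≤ ψ(N)`

`F = modularFunctionFieldBar N`, `K = Q̄`.
* `transcendental_jB` : `j` is transcendental over `K`.
* `finiteDimensional_jB` : `F` is finite over `K(j)`.
* `finrank_le_psi` : `[F : K(j)] ≤ ψ(N)`.

Route: `S28.kcT10c_aux` (from `S28.ac2`) says that any `ψ + 1` elements of the rational function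
field `F_ℚ` are `ℤ[j]`-dependent.  Base change along `coeffEmb`, then `F` is the `K(j)`-span of the
image of `F_ℚ`.
-/

set_option autoImplicit false

open ModularCurve IntermediateField

noncomputable section

namespace Fermat.Agent.S24

/-- `coeffEmb` of the rational `j` is the `j` over `Q̄`. -/
theorem S24_deg_coeffEmb_jq :
    coeffEmb (AlgebraicClosure ℚ) jq = jqModC (AlgebraicClosure ℚ) :=
  map_jqModC (K := ℚ) (algebraMap ℚ (AlgebraicClosure ℚ))

theorem S24_deg_jB_val (N : ℕ) [NeZero N] :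
    ((jB N : ↥(modularFunctionFieldBar N)) : LaurentSeries (AlgebraicClosure ℚ)) =
      jqModC (AlgebraicClosure ℚ) := by
  show coeffEmb (AlgebraicClosure ℚ) (qExpand ℚ 1 jq) = _
  rw [qExpand_one_apply, S24_deg_coeffEmb_jq]

/-- `j` over `Q̄` is transcendental (as a Laurent series). -/
theorem S24_deg_transcendental_jqModC :
    Transcendental (AlgebraicClosure ℚ) (jqModC (AlgebraicClosure ℚ)) := by
  rw [transcendental_iff]
  intro p hp
  by_contra hp0
  set n := p.natDegree with hn
  have hcoeff : (Polynomial.aeval (jqModC (AlgebraicClosure ℚ)) p).coeff (-(n : ℤ)) =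
      p.coeff n := by
    rw [Polynomial.aeval_def, Polynomial.eval₂_eq_sum_range, HahnSeries.coeff_sum,
      Finset.sum_eq_single n]
    · rw [algebraMap_laurentSeries_eq_single, HahnSeries.coeff_single_zero_mul,
        coeff_jqModC_pow_self, mul_one]
    · intro i hi hin
      have hilt : i < n := lt_of_le_of_ne (Nat.lt_succ_iff.mp (Finset.mem_range.mp hi)) hin
      rw [algebraMap_laurentSeries_eq_single, HahnSeries.coeff_single_zero_mul,
        coeff_jqModC_pow_of_lt, mul_zero]
      omega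
    · intro hn'
      exact absurd (Finset.self_mem_range_succ n) hn'
  rw [hp] at hcoeff
  simp only [HahnSeries.coeff_zero] at hcoeff
  exact hp0 (Polynomial.leadingCoeff_eq_zero.mp hcoeff.symm)

/-- **A1-deg (i)**: `j` is transcendental over `Q̄`. -/
theorem transcendental_jB (N : ℕ) [NeZero N] : Transcendental (AlgebraicClosure ℚ) (jB N) := by
  intro h
  have h2 : IsAlgebraic (AlgebraicClosure ℚ)
      ((modularFunctionFieldBar N).val (jB N)) := h.algHom _
  have h3 : (modularFunctionFieldBar N).val (jB N) = jqModC (AlgebraicClosure ℚ) :=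
    S24_deg_jB_val N
  rw [h3] at h2
  exact S24_deg_transcendental_jqModC h2

/-! ### Pure algebra -/

/-- ring homomorphisms commute with evaluation of integer polynomials -/
theorem S24_deg_map_eval {A B : Type*} [CommRing A] [CommRing B] (φ : A →+* B) (a : A)
    (p : Polynomial ℤ) : φ (Polynomial.eval₂ (Int.castRingHom A) a p) =
      Polynomial.eval₂ (Int.castRingHom B) (φ a) p := by
  rw [Polynomial.hom_eval₂]
  congr 1
  exact RingHom.ext_int _ _

/-- if any `n + 1` elements of `T` are linearly dependent, the span of `T` has rank `≤ n`. -/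
theorem S24_deg_rank_span_le {R M : Type*} [Field R] [AddCommGroup M] [Module R M] (T : Set M)
    (n : ℕ) (h : ∀ x : Fin (n + 1) → M, (∀ i, x i ∈ T) → ¬ LinearIndependent R x) :
    Module.rank R (Submodule.span R T) ≤ n := by
  classical
  obtain ⟨b, hbT, hspan, hli⟩ := exists_linearIndependent R T
  rw [← hspan, rank_span_set hli]
  apply Cardinal.card_le_of
  intro t
  by_contra hlt
  push Not at hlt
  obtain ⟨t', ht't, ht'card⟩ := Finset.exists_subset_card_eq (Nat.succ_le_of_lt hlt)
  let e : Fin (n + 1) ≃ t' := (Finset.equivFinOfCardEq ht'card).symm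
  refine h (fun i => (((e i : t') : b) : M)) (fun i => hbT ((e i : t') : b).2) ?_
  have hinj : Function.Injective (fun i : Fin (n + 1) => ((e i : t') : b)) := by
    intro i j hij
    exact e.injective (Subtype.ext hij)
  exact hli.comp _ hinj

/-- linearly dependent powers give an algebraic element -/
theorem S24_deg_isAlgebraic_of_dep {R A : Type*} [Field R] [Field A] [Algebra R A] (x : A) (n : ℕ)
    (h : ¬ LinearIndependent R (fun i : Fin (n + 1) => x ^ (i : ℕ))) : IsAlgebraic R x := by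
  classical
  rw [Fintype.not_linearIndependent_iff] at h
  obtain ⟨g, hsum, i₀, hi₀⟩ := h
  refine ⟨∑ i : Fin (n + 1), Polynomial.monomial (i : ℕ) (g i), ?_, ?_⟩
  · intro h0
    apply hi₀
    have := congrArg (fun p => Polynomial.coeff p (i₀ : ℕ)) h0
    simp only [Polynomial.finsetSum_coeff, Polynomial.coeff_monomial, Polynomial.coeff_zero]
      at this
    rw [Finset.sum_eq_single i₀] at this
    · simpa using this
    · intro j _ hj
      rw [if_neg]
      exact fun h => hj (Fin.ext h)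
    · intro h; exact absurd (Finset.mem_univ _) h
  · rw [map_sum, ← hsum]
    refine Finset.sum_congr rfl fun i _ => ?_
    rw [Polynomial.aeval_monomial, Algebra.smul_def]

/-! ### The image of the rational function field -/

/-- base change of `c(j)`, `c ∈ ℤ[X]` -/
theorem S24_deg_coeffEmb_aeval (c : Polynomial ℤ) :
    coeffEmb (AlgebraicClosure ℚ) (Polynomial.aeval jq c) =
      Polynomial.eval₂ (Int.castRingHom (LaurentSeries (AlgebraicClosure ℚ)))
        (jqModC (AlgebraicClosure ℚ)) c := by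
  have h : algebraMap ℤ (LaurentSeries ℚ) = Int.castRingHom (LaurentSeries ℚ) :=
    RingHom.ext_int _ _
  rw [Polynomial.aeval_def, h, S24_deg_map_eval, S24_deg_coeffEmb_jq]

theorem S24_deg_eval_jqModC_eq_zero {c : Polynomial ℤ}
    (h : Polynomial.eval₂ (Int.castRingHom (LaurentSeries (AlgebraicClosure ℚ)))
      (jqModC (AlgebraicClosure ℚ)) c = 0) : c = 0 := by
  have h1 : Polynomial.aeval (jqModC (AlgebraicClosure ℚ))
      (c.map (Int.castRingHom (AlgebraicClosure ℚ))) = 0 := by
    rw [Polynomial.aeval_def, Polynomial.eval₂_map]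
    rw [← h]
    congr 1
    exact RingHom.ext_int _ _
  have h2 := (transcendental_iff.1 S24_deg_transcendental_jqModC) _ h1
  exact Polynomial.map_injective (Int.castRingHom (AlgebraicClosure ℚ)) Int.cast_injective
    (by rw [h2, Polynomial.map_zero])

section Main

variable (N : ℕ) [NeZero N]

/-- the image of the rational function field `F_ℚ` in `F` -/
def S24_deg_T : Submonoid ↥(modularFunctionFieldBar N) where
  carrier := {x | ∃ y ∈ modularFunctionFieldFull N,
    (x : LaurentSeries (AlgebraicClosure ℚ)) = coeffEmb (AlgebraicClosure ℚ) y}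
  mul_mem' := by
    rintro a b ⟨y, hy, hay⟩ ⟨z, hz, hbz⟩
    refine ⟨y * z, mul_mem hy hz, ?_⟩
    rw [map_mul, ← hay, ← hbz]
    rfl
  one_mem' := ⟨1, one_mem _, by rw [map_one]; rfl⟩

omit [NeZero N] in
theorem S24_deg_mem_T {x : ↥(modularFunctionFieldBar N)} :
    x ∈ S24_deg_T N ↔ ∃ y ∈ modularFunctionFieldFull N,
      (x : LaurentSeries (AlgebraicClosure ℚ)) = coeffEmb (AlgebraicClosure ℚ) y := Iff.rfl

theorem S24_deg_jB_mem_T : jB N ∈ S24_deg_T N :=
  ⟨qExpand ℚ 1 jq, jqd_mem_full N (one_dvd N), rfl⟩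

theorem S24_deg_jBar_mem_T (d : ℕ) [NeZero d] (hd : d ∣ N) : jBar N d hd ∈ S24_deg_T N :=
  ⟨qExpand ℚ d jq, jqd_mem_full N hd, rfl⟩

/-- the generator of `K(j)` -/
def S24_deg_gen : ↥((AlgebraicClosure ℚ)⟮jB N⟯) :=
  IntermediateField.AdjoinSimple.gen (AlgebraicClosure ℚ) (jB N)

/-- `c(j) ∈ K(j)` for `c ∈ ℤ[X]` -/
def S24_deg_cj (c : Polynomial ℤ) : ↥((AlgebraicClosure ℚ)⟮jB N⟯) :=
  Polynomial.eval₂ (Int.castRingHom ↥((AlgebraicClosure ℚ)⟮jB N⟯)) (S24_deg_gen N) c

theorem S24_deg_cj_val (c : Polynomial ℤ) :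
    (((S24_deg_cj N c : ↥((AlgebraicClosure ℚ)⟮jB N⟯)) :
      ↥(modularFunctionFieldBar N)) : LaurentSeries (AlgebraicClosure ℚ)) =
      Polynomial.eval₂ (Int.castRingHom (LaurentSeries (AlgebraicClosure ℚ)))
        (jqModC (AlgebraicClosure ℚ)) c := by
  have h1 := S24_deg_map_eval
    (algebraMap ↥((AlgebraicClosure ℚ)⟮jB N⟯) ↥(modularFunctionFieldBar N)) (S24_deg_gen N) c
  have h2 := S24_deg_map_eval
    (algebraMap ↥(modularFunctionFieldBar N) (LaurentSeries (AlgebraicClosure ℚ))) (jB N) c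
  have h3 : algebraMap ↥((AlgebraicClosure ℚ)⟮jB N⟯) ↥(modularFunctionFieldBar N)
      (S24_deg_gen N) = jB N := IntermediateField.AdjoinSimple.algebraMap_gen _ _
  have h4 : algebraMap ↥(modularFunctionFieldBar N) (LaurentSeries (AlgebraicClosure ℚ))
      (jB N) = jqModC (AlgebraicClosure ℚ) := S24_deg_jB_val N
  rw [h3] at h1
  rw [h4] at h2
  rw [← h2, ← h1]
  rfl

theorem S24_deg_cj_ne_zero {c : Polynomial ℤ} (hc : c ≠ 0) : S24_deg_cj N c ≠ 0 := by
  intro h0
  have h1 := S24_deg_cj_val N c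
  rw [h0] at h1
  exact hc (S24_deg_eval_jqModC_eq_zero (by rw [← h1]; rfl))

/-- any `ψ + 1` elements of the image of `F_ℚ` are dependent over `K(j)`. -/
theorem S24_deg_dep (x : Fin (Nat.card (Fermat.Agent.S28.Cos N) + 1) → ↥(modularFunctionFieldBar N))
    (hx : ∀ i, x i ∈ S24_deg_T N) :
    ¬ LinearIndependent ↥((AlgebraicClosure ℚ)⟮jB N⟯) x := by
  classical
  choose y hy hxy using hx
  obtain ⟨c₀, c, hc, hrel⟩ := Fermat.Agent.S28.kcT10c_aux2 N
    (Nat.card (Fermat.Agent.S28.Cos N)) (Fermat.Agent.S28.ac2 N)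
    (fun i => y i.succ) (fun i => hy i.succ) (y 0) (hy 0)
  have hrel' := congrArg (coeffEmb (AlgebraicClosure ℚ)) hrel
  rw [map_add, map_mul, map_sum, map_zero, S24_deg_coeffEmb_aeval] at hrel'
  rw [Fintype.not_linearIndependent_iff]
  refine ⟨Fin.cons (S24_deg_cj N c₀) (fun i => S24_deg_cj N (c i)), ?_, ?_⟩
  · apply Subtype.val_injective
    rw [Fin.sum_univ_succ]
    simp only [Fin.cons_zero, Fin.cons_succ]
    show ((S24_deg_cj N c₀ : ↥((AlgebraicClosure ℚ)⟮jB N⟯)) :
        ↥(modularFunctionFieldBar N)).1 * (x 0).1 +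
      ((∑ i : Fin (Nat.card (Fermat.Agent.S28.Cos N)),
        S24_deg_cj N (c i) • x i.succ : ↥(modularFunctionFieldBar N)) :
          LaurentSeries (AlgebraicClosure ℚ)) = 0
    rw [S24_deg_cj_val, hxy 0]
    have hsum : ((∑ i : Fin (Nat.card (Fermat.Agent.S28.Cos N)),
        S24_deg_cj N (c i) • x i.succ : ↥(modularFunctionFieldBar N)) :
          LaurentSeries (AlgebraicClosure ℚ)) =
        ∑ i : Fin (Nat.card (Fermat.Agent.S28.Cos N)),
          coeffEmb (AlgebraicClosure ℚ) (Polynomial.aeval jq (c i) * y i.succ) := by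
      rw [← (modularFunctionFieldBar N).coe_val, map_sum]
      refine Finset.sum_congr rfl fun i _ => ?_
      rw [map_mul, S24_deg_coeffEmb_aeval, ← hxy i.succ, ← S24_deg_cj_val N]
      rfl
    rw [hsum]
    exact hrel'
  · rcases hc with h | ⟨i, hi⟩
    · exact ⟨0, by simpa using S24_deg_cj_ne_zero N h⟩
    · exact ⟨i.succ, by simpa using S24_deg_cj_ne_zero N hi⟩

/-- elements of the image of `F_ℚ` are algebraic over `K(j)` -/
theorem S24_deg_isAlgebraic {x : ↥(modularFunctionFieldBar N)} (hx : x ∈ S24_deg_T N) :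
    IsAlgebraic ↥((AlgebraicClosure ℚ)⟮jB N⟯) x :=
  S24_deg_isAlgebraic_of_dep x _
    (S24_deg_dep N (fun i => x ^ (i : ℕ)) (fun _ => pow_mem hx _))

/-- `F` is generated over `K(j)` by the image of `F_ℚ`. -/
theorem S24_deg_adjoin_eq_top :
    IntermediateField.adjoin ↥((AlgebraicClosure ℚ)⟮jB N⟯)
      (S24_deg_T N : Set ↥(modularFunctionFieldBar N)) = ⊤ := by
  rw [eq_top_iff]
  intro x _
  have hle : modularFunctionFieldBar N ≤ IntermediateField.lift
      ((IntermediateField.adjoin ↥((AlgebraicClosure ℚ)⟮jB N⟯)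
        (S24_deg_T N : Set ↥(modularFunctionFieldBar N))).restrictScalars
          (AlgebraicClosure ℚ)) := by
    show laurentBaseChange _ _ ≤ _
    rw [laurentBaseChange, IntermediateField.adjoin_le_iff]
    rintro _ ⟨y, hy, rfl⟩
    have hmem : (⟨coeffEmb _ y, coeffEmb_mem_laurentBaseChange _ hy⟩ :
        ↥(modularFunctionFieldBar N)) ∈
        IntermediateField.adjoin ↥((AlgebraicClosure ℚ)⟮jB N⟯)
          (S24_deg_T N : Set ↥(modularFunctionFieldBar N)) :=
      IntermediateField.subset_adjoin _ _ ⟨y, hy, rfl⟩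
    exact (IntermediateField.mem_lift
      (⟨coeffEmb _ y, coeffEmb_mem_laurentBaseChange _ hy⟩ : ↥(modularFunctionFieldBar N))).2 hmem
  exact (IntermediateField.mem_lift x).1 (hle x.2)

/-- `F` is the `K(j)`-span of the image of `F_ℚ`. -/
theorem S24_deg_span_eq_top :
    Submodule.span ↥((AlgebraicClosure ℚ)⟮jB N⟯)
      (S24_deg_T N : Set ↥(modularFunctionFieldBar N)) = ⊤ := by
  have h1 := IntermediateField.adjoin_toSubalgebra_of_isAlgebraic
    (F := ↥((AlgebraicClosure ℚ)⟮jB N⟯)) (S := (S24_deg_T N : Set ↥(modularFunctionFieldBar N)))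
    (fun x hx => S24_deg_isAlgebraic N hx)
  rw [S24_deg_adjoin_eq_top] at h1
  have h2 := Algebra.adjoin_eq_span (R := ↥((AlgebraicClosure ℚ)⟮jB N⟯))
    (s := (S24_deg_T N : Set ↥(modularFunctionFieldBar N)))
  rw [← h1, Submonoid.closure_eq] at h2
  rw [← h2]
  simp

theorem S24_deg_rank_le :
    Module.rank ↥((AlgebraicClosure ℚ)⟮jB N⟯) ↥(modularFunctionFieldBar N) ≤
      (Nat.card (Fermat.Agent.S28.Cos N) : ℕ) := by
  rw [← rank_top, ← S24_deg_span_eq_top N]
  exact S24_deg_rank_span_le _ _ (fun x hx => S24_deg_dep N x hx)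

/-- **A1-deg (ii)**: `F` is finite over `K(j)`. -/
theorem finiteDimensional_jB :
    FiniteDimensional ↥((AlgebraicClosure ℚ)⟮jB N⟯) ↥(modularFunctionFieldBar N) := by
  have : Module.Free ↥((AlgebraicClosure ℚ)⟮jB N⟯) ↥(modularFunctionFieldBar N) :=
    Module.Free.of_divisionRing _ _
  exact Module.rank_lt_aleph0_iff.1
    (lt_of_le_of_lt (S24_deg_rank_le N) Cardinal.natCast_lt_aleph0)

/-- `[F : K(j)] ≤ #(SL₂(ℤ)/Γ₀(N))`. -/
theorem finrank_le_card_cos :
    Module.finrank ↥((AlgebraicClosure ℚ)⟮jB N⟯) ↥(modularFunctionFieldBar N) ≤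
      Nat.card (Fermat.Agent.S28.Cos N) :=
  Module.finrank_le_of_rank_le (S24_deg_rank_le N)

/-- **A1-deg (iii)**: `[F : K(j)] ≤ ψ(N)`. -/
theorem finrank_le_psi :
    Module.finrank ↥((AlgebraicClosure ℚ)⟮jB N⟯) ↥(modularFunctionFieldBar N) ≤
      dedekindPsi N := by
  rw [← Fermat.Agent.S20.S20_card_Q N]
  exact finrank_le_card_cos N

end Main

end Fermat.Agent.S24
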