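import Mathlib
import Fermat.Prelude.Def_AlgebraicCurve_CanonicalDivisor
import Fermat.Agent.S24.Defs
import Fermat.Agent.S24.FFBasic

/-! # S24: `Place.ord` is an abstract valuation (`IsVal`) -/

set_option autoImplicit false

open AlgebraicCurve

namespace Fermat.Agent.S24

variable {K F : Type*} [Field K] [Field F] [Algebra K F]

theorem S24_ord_add (v : Place K F) {f g : F} (hf : f ≠ 0) (hg : g ≠ 0) (hfg : f + g ≠ 0) :
    min (v.ord f) (v.ord g) ≤ v.ord (f + g) := by
  have h := Valuation.map_add v.adicValuation f g
  have hf' := v.adicValuation_ne_zero hf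
  have hg' := v.adicValuation_ne_zero hg
  have hfg' := v.adicValuation_ne_zero hfg
  simp only [Place.ord]
  rcases le_max_iff.mp h with h1 | h1
  · have := (WithZero.log_le_log hfg' hf').mpr h1
    have h2 : min (-WithZero.log (v.adicValuation f)) (-WithZero.log (v.adicValuation g))
        ≤ -WithZero.log (v.adicValuation f) := min_le_left _ _
    omega
  · have := (WithZero.log_le_log hfg' hg').mpr h1
    have h2 : min (-WithZero.log (v.adicValuation f)) (-WithZero.log (v.adicValuation g))
        ≤ -WithZero.log (v.adicValuation g) := min_le_right _ _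
    omega

theorem S24_isVal_ord (v : Place K F) : IsVal (K := K) v.ord where
  mul := fun _ _ hf hg => v.ord_mul hf hg
  add := fun _ _ hf hg hfg => S24_ord_add v hf hg hfg
  const := fun c _ => BL_ord_algebraMap v c

end Fermat.Agent.S24
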