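import Fermat.Agent.S24.LocalRing
import Fermat.Agent.S24.ResidueField
import Fermat.Agent.S24.Defs

/-!
# S24, package BL (local theory at a place), part 3: differentials at a place

Setting: `K` algebraically closed of characteristic `0`, `F / K` a function field of one
variable (`F / K(x)` finite for some `x`), `v` a place of `F / K`.

* `BL_dCoordGenerates`, `BL_nontrivial_kaehler` (**B0**): `Ω[F/K]` is one-dimensional, spanned by
  `d(uniformizer)` (the instances needed by the Prelude's `differentialCoeff` API).
* `BL_exists_const` (**B1**, element form; `S24_deg_eq_one` is in `ResidueField.lean`).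
* `BL_differentialCoeff_mem` (**B2**): `d/dt` preserves `O_v` (Nakayama on `Ω[O_v/K]`).
* `BL_ordDifferential_D` (**B3**): `ord_v(dy) = ord_v(y) - 1` if `ord_v(y) ≠ 0`;
  `BL_ordDifferential_D_of_sub`, `BL_ordDifferential_D_of_neg`, `BL_ordDifferential_D_of_nonneg`.
* `BL_isVal_ord`: `Place.ord` is an `IsVal`.
-/

set_option autoImplicit false

open AlgebraicCurve IntermediateField KaehlerDifferential IsDedekindDomain
open scoped IntermediateField.algebraAdjoinAdjoin TensorProduct

universe u v

namespace Fermat.Agent.S24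

variable {K : Type u} {F : Type v} [Field K] [Field F] [Algebra K F]

/-- the (chosen) uniformizer used by the Prelude to define `dCoord`. -/
noncomputable def BL_unif (v : Place K F) : v.toValuationSubring :=
  (IsDiscreteValuationRing.exists_irreducible v.toValuationSubring).choose

lemma BL_unif_irreducible (v : Place K F) : Irreducible (BL_unif v) :=
  (IsDiscreteValuationRing.exists_irreducible v.toValuationSubring).choose_spec

lemma BL_dCoord_eq (v : Place K F) : v.dCoord = D K F (BL_unif v : F) := rfl

lemma BL_ord_unif (v : Place K F) : v.ord (BL_unif v : F) = 1 :=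
  v.ord_coe_irreducible (BL_unif_irreducible v)

lemma BL_unif_transcendental [IsAlgClosed K] (v : Place K F) :
    Transcendental K (BL_unif v : F) :=
  BL_transcendental_of_ord_ne_zero v (by rw [BL_ord_unif]; exact one_ne_zero)

lemma BL_finite_unif [IsAlgClosed K] (x : F) [FiniteDimensional K⟮x⟯ F] (v : Place K F) :
    FiniteDimensional K⟮(BL_unif v : F)⟯ F :=
  BL_finite_of_transcendental (x := x) inferInstance (BL_unif_transcendental v)

/-- **B0**: `Ω[F/K]` is spanned by `d(uniformizer)`. -/
theorem BL_dCoordGenerates [IsAlgClosed K] [CharZero K] (x : F) [FiniteDimensional K⟮x⟯ F]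
    (v : Place K F) : v.DCoordGenerates := by
  have := BL_finite_unif x v
  exact ⟨by rw [BL_dCoord_eq]; exact BL_span_D _⟩

/-- **B0**: `Ω[F/K] ≠ 0`. -/
theorem BL_nontrivial_kaehler [IsAlgClosed K] [CharZero K] (x : F) [FiniteDimensional K⟮x⟯ F]
    (v : Place K F) : Nontrivial Ω[F⁄K] := by
  have := BL_finite_unif x v
  exact ⟨⟨_, 0, BL_D_ne_zero (BL_unif_transcendental v)⟩⟩

lemma BL_isFunctionField1 (x : F) [FiniteDimensional K⟮x⟯ F] : S24_IsFunctionField1 K F :=
  S24_isFunctionField1_of_isAlgebraic x (Algebra.IsAlgebraic.of_finite _ _)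

/-- `Ω[O_v/K]` is generated by `d(uniformizer)` (Nakayama). -/
theorem BL_span_D_unif [IsAlgClosed K] [CharZero K] (x : F) [FiniteDimensional K⟮x⟯ F]
    (v : Place K F) :
    Submodule.span v.toValuationSubring {D K v.toValuationSubring (BL_unif v)} = ⊤ := by
  have hfin := BL_finite_unif x v
  have hess : Algebra.EssFiniteType K v.toValuationSubring :=
    BL_essFiniteType v (t := (BL_unif v : F)) (by rw [BL_ord_unif]; exact one_pos)
  have hΩ : Module.Finite v.toValuationSubring Ω[v.toValuationSubring⁄K] := inferInstance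
  rw [eq_top_iff]
  refine Submodule.le_of_le_smul_of_le_jacobson_bot
    (I := IsLocalRing.maximalIdeal v.toValuationSubring) (Module.finite_def.1 hΩ)
    (IsLocalRing.maximalIdeal_le_jacobson ⊥) ?_
  intro ω _
  have hω : ω ∈ Submodule.span v.toValuationSubring
      (Set.range (D K v.toValuationSubring)) := by
    rw [KaehlerDifferential.span_range_derivation]; trivial
  refine Submodule.span_le.2 ?_ hω
  rintro _ ⟨u, rfl⟩
  -- `u = a + t * u₁`
  obtain ⟨a, ha⟩ := S24_residue_surjective (BL_isFunctionField1 x) v
    (IsLocalRing.residue v.toValuationSubring u)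
  have hmem : u - algebraMap K v.toValuationSubring a ∈
      IsLocalRing.maximalIdeal v.toValuationSubring := by
    rw [← Ideal.Quotient.eq_zero_iff_mem]
    show IsLocalRing.residue v.toValuationSubring (u - algebraMap K v.toValuationSubring a) = 0
    rw [map_sub, ← ha]
    exact sub_eq_zero.2 rfl
  rw [(BL_unif_irreducible v).maximalIdeal_eq, Ideal.mem_span_singleton'] at hmem
  obtain ⟨u₁, hu₁⟩ := hmem
  have hu : u = algebraMap K v.toValuationSubring a + u₁ * BL_unif v := by
    rw [hu₁]; ring
  have hD : D K v.toValuationSubring u =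
      u₁ • D K v.toValuationSubring (BL_unif v) + BL_unif v • D K v.toValuationSubring u₁ := by
    conv_lhs => rw [hu]
    rw [map_add, Derivation.map_algebraMap, zero_add, Derivation.leibniz]
  rw [SetLike.mem_coe, hD]
  refine Submodule.add_mem _ (Submodule.mem_sup_left
    (Submodule.smul_mem _ _ (Submodule.subset_span rfl))) (Submodule.mem_sup_right ?_)
  refine Submodule.smul_mem_smul ?_ Submodule.mem_top
  rw [(BL_unif_irreducible v).maximalIdeal_eq]
  exact Ideal.mem_span_singleton_self _


/-- **B2**: the derivation `d/dt` (`t` the uniformizer) preserves the valuation ring. -/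
theorem BL_differentialCoeff_mem [IsAlgClosed K] [CharZero K] (x : F) [FiniteDimensional K⟮x⟯ F]
    (v : Place K F) {u : F} (hu : u ∈ v.toValuationSubring) :
    v.differentialCoeff (D K F u) ∈ v.toValuationSubring := by
  have := BL_dCoordGenerates x v
  have := BL_nontrivial_kaehler x v
  have h : D K v.toValuationSubring ⟨u, hu⟩ ∈ Submodule.span v.toValuationSubring
      {D K v.toValuationSubring (BL_unif v)} := by
    rw [BL_span_D_unif x v]; trivial
  obtain ⟨g, hg⟩ := Submodule.mem_span_singleton.1 h
  have h2 := congrArg (KaehlerDifferential.map K K v.toValuationSubring F) hg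
  rw [map_smul, KaehlerDifferential.map_D, KaehlerDifferential.map_D] at h2
  have h3 : D K F u = (g : F) • v.dCoord := by
    rw [BL_dCoord_eq]
    exact h2.symm
  rw [v.differentialCoeff_unique h3]
  exact g.2

lemma BL_ord_add_eq_of_lt (v : Place K F) {a b : F} (ha : a ≠ 0) (hb : b ≠ 0)
    (h : v.ord a < v.ord b) : v.ord (a + b) = v.ord a := by
  have h1 : v.adicValuation b < v.adicValuation a := by
    rw [Place.ord, Place.ord, neg_lt_neg_iff] at h
    exact (WithZero.log_lt_log (v.adicValuation_ne_zero hb) (v.adicValuation_ne_zero ha)).1 h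
  rw [Place.ord, Place.ord, Valuation.map_add_eq_of_lt_left _ h1]

/-- **B3**: `ord_v(dy) = ord_v(y) - 1` when `ord_v(y) ≠ 0`. -/
theorem BL_ordDifferential_D [IsAlgClosed K] [CharZero K] (x : F) [FiniteDimensional K⟮x⟯ F]
    (v : Place K F) {y : F} (hy : v.ord y ≠ 0) :
    v.ordDifferential (D K F y) = v.ord y - 1 := by
  have := BL_dCoordGenerates x v
  have := BL_nontrivial_kaehler x v
  have hy0 : y ≠ 0 := by rintro rfl; simp at hy
  obtain ⟨w, hw⟩ := v.exists_unit_mul_zpow hy0 (BL_unif_irreducible v)
  have ht0 : (BL_unif v : F) ≠ 0 := by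
    intro h
    have := BL_ord_unif v
    rw [h] at this
    simp at this
  have hw0 : ((w : v.toValuationSubring) : F) ≠ 0 := by
    intro h
    exact w.ne_zero (Subtype.ext h)
  obtain ⟨g, hgO, hDw⟩ : ∃ g : F, g ∈ v.toValuationSubring ∧
      D K F ((w : v.toValuationSubring) : F) = g • v.dCoord :=
    ⟨_, BL_differentialCoeff_mem x v (w : v.toValuationSubring).2,
      (v.differentialCoeff_smul_dCoord _).symm⟩
  have hD : D K F y = (((w : v.toValuationSubring) : F) *
      ((v.ord y : F) * (BL_unif v : F) ^ (v.ord y - 1)) +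
      (BL_unif v : F) ^ (v.ord y) * g) • v.dCoord := by
    conv_lhs => rw [hw]
    rw [Derivation.leibniz, Derivation.leibniz_zpow, hDw, ← BL_dCoord_eq, add_smul,
      ← Int.cast_smul_eq_zsmul F, smul_smul, smul_smul, smul_smul, mul_assoc]
  rw [Place.ordDifferential, v.differentialCoeff_unique hD]
  -- the order of the main term
  have hchar : CharZero F := charZero_of_injective_algebraMap (algebraMap K F).injective
  have hm0 : ((v.ord y : ℤ) : F) ≠ 0 := Int.cast_ne_zero.2 hy
  have hmord : v.ord ((v.ord y : ℤ) : F) = 0 := by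
    have : ((v.ord y : ℤ) : F) = algebraMap K F ((v.ord y : ℤ) : K) := by simp
    rw [this]
    exact BL_ord_algebraMap v _
  have hmain : v.ord (((w : v.toValuationSubring) : F) *
      ((v.ord y : F) * (BL_unif v : F) ^ (v.ord y - 1))) = v.ord y - 1 := by
    rw [v.ord_mul hw0 (mul_ne_zero hm0 (zpow_ne_zero _ ht0)),
      v.ord_mul hm0 (zpow_ne_zero _ ht0), v.ord_coe_unit, hmord, v.ord_zpow, BL_ord_unif]
    ring
  rcases eq_or_ne g 0 with rfl | hg0
  · rw [mul_zero, add_zero, hmain]
  · rw [BL_ord_add_eq_of_lt v (mul_ne_zero hw0 (mul_ne_zero hm0 (zpow_ne_zero _ ht0)))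
      (mul_ne_zero (zpow_ne_zero _ ht0) hg0), hmain]
    rw [hmain, v.ord_mul (zpow_ne_zero _ ht0) hg0, v.ord_zpow, BL_ord_unif]
    have := (BL_mem_iff_ord_nonneg v hg0).1 hgO
    omega


/-- **B3, zeros**: if `y - c` vanishes to order `e ≥ 1` at `v`, then `dy` vanishes to order
`e - 1`. -/
theorem BL_ordDifferential_D_of_sub [IsAlgClosed K] [CharZero K] (x : F)
    [FiniteDimensional K⟮x⟯ F] (v : Place K F) {y : F} {c : K}
    (hy : 0 < v.ord (y - algebraMap K F c)) :
    v.ordDifferential (D K F y) = v.ord (y - algebraMap K F c) - 1 := by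
  have h := BL_ordDifferential_D x v hy.ne'
  rwa [map_sub, Derivation.map_algebraMap, sub_zero] at h

/-- **B3, poles**: if `y` has a pole of order `e ≥ 1` at `v`, then `dy` has a pole of order
`e + 1`. -/
theorem BL_ordDifferential_D_of_neg [IsAlgClosed K] [CharZero K] (x : F)
    [FiniteDimensional K⟮x⟯ F] (v : Place K F) {y : F} (hy : v.ord y < 0) :
    v.ordDifferential (D K F y) = v.ord y - 1 :=
  BL_ordDifferential_D x v hy.ne

/-- **B1** (element form): every element of `O_v` is congruent to a constant. -/
theorem BL_exists_const [IsAlgClosed K] (x : F) [FiniteDimensional K⟮x⟯ F] (v : Place K F)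
    {u : F} (hu : u ∈ v.toValuationSubring) :
    ∃ a : K, u = algebraMap K F a ∨ 0 < v.ord (u - algebraMap K F a) := by
  obtain ⟨a, ha⟩ := S24_residue_surjective (BL_isFunctionField1 x) v
    (IsLocalRing.residue v.toValuationSubring ⟨u, hu⟩)
  refine ⟨a, ?_⟩
  by_cases h : u = algebraMap K F a
  · exact Or.inl h
  · right
    have hmem : (⟨u, hu⟩ : v.toValuationSubring) - algebraMap K v.toValuationSubring a ∈
        IsLocalRing.maximalIdeal v.toValuationSubring := by
      rw [← Ideal.Quotient.eq_zero_iff_mem]
      show IsLocalRing.residue v.toValuationSubring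
        ((⟨u, hu⟩ : v.toValuationSubring) - algebraMap K v.toValuationSubring a) = 0
      rw [map_sub, ← ha]
      exact sub_eq_zero.2 rfl
    have hne : (⟨u, hu⟩ : v.toValuationSubring) - algebraMap K v.toValuationSubring a ≠ 0 := by
      intro h0
      exact h (sub_eq_zero.1 (congrArg Subtype.val h0))
    exact (BL_mem_maximalIdeal_iff v hne).1 hmem

/-- at a place where `y` is regular, `dy` is regular; more precisely `ord_v(dy) = ord_v(y - y(v)) - 1`
for the value `y(v) ∈ K` of `y` at `v` (if `y` is not constant). -/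
theorem BL_ordDifferential_D_of_nonneg [IsAlgClosed K] [CharZero K] (x : F)
    [FiniteDimensional K⟮x⟯ F] (v : Place K F) {y : F} (hy : Transcendental K y)
    (hv : 0 ≤ v.ord y) :
    ∃ c : K, 0 < v.ord (y - algebraMap K F c) ∧
      v.ordDifferential (D K F y) = v.ord (y - algebraMap K F c) - 1 := by
  have hy0 : y ≠ 0 := by
    rintro rfl
    exact hy (isAlgebraic_zero)
  obtain ⟨c, hc | hc⟩ := BL_exists_const x v ((BL_mem_iff_ord_nonneg v hy0).2 hv)
  · exact absurd (hc ▸ isAlgebraic_algebraMap c) hy
  · exact ⟨c, hc, BL_ordDifferential_D_of_sub x v hc⟩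

/-- `Place.ord` satisfies the ultrametric inequality. -/
lemma BL_ord_add_ge (v : Place K F) {a b : F} (ha : a ≠ 0) (hb : b ≠ 0) (hab : a + b ≠ 0) :
    min (v.ord a) (v.ord b) ≤ v.ord (a + b) := by
  have h := v.adicValuation.map_add a b
  rw [le_max_iff] at h
  rw [min_le_iff]
  rcases h with h | h
  · left
    rw [Place.ord, Place.ord, neg_le_neg_iff]
    exact (WithZero.log_le_log (v.adicValuation_ne_zero hab) (v.adicValuation_ne_zero ha)).2 h
  · right
    rw [Place.ord, Place.ord, neg_le_neg_iff]
    exact (WithZero.log_le_log (v.adicValuation_ne_zero hab) (v.adicValuation_ne_zero hb)).2 h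

/-- `Place.ord` is an abstract valuation in the sense of `IsVal`. -/
theorem BL_isVal_ord (v : Place K F) : IsVal (K := K) v.ord where
  mul f g hf hg := v.ord_mul hf hg
  add f g hf hg hfg := BL_ord_add_ge v hf hg hfg
  const c _ := BL_ord_algebraMap v c

end Fermat.Agent.S24
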