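import Mathlib
import Fermat.Agent.S24.Global

/-!
# S24, package BG: prime avoidance (`BG_approx`) and norms (`BG_norm`) (helper13)

Exactly the hypotheses `happrox`, `hnormpos` (and `hsum`) of `S24_placeCount_of`.
-/

set_option autoImplicit false

open AlgebraicCurve IntermediateField IsDedekindDomain
open scoped IntermediateField.algebraAdjoinAdjoin

universe u v

namespace Fermat.Agent.S24

variable {K : Type u} {F : Type v} [Field K] [Field F] [Algebra K F]
variable [CharZero K] {x : F} (hx : Transcendental K x) [FiniteDimensional K⟮x⟯ F]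

include hx in
/-- every place with `0 < ord x` is the place of a height one prime `w` of `B` lying over `(x)`. -/
theorem BG_exists_prime_over (v : Place K F) (hv : 0 < v.ord x) :
    letI := BG_isDedekindDomain hx
    letI := BG_isFractionRing (K := K) (x := x)
    ∃ w : HeightOneSpectrum (integralClosure (Algebra.adjoin K ({x} : Set F)) F),
      Place.ofHeightOneSpectrum (K := K) (F := F) w = v ∧
      w.asIdeal.under (Algebra.adjoin K ({x} : Set F)) = BG_p K x := by
  let := BG_isDedekindDomain hx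
  let := BG_isFractionRing (K := K) (x := x)
  have := BG_p_isMaximal hx
  have hx0 : x ≠ 0 := fun h => hx (h ▸ isAlgebraic_zero)
  obtain ⟨w, hw⟩ := BG_exists_prime hx v hv
  refine ⟨w, hw, ?_⟩
  have hxw : algebraMap (Algebra.adjoin K ({x} : Set F)) _ (BL_gen (K := K) x) ∈ w.asIdeal := by
    rw [BG_mem_asIdeal_iff (K := K) (F := F) w, hw]
    exact (BG_mem_nonunits_iff_ord_pos _ hx0).mpr hv
  have hle : BG_p K x ≤ w.asIdeal.under (Algebra.adjoin K ({x} : Set F)) := by
    rw [BG_p, Ideal.span_le, Set.singleton_subset_iff]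
    exact hxw
  have hprime : w.asIdeal.IsPrime := w.isPrime
  have hunder : (w.asIdeal.under (Algebra.adjoin K ({x} : Set F))).IsPrime :=
    Ideal.IsPrime.under _ _
  exact (Ideal.IsMaximal.eq_of_le inferInstance hunder.ne_top hle).symm

include hx in
/-- **norm**: if `b` is integral over `K[x]` and has positive order at a zero of `x`, then its
norm to `K(x)` is divisible by `x` in `K[x]`.  (hypothesis `hnormpos` of `S24_placeCount_of`) -/
theorem BG_norm (v : Place K F) (hv : 0 < v.ord x) (b : F)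
    (hb : IsIntegral (Algebra.adjoin K ({x} : Set F)) b) (hbv : 0 < v.ord b) :
    ∃ p : Polynomial K,
      algebraMap K⟮x⟯ F (Algebra.norm K⟮x⟯ b) = x * Polynomial.aeval x p := by
  have := BG_isPrincipalIdealRing hx
  let := BG_isDedekindDomain hx
  let := BG_isFractionRing (K := K) (x := x)
  have := BG_finite hx
  have := BG_free hx
  have hb0 : b ≠ 0 := by rintro rfl; simp at hbv
  obtain ⟨w, hw, hunder⟩ := BG_exists_prime_over hx v hv
  set b' : integralClosure (Algebra.adjoin K ({x} : Set F)) F := ⟨b, hb⟩ with hb'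
  have hbw : b' ∈ w.asIdeal := by
    rw [BG_mem_asIdeal_iff (K := K) (F := F) w, hw]
    exact (BG_mem_nonunits_iff_ord_pos _ hb0).mpr hbv
  set N := Algebra.intNorm (Algebra.adjoin K ({x} : Set F))
    (integralClosure (Algebra.adjoin K ({x} : Set F)) F) b' with hN
  have h1 : algebraMap (Algebra.adjoin K ({x} : Set F)) K⟮x⟯ N = Algebra.norm K⟮x⟯ b :=
    Algebra.algebraMap_intNorm (A := Algebra.adjoin K ({x} : Set F)) (K := K⟮x⟯) (L := F) b'
  have h2 : b' ∣ algebraMap (Algebra.adjoin K ({x} : Set F)) _ N :=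
    Algebra.dvd_algebraMap_intNorm_self (Algebra.adjoin K ({x} : Set F))
      (integralClosure (Algebra.adjoin K ({x} : Set F)) F) b'
  have hNw : algebraMap (Algebra.adjoin K ({x} : Set F))
      (integralClosure (Algebra.adjoin K ({x} : Set F)) F) N ∈ w.asIdeal :=
    Ideal.mem_of_dvd _ h2 hbw
  have hNp : N ∈ BG_p K x := by
    rw [← hunder]
    exact hNw
  rw [BG_p, Ideal.mem_span_singleton'] at hNp
  obtain ⟨a, ha⟩ := hNp
  obtain ⟨p, rfl⟩ := BL_exists_aeval x a
  refine ⟨p, ?_⟩
  rw [← h1, ← ha]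
  rw [← IsScalarTower.algebraMap_apply (Algebra.adjoin K ({x} : Set F)) K⟮x⟯ F]
  show ((Polynomial.aeval (BL_gen (K := K) x) p * BL_gen (K := K) x :
    Algebra.adjoin K ({x} : Set F)) : F) = _
  rw [Subalgebra.coe_mul, BL_aeval_gen_coe, mul_comm]
  rfl

include hx in
/-- **approx** (prime avoidance): given a zero `v₀` of `x` and finitely many other zeros `s`,
there is an integral `b ≠ 0` vanishing at `v₀` and a unit at all places in `s`.
(hypothesis `happrox` of `S24_placeCount_of`) -/
theorem BG_approx (v₀ : Place K F) (s : Finset (Place K F)) (hv₀ : 0 < v₀.ord x)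
    (hs : ∀ v ∈ s, 0 < v.ord x) (hv₀s : v₀ ∉ s) :
    ∃ b : F, b ≠ 0 ∧ IsIntegral (Algebra.adjoin K ({x} : Set F)) b ∧ 0 < v₀.ord b ∧
      ∀ v ∈ s, v.ord b = 0 := by
  classical
  let := BG_isDedekindDomain hx
  let := BG_isFractionRing (K := K) (x := x)
  have hx0 : x ≠ 0 := fun h => hx (h ▸ isAlgebraic_zero)
  obtain ⟨w₀, hw₀⟩ := BG_exists_prime hx v₀ hv₀
  -- the primes of the places in `s`
  have hex : ∀ v : Place K F, ∃ w : HeightOneSpectrum
      (integralClosure (Algebra.adjoin K ({x} : Set F)) F),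
      v ∈ s → Place.ofHeightOneSpectrum (K := K) (F := F) w = v := by
    intro v
    by_cases hvs : v ∈ s
    · obtain ⟨w, hw⟩ := BG_exists_prime hx v (hs v hvs)
      exact ⟨w, fun _ => hw⟩
    · exact ⟨w₀, fun h => absurd h hvs⟩
  choose W hW using hex
  -- the key claim: some element of `w₀` avoids all `W v`, `v ∈ s`
  have key : ∃ b : integralClosure (Algebra.adjoin K ({x} : Set F)) F,
      b ≠ 0 ∧ b ∈ w₀.asIdeal ∧ ∀ v ∈ s, b ∉ (W v).asIdeal := by
    rcases s.eq_empty_or_nonempty with hse | ⟨v₁, hv₁⟩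
    · obtain ⟨b, hbw, hb0⟩ := Submodule.exists_mem_ne_zero_of_ne_bot w₀.ne_bot
      exact ⟨b, hb0, hbw, by simp [hse]⟩
    · have hnot : ¬ ((w₀.asIdeal : Set (integralClosure (Algebra.adjoin K ({x} : Set F)) F)) ⊆
          ⋃ i ∈ (↑s : Set (Place K F)),
            ((W i).asIdeal : Set (integralClosure (Algebra.adjoin K ({x} : Set F)) F))) := by
        rw [Ideal.subset_union_prime v₁ v₁ (fun i _ _ _ => (W i).isPrime)]
        rintro ⟨v, hvs, hle⟩
        have hmax : w₀.asIdeal.IsMaximal := w₀.isMaximal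
        have heq : w₀.asIdeal = (W v).asIdeal :=
          Ideal.IsMaximal.eq_of_le hmax (W v).isPrime.ne_top hle
        have : w₀ = W v := HeightOneSpectrum.ext heq
        apply hv₀s
        rw [← hw₀, this, hW v hvs]
        exact hvs
      rw [Set.not_subset] at hnot
      obtain ⟨b, hbw, hbn⟩ := hnot
      have hbn' : ∀ v ∈ s, b ∉ (W v).asIdeal := by
        intro v hv hmem
        apply hbn
        simp only [Set.mem_iUnion, SetLike.mem_coe]
        exact ⟨v, hv, hmem⟩
      refine ⟨b, ?_, hbw, hbn'⟩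
      rintro rfl
      exact hbn' v₁ hv₁ (Ideal.zero_mem _)
  obtain ⟨b, hb0, hbw, hbn⟩ := key
  have hbF : (b : F) ≠ 0 := fun h => hb0 (Subtype.ext h)
  refine ⟨b, hbF, b.2, ?_, ?_⟩
  · rw [← BG_mem_nonunits_iff_ord_pos _ hbF, ← hw₀]
    exact (BG_mem_asIdeal_iff (K := K) (F := F) w₀ b).mp hbw
  · intro v hv
    have hvx : x ∈ v.toValuationSubring := (BG_mem_iff_ord_nonneg v hx0).mpr (hs v hv).le
    have h1 : 0 ≤ v.ord (b : F) :=
      (BG_mem_iff_ord_nonneg v hbF).mp (BL_mem_of_isIntegral v hvx b.2)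
    have h2 : ¬ 0 < v.ord (b : F) := by
      rw [← BG_mem_nonunits_iff_ord_pos _ hbF]
      intro hmem
      apply hbn v hv
      rw [BG_mem_asIdeal_iff (K := K) (F := F) (W v) b, hW v hv]
      exact hmem
    omega

end Fermat.Agent.S24
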