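import Mathlib
import Fermat.Prelude.Def_AlgebraicCurve_CanonicalDivisor
import Fermat.Agent.S24.Defs
import Fermat.Agent.S24.PlaceVal

/-! # S24, package G4: Riemann–Hurwitz in counting form

For a divisor `D` of the differential `dx`, `deg D = ∑_{c ∈ S} (n − r_c) − n − r_∞`, where
`n = [F : K(x)]`, `r_c` = number of places over `x = c`, `r_∞` = number of poles of `x`, and `S` is
a finite set of values outside of which `x − c` has `n` distinct zeros.
The inputs from the local and global theory (packages BL, BG) are hypotheses here. -/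

set_option autoImplicit false

open AlgebraicCurve KaehlerDifferential

namespace Fermat.Agent.S24

variable {K F : Type*} [Field K] [Field F] [Algebra K F]

/-- if `n` positive integers indexed by a finset of cardinality `n`... : each term is `1`. -/
theorem S24_all_one_of_sum_eq_card {ι : Type*} (s : Finset ι) (f : ι → ℤ)
    (hpos : ∀ i ∈ s, 0 < f i) (hsum : ∑ i ∈ s, f i = s.card) : ∀ i ∈ s, f i = 1 := by
  classical
  intro i hi
  by_contra hne
  have h1 : ∀ k ∈ s, (1 : ℤ) ≤ f k := fun k hk => hpos k hk
  have h2 : (1 : ℤ) < f i := lt_of_le_of_ne (h1 i hi) (Ne.symm hne)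
  have h3 : ∑ k ∈ s, (1 : ℤ) < ∑ k ∈ s, f k :=
    Finset.sum_lt_sum h1 ⟨i, hi, h2⟩
  simp only [Finset.sum_const, nsmul_eq_mul, mul_one] at h3
  omega

/-- **Package G4** (Riemann–Hurwitz, counting form). -/
theorem S24_RH_count (x : F) (n : ℕ)
    (hdeg1 : ∀ v : Place K F, v.deg = 1)
    (hres : ∀ v : Place K F, 0 ≤ v.ord x → ∃ c : K, 0 < v.ord (x - algebraMap K F c))
    (hB3 : ∀ (v : Place K F) (y : F), v.ord y ≠ 0 →
      v.ordDifferential (D K F y) = v.ord y - 1)
    (hG2 : ∀ c : K, ∃ s : Finset (Place K F),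
      (∀ v, v ∈ s ↔ 0 < v.ord (x - algebraMap K F c)) ∧
        ∑ v ∈ s, v.ord (x - algebraMap K F c) = n)
    (hG2inf : ∃ s : Finset (Place K F), (∀ v, v ∈ s ↔ v.ord x < 0) ∧ ∑ v ∈ s, (- v.ord x) = n)
    (S : Finset K)
    (hS : ∀ c ∉ S, Nat.card {v : Place K F // 0 < v.ord (x - algebraMap K F c)} = n)
    (Dv : Divisor K F) (hD : ∀ v, Dv v = v.ordDifferential (D K F x)) :
    Divisor.degree Dv =
      ∑ c ∈ S, ((n : ℤ) - Nat.card {v : Place K F // 0 < v.ord (x - algebraMap K F c)})
        - n - Nat.card {v : Place K F // v.ord x < 0} := by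
  classical
  -- the places over `c` and over `∞`
  choose sc hsc hscsum using hG2
  obtain ⟨sinf, hsinf, hsinfsum⟩ := hG2inf
  have hcardc : ∀ c, Nat.card {v : Place K F // 0 < v.ord (x - algebraMap K F c)} = (sc c).card := by
    intro c
    rw [← Nat.card_eq_finsetCard (sc c)]
    exact Nat.card_congr (Equiv.subtypeEquivRight (fun v => (hsc c v).symm))
  have hcardinf : Nat.card {v : Place K F // v.ord x < 0} = sinf.card := by
    rw [← Nat.card_eq_finsetCard sinf]
    exact Nat.card_congr (Equiv.subtypeEquivRight (fun v => (hsinf v).symm))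
  -- value of `Dv` at a place over `c`
  have hDc : ∀ c v, v ∈ sc c → Dv v = v.ord (x - algebraMap K F c) - 1 := by
    intro c v hv
    have hpos := (hsc c v).mp hv
    rw [hD v, ← hB3 v (x - algebraMap K F c) (ne_of_gt hpos)]
    congr 1
    rw [map_sub, Derivation.map_algebraMap, sub_zero]
  have hDinf : ∀ v, v ∈ sinf → Dv v = v.ord x - 1 := by
    intro v hv
    have hneg := (hsinf v).mp hv
    rw [hD v, hB3 v x (ne_of_lt hneg)]
  -- disjointness
  have hne_inf_c : ∀ c v, v ∈ sinf → v ∉ sc c := by
    intro c v hv hvc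
    have hneg := (hsinf v).mp hv
    have hpos := (hsc c v).mp hvc
    have hx0 : x ≠ 0 := by
      intro h; rw [h] at hneg; simp at hneg
    have hxc0 : x - algebraMap K F c ≠ 0 := by
      intro h; rw [h] at hpos; simp at hpos
    by_cases hc : c = 0
    · subst hc
      simp only [map_zero, sub_zero] at hpos
      omega
    · have hc0 : algebraMap K F c ≠ 0 := by
        simpa using hc
      have h1 := (S24_isVal_ord v).add (x - algebraMap K F c) (algebraMap K F c) hxc0 hc0
        (by simpa using hx0)
      rw [sub_add_cancel, BL_ord_algebraMap] at h1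
      have : 0 ≤ min (v.ord (x - algebraMap K F c)) 0 := le_min hpos.le le_rfl
      omega
  have hne_c_c : ∀ c c' v, c ≠ c' → v ∈ sc c → v ∉ sc c' := by
    intro c c' v hcc hv hv'
    have hpos := (hsc c v).mp hv
    have hpos' := (hsc c' v).mp hv'
    have hxc0 : x - algebraMap K F c ≠ 0 := by
      intro h; rw [h] at hpos; simp at hpos
    have hxc0' : x - algebraMap K F c' ≠ 0 := by
      intro h; rw [h] at hpos'; simp at hpos'
    have hd : (x - algebraMap K F c') - (x - algebraMap K F c) = algebraMap K F (c - c') := by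
      rw [map_sub]; ring
    have hd0 : algebraMap K F (c - c') ≠ 0 := by
      simpa [sub_eq_zero] using hcc
    have h1 := (S24_isVal_ord v).sub hxc0' hxc0 (by rw [hd]; exact hd0)
    rw [hd, BL_ord_algebraMap] at h1
    have : 0 < min (v.ord (x - algebraMap K F c')) (v.ord (x - algebraMap K F c)) :=
      lt_min hpos' hpos
    omega
  -- the finite set of special places
  set T : Finset (Place K F) := sinf ∪ S.biUnion sc with hT
  have hsupp : ∀ v, v ∉ T → Dv v = 0 := by
    intro v hv
    rw [hT, Finset.mem_union, not_or] at hv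
    obtain ⟨hv1, hv2⟩ := hv
    have hnn : 0 ≤ v.ord x := by
      by_contra h
      exact hv1 ((hsinf v).mpr (by omega))
    obtain ⟨c, hc⟩ := hres v hnn
    have hvc : v ∈ sc c := (hsc c v).mpr hc
    have hcS : c ∉ S := by
      intro hcS
      exact hv2 (Finset.mem_biUnion.mpr ⟨c, hcS, hvc⟩)
    have hcard : (sc c).card = n := by rw [← hcardc c, hS c hcS]
    have hall := S24_all_one_of_sum_eq_card (sc c) (fun v => v.ord (x - algebraMap K F c))
      (fun v hv => (hsc c v).mp hv) (by rw [hscsum c, hcard])
    rw [hDc c v hvc, hall v hvc]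
    simp
  have hdegree : Divisor.degree Dv = ∑ v ∈ T, Dv v := by
    have h1 : Divisor.degree Dv = ∑ v ∈ Dv.support, Dv v := by
      simp only [Divisor.degree, Finsupp.liftAddHom_apply, Finsupp.sum,
        AddMonoidHom.coe_mulRight, hdeg1]
      simp
    rw [h1]
    apply Finset.sum_subset
    · intro v hv
      by_contra hvT
      exact (Finsupp.mem_support_iff.mp hv) (hsupp v hvT)
    · intro v _ hv
      exact Finsupp.notMem_support_iff.mp hv
  have hdisj1 : Disjoint sinf (S.biUnion sc) := by
    rw [Finset.disjoint_left]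
    intro v hv hv'
    obtain ⟨c, -, hvc⟩ := Finset.mem_biUnion.mp hv'
    exact hne_inf_c c v hv hvc
  have hdisj2 : (S : Set K).PairwiseDisjoint sc := by
    intro c _ c' _ hcc
    rw [Function.onFun, Finset.disjoint_left]
    intro v hv hv'
    exact hne_c_c c c' v hcc hv hv'
  rw [hdegree, hT, Finset.sum_union hdisj1, Finset.sum_biUnion hdisj2]
  have hinfsum : ∑ v ∈ sinf, Dv v = - (n : ℤ) - sinf.card := by
    rw [Finset.sum_congr rfl (fun v hv => hDinf v hv), Finset.sum_sub_distrib]
    simp only [Finset.sum_neg_distrib] at hsinfsum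
    simp only [Finset.sum_const, nsmul_eq_mul, mul_one]
    omega
  have hcsum : ∀ c, ∑ v ∈ sc c, Dv v = (n : ℤ) - (sc c).card := by
    intro c
    rw [Finset.sum_congr rfl (fun v hv => hDc c v hv), Finset.sum_sub_distrib, hscsum c]
    simp
  rw [hinfsum, Finset.sum_congr rfl (fun c _ => hcsum c), hcardinf]
  simp only [hcardc]
  ring

end Fermat.Agent.S24
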