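import Mathlib
import Fermat.Prelude.Def_AlgebraicCurve_CanonicalDivisor
import Fermat.Prelude.Def_ModularCurve_GenusNumerics
import Fermat.Agent.S24.RH
import Fermat.Agent.S24.Arith

/-! # S24: final assembly from the package outputs (all inputs as hypotheses) -/

set_option autoImplicit false

open AlgebraicCurve KaehlerDifferential

namespace Fermat.Agent.S24

variable {K F : Type*} [Field K] [Field F] [Algebra K F]

/-- the genus is computed by any divisor of any nonzero differential, once principal divisors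
have degree zero. Here: reduction to the divisor of `dx`. -/
theorem S24_degree_canonical [HasCanonicalDivisor (K := K) (F := F)]
    (x : F) [Nontrivial Ω[F⁄K]]
    (hgen : ∀ v : Place K F, v.DCoordGenerates)
    (hspan : Submodule.span F {D K F x} = ⊤)
    (hG3 : ∀ f : F, f ≠ 0 → ∃ Df : Divisor K F, (∀ v, Df v = v.ord f) ∧ Divisor.degree Df = 0)
    {ω : Ω[F⁄K]} (hω : ω ≠ 0) :
    ∃ Dx : Divisor K F, (∀ v, Dx v = v.ordDifferential (D K F x)) ∧
      Divisor.degree (canonicalDivisorOf hω) = Divisor.degree Dx := by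
  have hmem : ω ∈ Submodule.span F {D K F x} := by rw [hspan]; exact Submodule.mem_top
  obtain ⟨f, hf⟩ := Submodule.mem_span_singleton.mp hmem
  have hf0 : f ≠ 0 := by
    rintro rfl
    rw [zero_smul] at hf
    exact hω hf.symm
  have hdx : D K F x ≠ 0 := by
    intro h
    rw [h, smul_zero] at hf
    exact hω hf.symm
  obtain ⟨Df, hDf, hDfdeg⟩ := hG3 f hf0
  refine ⟨canonicalDivisorOf hω - Df, fun v => ?_, ?_⟩
  · have := hgen v
    have hcoeff : v.differentialCoeff (D K F x) ≠ 0 := by
      intro h0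
      have := v.differentialCoeff_smul_dCoord (D K F x)
      rw [h0, zero_smul] at this
      exact hdx this.symm
    rw [Finsupp.sub_apply, canonicalDivisorOf_apply, hDf v, ← hf,
      v.ordDifferential_smul hf0 hcoeff]
    ring
  · rw [map_sub, hDfdeg, sub_zero]

/-- **S24 from the package outputs.** -/
theorem S24_of_inputs (N : ℕ) [HasCanonicalDivisor (K := K) (F := F)] [CharZero K]
    (j : F) (hNontriv : Nontrivial Ω[F⁄K])
    (hgen : ∀ v : Place K F, v.DCoordGenerates)
    (hspan : Submodule.span F {D K F j} = ⊤)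
    (hG3 : ∀ f : F, f ≠ 0 → ∃ Df : Divisor K F, (∀ v, Df v = v.ord f) ∧ Divisor.degree Df = 0)
    (hdeg1 : ∀ v : Place K F, v.deg = 1)
    (hres : ∀ v : Place K F, 0 ≤ v.ord j → ∃ c : K, 0 < v.ord (j - algebraMap K F c))
    (hB3 : ∀ (v : Place K F) (y : F), v.ord y ≠ 0 →
      v.ordDifferential (D K F y) = v.ord y - 1)
    (hG2 : ∀ c : K, ∃ s : Finset (Place K F),
      (∀ v, v ∈ s ↔ 0 < v.ord (j - algebraMap K F c)) ∧
        ∑ v ∈ s, v.ord (j - algebraMap K F c) = ModularCurve.dedekindPsi N)
    (hG2inf : ∃ s : Finset (Place K F), (∀ v, v ∈ s ↔ v.ord j < 0) ∧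
      ∑ v ∈ s, (- v.ord j) = ModularCurve.dedekindPsi N)
    (hcount : ∀ c : K, c ≠ 0 → c ≠ 1728 →
      Nat.card {v : Place K F // 0 < v.ord (j - algebraMap K F c)} = ModularCurve.dedekindPsi N)
    (h0 : 3 * Nat.card {v : Place K F // 0 < v.ord (j - algebraMap K F 0)} =
      ModularCurve.dedekindPsi N + 2 * ModularCurve.nuThree N)
    (h1728 : 2 * Nat.card {v : Place K F // 0 < v.ord (j - algebraMap K F 1728)} =
      ModularCurve.dedekindPsi N + ModularCurve.nuTwo N)
    (hinf : Nat.card {v : Place K F // v.ord j < 0} = ModularCurve.cuspCount N)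
    (g : ℕ) (hg : (g : ℚ) = ModularCurve.genusFormula N) :
    (genus K F : ℚ) = ModularCurve.genusFormula N := by
  classical
  have hex : ∃ ω : Ω[F⁄K], ω ≠ 0 := exists_ne 0
  have hgenus : genus K F =
      (Divisor.degree (canonicalDivisorOf hex.choose_spec) + 2).toNat / 2 := by
    unfold genus
    rw [dif_pos hex]
  rw [hgenus]
  obtain ⟨Dx, hDx, hdeg⟩ := S24_degree_canonical j hgen hspan hG3 hex.choose_spec
  rw [hdeg]
  have h17 : (0 : K) ≠ 1728 := by norm_num
  have hRH := S24_RH_count j (ModularCurve.dedekindPsi N) hdeg1 hres hB3 hG2 hG2inf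
    ({0, 1728} : Finset K) (fun c hc => by
      simp only [Finset.mem_insert, Finset.mem_singleton, not_or] at hc
      exact hcount c hc.1 hc.2) Dx hDx
  rw [Finset.sum_pair h17] at hRH
  exact S24_final_arith N g hg _ _ _ _ h1728 h0 rfl (by rw [hRH, hinf]; ring)

end Fermat.Agent.S24
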