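import Mathlib
import Fermat.Agent.S24.LocalDiff
import Fermat.Agent.S24.PrincipalDiv
import Fermat.Agent.S24.ApproxNorm
import Fermat.Agent.S24.PlaceCount
import Fermat.Agent.S24.Assemble

/-!
# S24, package W: algebra wiring (helper1)

`K` algebraically closed of characteristic `0`, `j : F` transcendental over `K`, `F / K(j)` finite.

* W1 generator change `j ↦ j - c`, `j ↦ j⁻¹`: `W_adjoin_sub`, `W_transcendental_sub`,
  `W_finite_sub`, `W_finrank_sub`, `W_finite_inv`, `W_finrank_inv`.
* W2 `W_hG2`, `W_hG2inf`; W3 `W_hres`; W5 `W_norm_congr`.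
* W6 `S24_placeCount` (general `x`), `S24_placeCount_sub` (`x = j - c`),
  `S24_placeCount_inv` (`x = j⁻¹`): the abstract place count with no global hypotheses left.
* `S24_of_counts`: the genus formula from the four place counts.
-/

set_option autoImplicit false

open AlgebraicCurve IntermediateField KaehlerDifferential

universe u v

namespace Fermat.Agent.S24

variable {K : Type u} {F : Type v} [Field K] [Field F] [Algebra K F]

/-! ## W1: generator change -/

/-- `K(j - c) = K(j)`. -/
theorem W_adjoin_sub (j : F) (c : K) : K⟮j - algebraMap K F c⟯ = K⟮j⟯ := by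
  apply le_antisymm
  · rw [IntermediateField.adjoin_simple_le_iff]
    exact sub_mem (IntermediateField.mem_adjoin_simple_self K j)
      (IntermediateField.algebraMap_mem _ c)
  · rw [IntermediateField.adjoin_simple_le_iff]
    have h := add_mem (IntermediateField.mem_adjoin_simple_self K (j - algebraMap K F c))
      (IntermediateField.algebraMap_mem K⟮j - algebraMap K F c⟯ c)
    rwa [sub_add_cancel] at h

theorem W_transcendental_sub {j : F} (hj : Transcendental K j) (c : K) :
    Transcendental K (j - algebraMap K F c) := by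
  intro h
  apply hj
  have h2 := h.add (isAlgebraic_algebraMap (R := K) (A := F) c)
  rwa [sub_add_cancel] at h2

theorem W_finite_of_eq {E E' : IntermediateField K F} (h : E = E') [FiniteDimensional E' F] :
    FiniteDimensional E F := by
  subst h; infer_instance

theorem W_finrank_of_eq {E E' : IntermediateField K F} (h : E = E') :
    Module.finrank E F = Module.finrank E' F := by
  subst h; rfl

/-- **W5**: norm transfer along an equality of intermediate fields. -/
theorem W_norm_congr {E E' : IntermediateField K F} (h : E = E') (f : F) :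
    algebraMap E F (Algebra.norm E f) = algebraMap E' F (Algebra.norm E' f) := by
  subst h; rfl

theorem W_finite_sub (j : F) [FiniteDimensional K⟮j⟯ F] (c : K) :
    FiniteDimensional K⟮j - algebraMap K F c⟯ F :=
  W_finite_of_eq (W_adjoin_sub j c)

theorem W_finrank_sub (j : F) (c : K) :
    Module.finrank K⟮j - algebraMap K F c⟯ F = Module.finrank K⟮j⟯ F :=
  W_finrank_of_eq (W_adjoin_sub j c)

theorem W_finite_inv (j : F) [FiniteDimensional K⟮j⟯ F] : FiniteDimensional K⟮j⁻¹⟯ F :=
  W_finite_of_eq (BG_adjoin_inv j)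

theorem W_finrank_inv (j : F) : Module.finrank K⟮j⁻¹⟯ F = Module.finrank K⟮j⟯ F :=
  W_finrank_of_eq (BG_adjoin_inv j)

theorem W_norm_sub (j : F) (c : K) (f : F) :
    algebraMap K⟮j - algebraMap K F c⟯ F (Algebra.norm K⟮j - algebraMap K F c⟯ f) =
      algebraMap K⟮j⟯ F (Algebra.norm K⟮j⟯ f) :=
  W_norm_congr (W_adjoin_sub j c) f

theorem W_norm_inv (j : F) (f : F) :
    algebraMap K⟮j⁻¹⟯ F (Algebra.norm K⟮j⁻¹⟯ f) = algebraMap K⟮j⟯ F (Algebra.norm K⟮j⟯ f) :=
  W_norm_congr (BG_adjoin_inv j) f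

section

variable [IsAlgClosed K] [CharZero K]

/-! ## W2: zeros of `j - c` and poles of `j` -/

/-- **W2** (`hG2` of `S24_of_inputs`). -/
theorem W_hG2 {j : F} (hj : Transcendental K j) [FiniteDimensional K⟮j⟯ F] (c : K) :
    ∃ s : Finset (Place K F), (∀ v, v ∈ s ↔ 0 < v.ord (j - algebraMap K F c)) ∧
      ∑ v ∈ s, v.ord (j - algebraMap K F c) = (Module.finrank K⟮j⟯ F : ℤ) := by
  have := W_finite_sub j c
  have h := BG_zeros_main (W_transcendental_sub hj c)
  rwa [W_finrank_sub j c] at h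

/-- **W2** (`hG2inf` of `S24_of_inputs`). -/
theorem W_hG2inf {j : F} (hj : Transcendental K j) [FiniteDimensional K⟮j⟯ F] :
    ∃ s : Finset (Place K F), (∀ v, v ∈ s ↔ v.ord j < 0) ∧
      ∑ v ∈ s, (- v.ord j) = (Module.finrank K⟮j⟯ F : ℤ) := by
  have := W_finite_inv (K := K) j
  obtain ⟨s, hs, hsum⟩ := BG_zeros_main (BG_transcendental_inv hj)
  refine ⟨s, fun v => ?_, ?_⟩
  · rw [hs v, v.ord_inv]; omega
  · rw [← W_finrank_inv j, ← hsum]
    exact Finset.sum_congr rfl fun v _ => (v.ord_inv j).symm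

/-! ## W3: every finite place lies over some `c` -/

omit [CharZero K] in
/-- **W3** (`hres` of `S24_of_inputs`). -/
theorem W_hres {j : F} (hj : Transcendental K j) [FiniteDimensional K⟮j⟯ F] (v : Place K F)
    (hv : 0 ≤ v.ord j) : ∃ c : K, 0 < v.ord (j - algebraMap K F c) := by
  have hj0 : j ≠ 0 := fun h => hj (h ▸ isAlgebraic_zero)
  obtain ⟨a, ha | ha⟩ := BL_exists_const j v ((BG_mem_iff_ord_nonneg v hj0).mpr hv)
  · exact absurd (ha ▸ isAlgebraic_algebraMap (R := K) (A := F) a) hj
  · exact ⟨a, ha⟩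

/-! ## W6: the abstract place count, no global hypotheses left -/

/-- **Package P + BG**: the abstract place count over `x = 0`. -/
theorem S24_placeCount {x : F} (hx : Transcendental K x) [FiniteDimensional K⟮x⟯ F]
    {G X : Type} [Group G] [MulAction G X] [Finite X]
    (w : X → F → ℤ) (hw : ∀ γ, IsVal (K := K) (w γ)) (hwx : ∀ γ, 0 < w γ x)
    (horb : ∀ (g : G) γ, w (g • γ) = w γ)
    (hdiv : ∀ γ f, f ≠ 0 → w γ x ∣ (Nat.card (MulAction.orbit G γ) : ℤ) * w γ f)
    (hcard : Nat.card X = Module.finrank K⟮x⟯ F)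
    (hnorm : ∀ f : F, f ≠ 0 → ∀ γ₀,
      ∑ᶠ γ, w γ f = w γ₀ (algebraMap K⟮x⟯ F (Algebra.norm K⟮x⟯ f))) :
    Nat.card {v : Place K F // 0 < v.ord x} = Nat.card (MulAction.orbitRel.Quotient G X) :=
  S24_placeCount_of x (fun h => hx (h ▸ isAlgebraic_zero)) (BG_approx hx) (BG_norm hx)
    (BG_zeros_main hx) w hw hwx horb hdiv hcard hnorm

/-- the place count over `j = c`, hypotheses in terms of `K(j)`. -/
theorem S24_placeCount_sub {j : F} (hj : Transcendental K j) [FiniteDimensional K⟮j⟯ F] (c : K)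
    {G X : Type} [Group G] [MulAction G X] [Finite X]
    (w : X → F → ℤ) (hw : ∀ γ, IsVal (K := K) (w γ))
    (hwx : ∀ γ, 0 < w γ (j - algebraMap K F c))
    (horb : ∀ (g : G) γ, w (g • γ) = w γ)
    (hdiv : ∀ γ f, f ≠ 0 →
      w γ (j - algebraMap K F c) ∣ (Nat.card (MulAction.orbit G γ) : ℤ) * w γ f)
    (hcard : Nat.card X = Module.finrank K⟮j⟯ F)
    (hnorm : ∀ f : F, f ≠ 0 → ∀ γ₀,
      ∑ᶠ γ, w γ f = w γ₀ (algebraMap K⟮j⟯ F (Algebra.norm K⟮j⟯ f))) :
    Nat.card {v : Place K F // 0 < v.ord (j - algebraMap K F c)} =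
      Nat.card (MulAction.orbitRel.Quotient G X) := by
  have := W_finite_sub j c
  exact S24_placeCount (W_transcendental_sub hj c) w hw hwx horb hdiv
    (hcard.trans (W_finrank_sub j c).symm)
    (fun f hf γ₀ => by rw [W_norm_sub j c f]; exact hnorm f hf γ₀)

/-- the place count over `j = ∞`, hypotheses in terms of `K(j)`. -/
theorem S24_placeCount_inv {j : F} (hj : Transcendental K j) [FiniteDimensional K⟮j⟯ F]
    {G X : Type} [Group G] [MulAction G X] [Finite X]
    (w : X → F → ℤ) (hw : ∀ γ, IsVal (K := K) (w γ))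
    (hwx : ∀ γ, 0 < w γ j⁻¹)
    (horb : ∀ (g : G) γ, w (g • γ) = w γ)
    (hdiv : ∀ γ f, f ≠ 0 → w γ j⁻¹ ∣ (Nat.card (MulAction.orbit G γ) : ℤ) * w γ f)
    (hcard : Nat.card X = Module.finrank K⟮j⟯ F)
    (hnorm : ∀ f : F, f ≠ 0 → ∀ γ₀,
      ∑ᶠ γ, w γ f = w γ₀ (algebraMap K⟮j⟯ F (Algebra.norm K⟮j⟯ f))) :
    Nat.card {v : Place K F // v.ord j < 0} = Nat.card (MulAction.orbitRel.Quotient G X) := by
  have := W_finite_inv (K := K) j
  rw [← S24_placeCount (BG_transcendental_inv hj) w hw hwx horb hdiv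
    (hcard.trans (W_finrank_inv j).symm)
    (fun f hf γ₀ => by rw [W_norm_inv j f]; exact hnorm f hf γ₀)]
  exact Nat.card_congr (Equiv.subtypeEquivRight fun v => by rw [v.ord_inv]; omega)

/-! ## The genus formula from the four counts -/

/-- **S24 from the four place counts** (all algebraic inputs discharged). -/
theorem S24_of_counts (N : ℕ) [HasCanonicalDivisor (K := K) (F := F)]
    {j : F} (hj : Transcendental K j) [FiniteDimensional K⟮j⟯ F]
    (hn : Module.finrank K⟮j⟯ F = ModularCurve.dedekindPsi N)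
    (hcount : ∀ c : K, c ≠ 0 → c ≠ 1728 →
      Nat.card {v : Place K F // 0 < v.ord (j - algebraMap K F c)} = ModularCurve.dedekindPsi N)
    (h0 : 3 * Nat.card {v : Place K F // 0 < v.ord (j - algebraMap K F 0)} =
      ModularCurve.dedekindPsi N + 2 * ModularCurve.nuThree N)
    (h1728 : 2 * Nat.card {v : Place K F // 0 < v.ord (j - algebraMap K F 1728)} =
      ModularCurve.dedekindPsi N + ModularCurve.nuTwo N)
    (hinf : Nat.card {v : Place K F // v.ord j < 0} = ModularCurve.cuspCount N)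
    (g : ℕ) (hg : (g : ℚ) = ModularCurve.genusFormula N) :
    (genus K F : ℚ) = ModularCurve.genusFormula N := by
  have hNontriv : Nontrivial Ω[F⁄K] := ⟨⟨_, 0, BL_D_ne_zero hj⟩⟩
  exact S24_of_inputs N j hNontriv (BL_dCoordGenerates j) (BL_span_D j)
    (BG_exists_principal_divisor hj) (S24_deg_eq_one (BL_isFunctionField1 j))
    (W_hres hj) (fun v y hy => BL_ordDifferential_D j v hy)
    (fun c => hn ▸ W_hG2 hj c) (hn ▸ W_hG2inf hj) hcount h0 h1728 hinf g hg

end

end Fermat.Agent.S24
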