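import Fermat.Agent.S24.CuspW
import Fermat.Agent.S24.EvDegEq
import Fermat.Agent.S24.Wiring
import Fermat.Agent.S24.Arith

/-!
# S24 package A3 (final): the number of places over `j = ∞` is the number of cusps
-/

set_option autoImplicit false

open scoped MatrixGroups
open CongruenceSubgroup ModularCurve IntermediateField AlgebraicCurve
open Fermat.Agent.S20

namespace Fermat.Agent.S24

/-- **hinf**: the number of places of `F = Q̄(X₀(N))` over `j = ∞` is the number of cusps of
`X₀(N)`. -/
theorem S24_hinf (N : ℕ) [NeZero N] :
    Nat.card {v : Place (AlgebraicClosure ℚ) ↥(modularFunctionFieldBar N) // v.ord (jB N) < 0} =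
      ModularCurve.cuspCount N := by
  have hfd := finiteDimensional_jB N
  have he := isEv_ev N
  have hinv := S24_hinv N (ev N) he
  obtain ⟨hw, hwx, horb, hdiv, hnorm⟩ := S24_cusp_inputs he hinv (finrank_le_card_cos N)
  rw [S24_placeCount_inv (transcendental_jB N) (cuspW N (ev N)) hw hwx horb hdiv
    (finrank_eq_card_cos N).symm hnorm]
  exact S24_card_orbits_T N

end Fermat.Agent.S24
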