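import Fermat.Agent.S24.FinCount
import Fermat.Agent.S24.Wiring
import Fermat.Agent.S24.EvDegEq

/-!
# S24 package A2c (final): the three finite place counts, no hypotheses left

`S24_hcount N`, `S24_h0 N`, `S24_h1728 N` are exactly the hypotheses `hcount`, `h0`, `h1728`
of `S24_of_counts` / `S24_of_inputs` at `j = jB N`.
-/

set_option autoImplicit false
set_option maxHeartbeats 400000

open UpperHalfPlane hiding I
open scoped MatrixGroups Manifold ModularForm
open CongruenceSubgroup ModularCurve IntermediateField AlgebraicCurve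
open Fermat.Agent.S20

noncomputable section

namespace Fermat.Agent.S24

variable (N : ℕ) [NeZero N]

/-- the abstract place count holds at `x = jB N - c`. -/
theorem S24_placeCountAt_jB_sub (c : AlgebraicClosure ℚ) :
    S24_PlaceCountAt (K := AlgebraicClosure ℚ)
      (jB N - algebraMap (AlgebraicClosure ℚ) ↥(modularFunctionFieldBar N) c) := by
  intro _ G X _ _ _ w hw hwx horb hdiv hcard hnorm
  exact S24_placeCount (W_transcendental_sub (transcendental_jB N) c) w hw hwx horb hdiv hcard
    hnorm

/-- **`hcount`**. -/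
theorem S24_hcount (c : AlgebraicClosure ℚ) (hc0 : c ≠ 0) (hc1 : c ≠ 1728) :
    Nat.card {v : Place (AlgebraicClosure ℚ) ↥(modularFunctionFieldBar N) //
        0 < v.ord (jB N - algebraMap (AlgebraicClosure ℚ) ↥(modularFunctionFieldBar N) c)} =
      ModularCurve.dedekindPsi N :=
  S24_count_generic (isEv_ev N) (S24_hinv N (ev N) (isEv_ev N)) (finiteDimensional_jB N)
    (finrank_eq_psi N) c hc0 hc1 (S24_placeCountAt_jB_sub N c)

/-- **`h1728`**. -/
theorem S24_h1728 :
    2 * Nat.card {v : Place (AlgebraicClosure ℚ) ↥(modularFunctionFieldBar N) //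
        0 < v.ord (jB N - algebraMap (AlgebraicClosure ℚ) ↥(modularFunctionFieldBar N) 1728)} =
      ModularCurve.dedekindPsi N + ModularCurve.nuTwo N :=
  S24_count_1728 (isEv_ev N) (S24_hinv N (ev N) (isEv_ev N)) (finiteDimensional_jB N)
    (finrank_eq_psi N) (S24_placeCountAt_jB_sub N 1728)

/-- **`h0`**. -/
theorem S24_h0 :
    3 * Nat.card {v : Place (AlgebraicClosure ℚ) ↥(modularFunctionFieldBar N) //
        0 < v.ord (jB N - algebraMap (AlgebraicClosure ℚ) ↥(modularFunctionFieldBar N) 0)} =
      ModularCurve.dedekindPsi N + 2 * ModularCurve.nuThree N :=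
  S24_count_zero (isEv_ev N) (S24_hinv N (ev N) (isEv_ev N)) (finiteDimensional_jB N)
    (finrank_eq_psi N) (S24_placeCountAt_jB_sub N 0)

end Fermat.Agent.S24
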