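import Fermat.Agent.S24.EvDefs

/-!
# S24, package A1: the ring of holomorphic, `1`-periodic functions on `ℍ` bounded at `i∞`
and its `q`-expansion homomorphism
-/

set_option autoImplicit false

open UpperHalfPlane hiding I
open scoped MatrixGroups Manifold ModularForm
open CongruenceSubgroup ModularCurve EisensteinSeries Function

noncomputable section

namespace Fermat.Agent.S24

/-- Holomorphic, `1`-periodic functions on `ℍ` which are bounded at `i∞`. -/
def BddSub : Subalgebra ℂ (ℍ → ℂ) where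
  carrier := {f | MDifferentiable 𝓘(ℂ) 𝓘(ℂ) f ∧ Periodic (f ∘ ofComplex) 1 ∧
    IsBoundedAtImInfty f}
  mul_mem' := by
    rintro f g ⟨hf1, hf2, hf3⟩ ⟨hg1, hg2, hg3⟩
    refine ⟨hf1.mul hg1, ?_, hf3.mul hg3⟩
    intro z
    simp only [Function.comp_apply, Pi.mul_apply]
    have h1 := hf2 z
    have h2 := hg2 z
    simp only [Function.comp_apply] at h1 h2
    rw [h1, h2]
  add_mem' := by
    rintro f g ⟨hf1, hf2, hf3⟩ ⟨hg1, hg2, hg3⟩
    refine ⟨hf1.add hg1, ?_, hf3.add hg3⟩
    intro z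
    simp only [Function.comp_apply, Pi.add_apply]
    have h1 := hf2 z
    have h2 := hg2 z
    simp only [Function.comp_apply] at h1 h2
    rw [h1, h2]
  algebraMap_mem' := fun c => by
    refine ⟨?_, ?_, ?_⟩
    · show MDifferentiable 𝓘(ℂ) 𝓘(ℂ) (fun _ : ℍ => c)
      exact mdifferentiable_const
    · intro z; rfl
    · exact Filter.const_boundedAtFilter _ c

theorem mem_BddSub {f : ℍ → ℂ} : f ∈ BddSub ↔ MDifferentiable 𝓘(ℂ) 𝓘(ℂ) f ∧
    Periodic (f ∘ ofComplex) 1 ∧ IsBoundedAtImInfty f := Iff.rfl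

theorem BddSub_le_Hol : BddSub ≤ Hol := fun _ hf => hf.1

theorem analyticAt_cuspFunction_of_mem {f : ℍ → ℂ} (hf : f ∈ BddSub) :
    AnalyticAt ℂ (cuspFunction 1 f) 0 :=
  UpperHalfPlane.analyticAt_cuspFunction_zero one_pos hf.2.1 hf.1 hf.2.2

/-- The `q`-expansion as a ring homomorphism on `BddSub`. -/
def qExpHom : BddSub →+* PowerSeries ℂ where
  toFun f := qExpansion 1 (f : ℍ → ℂ)
  map_one' := qExpansion_one 1
  map_mul' f g := qExpansion_mul (analyticAt_cuspFunction_of_mem f.2)
    (analyticAt_cuspFunction_of_mem g.2)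
  map_zero' := qExpansion_zero 1
  map_add' f g := qExpansion_add (analyticAt_cuspFunction_of_mem f.2)
    (analyticAt_cuspFunction_of_mem g.2)

@[simp] theorem qExpHom_apply (f : BddSub) : qExpHom f = qExpansion 1 (f : ℍ → ℂ) := rfl

theorem qExpHom_injective : Function.Injective qExpHom := by
  rw [injective_iff_map_eq_zero]
  intro f hf
  have := (qExpansion_eq_zero_iff one_pos f.2.2.1 f.2.1 f.2.2.2).mp hf
  exact Subtype.ext this

theorem qExpHom_algebraMap (c : ℂ) : qExpHom (algebraMap ℂ BddSub c) = PowerSeries.C c := by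
  have h : (algebraMap ℂ BddSub c) = c • (1 : BddSub) := by
    rw [Algebra.algebraMap_eq_smul_one]
  rw [h, qExpHom_apply]
  have h1 : ((c • (1 : BddSub) : BddSub) : ℍ → ℂ) = c • (1 : ℍ → ℂ) := rfl
  rw [h1, qExpansion_smul (by
    have := analyticAt_cuspFunction_of_mem (f := (1 : ℍ → ℂ)) (one_mem BddSub)
    exact this), qExpansion_one]
  ext n
  simp [PowerSeries.coeff_C, PowerSeries.coeff_one]

end Fermat.Agent.S24
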