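import Fermat.Agent.S24.EvGen

/-!
# S24, package A1: formal identities between the Prelude's `jq` and the `q`-expansions of
`E₄(dτ)³`, `Δ(dτ)`
-/

set_option autoImplicit false

open UpperHalfPlane hiding I
open scoped MatrixGroups Manifold ModularForm
open CongruenceSubgroup ModularCurve EisensteinSeries Function

noncomputable section

namespace Fermat.Agent.S24

theorem coeffMap_ofPowerSeries {R S : Type*} [CommRing R] [CommRing S] (φ : R →+* S)
    (p : PowerSeries R) :
    coeffMap φ (HahnSeries.ofPowerSeries ℤ R p) = HahnSeries.ofPowerSeries ℤ S (p.map φ) := by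
  ext k
  rw [coeffMap_coeff]
  rcases lt_or_ge k 0 with hk | hk
  · rw [ofPowerSeries_coeff_of_neg _ hk, ofPowerSeries_coeff_of_neg _ hk, map_zero]
  · obtain ⟨n, rfl⟩ := Int.eq_ofNat_of_zero_le hk
    rw [HahnSeries.ofPowerSeries_apply_coeff, HahnSeries.ofPowerSeries_apply_coeff,
      PowerSeries.coeff_map]

theorem coeffMap_qExpand {R S : Type*} [CommRing R] [CommRing S] (φ : R →+* S) (d : ℕ)
    [NeZero d] (x : LaurentSeries R) :
    coeffMap φ (qExpand R d x) = qExpand S d (coeffMap φ x) := by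
  ext k
  rw [coeffMap_coeff]
  by_cases hk : (d : ℤ) ∣ k
  · obtain ⟨m, rfl⟩ := hk
    rw [qExpand_coeff_mul, qExpand_coeff_mul, coeffMap_coeff]
  · rw [qExpand_coeff_of_not_dvd d x hk, qExpand_coeff_of_not_dvd d _ hk, map_zero]

theorem coeffMap_injective {R S : Type*} [CommRing R] [CommRing S] (φ : R →+* S)
    (hφ : Function.Injective φ) : Function.Injective (coeffMap φ) := by
  intro x y h
  ext k
  have := congrArg (fun z => z.coeff k) h
  simp only [coeffMap_coeff] at this
  exact hφ this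

/-- the formal `j` over `ℂ` -/
def jC : LaurentSeries ℂ := coeffMap (algebraMap ℚ ℂ) jq

theorem jC_mul_disc :
    jC * HahnSeries.ofPowerSeries ℤ ℂ (qExpansion 1 discFun) =
      HahnSeries.ofPowerSeries ℤ ℂ (qExpansion 1 e4cube) := by
  rw [qExpansion_discFun, qExpansion_e4cube, jC, jq, map_mul, coeffMap_single, map_one,
    coeffMap_ofPowerSeries, jNumQ]
  have h1 : (PowerSeries.map (algebraMap ℚ ℂ)) ((PowerSeries.map (Int.castRingHom ℚ)) jNum) =
      PowerSeries.map (Int.castRingHom ℂ) jNum := by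
    ext n
    simp [PowerSeries.coeff_map]
  rw [h1, map_mul (PowerSeries.map (Int.castRingHom ℂ)), PowerSeries.map_X, map_mul,
    HahnSeries.ofPowerSeries_X]
  have h2 : (HahnSeries.single (-1 : ℤ) (1 : ℂ)) * (HahnSeries.single (1 : ℤ) (1 : ℂ)) = 1 := by
    rw [HahnSeries.single_mul_single]
    simp
  calc HahnSeries.single (-1 : ℤ) (1 : ℂ) *
        (HahnSeries.ofPowerSeries ℤ ℂ) ((PowerSeries.map (Int.castRingHom ℂ)) jNum) *
        (HahnSeries.single 1 1 *
          (HahnSeries.ofPowerSeries ℤ ℂ) ((PowerSeries.map (Int.castRingHom ℂ)) (etaProd ^ 24)))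
      = (HahnSeries.single (-1 : ℤ) (1 : ℂ) * HahnSeries.single 1 1) *
        ((HahnSeries.ofPowerSeries ℤ ℂ) ((PowerSeries.map (Int.castRingHom ℂ)) jNum) *
          (HahnSeries.ofPowerSeries ℤ ℂ) ((PowerSeries.map (Int.castRingHom ℂ)) (etaProd ^ 24))) := by
        ring
    _ = (HahnSeries.ofPowerSeries ℤ ℂ) ((PowerSeries.map (Int.castRingHom ℂ)) (eisenstein4 ^ 3)) := by
        rw [h2, one_mul, ← map_mul, ← map_mul]
        congr 2
        rw [jNum, mul_assoc]
        have := dedekindEtaUnit_mul_inv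
        rw [dedekindEtaUnit] at this
        rw [mul_comm dedekindEtaUnitInv, this, mul_one]

theorem ofPowerSeries_qExpansion_scaleFun {d : ℕ} [NeZero d] {f : ℍ → ℂ} (hf : f ∈ BddSub) :
    HahnSeries.ofPowerSeries ℤ ℂ (qExpansion 1 (scaleFun d f)) =
      qExpand ℂ d (HahnSeries.ofPowerSeries ℤ ℂ (qExpansion 1 f)) := by
  have hd : 0 < d := Nat.pos_of_ne_zero (NeZero.ne d)
  ext k
  rcases lt_or_ge k 0 with hk | hk
  · rw [ofPowerSeries_coeff_of_neg _ hk]
    by_cases hdk : (d : ℤ) ∣ k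
    · obtain ⟨m, rfl⟩ := hdk
      rw [qExpand_coeff_mul]
      have hm : m < 0 := by
        by_contra h
        rw [not_lt] at h
        have : (0 : ℤ) ≤ (d : ℤ) * m := mul_nonneg (by positivity) h
        omega
      rw [ofPowerSeries_coeff_of_neg _ hm]
    · rw [qExpand_coeff_of_not_dvd d _ hdk]
  · obtain ⟨n, rfl⟩ := Int.eq_ofNat_of_zero_le hk
    rw [HahnSeries.ofPowerSeries_apply_coeff, qExpansion_scaleFun_coeff hd hf]
    by_cases hdn : d ∣ n
    · obtain ⟨m, rfl⟩ := hdn
      rw [if_pos (dvd_mul_right d m), Nat.mul_div_cancel_left m hd]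
      push_cast
      rw [qExpand_coeff_mul, HahnSeries.ofPowerSeries_apply_coeff]
    · rw [if_neg hdn, qExpand_coeff_of_not_dvd]
      exact_mod_cast hdn

/-- the formal `j(q^d)` over `ℂ`, times the expansion of `Δ(dτ)`, is the expansion of `E₄(dτ)³`. -/
theorem qExpand_jC_mul (d : ℕ) [NeZero d] :
    qExpand ℂ d jC * HahnSeries.ofPowerSeries ℤ ℂ (qExpansion 1 (scaleFun d discFun)) =
      HahnSeries.ofPowerSeries ℤ ℂ (qExpansion 1 (scaleFun d e4cube)) := by
  rw [ofPowerSeries_qExpansion_scaleFun discFun_mem_BddSub,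
    ofPowerSeries_qExpansion_scaleFun e4cube_mem_BddSub, ← map_mul, jC_mul_disc]

/-- `coeffMap kEmb` of the generator `j(q^d)` is the formal `j(q^d)` over `ℂ`. -/
theorem coeffMap_kEmb_gen (d : ℕ) [NeZero d] :
    coeffMap kEmb (coeffEmb (AlgebraicClosure ℚ) (qExpand ℚ d jq)) = qExpand ℂ d jC := by
  have h : kEmb.comp (algebraMap ℚ (AlgebraicClosure ℚ)) = algebraMap ℚ ℂ :=
    RingHom.ext fun x => complexEmbedding.commutes x
  rw [coeffEmb, coeffMap_coeffMap, coeffMap_congr h, coeffMap_qExpand, jC]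

end Fermat.Agent.S24
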