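import Fermat.Agent.S24.EvBdd
import Fermat.Agent.S28.QExp
import Fermat.Agent.S28.LevelOneQ

/-!
# S24, package A1: the generators `E₄(dτ)³`, `Δ(dτ)` and their `q`-expansions
-/

set_option autoImplicit false

open UpperHalfPlane hiding I
open scoped MatrixGroups Manifold ModularForm
open CongruenceSubgroup ModularCurve EisensteinSeries Function

noncomputable section

namespace Fermat.Agent.S24

local notation "𝕢" => Function.Periodic.qParam

/-- `scaleFun d f τ = f (d τ)`. -/
def scaleFun (d : ℕ) (f : ℍ → ℂ) : ℍ → ℂ := fun τ => f (Fermat.Agent.S28.ut d 0 1 • τ)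

theorem coe_ut_one_smul {d : ℕ} (hd : 0 < d) (τ : ℍ) :
    ((Fermat.Agent.S28.ut d 0 1 • τ : ℍ) : ℂ) = (d : ℂ) * τ := by
  rw [Fermat.Agent.S28.coe_ut_smul hd one_pos]
  simp

theorem im_ut_one_smul {d : ℕ} (hd : 0 < d) (τ : ℍ) :
    (Fermat.Agent.S28.ut d 0 1 • τ : ℍ).im = (d : ℝ) * τ.im := by
  have h := congrArg Complex.im (coe_ut_one_smul hd τ)
  rw [UpperHalfPlane.coe_im] at h
  rw [h]
  simp

theorem scaleFun_mem_BddSub {d : ℕ} (hd : 0 < d) {f : ℍ → ℂ} (hf : f ∈ BddSub) :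
    scaleFun d f ∈ BddSub := by
  obtain ⟨hf1, hf2, hf3⟩ := hf
  refine ⟨hf1.comp (mdifferentiable_ut_smul d), ?_, ?_⟩
  · intro z
    simp only [Function.comp_apply, scaleFun]
    by_cases hz : 0 < z.im
    · have hz1 : 0 < (z + 1).im := by simpa using hz
      have e1 : Fermat.Agent.S28.ut d 0 1 • ofComplex (z + 1) =
          ofComplex ((d : ℂ) * z + (d : ℂ)) := by
        apply UpperHalfPlane.ext
        have hpos : 0 < ((d : ℂ) * z + (d : ℂ)).im := by
          have : (0 : ℝ) < d := by exact_mod_cast hd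
          simp only [Complex.add_im, Complex.mul_im, Complex.natCast_re, Complex.natCast_im,
            zero_mul, add_zero]
          positivity
        rw [coe_ut_one_smul hd, ofComplex_apply_of_im_pos hz1, ofComplex_apply_of_im_pos hpos]
        simp; ring
      have e2 : Fermat.Agent.S28.ut d 0 1 • ofComplex z = ofComplex ((d : ℂ) * z) := by
        apply UpperHalfPlane.ext
        have hpos : 0 < ((d : ℂ) * z).im := by
          have : (0 : ℝ) < d := by exact_mod_cast hd
          simp only [Complex.mul_im, Complex.natCast_re, Complex.natCast_im, zero_mul, add_zero]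
          positivity
        rw [coe_ut_one_smul hd, ofComplex_apply_of_im_pos hz, ofComplex_apply_of_im_pos hpos]
      rw [e1, e2]
      have := (hf2.nat_mul d) ((d : ℂ) * z)
      simpa using this
    · have hz1 : ¬ 0 < (z + 1).im := by simpa using hz
      have hz' : z.im ≤ 0 := not_lt.mp hz
      have hz1' : (z + 1).im ≤ 0 := not_lt.mp hz1
      rw [ofComplex_apply_of_im_nonpos hz', ofComplex_apply_of_im_nonpos hz1']
  · rw [UpperHalfPlane.isBoundedAtImInfty_iff] at hf3 ⊢
    obtain ⟨M, A, h⟩ := hf3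
    refine ⟨M, max A 0, fun τ hτ => ?_⟩
    apply h
    rw [im_ut_one_smul hd]
    have h1 : A ≤ τ.im := le_trans (le_max_left _ _) hτ
    have h2 : (1 : ℝ) ≤ d := by exact_mod_cast hd
    have h3 : 0 < τ.im := τ.im_pos
    nlinarith

theorem qParam_ut_one_smul {d : ℕ} (hd : 0 < d) (τ : ℍ) :
    𝕢 (1 : ℝ) ((Fermat.Agent.S28.ut d 0 1 • τ : ℍ) : ℂ) = (𝕢 (1 : ℝ) (τ : ℂ)) ^ d := by
  have h := Fermat.Agent.S28.qParam_ut_smul (a := d) (b := 0) (d := 1) (N := 1) hd one_pos one_pos
    d (by ring) τ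
  simpa [Fermat.Agent.S28.rootU] using h

theorem qExpansion_coeff_unique_fun {f : ℍ → ℂ} {c : ℕ → ℂ}
    (hfanalytic : AnalyticAt ℂ (cuspFunction 1 f) 0)
    (hf : ∀ τ : ℍ, HasSum (fun m ↦ c m • 𝕢 (1 : ℝ) (τ : ℂ) ^ m) (f τ)) (m : ℕ) :
    c m = (qExpansion 1 f).coeff m := by
  have h1 := (hasFPowerSeriesOnBall_cuspFunction one_pos hfanalytic hf).hasFPowerSeriesAt
  have h2 := hfanalytic.hasFPowerSeriesAt
  have h3 := congr_arg (FormalMultilinearSeries.coeff · m) (h1.eq_formalMultilinearSeries h2)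
  simp only [FormalMultilinearSeries.coeff_ofScalars] at h3
  rw [h3, qExpansion_coeff, div_eq_mul_inv, mul_comm]

theorem qExpansion_scaleFun_coeff {d : ℕ} (hd : 0 < d) {f : ℍ → ℂ} (hf : f ∈ BddSub) (m : ℕ) :
    (qExpansion 1 (scaleFun d f)).coeff m =
      if d ∣ m then (qExpansion 1 f).coeff (m / d) else 0 := by
  have hsum : ∀ τ : ℍ, HasSum (fun n : ℕ =>
      (if d ∣ n then (qExpansion 1 f).coeff (n / d) else 0) • 𝕢 (1 : ℝ) (τ : ℂ) ^ n)
      (scaleFun d f τ) := by
    intro τ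
    have h1 := hasSum_qExpansion one_pos hf.2.1 hf.1 hf.2.2 (Fermat.Agent.S28.ut d 0 1 • τ)
    rw [qParam_ut_one_smul hd] at h1
    have hinj : Function.Injective (fun n : ℕ => d * n) := fun x y h =>
      Nat.eq_of_mul_eq_mul_left hd h
    rw [← hinj.hasSum_iff]
    · refine h1.congr_fun ?_ |>.congr_fun fun _ => rfl
      intro n
      simp only [Function.comp_apply, dvd_mul_right, if_true, Nat.mul_div_cancel_left n hd]
      rw [pow_mul]
    · intro n hn
      have : ¬ d ∣ n := fun ⟨k, hk⟩ => hn ⟨k, hk.symm⟩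
      simp [this]
  exact (qExpansion_coeff_unique_fun
    (analyticAt_cuspFunction_of_mem (scaleFun_mem_BddSub hd hf)) hsum m).symm

/-- `E₄³` as a function. -/
def e4cube : ℍ → ℂ := fun τ => ModularForm.E₄ τ ^ 3

/-- `Δ` as a function. -/
def discFun : ℍ → ℂ := fun τ => ModularForm.discriminant τ

theorem E4_mem_BddSub : (ModularForm.E₄ : ℍ → ℂ) ∈ BddSub :=
  ⟨ModularFormClass.holo ModularForm.E₄,
    SlashInvariantFormClass.periodic_comp_ofComplex ModularForm.E₄
      one_mem_strictPeriods_SL,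
    ModularFormClass.bdd_at_infty ModularForm.E₄⟩

theorem e4cube_mem_BddSub : e4cube ∈ BddSub := by
  have : e4cube = (ModularForm.E₄ : ℍ → ℂ) ^ 3 := rfl
  rw [this]
  exact pow_mem E4_mem_BddSub 3

theorem discFun_mem_BddSub : discFun ∈ BddSub :=
  ⟨CuspFormClass.holo CuspForm.discriminant,
    SlashInvariantFormClass.periodic_comp_ofComplex CuspForm.discriminant
      one_mem_strictPeriods_SL,
    ModularFormClass.bdd_at_infty CuspForm.discriminant⟩

theorem qExpansion_e4cube :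
    qExpansion 1 e4cube = PowerSeries.map (Int.castRingHom ℂ) (eisenstein4 ^ 3) := by
  have : e4cube = (ModularForm.E₄ : ℍ → ℂ) ^ 3 := rfl
  have h := map_pow qExpHom ⟨(ModularForm.E₄ : ℍ → ℂ), E4_mem_BddSub⟩ 3
  simp only [qExpHom_apply] at h
  rw [this]
  rw [show ((ModularForm.E₄ : ℍ → ℂ) ^ 3) =
    ((⟨(ModularForm.E₄ : ℍ → ℂ), E4_mem_BddSub⟩ ^ 3 : BddSub) : ℍ → ℂ) from rfl, h,
    Fermat.Agent.S28.qExpansion_E4_eq, map_pow]

theorem qExpansion_discFun :
    qExpansion 1 discFun =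
      PowerSeries.map (Int.castRingHom ℂ) (PowerSeries.X * etaProd ^ 24) :=
  Fermat.Agent.S28.qExpansion_discriminant_eq

end Fermat.Agent.S24
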